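/-
GATE-J / S37-PATH leaf (L2) (helper12): the residue-degree inequality.

`Rw` a valuation subring of `F ⊇ K` with a residue map `red : Rw → Ft` (a field over `k`),
compatible with a residue map `res : A → k` of a valuation subring `A ⊆ K` mapping into `Rw`.
If `x ∈ Rw` has transcendental reduction `x~` over `k`, then lifts of `k(x~)`-linearly independent
elements of `Ft` are `K(x)`-linearly independent; hence `[Ft : k(x~)] ≤ [F : K(x)]`.
Mathlib only.
-/
import Mathlib

set_option autoImplicit false

namespace Fermat.Agent.GJ.S37.ResDeg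

open Polynomial IntermediateField

noncomputable section

/-! ### Normalising a finite family of polynomials over a valued field -/

section Normalize

variable {K : Type*} [Field K] (A : ValuationSubring K)

/-- A finite family of polynomials over `K`, not all zero, can be scaled by a nonzero constant so
that all coefficients lie in the valuation ring `A` and one of them is a unit of `A`. -/
theorem exists_normalize {ι : Type*} (s : Finset ι) (P : ι → K[X]) (hP : ∃ i ∈ s, P i ≠ 0) :
    ∃ c : K, c ≠ 0 ∧ (∀ i ∈ s, ∀ n, c * (P i).coeff n ∈ A) ∧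
      ∃ i ∈ s, ∃ n, A.valuation (c * (P i).coeff n) = 1 := by
  classical
  set T : Finset (Σ _ : ι, ℕ) := s.sigma fun i => (P i).support with hT
  have hTne : T.Nonempty := by
    obtain ⟨i, hi, hPi⟩ := hP
    obtain ⟨n, hn⟩ := (Polynomial.support_nonempty.mpr hPi)
    exact ⟨⟨i, n⟩, Finset.mem_sigma.mpr ⟨hi, hn⟩⟩
  obtain ⟨⟨i₀, n₀⟩, h₀, hmax⟩ :=
    T.exists_max_image (fun p => A.valuation ((P p.1).coeff p.2)) hTne
  obtain ⟨hi₀, hn₀⟩ := Finset.mem_sigma.mp h₀
  have ha₀ : (P i₀).coeff n₀ ≠ 0 := Polynomial.mem_support_iff.mp hn₀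
  have hv₀ : A.valuation ((P i₀).coeff n₀) ≠ 0 := (Valuation.ne_zero_iff _).mpr ha₀
  refine ⟨((P i₀).coeff n₀)⁻¹, inv_ne_zero ha₀, ?_, i₀, hi₀, n₀, ?_⟩
  · intro i hi n
    by_cases h0 : (P i).coeff n = 0
    · rw [h0, mul_zero]; exact zero_mem _
    · have hmem : (⟨i, n⟩ : Σ _ : ι, ℕ) ∈ T :=
        Finset.mem_sigma.mpr ⟨hi, Polynomial.mem_support_iff.mpr h0⟩
      have hle := hmax ⟨i, n⟩ hmem
      rw [← ValuationSubring.valuation_le_one_iff, map_mul, map_inv₀]
      exact (inv_mul_le_one₀ (zero_lt_iff.mpr hv₀)).mpr hle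
  · rw [inv_mul_cancel₀ ha₀, map_one]

end Normalize

/-! ### The reduction argument -/

section Reduction

variable {K F k Ft : Type*} [Field K] [Field F] [Algebra K F] [Field k] [Field Ft] [Algebra k Ft]
  (A : ValuationSubring K) (Rw : ValuationSubring F)
  (hA : ∀ a : K, a ∈ A → algebraMap K F a ∈ Rw)
  (red : Rw →+* Ft) (res : A →+* k)
  (hcompat : ∀ a : A, red ⟨algebraMap K F (a : K), hA a a.2⟩ = algebraMap k Ft (res a))

/-- the structure map `A → Rw` -/
def baseHom : A →+* Rw :=
  ((algebraMap K F).comp A.subtype).codRestrict Rw (fun a => hA a a.2)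

omit [Field k] [Field Ft] [Algebra k Ft] in
@[simp] lemma coe_baseHom (a : A) : ((baseHom A Rw hA a : Rw) : F) = algebraMap K F (a : K) := rfl

include hcompat in
lemma red_comp_baseHom : red.comp (baseHom A Rw hA) = (algebraMap k Ft).comp res := by
  ext a
  exact hcompat a

omit [Field k] [Field Ft] [Algebra k Ft] in
/-- evaluation of a polynomial with coefficients in `A` at `x ∈ Rw`, computed in `F` -/
lemma coe_eval₂_baseHom (x : Rw) (p : (↥A)[X]) :
    ((eval₂ (baseHom A Rw hA) x p : Rw) : F) = aeval (x : F) (p.map A.subtype) := by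
  have h1 := Polynomial.hom_eval₂ p (baseHom A Rw hA) Rw.subtype x
  have h2 : Rw.subtype.comp (baseHom A Rw hA) = (algebraMap K F).comp A.subtype := by
    ext a; rfl
  rw [h2] at h1
  change Rw.subtype (eval₂ (baseHom A Rw hA) x p) = _
  rw [h1, Polynomial.aeval_def, Polynomial.eval₂_map]
  rfl

include hcompat in
/-- its reduction -/
lemma red_eval₂_baseHom (x : Rw) (p : (↥A)[X]) :
    red (eval₂ (baseHom A Rw hA) x p) = aeval (red x) (p.map res) := by
  rw [Polynomial.hom_eval₂, red_comp_baseHom A Rw hA red res hcompat, Polynomial.aeval_def,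
    Polynomial.eval₂_map]

include hcompat in
/-- **Key lemma.**  If the reductions of the `y i` are linearly independent over `k(x~)` and `x~`
is transcendental over `k`, then the `y i` satisfy no nontrivial polynomial relation in `x`. -/
theorem eq_zero_of_sum_aeval_mul_eq_zero (x : Rw) (hx : Transcendental k (red x))
    {ι : Type*} (y : ι → Rw) (hy : LinearIndependent k⟮red x⟯ (fun i => red (y i)))
    (s : Finset ι) (P : ι → K[X])
    (hrel : ∑ i ∈ s, aeval (x : F) (P i) * (y i : F) = 0) : ∀ i ∈ s, P i = 0 := by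
  classical
  by_contra hcon
  push Not at hcon
  obtain ⟨c, hc0, hcA, i₀, hi₀, n₀, hunit⟩ := exists_normalize A s P hcon
  -- the normalised polynomials, with coefficients in `A`
  set Q : ι → K[X] := fun i => if i ∈ s then C c * P i else 0 with hQ
  have hQA : ∀ i, (↑(Q i).coeffs : Set K) ⊆ A.toSubring := by
    intro i a ha
    obtain ⟨n, -, rfl⟩ := Polynomial.mem_coeffs_iff.mp (Finset.mem_coe.mp ha)
    by_cases hi : i ∈ s
    · simp only [hQ, if_pos hi, Polynomial.coeff_C_mul]
      exact hcA i hi n
    · simp only [hQ, if_neg hi, Polynomial.coeff_zero]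
      exact zero_mem _
  set Pt : ι → (↥A)[X] := fun i => (Q i).toSubring A.toSubring (hQA i) with hPt
  have hPtmap : ∀ i, (Pt i).map A.subtype = Q i := fun i =>
    Polynomial.map_toSubring (Q i) A.toSubring (hQA i)
  -- the relation inside `Rw`
  have hrelR : ∑ i ∈ s, eval₂ (baseHom A Rw hA) x (Pt i) * y i = 0 := by
    apply Subtype.ext
    have : ((∑ i ∈ s, eval₂ (baseHom A Rw hA) x (Pt i) * y i : Rw) : F)
        = ∑ i ∈ s, aeval (x : F) (Q i) * (y i : F) := by
      rw [← Rw.subtype_apply, map_sum]
      refine Finset.sum_congr rfl fun i _ => ?_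
      rw [map_mul, Rw.subtype_apply, Rw.subtype_apply, coe_eval₂_baseHom, hPtmap]
    rw [this]
    have h2 : ∑ i ∈ s, aeval (x : F) (Q i) * (y i : F)
        = algebraMap K F c * ∑ i ∈ s, aeval (x : F) (P i) * (y i : F) := by
      rw [Finset.mul_sum]
      refine Finset.sum_congr rfl fun i hi => ?_
      simp only [hQ, if_pos hi, map_mul, Polynomial.aeval_C]
      ring
    rw [h2, hrel, mul_zero]
    rfl
  -- reduce
  have hrelk : ∑ i ∈ s, aeval (red x) ((Pt i).map res) * red (y i) = 0 := by
    have := congrArg red hrelR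
    rw [map_sum, map_zero] at this
    rw [← this]
    refine Finset.sum_congr rfl fun i _ => ?_
    rw [map_mul, red_eval₂_baseHom A Rw hA red res hcompat]
  -- use the linear independence
  have hzero : ∀ i ∈ s, (Pt i).map res = 0 := by
    set g : ι → k⟮red x⟯ := fun i => aeval (AdjoinSimple.gen k (red x)) ((Pt i).map res) with hg
    have hgcoe : ∀ i, ((g i : k⟮red x⟯) : Ft) = aeval (red x) ((Pt i).map res) := by
      intro i
      change algebraMap k⟮red x⟯ Ft (g i) = _
      rw [hg, ← Polynomial.aeval_algebraMap_apply, AdjoinSimple.algebraMap_gen]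
    have hsum : ∑ i ∈ s, g i • red (y i) = 0 := by
      rw [← hrelk]
      refine Finset.sum_congr rfl fun i _ => ?_
      rw [Algebra.smul_def, ← hgcoe]
      rfl
    intro i hi
    have h0 := linearIndependent_iff'.mp hy s g hsum i hi
    have h1 : aeval (red x) ((Pt i).map res) = 0 := by
      rw [← hgcoe, h0]; rfl
    exact transcendental_iff.mp hx _ h1
  -- but one coefficient is a unit
  have h1 := hzero i₀ hi₀
  have h2 : ((Pt i₀).map res).coeff n₀ = 0 := by rw [h1, Polynomial.coeff_zero]
  rw [Polynomial.coeff_map] at h2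
  have hmem : c * (P i₀).coeff n₀ ∈ A := hcA i₀ hi₀ n₀
  have hcoeff : (Pt i₀).coeff n₀ = ⟨c * (P i₀).coeff n₀, hmem⟩ := by
    apply Subtype.ext
    have h3 : (((Pt i₀).coeff n₀ : A) : K) = (Q i₀).coeff n₀ :=
      Polynomial.coeff_toSubring (Q i₀) A.toSubring (hQA i₀)
    have h4 : (Q i₀).coeff n₀ = c * (P i₀).coeff n₀ := by
      simp only [hQ, if_pos hi₀, Polynomial.coeff_C_mul]
    exact h3.trans h4
  have hu : IsUnit (⟨c * (P i₀).coeff n₀, hmem⟩ : A) :=
    (ValuationSubring.valuation_eq_one_iff A _).mpr hunit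
  rw [hcoeff] at h2
  exact (hu.map res).ne_zero h2

end Reduction

/-! ### Consequences -/

section Consequences

variable {K F k Ft : Type*} [Field K] [Field F] [Algebra K F] [Field k] [Field Ft] [Algebra k Ft]
  (A : ValuationSubring K) (Rw : ValuationSubring F)
  (hA : ∀ a : K, a ∈ A → algebraMap K F a ∈ Rw)
  (red : Rw →+* Ft) (res : A →+* k)
  (hcompat : ∀ a : A, red ⟨algebraMap K F (a : K), hA a a.2⟩ = algebraMap k Ft (res a))

include hcompat in
/-- If `x~` is transcendental over `k` then `x` is transcendental over `K`. -/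
theorem transcendental_of_residue (x : Rw) (hx : Transcendental k (red x)) :
    Transcendental K (x : F) := by
  rw [transcendental_iff]
  intro P hP
  have hli : LinearIndependent k⟮red x⟯ (fun _ : Unit => red (1 : Rw)) := by
    rw [map_one]
    exact LinearIndependent.of_subsingleton () one_ne_zero
  have := eq_zero_of_sum_aeval_mul_eq_zero A Rw hA red res hcompat x hx (fun _ : Unit => (1 : Rw))
    hli {()} (fun _ => P) (by simpa using hP)
  exact this () (Finset.mem_singleton_self _)

include hcompat in
/-- **Lifting linear independence.**  Lifts to `Rw` of a `k(x~)`-linearly independent family of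
`Ft` are `K(x)`-linearly independent in `F`. -/
theorem linearIndependent_of_residue (x : Rw) (hx : Transcendental k (red x))
    {ι : Type*} (y : ι → Rw) (hy : LinearIndependent k⟮red x⟯ (fun i => red (y i))) :
    LinearIndependent K⟮(x : F)⟯ (fun i => (y i : F)) := by
  classical
  rw [linearIndependent_iff']
  intro s g hsum
  -- write the coefficients as quotients of polynomials in `x`
  have hex : ∀ i, ∃ r q : K[X], aeval (x : F) q ≠ 0 ∧
      ((g i : K⟮(x : F)⟯) : F) = aeval (x : F) r / aeval (x : F) q := by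
    intro i
    obtain ⟨r, q, hrq⟩ := (mem_adjoin_simple_iff K ((g i : K⟮(x : F)⟯) : F)).mp (g i).2
    by_cases hq : aeval (x : F) q = 0
    · refine ⟨0, 1, by simp, ?_⟩
      rw [hrq, hq, div_zero, map_zero, zero_div]
    · exact ⟨r, q, hq, hrq⟩
  choose r q hq hg using hex
  set D : K[X] := ∏ j ∈ s, q j with hD
  have hDx : aeval (x : F) D ≠ 0 := by
    rw [hD, map_prod]
    exact Finset.prod_ne_zero_iff.mpr fun j _ => hq j
  set P : ι → K[X] := fun i => r i * ∏ j ∈ s.erase i, q j with hP
  have hPg : ∀ i ∈ s, aeval (x : F) (P i) = aeval (x : F) D * ((g i : K⟮(x : F)⟯) : F) := by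
    intro i hi
    rw [hg i, hP, hD, ← Finset.mul_prod_erase s q hi]
    simp only [map_mul]
    field_simp [hq i]
  have hrel : ∑ i ∈ s, aeval (x : F) (P i) * (y i : F) = 0 := by
    have h1 : ∑ i ∈ s, aeval (x : F) (P i) * (y i : F)
        = aeval (x : F) D * ∑ i ∈ s, g i • (y i : F) := by
      rw [Finset.mul_sum]
      refine Finset.sum_congr rfl fun i hi => ?_
      rw [hPg i hi, Algebra.smul_def, mul_assoc]
      rfl
    rw [h1, hsum, mul_zero]
  have hzero := eq_zero_of_sum_aeval_mul_eq_zero A Rw hA red res hcompat x hx y hy s P hrel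
  intro i hi
  have h2 := hPg i hi
  rw [hzero i hi, map_zero] at h2
  have h3 : ((g i : K⟮(x : F)⟯) : F) = 0 := (mul_eq_zero.mp h2.symm).resolve_left hDx
  exact Subtype.ext h3

include hcompat in
/-- **Residue-degree inequality.**  If `red` is onto, `x~` is transcendental over `k` and `F` is
finite over `K(x)`, then `Ft` is finite over `k(x~)` and `[Ft : k(x~)] ≤ [F : K(x)]`. -/
theorem finrank_residue_le (hsurj : Function.Surjective red) (x : Rw)
    (hx : Transcendental k (red x)) [FiniteDimensional K⟮(x : F)⟯ F] :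
    FiniteDimensional k⟮red x⟯ Ft ∧
      Module.finrank k⟮red x⟯ Ft ≤ Module.finrank K⟮(x : F)⟯ F := by
  classical
  have hbound : ∀ t : Finset Ft, LinearIndependent k⟮red x⟯ (fun v : t => (v : Ft)) →
      t.card ≤ Module.finrank K⟮(x : F)⟯ F := by
    intro t ht
    choose lift hlift using hsurj
    have hli : LinearIndependent k⟮red x⟯ (fun v : t => red (lift (v : Ft))) := by
      simpa only [hlift] using ht
    have := linearIndependent_of_residue A Rw hA red res hcompat x hx
      (fun v : t => lift (v : Ft)) hli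
    simpa using this.fintype_card_le_finrank
  have hrank : Module.rank k⟮red x⟯ Ft ≤ (Module.finrank K⟮(x : F)⟯ F : Cardinal) := by
    rw [Module.rank_def]
    refine ciSup_le' ?_
    rintro ⟨t, ht⟩
    have hfin : t.Finite := by
      by_contra hinf
      obtain ⟨u, hut, hucard⟩ := Set.Infinite.exists_subset_card_eq hinf
        (Module.finrank K⟮(x : F)⟯ F + 1)
      have hu : LinearIndependent k⟮red x⟯ (fun v : (u : Set Ft) => (v : Ft)) :=
        ht.mono hut
      have := hbound u hu
      omega
    lift t to Finset Ft using hfin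
    have := hbound t ht
    simpa using this
  have hfd : FiniteDimensional k⟮red x⟯ Ft :=
    Module.rank_lt_aleph0_iff.mp (lt_of_le_of_lt hrank Cardinal.natCast_lt_aleph0)
  exact ⟨hfd, Module.finrank_le_of_rank_le hrank⟩

end Consequences

end

end Fermat.Agent.GJ.S37.ResDeg
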