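/-
GATE-J / S37-PATH leaf (L2), `RedData` wrappers (helper12): the residue-degree inequality and the
lifting of linear independence in the language of `Fermat.Agent.GJ.J1.RedData`.
-/
import Fermat.Agent.GJ.S37.ResidueDegree
import Fermat.Agent.GJ.J1.Defs

set_option autoImplicit false

namespace Fermat.Agent.GJ.S37.ResDeg

open Polynomial IntermediateField Fermat.Agent.GJ.J1

noncomputable section

variable {K F k Ft : Type*} [Field K] [Field F] [Algebra K F] [Field k] [Field Ft] [Algebra k Ft]

/-- A Gauss chart of a reduction datum is transcendental over `K`. -/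
theorem RedData.transcendental_of_isGaussChart (R : RedData K F k Ft) {s : F}
    (hs : R.IsGaussChart s) : Transcendental K s := by
  obtain ⟨hsR, htr⟩ := hs
  exact transcendental_of_residue R.A R.Rw (fun a ha => (R.mem_A_iff a).1 ha) R.red R.res
    R.red_algebraMap ⟨s, hsR⟩ htr

/-- Lifts of `k(s~)`-linearly independent elements are `K(s)`-linearly independent. -/
theorem RedData.linearIndependent_of_red (R : RedData K F k Ft) {s : F} (hsR : s ∈ R.Rw)
    (htr : Transcendental k (R.red ⟨s, hsR⟩)) {ι : Type*} (y : ι → R.Rw)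
    (hy : LinearIndependent k⟮R.red ⟨s, hsR⟩⟯ (fun i => R.red (y i))) :
    LinearIndependent K⟮s⟯ (fun i => (y i : F)) :=
  linearIndependent_of_residue R.A R.Rw (fun a ha => (R.mem_A_iff a).1 ha) R.red R.res
    R.red_algebraMap ⟨s, hsR⟩ htr y hy

/-- **Residue-degree inequality** for a Gauss chart `s`: `[Ft : k(s~)] ≤ [F : K(s)]`. -/
theorem RedData.finrank_red_le (R : RedData K F k Ft) {s : F} (hsR : s ∈ R.Rw)
    (htr : Transcendental k (R.red ⟨s, hsR⟩)) [FiniteDimensional K⟮s⟯ F] :
    FiniteDimensional k⟮R.red ⟨s, hsR⟩⟯ Ft ∧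
      Module.finrank k⟮R.red ⟨s, hsR⟩⟯ Ft ≤ Module.finrank K⟮s⟯ F :=
  finrank_residue_le R.A R.Rw (fun a ha => (R.mem_A_iff a).1 ha) R.red R.res
    R.red_algebraMap R.red_surjective ⟨s, hsR⟩ htr

end

end Fermat.Agent.GJ.S37.ResDeg
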