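/-
GATE-J / S37 path (helper75): minimal divisors of finite-dimensional spaces of functions.

For a nonzero subspace `V` of a function field `F / K` contained in some Riemann–Roch space there
is a SMALLEST divisor `E` with `V ≤ L(E)` (`IsMinDiv V E`), and over an infinite constant field a
"generic" element of `V` attains the bound `ord_Q v = - E Q` simultaneously at finitely many
places.  Plus the elementary calculus `y • L(G) = L(G - div y)`, `L(D) · L(D') ⊆ L(D + D')`.
-/
import Mathlib
import Fermat.Agent.RR_helper45.Finite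

set_option autoImplicit false

noncomputable section

open AlgebraicCurve WithZero

namespace Fermat.Agent.GJ.S37MinDiv

open Fermat.Agent.RRh45

variable {K F : Type*} [Field K] [Field F] [Algebra K F]

/-! ### Elementary calculus of Riemann–Roch spaces -/

theorem riemannRochSpace_inf (D E : Divisor K F) :
    riemannRochSpace (D ⊓ E) = riemannRochSpace D ⊓ riemannRochSpace E := by
  ext f
  rw [Submodule.mem_inf, mem_riemannRochSpace_iff, mem_riemannRochSpace_iff,
    mem_riemannRochSpace_iff]
  constructor
  · intro h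
    refine ⟨fun v => ?_, fun v => ?_⟩
    · rcases h v with h0 | h1
      · exact Or.inl h0
      · right
        have : (D ⊓ E) v ≤ D v := by rw [Finsupp.inf_apply]; exact inf_le_left
        omega
    · rcases h v with h0 | h1
      · exact Or.inl h0
      · right
        have : (D ⊓ E) v ≤ E v := by rw [Finsupp.inf_apply]; exact inf_le_right
        omega
  · rintro ⟨h1, h2⟩ v
    rcases h1 v with h0 | h1'
    · exact Or.inl h0
    rcases h2 v with h0 | h2'
    · exact Or.inl h0
    right
    rw [Finsupp.inf_apply]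
    rcases le_total (D v) (E v) with h | h
    · rw [inf_eq_left.mpr h]; exact h1'
    · rw [inf_eq_right.mpr h]; exact h2'

/-- `x ∈ L(G) ↔ y x ∈ L(G - div y)`. -/
theorem mul_mem_riemannRochSpace_iff {y : F} (hy : y ≠ 0) {Dy : Divisor K F}
    (hDy : ∀ v : Place K F, Dy v = v.ord y) (G : Divisor K F) (x : F) :
    y * x ∈ riemannRochSpace (G - Dy) ↔ x ∈ riemannRochSpace G := by
  rw [mem_riemannRochSpace_iff, mem_riemannRochSpace_iff]
  refine forall_congr' fun v => ?_
  rcases eq_or_ne x 0 with rfl | hx
  · simp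
  · rw [or_iff_right hx, or_iff_right (mul_ne_zero hy hx), v.ord_mul hy hx, Finsupp.sub_apply,
      hDy v]
    constructor <;> intro h <;> omega

theorem mul_mem_riemannRochSpace_add {D D' : Divisor K F} {x x' : F}
    (hx : x ∈ riemannRochSpace D) (hx' : x' ∈ riemannRochSpace D') :
    x * x' ∈ riemannRochSpace (D + D') := by
  rw [mem_riemannRochSpace_iff] at hx hx' ⊢
  intro v
  rcases eq_or_ne x 0 with rfl | h0
  · left; simp
  rcases eq_or_ne x' 0 with rfl | h0'
  · left; simp
  right
  have h1 := (hx v).resolve_left h0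
  have h2 := (hx' v).resolve_left h0'
  rw [v.ord_mul h0 h0', Finsupp.add_apply]
  omega

theorem one_mem_riemannRochSpace {D : Divisor K F} (hD : 0 ≤ D) :
    (1 : F) ∈ riemannRochSpace D := by
  rw [mem_riemannRochSpace_iff]
  intro v
  right
  have := Finsupp.le_def.mp hD v
  rw [Place.ord_one]
  simpa using this

/-! ### Degrees -/

section Degree

variable [FiniteResidues K F]

omit [FiniteResidues K F] in
theorem degree_mono {D D' : Divisor K F} (h : D ≤ D') :
    Divisor.degree D ≤ Divisor.degree D' := by
  have := degree_nonneg_of_nonneg (sub_nonneg.mpr h)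
  rw [map_sub] at this
  linarith

theorem eq_zero_of_nonneg_of_degree_eq_zero {D : Divisor K F} (hD : 0 ≤ D)
    (h0 : Divisor.degree D = 0) : D = 0 := by
  by_contra hne
  obtain ⟨v, hv⟩ : ∃ v, D v ≠ 0 := by
    by_contra hall
    push Not at hall
    exact hne (Finsupp.ext hall)
  have hv0 : 0 ≤ D v := by simpa using Finsupp.le_def.mp hD v
  have hv1 : 1 ≤ D v := by omega
  have hle : Finsupp.single v (1 : ℤ) ≤ D := by
    rw [Finsupp.le_def]
    intro w
    by_cases hw : w = v
    · subst hw; simpa using hv1
    · rw [Finsupp.single_eq_of_ne hw]; simpa using Finsupp.le_def.mp hD w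
  have := degree_mono hle
  rw [Divisor.degree_single, one_mul, h0] at this
  have hpos : (0 : ℤ) < v.deg := by exact_mod_cast deg_pos v
  omega

theorem eq_of_le_of_degree_eq {D D' : Divisor K F} (h : D ≤ D')
    (hdeg : Divisor.degree D = Divisor.degree D') : D = D' := by
  have h1 : D' - D = 0 :=
    eq_zero_of_nonneg_of_degree_eq_zero (sub_nonneg.mpr h) (by rw [map_sub, hdeg, sub_self])
  exact (sub_eq_zero.mp h1).symm

end Degree

/-! ### Minimal divisors -/

/-- `E` is the smallest divisor with `V ≤ L(E)`. -/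
def IsMinDiv (V : Submodule K F) (E : Divisor K F) : Prop :=
  V ≤ riemannRochSpace E ∧ ∀ E' : Divisor K F, V ≤ riemannRochSpace E' → E ≤ E'

theorem IsMinDiv.unique {V : Submodule K F} {E E' : Divisor K F} (h : IsMinDiv V E)
    (h' : IsMinDiv V E') : E = E' :=
  le_antisymm (h.2 E' h'.1) (h'.2 E h.1)

theorem IsMinDiv.nonneg {V : Submodule K F} {E : Divisor K F} (h : IsMinDiv V E)
    (h1 : (1 : F) ∈ V) : 0 ≤ E := by
  rw [Finsupp.le_def]
  intro v
  have := (mem_riemannRochSpace_iff.mp (h.1 h1) v).resolve_left one_ne_zero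
  rw [Place.ord_one] at this
  simp only [Finsupp.coe_zero, Pi.zero_apply]
  omega

section Exists

variable [FiniteResidues K F] [HasPrincipalDivisors K F]

omit [FiniteResidues K F] in
theorem degree_nonneg_of_le_riemannRochSpace {V : Submodule K F} (hV : V ≠ ⊥) {E : Divisor K F}
    (hE : V ≤ riemannRochSpace E) : 0 ≤ Divisor.degree E := by
  by_contra hneg
  push Not at hneg
  rw [riemannRochSpace_eq_bot_of_degree_neg hneg, le_bot_iff] at hE
  exact hV hE

theorem exists_isMinDiv {V : Submodule K F} (hV : V ≠ ⊥) {E₀ : Divisor K F}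
    (h₀ : V ≤ riemannRochSpace E₀) : ∃ E : Divisor K F, IsMinDiv V E := by
  classical
  -- least degree among the divisors bounding `V`
  have hex : ∃ n : ℤ, ∃ E : Divisor K F, V ≤ riemannRochSpace E ∧ Divisor.degree E = n :=
    ⟨_, E₀, h₀, rfl⟩
  have hbdd : ∀ n : ℤ, (∃ E : Divisor K F, V ≤ riemannRochSpace E ∧ Divisor.degree E = n) →
      0 ≤ n := by
    rintro n ⟨E, hE, rfl⟩
    exact degree_nonneg_of_le_riemannRochSpace hV hE
  obtain ⟨n, ⟨E, hE, hEn⟩, hleast⟩ := Int.exists_least_of_bdd ⟨0, hbdd⟩ hex
  refine ⟨E, hE, fun E' hE' => ?_⟩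
  have hinf : V ≤ riemannRochSpace (E ⊓ E') := by
    rw [riemannRochSpace_inf]; exact le_inf hE hE'
  have h1 : n ≤ Divisor.degree (E ⊓ E') := hleast _ ⟨E ⊓ E', hinf, rfl⟩
  have h2 : Divisor.degree (E ⊓ E') ≤ Divisor.degree E := degree_mono inf_le_left
  have h3 : E ⊓ E' = E := eq_of_le_of_degree_eq inf_le_left (by omega)
  exact inf_eq_left.mp h3

end Exists

/-! ### Every finitely generated subspace lies in some `L(E₀)` -/

theorem mem_riemannRochSpace_neg_sup_zero {a : F} {Da : Divisor K F}
    (hDa : ∀ v : Place K F, Da v = v.ord a) : a ∈ riemannRochSpace ((-Da) ⊔ 0) := by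
  rw [mem_riemannRochSpace_iff]
  intro v
  right
  rw [Finsupp.sup_apply, Finsupp.neg_apply, hDa v]
  have := le_max_left (-(v.ord a)) ((0 : Divisor K F) v)
  change -(v.ord a) ≤ max (-(v.ord a)) ((0 : Divisor K F) v) at this
  change -(max (-(v.ord a)) ((0 : Divisor K F) v)) ≤ v.ord a
  omega

theorem exists_le_riemannRochSpace_of_finset [HasPrincipalDivisors K F] (S : Finset F) :
    ∃ E₀ : Divisor K F, 0 ≤ E₀ ∧ ∀ x ∈ S, x ∈ riemannRochSpace E₀ := by
  classical
  induction S using Finset.induction_on with
  | empty => exact ⟨0, le_refl _, by simp⟩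
  | insert a S _ ih =>
    obtain ⟨E₀, hE₀, hS⟩ := ih
    rcases eq_or_ne a 0 with rfl | ha
    · refine ⟨E₀, hE₀, fun x hx => ?_⟩
      rcases Finset.mem_insert.mp hx with rfl | hx
      · exact zero_mem _
      · exact hS x hx
    · obtain ⟨Da, hDa, -⟩ := HasPrincipalDivisors.exists_divisor (K := K) a ha
      refine ⟨E₀ + ((-Da) ⊔ 0), add_nonneg hE₀ le_sup_right, fun x hx => ?_⟩
      rcases Finset.mem_insert.mp hx with rfl | hx
      · exact riemannRochSpace_mono (le_add_of_nonneg_left hE₀)
          (mem_riemannRochSpace_neg_sup_zero hDa)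
      · exact riemannRochSpace_mono (le_add_of_nonneg_right le_sup_right) (hS x hx)

theorem exists_le_riemannRochSpace_of_fg [HasPrincipalDivisors K F] {V : Submodule K F}
    (hV : V.FG) : ∃ E₀ : Divisor K F, V ≤ riemannRochSpace E₀ := by
  obtain ⟨S, rfl⟩ := hV
  obtain ⟨E₀, -, hS⟩ := exists_le_riemannRochSpace_of_finset (K := K) S
  exact ⟨E₀, Submodule.span_le.mpr fun x hx => hS x hx⟩

/-- Over an infinite constant field, a generic element of `V` attains the minimal divisor at any
finite set of places. -/
theorem exists_generic [Infinite K] {V : Submodule K F} (hV : V ≠ ⊥) {E : Divisor K F}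
    (hE : IsMinDiv V E) (T : Finset (Place K F)) :
    ∃ v ∈ V, v ≠ 0 ∧ ∀ Q ∈ T, Q.ord v = -E Q := by
  classical
  let p : Option T → Submodule K V := fun o =>
    match o with
    | none => ⊥
    | some Q => Submodule.comap V.subtype (riemannRochSpace (E - Finsupp.single (Q : Place K F) 1))
  have hp : ∀ o, p o ≠ ⊤ := by
    intro o
    cases o with
    | none =>
      intro h
      apply hV
      rw [eq_bot_iff]
      intro x hx
      have : (⟨x, hx⟩ : V) ∈ (⊥ : Submodule K V) := by
        have h' : (⟨x, hx⟩ : V) ∈ p none := by rw [h]; exact Submodule.mem_top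
        exact h'
      rw [Submodule.mem_bot] at this
      rw [Submodule.mem_bot]
      exact congrArg Subtype.val this
    | some Q =>
      intro h
      have hle : V ≤ riemannRochSpace (E - Finsupp.single (Q : Place K F) 1) := by
        intro x hx
        have h' : (⟨x, hx⟩ : V) ∈ p (some Q) := by rw [h]; exact Submodule.mem_top
        exact h'
      have := Finsupp.le_def.mp (hE.2 _ hle) (Q : Place K F)
      rw [Finsupp.sub_apply, Finsupp.single_eq_same] at this
      omega
  obtain ⟨x, hx⟩ := Submodule.exists_forall_notMem_of_forall_ne_top p hp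
  refine ⟨x.1, x.2, ?_, fun Q hQ => ?_⟩
  · intro h0
    apply hx none
    show x ∈ (⊥ : Submodule K V)
    rw [Submodule.mem_bot]
    exact Subtype.ext h0
  · have hnot : (x : F) ∉ riemannRochSpace (E - Finsupp.single Q 1) := fun h =>
      hx (some ⟨Q, hQ⟩) h
    have hmem := mem_riemannRochSpace_iff.mp (hE.1 x.2)
    rw [mem_riemannRochSpace_iff] at hnot
    push Not at hnot
    obtain ⟨w, hw0, hw⟩ := hnot
    have hwE := (hmem w).resolve_left hw0
    by_cases hwQ : w = Q
    · subst hwQ
      rw [Finsupp.sub_apply, Finsupp.single_eq_same] at hw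
      omega
    · rw [Finsupp.sub_apply, Finsupp.single_eq_of_ne hwQ] at hw
      omega

end Fermat.Agent.GJ.S37MinDiv
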