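/-
GATE-J / S37 path (helper75): the place-reduction map from L-SPACES.

Abstract setting: function fields `F / K`, `Ft / k` with all places of degree one, a reduction
datum `R : RedData K F k Ft` (J1's common language: valuation ring `Rw ⊂ F`, `red : Rw → Ft`).
Hypotheses (`LSpaceHyp`):
* Riemann's theorem on both sides WITH THE SAME GENUS `g` (`l(D) = deg D + 1 - g`, `deg D ≥ c`);
* ORTH: `dim_k red(L(D) ∩ Rw) = dim_K L(D)` for effective `D`;
* pole degrees do not increase under reduction;
* `k` infinite.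
Conclusion (`exists_placeReduction`): there is `r : Place K F → Place k Ft` with
`red(L(D) ∩ Rw) = L(r_* D)` for effective `D` of large degree and
`r_* (div y) = div (red y)` for every `y ∈ Rw` with `red y ≠ 0`
— the prelude's `IsPlaceReductionAlong`, with no arithmetic surface and no local analysis.
-/
import Mathlib
import Fermat.Agent.GJ.J1.Defs
import Fermat.Agent.GJ.S37.MinDiv

set_option autoImplicit false

noncomputable section

open AlgebraicCurve

namespace Fermat.Agent.GJ.S37LSpace

open Fermat.Agent.RRh45 Fermat.Agent.GJ.S37MinDiv Fermat.Agent.GJ.J1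

variable {K F k Ft : Type*} [Field K] [Field F] [Algebra K F] [Field k] [Field Ft] [Algebra k Ft]

/-- The reduction of the `w`-integral part of `L(D)`. -/
def redSpace (R : RedData K F k Ft) (D : Divisor K F) : Submodule k Ft where
  carrier := {xt | ∃ x : R.Rw, (x : F) ∈ riemannRochSpace D ∧ R.red x = xt}
  zero_mem' := ⟨0, by simp, map_zero _⟩
  add_mem' := by
    rintro _ _ ⟨x, hx, rfl⟩ ⟨y, hy, rfl⟩
    exact ⟨x + y, by simpa using add_mem hx hy, map_add _ _ _⟩
  smul_mem' := by
    rintro c _ ⟨x, hx, rfl⟩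
    obtain ⟨a, rfl⟩ := R.res_surjective c
    refine ⟨⟨algebraMap K F (a : K), (R.mem_A_iff a).1 a.2⟩ * x, ?_, ?_⟩
    · have := (riemannRochSpace D).smul_mem (a : K) hx
      rwa [Algebra.smul_def] at this
    · rw [map_mul, R.red_algebraMap, Algebra.smul_def]

theorem mem_redSpace {R : RedData K F k Ft} {D : Divisor K F} {xt : Ft} :
    xt ∈ redSpace R D ↔ ∃ x : R.Rw, (x : F) ∈ riemannRochSpace D ∧ R.red x = xt := Iff.rfl

theorem one_mem_redSpace (R : RedData K F k Ft) {D : Divisor K F} (hD : 0 ≤ D) :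
    (1 : Ft) ∈ redSpace R D :=
  ⟨1, by simpa using one_mem_riemannRochSpace hD, map_one _⟩

theorem mul_mem_redSpace_add (R : RedData K F k Ft) {D D' : Divisor K F} {v v' : Ft}
    (hv : v ∈ redSpace R D) (hv' : v' ∈ redSpace R D') : v * v' ∈ redSpace R (D + D') := by
  obtain ⟨x, hx, rfl⟩ := hv
  obtain ⟨x', hx', rfl⟩ := hv'
  exact ⟨x * x', by simpa using mul_mem_riemannRochSpace_add hx hx', map_mul _ _ _⟩

/-- The hypotheses of the L-space construction of the place reduction map. -/
structure LSpaceHyp (R : RedData K F k Ft) (g c : ℤ) : Prop where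
  c_nonneg : 0 ≤ c
  degF : ∀ P : Place K F, P.deg = 1
  degFt : ∀ Q : Place k Ft, Q.deg = 1
  rrF : ∀ D : Divisor K F, c ≤ Divisor.degree D →
    (Module.finrank K (riemannRochSpace D) : ℤ) = Divisor.degree D + 1 - g
  rrFt : ∀ E : Divisor k Ft, c ≤ Divisor.degree E →
    (Module.finrank k (riemannRochSpace E) : ℤ) = Divisor.degree E + 1 - g
  orth : ∀ D : Divisor K F, 0 ≤ D →
    Module.finrank k (redSpace R D) = Module.finrank K (riemannRochSpace D)
  poleDeg : ∀ (x : R.Rw) (Dx : Divisor K F) (Dt : Divisor k Ft),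
    (∀ P : Place K F, Dx P = P.ord (x : F)) → (∀ Q : Place k Ft, Dt Q = Q.ord (R.red x)) →
      R.red x ≠ 0 → Divisor.degree ((-Dt) ⊔ 0) ≤ Divisor.degree ((-Dx) ⊔ 0)


section Main

variable {R : RedData K F k Ft} {g c : ℤ}
variable [FiniteResidues K F] [HasPrincipalDivisors K F] [Nonempty (Place K F)]
variable [FiniteResidues k Ft] [HasPrincipalDivisors k Ft] [Nonempty (Place k Ft)]

omit [FiniteResidues K F] [HasPrincipalDivisors K F] [Nonempty (Place K F)]
  [FiniteResidues k Ft] [HasPrincipalDivisors k Ft] [Nonempty (Place k Ft)] in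
theorem redSpace_ne_bot {D : Divisor K F} (hD : 0 ≤ D) : redSpace R D ≠ ⊥ := by
  intro h
  have := one_mem_redSpace R hD
  rw [h, Submodule.mem_bot] at this
  exact one_ne_zero this

omit [FiniteResidues k Ft] [HasPrincipalDivisors k Ft] [Nonempty (Place k Ft)] in
theorem finite_redSpace (H : LSpaceHyp R g c) {D : Divisor K F} (hD : 0 ≤ D) :
    Module.Finite k (redSpace R D) := by
  have h1 : 0 < Module.finrank K (riemannRochSpace D) := by
    have : Nontrivial (riemannRochSpace D) :=
      ⟨⟨⟨1, one_mem_riemannRochSpace hD⟩, 0, fun h => one_ne_zero (congrArg Subtype.val h)⟩⟩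
    exact Module.finrank_pos
  rw [← H.orth D hD] at h1
  exact Module.finite_of_finrank_pos h1

variable [Infinite k]

/-- **Step 1**: for effective `D` of large degree the reduced space is a full Riemann–Roch space
of a divisor of the same degree. -/
theorem exists_minDiv_eq (H : LSpaceHyp R g c) {D : Divisor K F} (hD : 0 ≤ D)
    (hdeg : c + 1 ≤ Divisor.degree D) :
    ∃ E : Divisor k Ft, IsMinDiv (redSpace R D) E ∧ Divisor.degree E = Divisor.degree D ∧
      redSpace R D = riemannRochSpace E := by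
  classical
  have hV := redSpace_ne_bot (R := R) hD
  have hfin := finite_redSpace H hD
  obtain ⟨E₀, hE₀⟩ := exists_le_riemannRochSpace_of_fg (K := k) (V := redSpace R D)
    (Module.Finite.iff_fg.mp hfin)
  obtain ⟨E, hE⟩ := exists_isMinDiv hV hE₀
  -- `deg E ≤ deg D` via a generic element
  have hle : Divisor.degree E ≤ Divisor.degree D := by
    obtain ⟨v, hvV, hv0, hvT⟩ := exists_generic hV hE E.support
    obtain ⟨x, hxD, rfl⟩ := hvV
    have hx0 : (x : F) ≠ 0 := fun h => hv0 (by rw [show x = 0 from Subtype.ext h, map_zero])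
    obtain ⟨Dx, hDx, -⟩ := HasPrincipalDivisors.exists_divisor (K := K) (x : F) hx0
    obtain ⟨Dt, hDt, -⟩ := HasPrincipalDivisors.exists_divisor (K := k) (R.red x) hv0
    have h1 := H.poleDeg x Dx Dt hDx hDt hv0
    have h2 : E ≤ (-Dt) ⊔ 0 := by
      rw [Finsupp.le_def]
      intro Q
      rw [Finsupp.sup_apply, Finsupp.neg_apply]
      by_cases hQ : Q ∈ E.support
      · rw [hDt Q, hvT Q hQ, neg_neg]; exact le_sup_left
      · rw [Finsupp.notMem_support_iff.mp hQ]; exact le_sup_right
    have h3 : (-Dx) ⊔ 0 ≤ D := by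
      refine sup_le ?_ hD
      rw [Finsupp.le_def]
      intro P
      have := (mem_riemannRochSpace_iff.mp hxD P).resolve_left hx0
      rw [Finsupp.neg_apply, hDx P]
      omega
    exact (degree_mono h2).trans (h1.trans (degree_mono h3))
  have hdimV : (Module.finrank k (redSpace R D) : ℤ) = Divisor.degree D + 1 - g := by
    rw [H.orth D hD, H.rrF D (by omega)]
  have hVle : Module.finrank k (redSpace R D) ≤ Module.finrank k (riemannRochSpace E) :=
    Submodule.finrank_mono hE.1
  by_cases hEc : c ≤ Divisor.degree E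
  · have hrr := H.rrFt E hEc
    have hEq : Divisor.degree E = Divisor.degree D := by
      have : (Module.finrank k (redSpace R D) : ℤ) ≤ Module.finrank k (riemannRochSpace E) := by
        exact_mod_cast hVle
      omega
    refine ⟨E, hE, hEq, Submodule.eq_of_le_of_finrank_eq hE.1 ?_⟩
    have : (Module.finrank k (redSpace R D) : ℤ) = Module.finrank k (riemannRochSpace E) := by
      rw [hdimV, hrr, hEq]
    exact_mod_cast this
  · exfalso
    push Not at hEc
    obtain ⟨Q₀⟩ := ‹Nonempty (Place k Ft)›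
    have : Nonempty (Place k Ft) := ⟨Q₀⟩
    set E' : Divisor k Ft := E + Finsupp.single Q₀ (c - Divisor.degree E) with hE'
    have hEE' : E ≤ E' := by
      rw [hE']
      refine le_add_of_nonneg_right ?_
      rw [Finsupp.le_def]
      intro w
      by_cases hw : w = Q₀
      · subst hw; simp only [Finsupp.coe_zero, Pi.zero_apply, Finsupp.single_eq_same]; omega
      · rw [Finsupp.single_eq_of_ne hw]; simp
    have hdegE' : Divisor.degree E' = c := by
      rw [hE', map_add, Divisor.degree_single, H.degFt Q₀]; push_cast; ring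
    have hrr := H.rrFt E' (le_of_eq hdegE'.symm)
    have hmono : Module.finrank k (riemannRochSpace E) ≤ Module.finrank k (riemannRochSpace E') :=
      finrank_mono hEE'
    have : (Module.finrank k (redSpace R D) : ℤ) ≤ Module.finrank k (riemannRochSpace E') := by
      exact_mod_cast hVle.trans hmono
    omega


omit [FiniteResidues K F] [HasPrincipalDivisors K F] [Nonempty (Place K F)]
  [HasPrincipalDivisors k Ft] [Nonempty (Place k Ft)] in
/-- **Step 2**: minimal divisors of reduced spaces are additive. -/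
theorem minDiv_add (H : LSpaceHyp R g c) {D D' : Divisor K F} (hD : 0 ≤ D) (hD' : 0 ≤ D')
    {E E' E'' : Divisor k Ft} (hE : IsMinDiv (redSpace R D) E)
    (hEd : Divisor.degree E = Divisor.degree D) (hE' : IsMinDiv (redSpace R D') E')
    (hEd' : Divisor.degree E' = Divisor.degree D') (hE'' : IsMinDiv (redSpace R (D + D')) E'')
    (hEd'' : Divisor.degree E'' = Divisor.degree (D + D')) : E'' = E + E' := by
  classical
  have _ := H
  have hle : E + E' ≤ E'' := by
    rw [Finsupp.le_def]
    intro Q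
    obtain ⟨v, hvV, hv0, hvT⟩ := exists_generic (redSpace_ne_bot (R := R) hD) hE {Q}
    obtain ⟨v', hvV', hv0', hvT'⟩ := exists_generic (redSpace_ne_bot (R := R) hD') hE' {Q}
    have hmem := hE''.1 (mul_mem_redSpace_add R hvV hvV')
    have := (mem_riemannRochSpace_iff.mp hmem Q).resolve_left (mul_ne_zero hv0 hv0')
    rw [Q.ord_mul hv0 hv0', hvT Q (Finset.mem_singleton_self Q),
      hvT' Q (Finset.mem_singleton_self Q)] at this
    rw [Finsupp.add_apply]
    omega
  exact (eq_of_le_of_degree_eq hle (by rw [map_add, hEd, hEd', hEd'', map_add])).symm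

open Classical in
/-- The divisor of the reduced space (for effective `D` of large degree; `0` otherwise). -/
def Eof (H : LSpaceHyp R g c) (D : Divisor K F) : Divisor k Ft :=
  if h : 0 ≤ D ∧ c + 1 ≤ Divisor.degree D then (exists_minDiv_eq H h.1 h.2).choose else 0

theorem Eof_spec (H : LSpaceHyp R g c) {D : Divisor K F} (hD : 0 ≤ D)
    (hdeg : c + 1 ≤ Divisor.degree D) :
    IsMinDiv (redSpace R D) (Eof H D) ∧ Divisor.degree (Eof H D) = Divisor.degree D ∧
      redSpace R D = riemannRochSpace (Eof H D) := by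
  have h : 0 ≤ D ∧ c + 1 ≤ Divisor.degree D := ⟨hD, hdeg⟩
  rw [Eof, dif_pos h]
  exact (exists_minDiv_eq H h.1 h.2).choose_spec

theorem Eof_add (H : LSpaceHyp R g c) {D D' : Divisor K F} (hD : 0 ≤ D) (hD' : 0 ≤ D')
    (hdeg : c + 1 ≤ Divisor.degree D) (hdeg' : c + 1 ≤ Divisor.degree D') :
    Eof H (D + D') = Eof H D + Eof H D' := by
  have h1 := Eof_spec H hD hdeg
  have h2 := Eof_spec H hD' hdeg'
  have hdeg'' : c + 1 ≤ Divisor.degree (D + D') := by
    rw [map_add]
    have := H.c_nonneg
    omega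
  have h3 := Eof_spec H (add_nonneg hD hD') hdeg''
  exact minDiv_add H hD hD' h1.1 h1.2.1 h2.1 h2.2.1 h3.1 h3.2.1

theorem Eof_nonneg (H : LSpaceHyp R g c) {D : Divisor K F} (hD : 0 ≤ D)
    (hdeg : c + 1 ≤ Divisor.degree D) : 0 ≤ Eof H D :=
  (Eof_spec H hD hdeg).1.nonneg (one_mem_redSpace R hD)


/-! ### Step 3: multiples of a single place -/

omit [FiniteResidues K F] [HasPrincipalDivisors K F] [Nonempty (Place K F)]
  [FiniteResidues k Ft] [HasPrincipalDivisors k Ft] [Nonempty (Place k Ft)] [Infinite k] in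
theorem degree_single_nat (H : LSpaceHyp R g c) (P : Place K F) (n : ℕ) :
    Divisor.degree (Finsupp.single P (n : ℤ)) = n := by
  rw [Divisor.degree_single, H.degF P]; simp

omit [HasPrincipalDivisors k Ft] [Nonempty (Place k Ft)] [Infinite k] in
theorem exists_eq_single_of_degree_one (hdeg1 : ∀ Q : Place k Ft, Q.deg = 1) {d : Divisor k Ft}
    (hd : 0 ≤ d) (hdeg : Divisor.degree d = 1) : ∃ Q : Place k Ft, d = Finsupp.single Q 1 := by
  have hne : d ≠ 0 := by
    rintro rfl
    simp at hdeg
  obtain ⟨Q, hQ⟩ : ∃ Q, d Q ≠ 0 := by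
    by_contra hall
    push Not at hall
    exact hne (Finsupp.ext hall)
  have hQ0 : 0 ≤ d Q := by simpa using Finsupp.le_def.mp hd Q
  have hle : Finsupp.single Q (1 : ℤ) ≤ d := by
    rw [Finsupp.le_def]
    intro w
    by_cases hw : w = Q
    · subst hw; rw [Finsupp.single_eq_same]; omega
    · rw [Finsupp.single_eq_of_ne hw]; simpa using Finsupp.le_def.mp hd w
  refine ⟨Q, (eq_of_le_of_degree_eq hle ?_).symm⟩
  rw [Divisor.degree_single, hdeg1 Q, hdeg]; simp

theorem Eof_single_add (H : LSpaceHyp R g c) (P : Place K F) {m n : ℕ} (hm : c + 1 ≤ m)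
    (hn : c + 1 ≤ n) :
    Eof H (Finsupp.single P ((m + n : ℕ) : ℤ))
      = Eof H (Finsupp.single P (m : ℤ)) + Eof H (Finsupp.single P (n : ℤ)) := by
  have e : Finsupp.single P ((m + n : ℕ) : ℤ)
      = Finsupp.single P (m : ℤ) + Finsupp.single P (n : ℤ) := by
    rw [← Finsupp.single_add]; push_cast; rfl
  rw [e]
  refine Eof_add H ?_ ?_ ?_ ?_
  · exact Finsupp.single_nonneg.mpr (by positivity)
  · exact Finsupp.single_nonneg.mpr (by positivity)
  · rw [degree_single_nat H]; exact hm
  · rw [degree_single_nat H]; exact hn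

theorem Eof_single_mul (H : LSpaceHyp R g c) (P : Place K F) {m : ℕ} (hm : c + 1 ≤ m) (n : ℕ) :
    Eof H (Finsupp.single P (((n + 1) * m : ℕ) : ℤ))
      = (n + 1) • Eof H (Finsupp.single P (m : ℤ)) := by
  induction n with
  | zero => simp
  | succ n ih =>
    have e : (n + 1 + 1) * m = (n + 1) * m + m := by ring
    have hm' : c + 1 ≤ (((n + 1) * m : ℕ) : ℤ) := by
      have : (m : ℤ) ≤ (((n + 1) * m : ℕ) : ℤ) := by
        have h1 : m ≤ (n + 1) * m := Nat.le_mul_of_pos_left m (Nat.succ_pos n)
        exact_mod_cast h1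
      omega
    rw [e, Eof_single_add H P hm' hm, ih, succ_nsmul (Eof H (Finsupp.single P (m : ℤ))) (n + 1)]

theorem exists_place_of_single (H : LSpaceHyp R g c) (P : Place K F) :
    ∃ Q : Place k Ft, ∀ n : ℕ, c + 1 ≤ (n : ℤ) →
      Eof H (Finsupp.single P (n : ℤ)) = Finsupp.single Q (n : ℤ) := by
  have hc := H.c_nonneg
  set M : ℕ := (c + 1).toNat with hM
  have hMc : (M : ℤ) = c + 1 := Int.toNat_of_nonneg (by omega)
  have hM1 : 1 ≤ M := by
    have : (1 : ℤ) ≤ (M : ℤ) := by omega
    exact_mod_cast this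
  have hMle : c + 1 ≤ (M : ℤ) := le_of_eq hMc.symm
  have hM1le : c + 1 ≤ ((M + 1 : ℕ) : ℤ) := by push_cast; omega
  set a := Eof H (Finsupp.single P (M : ℤ)) with ha
  set b := Eof H (Finsupp.single P ((M + 1 : ℕ) : ℤ)) with hb
  -- `(M+1) a = M b`
  have h1 : (M + 1) • a = Eof H (Finsupp.single P (((M + 1) * M : ℕ) : ℤ)) :=
    (Eof_single_mul H P hMle M).symm
  have h2 : M • b = Eof H (Finsupp.single P (((M + 1) * M : ℕ) : ℤ)) := by
    obtain ⟨M', hM'⟩ : ∃ M', M = M' + 1 := ⟨M - 1, by omega⟩
    have := Eof_single_mul H P hM1le M'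
    rw [← hM'] at this
    rw [mul_comm (M + 1) M]
    exact this.symm
  have h3 : (M + 1) • a = M • b := h1.trans h2.symm
  have ha0 : 0 ≤ a := Eof_nonneg H (Finsupp.single_nonneg.mpr (by positivity))
    (by rw [degree_single_nat H]; exact hMle)
  have hdega : Divisor.degree a = M := by
    rw [ha, (Eof_spec H (Finsupp.single_nonneg.mpr (by positivity))
      (by rw [degree_single_nat H]; exact hMle)).2.1, degree_single_nat H]
  have hdegb : Divisor.degree b = (M + 1 : ℕ) := by
    rw [hb, (Eof_spec H (Finsupp.single_nonneg.mpr (by positivity))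
      (by rw [degree_single_nat H]; exact hM1le)).2.1, degree_single_nat H]
  -- `d := b - a` is effective of degree one
  have hMd : M • (b - a) = a := by
    rw [smul_sub, ← h3, succ_nsmul]; abel
  have hd0 : 0 ≤ b - a := by
    rw [Finsupp.le_def]
    intro Q
    have h4 := congrArg (fun D : Divisor k Ft => D Q) hMd
    simp only [Finsupp.smul_apply, nsmul_eq_mul] at h4
    have h5 : 0 ≤ a Q := by simpa using Finsupp.le_def.mp ha0 Q
    have hMpos : (0 : ℤ) < (M : ℤ) := by omega
    simp only [Finsupp.coe_zero, Pi.zero_apply]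
    by_contra hneg
    push Not at hneg
    have : (M : ℤ) * (b - a) Q < 0 := mul_neg_of_pos_of_neg hMpos hneg
    omega
  have hdegd : Divisor.degree (b - a) = 1 := by
    rw [map_sub, hdega, hdegb]; push_cast; ring
  obtain ⟨Q, hQ⟩ := exists_eq_single_of_degree_one H.degFt hd0 hdegd
  have haQ : a = Finsupp.single Q (M : ℤ) := by
    rw [← hMd, hQ, Finsupp.smul_single, nsmul_eq_mul, mul_one]
  refine ⟨Q, fun n hn => ?_⟩
  -- `M • e_n = n • a`
  have hn1 : 1 ≤ n := by
    have : (1 : ℤ) ≤ (n : ℤ) := by omega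
    exact_mod_cast this
  have h6 : M • Eof H (Finsupp.single P (n : ℤ))
      = Eof H (Finsupp.single P ((M * n : ℕ) : ℤ)) := by
    obtain ⟨M', hM'⟩ : ∃ M', M = M' + 1 := ⟨M - 1, by omega⟩
    have := Eof_single_mul H P hn M'
    rw [← hM'] at this
    exact this.symm
  have h7 : n • a = Eof H (Finsupp.single P ((M * n : ℕ) : ℤ)) := by
    obtain ⟨n', hn'⟩ : ∃ n', n = n' + 1 := ⟨n - 1, by omega⟩
    have := Eof_single_mul H P hMle n'
    rw [← hn', mul_comm n M] at this
    exact this.symm
  have h8 : M • Eof H (Finsupp.single P (n : ℤ)) = M • Finsupp.single Q (n : ℤ) := by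
    rw [h6, ← h7, haQ, Finsupp.smul_single, Finsupp.smul_single, nsmul_eq_mul, nsmul_eq_mul,
      mul_comm]
  ext w
  have h9 := congrArg (fun D : Divisor k Ft => D w) h8
  simp only [Finsupp.smul_apply, nsmul_eq_mul] at h9
  have hMpos : (M : ℤ) ≠ 0 := by omega
  exact mul_left_cancel₀ hMpos h9

/-- The place reduction map produced by the L-space construction. -/
def rOf (H : LSpaceHyp R g c) (P : Place K F) : Place k Ft :=
  (exists_place_of_single H P).choose

theorem Eof_single (H : LSpaceHyp R g c) (P : Place K F) (n : ℕ) (hn : c + 1 ≤ (n : ℤ)) :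
    Eof H (Finsupp.single P (n : ℤ)) = Finsupp.single (rOf H P) (n : ℤ) :=
  (exists_place_of_single H P).choose_spec n hn


/-! ### Step 4: all effective divisors of large degree -/

omit [FiniteResidues K F] [HasPrincipalDivisors K F] [Nonempty (Place K F)]
  [FiniteResidues k Ft] [HasPrincipalDivisors k Ft] [Nonempty (Place k Ft)] [Infinite k] in
theorem degree_sum_single (H : LSpaceHyp R g c) (S : Finset (Place K F)) (m : Place K F → ℕ) :
    Divisor.degree (∑ P ∈ S, Finsupp.single P (m P : ℤ)) = ∑ P ∈ S, (m P : ℤ) := by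
  rw [map_sum]
  exact Finset.sum_congr rfl fun P _ => degree_single_nat H P (m P)

omit [FiniteResidues K F] [HasPrincipalDivisors K F] [Nonempty (Place K F)]
  [FiniteResidues k Ft] [HasPrincipalDivisors k Ft] [Nonempty (Place k Ft)] [Infinite k] in
theorem le_degree_sum_single (H : LSpaceHyp R g c) {S : Finset (Place K F)} (hS : S.Nonempty)
    (m : Place K F → ℕ) (hm : ∀ P ∈ S, c + 1 ≤ (m P : ℤ)) :
    c + 1 ≤ Divisor.degree (∑ P ∈ S, Finsupp.single P (m P : ℤ)) := by
  rw [degree_sum_single H]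
  obtain ⟨P₁, hP₁⟩ := hS
  have h1 : (m P₁ : ℤ) ≤ ∑ P ∈ S, (m P : ℤ) :=
    Finset.single_le_sum (f := fun P => (m P : ℤ)) (fun P _ => by positivity) hP₁
  exact (hm P₁ hP₁).trans h1

omit [FiniteResidues K F] [HasPrincipalDivisors K F] [Nonempty (Place K F)]
  [FiniteResidues k Ft] [HasPrincipalDivisors k Ft] [Nonempty (Place k Ft)] [Infinite k] in
theorem sum_single_nonneg (S : Finset (Place K F)) (m : Place K F → ℕ) :
    (0 : Divisor K F) ≤ ∑ P ∈ S, Finsupp.single P (m P : ℤ) :=
  Finset.sum_nonneg fun P _ => Finsupp.single_nonneg.mpr (by positivity)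

theorem Eof_sum_single (H : LSpaceHyp R g c) {S : Finset (Place K F)} (hS : S.Nonempty)
    (m : Place K F → ℕ) (hm : ∀ P ∈ S, c + 1 ≤ (m P : ℤ)) :
    Eof H (∑ P ∈ S, Finsupp.single P (m P : ℤ))
      = ∑ P ∈ S, Finsupp.single (rOf H P) (m P : ℤ) := by
  classical
  induction hS using Finset.Nonempty.cons_induction with
  | singleton a =>
    rw [Finset.sum_singleton, Finset.sum_singleton]
    exact Eof_single H a (m a) (hm a (Finset.mem_singleton_self a))
  | cons a S ha hS ih =>
    rw [Finset.sum_cons, Finset.sum_cons]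
    have hmS : ∀ P ∈ S, c + 1 ≤ (m P : ℤ) := fun P hP => hm P (Finset.mem_cons_of_mem hP)
    have hma := hm a (Finset.mem_cons_self a S)
    rw [Eof_add H (Finsupp.single_nonneg.mpr (by positivity)) (sum_single_nonneg S m)
      (by rw [degree_single_nat H]; exact hma) (le_degree_sum_single H hS m hmS), ih hmS,
      Eof_single H a (m a) hma]

/-- **Step 4**: the divisor of the reduced space is the push-forward along `rOf`. -/
theorem Eof_eq_mapDomain (H : LSpaceHyp R g c) {D : Divisor K F} (hD : 0 ≤ D)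
    (hdeg : c + 1 ≤ Divisor.degree D) : Eof H D = Finsupp.mapDomain (rOf H) D := by
  classical
  have hc := H.c_nonneg
  set M : ℕ := (c + 1).toNat with hM
  have hMc : (M : ℤ) = c + 1 := Int.toNat_of_nonneg (by omega)
  have hSne : D.support.Nonempty := by
    rw [Finsupp.support_nonempty_iff]
    rintro rfl
    simp at hdeg
    omega
  have hDP : ∀ P, ((D P).toNat : ℤ) = D P := fun P =>
    Int.toNat_of_nonneg (by simpa using Finsupp.le_def.mp hD P)
  -- `D` as a sum of singles
  have hDsum : D = ∑ P ∈ D.support, Finsupp.single P (((D P).toNat : ℕ) : ℤ) := by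
    conv_lhs => rw [← Finsupp.sum_single D]
    rw [Finsupp.sum]
    exact Finset.sum_congr rfl fun P _ => by rw [hDP P]
  set D₁ : Divisor K F := ∑ P ∈ D.support, Finsupp.single P (M : ℤ) with hD₁
  have hD₁0 : 0 ≤ D₁ := sum_single_nonneg D.support fun _ => M
  have hD₁deg : c + 1 ≤ Divisor.degree D₁ :=
    le_degree_sum_single H hSne (fun _ => M) fun P _ => le_of_eq hMc.symm
  have hsum : D + D₁ = ∑ P ∈ D.support, Finsupp.single P ((((D P).toNat + M : ℕ)) : ℤ) := by
    conv_lhs => rw [hDsum]
    rw [hD₁, ← Finset.sum_add_distrib]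
    refine Finset.sum_congr rfl fun P _ => ?_
    rw [← Finsupp.single_add]; push_cast; rfl
  have h1 := Eof_add H hD hD₁0 hdeg hD₁deg
  rw [hsum, Eof_sum_single H hSne (fun P => (D P).toNat + M) (fun P _ => by push_cast; omega),
    Eof_sum_single H hSne (fun _ => M) (fun P _ => le_of_eq hMc.symm)] at h1
  have h2 : Eof H D = ∑ P ∈ D.support, Finsupp.single (rOf H P) (D P) := by
    have h3 : Eof H D = (∑ P ∈ D.support, Finsupp.single (rOf H P) ((((D P).toNat + M : ℕ)) : ℤ))
        - ∑ P ∈ D.support, Finsupp.single (rOf H P) (M : ℤ) := by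
      rw [h1]; abel
    rw [h3, ← Finset.sum_sub_distrib]
    refine Finset.sum_congr rfl fun P _ => ?_
    rw [← Finsupp.single_sub]
    congr 1
    push_cast
    rw [hDP P]
    ring
  rw [h2, Finsupp.mapDomain, Finsupp.sum]


/-- The reduced space of an effective divisor of large degree is the full Riemann–Roch space of
the push-forward divisor, which is the minimal divisor of that space and has the same degree. -/
theorem redSpace_eq (H : LSpaceHyp R g c) {D : Divisor K F} (hD : 0 ≤ D)
    (hdeg : c + 1 ≤ Divisor.degree D) :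
    IsMinDiv (redSpace R D) (Finsupp.mapDomain (rOf H) D) ∧
      Divisor.degree (Finsupp.mapDomain (rOf H) D) = Divisor.degree D ∧
      redSpace R D = riemannRochSpace (Finsupp.mapDomain (rOf H) D) := by
  rw [← Eof_eq_mapDomain H hD hdeg]
  exact Eof_spec H hD hdeg

/-! ### Step 5: principal divisors -/

omit [FiniteResidues K F] [HasPrincipalDivisors K F] [Nonempty (Place K F)]
  [FiniteResidues k Ft] [HasPrincipalDivisors k Ft] [Nonempty (Place k Ft)] [Infinite k] in
/-- multiplication by a unit `y` of `Rw` identifies `redSpace (D + div y)` with `redSpace D`. -/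
theorem mul_mem_redSpace_iff {y : R.Rw} (hy : R.red y ≠ 0) {Dy : Divisor K F}
    (hDy : ∀ P : Place K F, Dy P = P.ord (y : F)) (D : Divisor K F) (xt : Ft) :
    R.red y * xt ∈ redSpace R D ↔ xt ∈ redSpace R (D + Dy) := by
  have hy0 : (y : F) ≠ 0 := fun h => hy (by rw [show y = 0 from Subtype.ext h, map_zero])
  have hunit : IsUnit y := by
    by_contra hnu
    exact hy ((R.red_eq_zero_iff y).mpr ((IsLocalRing.mem_maximalIdeal y).mpr hnu))
  constructor
  · rintro ⟨z, hz, hzy⟩
    obtain ⟨u, rfl⟩ := hunit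
    refine ⟨(↑u⁻¹ : R.Rw) * z, ?_, ?_⟩
    · have h1 := (mul_mem_riemannRochSpace_iff hy0 hDy (D + Dy)
        (((↑u⁻¹ : R.Rw) * z : R.Rw) : F)).mp
      apply h1
      have e : ((u : R.Rw) : F) * (((↑u⁻¹ : R.Rw) * z : R.Rw) : F) = (z : F) := by
        rw [← Subring.coe_mul, ← mul_assoc, Units.mul_inv, one_mul]
      rw [e, add_sub_cancel_right]
      exact hz
    · have h2 : R.red (u : R.Rw) * R.red ((↑u⁻¹ : R.Rw) * z) = R.red (u : R.Rw) * xt := by
        rw [← map_mul, ← mul_assoc, Units.mul_inv, one_mul]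
        exact hzy
      exact mul_left_cancel₀ hy h2
  · rintro ⟨x, hx, rfl⟩
    refine ⟨y * x, ?_, map_mul _ _ _⟩
    have h1 := (mul_mem_riemannRochSpace_iff hy0 hDy (D + Dy) (x : F)).mpr hx
    rw [add_sub_cancel_right] at h1
    simpa using h1

/-- **Main theorem**: the L-space place reduction map is compatible with principal divisors:
`r_* (div y) = div (red y)` for `y ∈ Rw` with `red y ≠ 0`. -/
theorem mapDomain_rOf_principal (H : LSpaceHyp R g c) {y : R.Rw} (hy : R.red y ≠ 0)
    {Dy : Divisor K F} (hDy : ∀ P : Place K F, Dy P = P.ord (y : F)) (Q : Place k Ft) :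
    Finsupp.mapDomain (rOf H) Dy Q = Q.ord (R.red y) := by
  classical
  have hc := H.c_nonneg
  have hy0 : (y : F) ≠ 0 := fun h => hy (by rw [show y = 0 from Subtype.ext h, map_zero])
  -- degrees of the two principal divisors
  obtain ⟨Dy', hDy', hdegDy'⟩ := HasPrincipalDivisors.exists_divisor (K := K) (y : F) hy0
  have hDyeq : Dy = Dy' := Finsupp.ext fun P => by rw [hDy P, hDy' P]
  have hdegDy : Divisor.degree Dy = 0 := by rw [hDyeq]; exact hdegDy'
  obtain ⟨Dt, hDt, hdegDt⟩ := HasPrincipalDivisors.exists_divisor (K := k) (R.red y) hy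
  -- an effective divisor `D` of large degree with `D + Dy` effective
  obtain ⟨P₀⟩ := ‹Nonempty (Place K F)›
  set M : ℕ := (c + 1).toNat with hM
  have hMc : (M : ℤ) = c + 1 := Int.toNat_of_nonneg (by omega)
  set D : Divisor K F := ((-Dy) ⊔ 0) + Finsupp.single P₀ (M : ℤ) with hDdef
  have hsingle0 : (0 : Divisor K F) ≤ Finsupp.single P₀ (M : ℤ) :=
    Finsupp.single_nonneg.mpr (by positivity)
  have hD0 : 0 ≤ D := add_nonneg le_sup_right hsingle0
  have hD'0 : 0 ≤ D + Dy := by
    have h1 : (0 : Divisor K F) ≤ ((-Dy) ⊔ 0) + Dy := by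
      rw [Finsupp.le_def]
      intro P
      rw [Finsupp.add_apply, Finsupp.sup_apply, Finsupp.neg_apply]
      simp only [Finsupp.coe_zero, Pi.zero_apply]
      rcases le_total (-(Dy P)) 0 with h | h
      · rw [sup_eq_right.mpr h]; omega
      · rw [sup_eq_left.mpr h]; omega
    have : D + Dy = (((-Dy) ⊔ 0) + Dy) + Finsupp.single P₀ (M : ℤ) := by rw [hDdef]; abel
    rw [this]
    exact add_nonneg h1 hsingle0
  have hDdeg : c + 1 ≤ Divisor.degree D := by
    rw [hDdef, map_add, degree_single_nat H]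
    have := degree_nonneg_of_nonneg (le_sup_right : (0 : Divisor K F) ≤ (-Dy) ⊔ 0)
    omega
  have hD'deg : c + 1 ≤ Divisor.degree (D + Dy) := by rw [map_add, hdegDy, add_zero]; exact hDdeg
  obtain ⟨hmin, hdegE, hVE⟩ := redSpace_eq H hD0 hDdeg
  obtain ⟨hmin', hdegE', hVE'⟩ := redSpace_eq H hD'0 hD'deg
  set E := Finsupp.mapDomain (rOf H) D with hE
  set E' := Finsupp.mapDomain (rOf H) (D + Dy) with hE'
  -- `L(E') = L(E + Dt)`
  have hle : redSpace R (D + Dy) ≤ riemannRochSpace (E + Dt) := by
    intro xt hxt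
    have h1 : R.red y * xt ∈ redSpace R D := (mul_mem_redSpace_iff hy hDy D xt).mpr hxt
    rw [hVE] at h1
    have h2 := (mul_mem_riemannRochSpace_iff hy hDt (E + Dt) xt).mp
    apply h2
    rwa [add_sub_cancel_right]
  have hle' : E' ≤ E + Dt := hmin'.2 _ hle
  have heq : E' = E + Dt := by
    refine eq_of_le_of_degree_eq hle' ?_
    rw [map_add, hdegDt, add_zero, hdegE, hdegE', map_add, hdegDy, add_zero]
  have hDt' : Dt = Finsupp.mapDomain (rOf H) Dy := by
    have : E' = E + Finsupp.mapDomain (rOf H) Dy := by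
      rw [hE', hE, Finsupp.mapDomain_add]
    rw [this] at heq
    exact (add_left_cancel heq).symm
  rw [← hDt', hDt Q]

end Main

end Fermat.Agent.GJ.S37LSpace
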