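/-
GATE-J / S37 path, ORTH adapter (helper90): the `orth` field of `LSpaceHyp` from `R.HasOrtho`
(`GJ/Lattice/Ortho*.lean`): `dim_k red(L(D) ∩ Rw) = dim_K L(D)` for EVERY divisor `D`.
-/
import Mathlib
import Fermat.Agent.GJ.S37.LSpaceRed
import Fermat.Agent.GJ.Lattice.OrthoDegree

set_option autoImplicit false

open AlgebraicCurve Module IntermediateField

namespace Fermat.Agent.GJ.S37LSpace

open Fermat.Agent.RRh45 Fermat.Agent.GJ.J1 Fermat.Agent.GJ.Ortho

variable {K F k Ft : Type*} [Field K] [Field F] [Algebra K F] [Field k] [Field Ft] [Algebra k Ft]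

/-- `redSpace R D` is the reduction of the unit ball of `L(D)` in the sense of `OrthoBall`. -/
theorem redSpace_eq_redBall (R : RedData K F k Ft) (D : Divisor K F) :
    redSpace R D = redBall (k := k) R.Rw R.red (riemannRochSpace D) := by
  apply le_antisymm
  · rintro _ ⟨x, hx, rfl⟩
    exact red_mem_redBall x hx
  · rw [redBall, Submodule.span_le]
    rintro _ ⟨x, hx, rfl⟩
    exact ⟨x, hx, rfl⟩

/-- **ORTH for L-spaces**: with orthonormal bases, reduction preserves the dimension of every
finite dimensional `L(D)`. -/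
theorem finrank_redSpace_of_hasOrtho (R : RedData K F k Ft) (h : R.HasOrtho) (D : Divisor K F)
    [FiniteDimensional K (riemannRochSpace D)] :
    finrank k (redSpace R D) = finrank K (riemannRochSpace D) := by
  rw [redSpace_eq_redBall]
  exact RedData.HasOrtho.finrank_redBall R h (riemannRochSpace D)

/-- The `orth` field of `LSpaceHyp`, verbatim. -/
theorem orth_of_hasOrtho (R : RedData K F k Ft) (h : R.HasOrtho)
    [FiniteResidues K F] [HasPrincipalDivisors K F] [Nonempty (Place K F)] :
    ∀ D : Divisor K F, 0 ≤ D →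
      Module.finrank k (redSpace R D) = Module.finrank K (riemannRochSpace D) :=
  fun D _ => finrank_redSpace_of_hasOrtho R h D

/-- The `orth` field of `LSpaceHyp` from degree preservation along a Gauss chart `t`. -/
theorem orth_of_finrank_le (R : RedData K F k Ft)
    [FiniteResidues K F] [HasPrincipalDivisors K F] [Nonempty (Place K F)]
    (t : F) (hts : t ∈ R.Rw) (htt : Transcendental k (R.red ⟨t, hts⟩))
    [FiniteDimensional K⟮t⟯ F] (hdeg : finrank K⟮t⟯ F ≤ finrank k⟮R.red ⟨t, hts⟩⟯ Ft) :
    ∀ D : Divisor K F, 0 ≤ D →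
      Module.finrank k (redSpace R D) = Module.finrank K (riemannRochSpace D) :=
  orth_of_hasOrtho R (R.hasOrtho_of_finrank_le t hts htt hdeg)

/-- Lifting for L-spaces: if `red(L(D) ∩ Rw) ⊆ W` and `dim W ≤ dim L(D)` then every element of `W`
is the reduction of an element of `L(D) ∩ Rw`. -/
theorem exists_lift_of_hasOrtho (R : RedData K F k Ft) (h : R.HasOrtho) (D : Divisor K F)
    [FiniteDimensional K (riemannRochSpace D)] (W : Submodule k Ft) [FiniteDimensional k W]
    (hle : redSpace R D ≤ W) (hdim : finrank k W ≤ finrank K (riemannRochSpace D)) :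
    redSpace R D = W := by
  rw [redSpace_eq_redBall] at hle ⊢
  exact HasOrthoBases.redBall_eq_of_le h R.orthoRedSystem _ W hle hdim

end Fermat.Agent.GJ.S37LSpace
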