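/-
GATE-J / S37 path, helper75's request 1561 (iii) (helper48): the `poleDeg` field of `LSpaceHyp`.

For function fields in one variable `F / K` and `Ft / k` (any characteristic, `IsGen` on both
sides) and a reduction datum `R : RedData K F k Ft`:

  `deg (red x)_∞ ≤ deg (x)_∞`   for every `x : R.Rw` with `red x ≠ 0`,

because `deg (y)_∞ = [F : K(y)]` for transcendental `y` (helper30, `GJ/FF/PrincipalGen.lean`),
`[Ft : k(x~)] ≤ [F : K(x)]` (helper12, `GJ/S37/ResidueDegreeRed.lean`), and algebraic elements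
have no poles.
-/
import Mathlib
import Fermat.Agent.GJ.S37.LSpaceRed
import Fermat.Agent.GJ.S37.ResidueDegreeRed
import Fermat.Agent.GJ.FF.PrincipalGen

set_option autoImplicit false

noncomputable section

open AlgebraicCurve IntermediateField

namespace Fermat.Agent.GJ.S37PoleDeg

open Fermat.Agent.S24 Fermat.Agent.RRh45 Fermat.Agent.GJ.J1 Fermat.Agent.GJ.S37LSpace

section OneField

variable {K F : Type*} [Field K] [Field F] [Algebra K F]

theorem neg_sup_zero_apply (Dy : Divisor K F) (P : Place K F) :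
    ((-Dy) ⊔ 0) P = max (-(Dy P)) 0 := by
  rw [Finsupp.sup_apply, Finsupp.neg_apply]
  rfl

/-- **`deg (y)_∞ = [F : K(y)]`** in the shape `degree ((-div y) ⊔ 0)` used by `LSpaceHyp.poleDeg`
(char-free). -/
theorem degree_neg_sup_zero_eq_finrank (x₀ : F) [IsGen K x₀] {y : F} (hy : Transcendental K y)
    {Dy : Divisor K F} (hDy : ∀ P : Place K F, Dy P = P.ord y) :
    Divisor.degree ((-Dy) ⊔ 0) = (Module.finrank K⟮y⟯ F : ℤ) :=
  Fermat.Agent.GJ.FF.PrincipalOf.degree_eq_finrank_of_poles x₀ hy _ fun P => by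
    rw [neg_sup_zero_apply, hDy P]

/-- **`deg (y)_0 = [F : K(y)]`** in the shape `degree (div y ⊔ 0)` (char-free). -/
theorem degree_sup_zero_eq_finrank (x₀ : F) [IsGen K x₀] {y : F} (hy : Transcendental K y)
    {Dy : Divisor K F} (hDy : ∀ P : Place K F, Dy P = P.ord y) :
    Divisor.degree (Dy ⊔ 0) = (Module.finrank K⟮y⟯ F : ℤ) :=
  Fermat.Agent.GJ.FF.PrincipalOf.degree_eq_finrank_of_zeros x₀ hy _ fun P => by
    rw [Finsupp.sup_apply, hDy P]
    rfl

/-- the divisor of a nonzero algebraic element is zero. -/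
theorem eq_zero_of_isAlgebraic {y : F} (hy : IsAlgebraic K y) {Dy : Divisor K F}
    (hDy : ∀ P : Place K F, Dy P = P.ord y) : Dy = 0 := by
  ext P
  rw [hDy P, Finsupp.zero_apply]
  exact Fermat.Agent.GJ.FF.ord_eq_zero_of_isAlgebraic P hy

/-- algebraic elements have no poles. -/
theorem neg_sup_zero_eq_zero_of_isAlgebraic {y : F} (hy : IsAlgebraic K y) {Dy : Divisor K F}
    (hDy : ∀ P : Place K F, Dy P = P.ord y) : (-Dy) ⊔ 0 = 0 := by
  rw [eq_zero_of_isAlgebraic hy hDy, neg_zero, sup_idem]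

end OneField

variable {K F k Ft : Type*} [Field K] [Field F] [Algebra K F] [Field k] [Field Ft] [Algebra k Ft]

/-- **`LSpaceHyp.poleDeg`, verbatim**, for function fields in one variable on both sides. -/
theorem poleDeg_of_isGen (R : RedData K F k Ft) (x₀ : F) [IsGen K x₀] (xt₀ : Ft) [IsGen k xt₀] :
    ∀ (x : R.Rw) (Dx : Divisor K F) (Dt : Divisor k Ft),
      (∀ P : Place K F, Dx P = P.ord (x : F)) → (∀ Q : Place k Ft, Dt Q = Q.ord (R.red x)) →
        R.red x ≠ 0 → Divisor.degree ((-Dt) ⊔ 0) ≤ Divisor.degree ((-Dx) ⊔ 0) := by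
  intro x Dx Dt hDx hDt _
  by_cases halg : IsAlgebraic k (R.red x)
  · rw [neg_sup_zero_eq_zero_of_isAlgebraic halg hDt, map_zero]
    exact degree_nonneg_of_nonneg le_sup_right
  · have htr : Transcendental k (R.red x) := halg
    have hxtr : Transcendental K (x : F) :=
      Fermat.Agent.GJ.S37.ResDeg.RedData.transcendental_of_isGaussChart R ⟨x.2, htr⟩
    have : IsGen K (x : F) := IsGen.of_transcendental x₀ hxtr
    have hle := (Fermat.Agent.GJ.S37.ResDeg.RedData.finrank_red_le R x.2 htr).2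
    rw [degree_neg_sup_zero_eq_finrank xt₀ htr hDt, degree_neg_sup_zero_eq_finrank x₀ hxtr hDx]
    exact_mod_cast hle

/-- the pole degree inequality in `finrank` form, with finiteness on the special fibre. -/
theorem finrank_le_of_isGen (R : RedData K F k Ft) (x₀ : F) [IsGen K x₀] (x : R.Rw)
    (htr : Transcendental k (R.red x)) :
    Transcendental K (x : F) ∧ FiniteDimensional K⟮(x : F)⟯ F ∧
      FiniteDimensional k⟮R.red x⟯ Ft ∧
      Module.finrank k⟮R.red x⟯ Ft ≤ Module.finrank K⟮(x : F)⟯ F := by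
  have hxtr : Transcendental K (x : F) :=
    Fermat.Agent.GJ.S37.ResDeg.RedData.transcendental_of_isGaussChart R ⟨x.2, htr⟩
  have : IsGen K (x : F) := IsGen.of_transcendental x₀ hxtr
  have h := Fermat.Agent.GJ.S37.ResDeg.RedData.finrank_red_le R x.2 htr
  exact ⟨hxtr, inferInstance, h.1, h.2⟩

end Fermat.Agent.GJ.S37PoleDeg

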