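/-
GATE-J / S37 path, leaf (S37-X1) (helper48): the place reduction map `rOf H` of
`GJ/S37/LSpaceRed.lean` is SURJECTIVE, and zeros / poles of `red y` are images of zeros / poles
of `y`.

Everything is a formal consequence of helper75's `mapDomain_rOf_principal`
(`r_* (div y) = div (red y)`) and of the surjectivity of `R.red` (a field of `RedData`): a
uniformizer `π̃` at `Q` lifts to `y : R.Rw`, and `Q ∈ supp (div π̃) = supp (r_* div y) ⊆ r (supp div y)`.
-/
import Mathlib
import Fermat.Agent.GJ.S37.LSpaceRed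

set_option autoImplicit false

noncomputable section

open AlgebraicCurve

namespace Fermat.Agent.GJ.S37ROfSurj

open Fermat.Agent.RRh45 Fermat.Agent.GJ.S37MinDiv Fermat.Agent.GJ.J1 Fermat.Agent.GJ.S37LSpace

/-- value of a push-forward `Finsupp` as a sum over the fibre. -/
theorem mapDomain_apply_eq_sum {α β M : Type*} [AddCommMonoid M] [DecidableEq β] (f : α → β)
    (D : α →₀ M) (b : β) :
    Finsupp.mapDomain f D b = ∑ a ∈ D.support.filter (fun a => f a = b), D a := by
  rw [Finsupp.mapDomain, Finsupp.sum_apply, Finsupp.sum, Finset.sum_filter]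
  refine Finset.sum_congr rfl fun a _ => ?_
  rw [Finsupp.single_apply]

variable {K F k Ft : Type*} [Field K] [Field F] [Algebra K F] [Field k] [Field Ft] [Algebra k Ft]
variable {R : RedData K F k Ft} {g c : ℤ}
variable [FiniteResidues K F] [HasPrincipalDivisors K F] [Nonempty (Place K F)]
variable [FiniteResidues k Ft] [HasPrincipalDivisors k Ft] [Nonempty (Place k Ft)]
variable [Infinite k]

/-- **fibre formula**: `ord_Q (red y) = ∑_{P ↦ Q} ord_P y`, the sum over the zeros and poles `P`
of `y` with `rOf H P = Q`. -/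
theorem ord_red_eq_sum [DecidableEq (Place k Ft)] (H : LSpaceHyp R g c) {y : R.Rw}
    (hy : R.red y ≠ 0) {Dy : Divisor K F} (hDy : ∀ P : Place K F, Dy P = P.ord (y : F))
    (Q : Place k Ft) :
    Q.ord (R.red y) = ∑ P ∈ Dy.support.filter (fun P => rOf H P = Q), P.ord (y : F) := by
  rw [← mapDomain_rOf_principal H hy hDy Q, mapDomain_apply_eq_sum]
  exact Finset.sum_congr rfl fun P _ => hDy P

/-- a zero of `red y` is the image of a zero of `y`. -/
theorem exists_rOf_eq_of_ord_pos (H : LSpaceHyp R g c) {y : R.Rw} (hy : R.red y ≠ 0)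
    {Q : Place k Ft} (hQ : 0 < Q.ord (R.red y)) :
    ∃ P : Place K F, 0 < P.ord (y : F) ∧ rOf H P = Q := by
  classical
  have hy0 : (y : F) ≠ 0 := fun h => hy (by rw [show y = 0 from Subtype.ext h, map_zero])
  obtain ⟨Dy, hDy, -⟩ := HasPrincipalDivisors.exists_divisor (K := K) (y : F) hy0
  rw [ord_red_eq_sum H hy hDy Q] at hQ
  by_contra hcon
  push Not at hcon
  have : ∑ P ∈ Dy.support.filter (fun P => rOf H P = Q), P.ord (y : F) ≤ 0 :=
    Finset.sum_nonpos fun P hP => by
      by_contra hpos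
      exact hcon P (not_le.mp hpos) (Finset.mem_filter.mp hP).2
  omega

/-- a pole of `red y` is the image of a pole of `y`. -/
theorem exists_rOf_eq_of_ord_neg (H : LSpaceHyp R g c) {y : R.Rw} (hy : R.red y ≠ 0)
    {Q : Place k Ft} (hQ : Q.ord (R.red y) < 0) :
    ∃ P : Place K F, P.ord (y : F) < 0 ∧ rOf H P = Q := by
  classical
  have hy0 : (y : F) ≠ 0 := fun h => hy (by rw [show y = 0 from Subtype.ext h, map_zero])
  obtain ⟨Dy, hDy, -⟩ := HasPrincipalDivisors.exists_divisor (K := K) (y : F) hy0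
  rw [ord_red_eq_sum H hy hDy Q] at hQ
  by_contra hcon
  push Not at hcon
  have : 0 ≤ ∑ P ∈ Dy.support.filter (fun P => rOf H P = Q), P.ord (y : F) :=
    Finset.sum_nonneg fun P hP => by
      by_contra hneg
      exact hcon P (not_le.mp hneg) (Finset.mem_filter.mp hP).2
  omega

/-- if `y` has neither zero nor pole on the fibre of `rOf H` over `Q`, then `red y` is a unit
at `Q`. -/
theorem ord_red_eq_zero_of_forall (H : LSpaceHyp R g c) {y : R.Rw} (hy : R.red y ≠ 0)
    {Q : Place k Ft} (h : ∀ P : Place K F, rOf H P = Q → P.ord (y : F) = 0) :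
    Q.ord (R.red y) = 0 := by
  classical
  have hy0 : (y : F) ≠ 0 := fun h => hy (by rw [show y = 0 from Subtype.ext h, map_zero])
  obtain ⟨Dy, hDy, -⟩ := HasPrincipalDivisors.exists_divisor (K := K) (y : F) hy0
  rw [ord_red_eq_sum H hy hDy Q]
  exact Finset.sum_eq_zero fun P hP => h P (Finset.mem_filter.mp hP).2

/-- **(S37-X1)**: the place reduction map of the L-space construction is surjective. -/
theorem rOf_surjective (H : LSpaceHyp R g c) : Function.Surjective (rOf H) := by
  intro Q
  obtain ⟨π, hπ⟩ := IsDiscreteValuationRing.exists_irreducible Q.toValuationSubring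
  have hord : Q.ord (π : Ft) = 1 := Q.ord_coe_irreducible hπ
  obtain ⟨y, hy⟩ := R.red_surjective (π : Ft)
  have hπ0 : (π : Ft) ≠ 0 := fun h => by rw [h, Place.ord_zero] at hord; omega
  have hy0 : R.red y ≠ 0 := by rw [hy]; exact hπ0
  obtain ⟨P, -, hP⟩ := exists_rOf_eq_of_ord_pos H hy0 (Q := Q) (by rw [hy, hord]; exact one_pos)
  exact ⟨P, hP⟩

/-- every place of the special fibre is the image of a zero of a lift of its uniformizer, with
the zero recorded. -/
theorem exists_rOf_eq_and_ord_pos (H : LSpaceHyp R g c) (Q : Place k Ft) :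
    ∃ (y : R.Rw) (P : Place K F), Q.ord (R.red y) = 1 ∧ 0 < P.ord (y : F) ∧ rOf H P = Q := by
  obtain ⟨π, hπ⟩ := IsDiscreteValuationRing.exists_irreducible Q.toValuationSubring
  have hord : Q.ord (π : Ft) = 1 := Q.ord_coe_irreducible hπ
  obtain ⟨y, hy⟩ := R.red_surjective (π : Ft)
  have hπ0 : (π : Ft) ≠ 0 := fun h => by rw [h, Place.ord_zero] at hord; omega
  have hy0 : R.red y ≠ 0 := by rw [hy]; exact hπ0
  obtain ⟨P, hP0, hP⟩ := exists_rOf_eq_of_ord_pos H hy0 (Q := Q)
    (by rw [hy, hord]; exact one_pos)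
  exact ⟨y, P, by rw [hy, hord], hP0, hP⟩

end Fermat.Agent.GJ.S37ROfSurj

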