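/-
GATE-J / S37 path (helper48): the constructor of helper75's `LSpaceHyp R g c` from J1's outputs,
for an ABSTRACT reduction datum `R : RedData K F k Ft` with a Gauss chart `t`.

Inputs (everything else is derived):
* `K`, `k` algebraically closed; the prelude Place API on both fibres;
* `t, t⁻¹ ∈ Rw`, `red t` transcendental; `F / K(t)` finite separable, `Ft / k(t~)` separable;
* degree preservation `[F : K(t)] ≤ [Ft : k(t~)]`  (M-DEG);
* `gLat K t ≤ gLat k t~`  (helper62, `RedData.gLat_le_final`).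

Output: `∃ c, LSpaceHyp R (gLat K t) c`, hence the place reduction map `rOf`, `redSpace_eq`,
`mapDomain_rOf_principal`, `rOf_surjective`, … of `GJ/S37/LSpaceRed.lean` / `ROfSurj.lean`.
-/
import Mathlib
import Fermat.Agent.GJ.S37.LSpaceRed
import Fermat.Agent.GJ.S37.OrthAdapter
import Fermat.Agent.GJ.S37.PoleDeg
import Fermat.Agent.GJ.J1.GenusEq
import Fermat.Agent.S24.DegOne
import Fermat.Agent.GJ.S37.ROfSurj

set_option autoImplicit false
set_option linter.unusedSectionVars false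

noncomputable section

open AlgebraicCurve IntermediateField Module

namespace Fermat.Agent.GJ.S37LSpaceInst

open Fermat.Agent.S24 Fermat.Agent.RRh45 Fermat.Agent.GJ.J1 Fermat.Agent.GJ.S37LSpace

variable {K F k Ft : Type*} [Field K] [Field F] [Algebra K F] [Field k] [Field Ft] [Algebra k Ft]
variable [IsAlgClosed K] [IsAlgClosed k]
variable [FiniteResidues K F] [HasPrincipalDivisors K F] [Nonempty (Place K F)]
variable [FiniteResidues k Ft] [HasPrincipalDivisors k Ft] [Nonempty (Place k Ft)]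

/-- **`LSpaceHyp` from a Gauss chart** with degree preservation and `g ≤ g~`. -/
theorem lSpaceHyp_of_chart (R : RedData K F k Ft) {t : F} (ht : t ∈ R.Rw) (hti : t⁻¹ ∈ R.Rw)
    (htr : Transcendental k (R.red ⟨t, ht⟩))
    [FiniteDimensional K⟮t⟯ F] [Algebra.IsSeparable K⟮t⟯ F]
    [Algebra.IsSeparable k⟮R.red ⟨t, ht⟩⟯ Ft]
    (hdeg : finrank K⟮t⟯ F ≤ finrank k⟮R.red ⟨t, ht⟩⟯ Ft)
    (hle : gLat K t ≤ gLat k (R.red ⟨t, ht⟩)) :
    ∃ c : ℤ, LSpaceHyp R (gLat K t : ℤ) c := by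
  have htK : Transcendental K t :=
    Fermat.Agent.GJ.S37.ResDeg.RedData.transcendental_of_isGaussChart R ⟨ht, htr⟩
  obtain ⟨hfdk, -⟩ := G0Genus.finrank_eq_of_le R ht htr hdeg
  have hgenK : IsGen K t := ⟨htK, inferInstance⟩
  have hgenk : IsGen k (R.red ⟨t, ht⟩) := ⟨htr, hfdk⟩
  obtain ⟨c, hc0, hrrF, hrrFt⟩ := G0Genus.riemann_both R ht hti htr hdeg hle
  exact ⟨c,
    { c_nonneg := hc0
      degF := fun P => PlaceB.deg_eq_one P t
      degFt := fun Q => PlaceB.deg_eq_one Q (R.red ⟨t, ht⟩)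
      rrF := hrrF
      rrFt := hrrFt
      orth := orth_of_finrank_le R t ht htr hdeg
      poleDeg := Fermat.Agent.GJ.S37PoleDeg.poleDeg_of_isGen R t (R.red ⟨t, ht⟩) }⟩

/-- **The place reduction map of an abstract reduction datum**: a surjective, degree-preserving
map `r : Place K F → Place k Ft` with `r_* (div y) = div (red y)` for every `y ∈ Rw` with
`red y ≠ 0` (the two clauses of the prelude's `IsPlaceReductionAlong`, in `RedData` language). -/
theorem exists_placeReduction (R : RedData K F k Ft) {t : F} (ht : t ∈ R.Rw) (hti : t⁻¹ ∈ R.Rw)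
    (htr : Transcendental k (R.red ⟨t, ht⟩))
    [FiniteDimensional K⟮t⟯ F] [Algebra.IsSeparable K⟮t⟯ F]
    [Algebra.IsSeparable k⟮R.red ⟨t, ht⟩⟯ Ft]
    (hdeg : finrank K⟮t⟯ F ≤ finrank k⟮R.red ⟨t, ht⟩⟯ Ft)
    (hle : gLat K t ≤ gLat k (R.red ⟨t, ht⟩)) :
    ∃ r : Place K F → Place k Ft, Function.Surjective r ∧ (∀ P, (r P).deg = P.deg) ∧
      ∀ y : R.Rw, R.red y ≠ 0 → ∀ Dy : Divisor K F, (∀ P : Place K F, Dy P = P.ord (y : F)) →
        ∀ Q : Place k Ft, Finsupp.mapDomain r Dy Q = Q.ord (R.red y) := by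
  obtain ⟨c, H⟩ := lSpaceHyp_of_chart R ht hti htr hdeg hle
  refine ⟨rOf H, Fermat.Agent.GJ.S37ROfSurj.rOf_surjective H, fun P => ?_, fun y hy Dy hDy Q => ?_⟩
  · rw [H.degF P, H.degFt (rOf H P)]
  · exact mapDomain_rOf_principal H hy hDy Q

end Fermat.Agent.GJ.S37LSpaceInst

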