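/-
GATE-J / S37 path (helper75): BRIDGE from the abstract L-space construction of the place reduction
map (`GJ/S37/LSpaceRed.lean`) to the prelude's `ReductionInputsModL A N`.

* `redDataFull N A hle` : helper45's Gauss reduction datum of `ℚ̄(X₀(N))` with the residue field
  identified with the prelude's special-fibre field `modularFunctionFieldFullC k N`; the only input
  is `hle : FresBar N A ≤ modularFunctionFieldFullC k N` (M-RES: reductions of Gauss-integral
  functions are modular functions mod `ℓ`).
* `isPlaceReductionModL_rOf` : the place map `rOf H` of an `LSpaceHyp` for `redDataFull` is a place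
  reduction in the sense of the prelude.
* `principalGeneratedByIntegral` : `PrincipalGeneratedByIntegral` from the Gauss fraction property.
* `reductionInputsModL_of_lspaceHyp` : `ReductionInputsModL A N`.
-/
import Mathlib
import Fermat.Prelude.Def_ModularCurve_ReductionModL
import Fermat.Agent.GJ.S37.LSpaceRed
import Fermat.Agent.GJ.J1.Val.GaussRedData
import Fermat.Agent.GJ.FF.Instances

set_option autoImplicit false
set_option synthInstance.maxHeartbeats 400000
set_option maxHeartbeats 1000000

noncomputable section

open AlgebraicCurve HahnSeries ModularCurve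

namespace Fermat.Agent.GJ.S37Bridge

open Fermat.Agent.RRh45 Fermat.Agent.GJ.J1 Fermat.Agent.GJ.J1.Val Fermat.Agent.GJ.S37LSpace
  Fermat.Agent.S24

variable (N : ℕ) [NeZero N] (A : ValuationSubring (AlgebraicClosure ℚ))

/-- shortcut instance (the generic search through `IntermediateField` is slow here) -/
local instance instAlgebraFullAux : Algebra (IsLocalRing.ResidueField A)
    (modularFunctionFieldFullC (IsLocalRing.ResidueField A) N) := inferInstance

/-- the reduction datum of `ℚ̄(X₀(N))` with values in the prelude's special-fibre field. -/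
def redDataFull
    (hle : FresBar N A ≤ modularFunctionFieldFullC (IsLocalRing.ResidueField A) N) :
    RedData (AlgebraicClosure ℚ) (modularFunctionFieldBar N) (IsLocalRing.ResidueField A)
      (modularFunctionFieldFullC (IsLocalRing.ResidueField A) N) where
  Rw := RwBar N A
  A := A
  mem_A_iff := fun a => (algebraMap_mem_Rw_iff a).symm
  red := (redL A (modularFunctionFieldBar N) (hasGaussFrac_bar N A)).codRestrict
    (modularFunctionFieldFullC (IsLocalRing.ResidueField A) N).toSubalgebra.toSubsemiring
    (fun x => hle ⟨x, rfl⟩)
  red_surjective := by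
    rintro ⟨y, hy⟩
    obtain ⟨x, hx⟩ := full_le_FresBar N A hy
    exact ⟨x, Subtype.ext hx⟩
  red_eq_zero_iff := fun x => by
    rw [← redL_eq_zero_iff]
    constructor
    · intro h
      exact congrArg Subtype.val h
    · intro h
      exact Subtype.ext h
  res := IsLocalRing.residue A
  res_surjective := IsLocalRing.residue_surjective
  red_algebraMap := fun a => Subtype.ext (by
    show redL A (modularFunctionFieldBar N) (hasGaussFrac_bar N A) _ = _
    rw [redL_algebraMap]
    rfl)

variable {N A}

theorem coe_red_redDataFull
    (hle : FresBar N A ≤ modularFunctionFieldFullC (IsLocalRing.ResidueField A) N)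
    (x : (redDataFull N A hle).Rw) :
    (((redDataFull N A hle).red x :
        modularFunctionFieldFullC (IsLocalRing.ResidueField A) N) :
      LaurentSeries (IsLocalRing.ResidueField A)) =
      redL A (modularFunctionFieldBar N) (hasGaussFrac_bar N A) x := rfl

/-- Gauss-integral series of the function field lie in `Rw`, and reduce coefficientwise. -/
theorem int_mem_Rw_full
    (hle : FresBar N A ≤ modularFunctionFieldFullC (IsLocalRing.ResidueField A) N)
    {y : LaurentSeries A} (hy : coeffMap A.subtype y ∈ modularFunctionFieldBar N) :
    (⟨coeffMap A.subtype y, hy⟩ : modularFunctionFieldBar N) ∈ (redDataFull N A hle).Rw :=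
  int_mem_Rw (hGF := hasGaussFrac_bar N A) hy

theorem red_int_full
    (hle : FresBar N A ≤ modularFunctionFieldFullC (IsLocalRing.ResidueField A) N)
    {y : LaurentSeries A} (hy : coeffMap A.subtype y ∈ modularFunctionFieldBar N) :
    (((redDataFull N A hle).red ⟨⟨coeffMap A.subtype y, hy⟩, int_mem_Rw_full hle hy⟩ :
        modularFunctionFieldFullC (IsLocalRing.ResidueField A) N) :
      LaurentSeries (IsLocalRing.ResidueField A)) = coeffMap (IsLocalRing.residue A) y := by
  rw [coe_red_redDataFull]
  exact redL_int (hGF := hasGaussFrac_bar N A) hy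

/-- reductions of Gauss-integral series are modular functions mod `ℓ` (under M-RES). -/
theorem coeffMap_residue_mem_full
    (hle : FresBar N A ≤ modularFunctionFieldFullC (IsLocalRing.ResidueField A) N)
    {y : LaurentSeries A} (hy : coeffMap A.subtype y ∈ modularFunctionFieldBar N) :
    coeffMap (IsLocalRing.residue A) y ∈
      modularFunctionFieldFullC (IsLocalRing.ResidueField A) N := by
  rw [← red_int_full hle hy]
  exact Subtype.property _

section Main

variable [FiniteResidues (AlgebraicClosure ℚ) (modularFunctionFieldBar N)]
  [HasPrincipalDivisors (AlgebraicClosure ℚ) (modularFunctionFieldBar N)]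
  [Nonempty (Place (AlgebraicClosure ℚ) (modularFunctionFieldBar N))]
  [FiniteResidues (IsLocalRing.ResidueField A)
    (modularFunctionFieldFullC (IsLocalRing.ResidueField A) N)]
  [HasPrincipalDivisors (IsLocalRing.ResidueField A)
    (modularFunctionFieldFullC (IsLocalRing.ResidueField A) N)]
  [Nonempty (Place (IsLocalRing.ResidueField A)
    (modularFunctionFieldFullC (IsLocalRing.ResidueField A) N))]
  [Infinite (IsLocalRing.ResidueField A)]

/-- **the L-space place map is a place reduction in the sense of the prelude.** -/
theorem isPlaceReductionModL_rOf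
    (hle : FresBar N A ≤ modularFunctionFieldFullC (IsLocalRing.ResidueField A) N)
    {g c : ℤ} (H : LSpaceHyp (redDataFull N A hle) g c) :
    IsPlaceReductionModL A N (rOf H) := by
  refine ⟨fun P => by rw [H.degF P, H.degFt (rOf H P)], ?_⟩
  intro y hy hyk hne D hD Q
  have hx : (redDataFull N A hle).red ⟨⟨coeffMap A.subtype y, hy⟩, int_mem_Rw_full hle hy⟩ =
      (⟨coeffMap (IsLocalRing.residue A) y, hyk⟩ :
        modularFunctionFieldFullC (IsLocalRing.ResidueField A) N) :=
    Subtype.ext (red_int_full hle hy)
  have hne' : (redDataFull N A hle).red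
      ⟨⟨coeffMap A.subtype y, hy⟩, int_mem_Rw_full hle hy⟩ ≠ 0 := by
    rw [hx]
    exact fun h => hne (congrArg Subtype.val h)
  have := mapDomain_rOf_principal H hne' (Dy := D) hD Q
  rw [this, hx]

end Main

section Gen

variable [HasPrincipalDivisors (AlgebraicClosure ℚ) (modularFunctionFieldBar N)]

/-- **principal divisors are generated by divisors of Gauss-integral functions** (under M-RES). -/
theorem principalGeneratedByIntegral
    (hle : FresBar N A ≤ modularFunctionFieldFullC (IsLocalRing.ResidueField A) N) :
    PrincipalGeneratedByIntegral A (IsLocalRing.residue A) N := by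
  intro D hD
  rw [Divisor.mem_principal] at hD
  obtain ⟨u, hu0, hDu⟩ := hD
  have huL : (u : LaurentSeries (AlgebraicClosure ℚ)) ≠ 0 := fun h => hu0 (Subtype.ext h)
  obtain ⟨c, a, b, hc, ha, hb, ha0, hb0, hrel⟩ := hasGaussFrac_bar N A u u.2 huL
  -- the two integral functions
  set a' : modularFunctionFieldBar N := ⟨coeffMap A.subtype a, ha⟩ with ha'
  set b' : modularFunctionFieldBar N := ⟨coeffMap A.subtype b, hb⟩ with hb'
  have ha'0 : a' ≠ 0 := by
    intro h
    apply ha0
    have h1 : coeffMap A.subtype a = 0 := congrArg Subtype.val h
    have h2 : a = 0 := emb_injective A (by rw [h1, map_zero])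
    rw [h2, map_zero]
  have hb'0 : b' ≠ 0 := by
    intro h
    apply hb0
    have h1 : coeffMap A.subtype b = 0 := congrArg Subtype.val h
    have h2 : b = 0 := emb_injective A (by rw [h1, map_zero])
    rw [h2, map_zero]
  have hrelF : u * b' = algebraMap (AlgebraicClosure ℚ) (modularFunctionFieldBar N) c * a' := by
    apply Subtype.ext
    show (u : LaurentSeries (AlgebraicClosure ℚ)) * coeffMap A.subtype b =
      ((algebraMap (AlgebraicClosure ℚ) (modularFunctionFieldBar N) c :
        modularFunctionFieldBar N) : LaurentSeries (AlgebraicClosure ℚ)) * coeffMap A.subtype a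
    rw [hrel]
    congr 1
    rw [← algebraMap_laurentSeries_eq_single]
    rfl
  obtain ⟨Da, hDa, -⟩ := HasPrincipalDivisors.exists_divisor (K := AlgebraicClosure ℚ) a' ha'0
  obtain ⟨Db, hDb, -⟩ := HasPrincipalDivisors.exists_divisor (K := AlgebraicClosure ℚ) b' hb'0
  have hDeq : D = Da - Db := by
    ext P
    rw [Finsupp.sub_apply, hDu P, hDa P, hDb P]
    have hcF : algebraMap (AlgebraicClosure ℚ) (modularFunctionFieldBar N) c ≠ 0 :=
      fun h => hc ((map_eq_zero _).mp h)
    have h1 := congrArg P.ord hrelF
    rw [P.ord_mul hu0 hb'0, P.ord_mul hcF ha'0, PlaceB.ord_algebraMap P hc] at h1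
    omega
  rw [hDeq]
  refine AddSubgroup.sub_mem _ (AddSubgroup.subset_closure ?_) (AddSubgroup.subset_closure ?_)
  · exact ⟨a, ha, coeffMap_residue_mem_full hle ha, ha0, hDa⟩
  · exact ⟨b, hb, coeffMap_residue_mem_full hle hb, hb0, hDb⟩

end Gen

section Final

variable [FiniteResidues (AlgebraicClosure ℚ) (modularFunctionFieldBar N)]
  [HasPrincipalDivisors (AlgebraicClosure ℚ) (modularFunctionFieldBar N)]
  [Nonempty (Place (AlgebraicClosure ℚ) (modularFunctionFieldBar N))]
  [FiniteResidues (IsLocalRing.ResidueField A)
    (modularFunctionFieldFullC (IsLocalRing.ResidueField A) N)]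
  [HasPrincipalDivisors (IsLocalRing.ResidueField A)
    (modularFunctionFieldFullC (IsLocalRing.ResidueField A) N)]
  [Nonempty (Place (IsLocalRing.ResidueField A)
    (modularFunctionFieldFullC (IsLocalRing.ResidueField A) N))]
  [Infinite (IsLocalRing.ResidueField A)]

/-- **`ReductionInputsModL A N`** from M-RES and an `LSpaceHyp` for the Gauss reduction datum. -/
theorem reductionInputsModL_of_lspaceHyp
    (hle : FresBar N A ≤ modularFunctionFieldFullC (IsLocalRing.ResidueField A) N)
    {g c : ℤ} (H : LSpaceHyp (redDataFull N A hle) g c) : ReductionInputsModL A N :=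
  ⟨rOf H, isPlaceReductionModL_rOf hle H, principalGeneratedByIntegral hle⟩

end Final

section Discharged

open Fermat.Agent.GJ.FibreCurve Fermat.Agent.GJ.FF.Fibre Fermat.Agent.GJ.ResidueAlgClosed

/-- the residue field of a valuation subring of `ℚ̄` is infinite. -/
theorem infinite_residueField : Infinite (IsLocalRing.ResidueField A) := by
  have : IsAlgClosed (IsLocalRing.ResidueField A) := isAlgClosed_residueField A
  infer_instance

/-- **`ReductionInputsModL A N`** from M-RES and an `LSpaceHyp`, all function-field instances
discharged (T24 over `ℚ̄`, helper24's char-free package on the special fibre). -/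
theorem reductionInputsModL
    (hle : FresBar N A ≤ modularFunctionFieldFullC (IsLocalRing.ResidueField A) N)
    {g c : ℤ} (H : LSpaceHyp (redDataFull N A hle) g c) : ReductionInputsModL A N := by
  have : IsGen (AlgebraicClosure ℚ) (jF N) := S24_helper62.isGen_jF N
  have h1 : FiniteResidues (AlgebraicClosure ℚ) (modularFunctionFieldBar N) :=
    Fermat.Agent.GJ.FF.finiteResidues (K := AlgebraicClosure ℚ) (jF N)
  have h2 := finiteResidues_fibre (k := IsLocalRing.ResidueField A) N A (IsLocalRing.residue A)
  have h3 := hasPrincipalDivisors_fibre' (k := IsLocalRing.ResidueField A) N A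
    (IsLocalRing.residue A)
  have h4 := nonempty_place_fibre' (k := IsLocalRing.ResidueField A) N A (IsLocalRing.residue A)
  have h5 := infinite_residueField (A := A)
  exact reductionInputsModL_of_lspaceHyp hle H

end Discharged

end Fermat.Agent.GJ.S37Bridge
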