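/-
GATE-J / S37 path (helper35, deputy): TRANSPORT from J1's reduction datum `redDataBar N A`
(residue field `Ft = FresBar N A`, the image of the Gauss reduction inside `k((q))`) to the S37
bridge datum `S37Bridge.redDataFull N A hle` (residue field `Ft = modularFunctionFieldFullC k N`,
the prelude's special-fibre field).

All of J1's chart outputs (`ChartRed`, `ChartPack.exists_chart`, M-DEG, `GenusRedData`, …) are
statements about `redDataBar N A`; `S37Bridge.reductionInputsModL` wants an `LSpaceHyp` for
`redDataFull N A hle`.  The two data have the same valuation ring and the same reduction map into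
`k((q))`, only the ambient intermediate field `E ⊆ k((q))` differs, and by M-RES
(`Res.FresBar_eq_fullC`) the two intermediate fields are EQUAL.  So every statement
`P E (redDataE E ..)` transports along that equality by `subst`:

* `redDataE N A E h1 h2` : the Gauss reduction datum with values in ANY `E` with
  `FresBar N A ≤ E ≤ FresBar N A`;
* `redDataE_bar`, `redDataE_full` : it is `redDataBar N A` resp. `redDataFull N A hle` (by `rfl`);
* `transfer` : `P (FresBar N A) (redDataBar N A) → P (fullC) (redDataFull N A hle)` for ANY
  predicate `P` on pairs (intermediate field, reduction datum);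
* `lSpaceHyp_full_of_bar` : `LSpaceHyp (redDataBar N A) g c → LSpaceHyp (redDataFull N A hle) g c`;
* `reductionInputsModL_of_bar` : `ReductionInputsModL A N` from an `LSpaceHyp` for `redDataBar N A`
  (`ℓ ∤ N`, `A` over `ℓ`).
-/
import Fermat.Agent.GJ.S37.Bridge
import Fermat.Agent.GJ.J1.Res.FresEq

set_option autoImplicit false
set_option synthInstance.maxHeartbeats 400000
set_option maxHeartbeats 1000000

noncomputable section

open AlgebraicCurve HahnSeries ModularCurve

namespace Fermat.Agent.GJ.S37BarToFull

open Fermat.Agent.GJ.J1 Fermat.Agent.GJ.J1.Val Fermat.Agent.GJ.S37LSpace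
  Fermat.Agent.GJ.S37Bridge

variable (N : ℕ) [NeZero N] (A : ValuationSubring (AlgebraicClosure ℚ))

/-- the Gauss reduction datum of `ℚ̄(X₀(N))` with values in any intermediate field `E` of `k((q))`
squeezed between `FresBar N A` and itself. -/
def redDataE
    (E : IntermediateField (IsLocalRing.ResidueField A)
      (LaurentSeries (IsLocalRing.ResidueField A)))
    (h1 : FresBar N A ≤ E) (h2 : E ≤ FresBar N A) :
    RedData (AlgebraicClosure ℚ) (modularFunctionFieldBar N) (IsLocalRing.ResidueField A) E where
  Rw := RwBar N A
  A := A
  mem_A_iff := fun a => (algebraMap_mem_Rw_iff a).symm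
  red := (redL A (modularFunctionFieldBar N) (hasGaussFrac_bar N A)).codRestrict
    E.toSubalgebra.toSubsemiring (fun x => h1 ⟨x, rfl⟩)
  red_surjective := by
    rintro ⟨y, hy⟩
    obtain ⟨x, hx⟩ := h2 hy
    exact ⟨x, Subtype.ext hx⟩
  red_eq_zero_iff := fun x => by
    rw [← redL_eq_zero_iff]
    constructor
    · intro h
      exact congrArg Subtype.val h
    · intro h
      exact Subtype.ext h
  res := IsLocalRing.residue A
  res_surjective := IsLocalRing.residue_surjective
  red_algebraMap := fun a => Subtype.ext (by
    show redL A (modularFunctionFieldBar N) (hasGaussFrac_bar N A) _ = _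
    rw [redL_algebraMap]
    rfl)

/-- at `E = FresBar N A` this is J1's datum. -/
theorem redDataE_bar : redDataE N A (FresBar N A) le_rfl le_rfl = redDataBar N A := rfl

/-- at `E = modularFunctionFieldFullC k N` this is the S37 bridge datum. -/
theorem redDataE_full
    (hle : FresBar N A ≤ modularFunctionFieldFullC (IsLocalRing.ResidueField A) N) :
    redDataE N A (modularFunctionFieldFullC (IsLocalRing.ResidueField A) N) hle
      (full_le_FresBar N A) = redDataFull N A hle := rfl

variable {N A}

/-- **transport principle**: any statement about (intermediate field, reduction datum) passes from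
`(FresBar N A, redDataBar N A)` to `(E, redDataE N A E h1 h2)` when `FresBar N A = E`. -/
theorem transferE
    (P : ∀ E : IntermediateField (IsLocalRing.ResidueField A)
      (LaurentSeries (IsLocalRing.ResidueField A)),
      RedData (AlgebraicClosure ℚ) (modularFunctionFieldBar N) (IsLocalRing.ResidueField A) E →
        Prop)
    {E : IntermediateField (IsLocalRing.ResidueField A)
      (LaurentSeries (IsLocalRing.ResidueField A))}
    (hE : FresBar N A = E) (h1 : FresBar N A ≤ E) (h2 : E ≤ FresBar N A)
    (h : P (FresBar N A) (redDataBar N A)) : P E (redDataE N A E h1 h2) := by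
  subst hE
  exact h

/-- **transport principle**, at the prelude's special-fibre field. -/
theorem transfer
    (P : ∀ E : IntermediateField (IsLocalRing.ResidueField A)
      (LaurentSeries (IsLocalRing.ResidueField A)),
      RedData (AlgebraicClosure ℚ) (modularFunctionFieldBar N) (IsLocalRing.ResidueField A) E →
        Prop)
    (hEq : FresBar N A = modularFunctionFieldFullC (IsLocalRing.ResidueField A) N)
    (hle : FresBar N A ≤ modularFunctionFieldFullC (IsLocalRing.ResidueField A) N)
    (h : P (FresBar N A) (redDataBar N A)) :
    P (modularFunctionFieldFullC (IsLocalRing.ResidueField A) N) (redDataFull N A hle) :=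
  transferE P hEq hle (full_le_FresBar N A) h

/-- **`LSpaceHyp` passes from J1's datum to the S37 bridge datum.** -/
theorem lSpaceHyp_full_of_bar
    (hEq : FresBar N A = modularFunctionFieldFullC (IsLocalRing.ResidueField A) N)
    (hle : FresBar N A ≤ modularFunctionFieldFullC (IsLocalRing.ResidueField A) N)
    {g c : ℤ} (H : LSpaceHyp (redDataBar N A) g c) : LSpaceHyp (redDataFull N A hle) g c :=
  transfer (fun _ R => LSpaceHyp R g c) hEq hle H

/-- **`ReductionInputsModL A N` from an `LSpaceHyp` for J1's datum `redDataBar N A`**
(`ℓ ∤ N`, `A` over `ℓ`; M-RES supplies the identification of the residue field). -/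
theorem reductionInputsModL_of_bar {ℓ : ℕ} [Fact ℓ.Prime] (hℓN : ¬ ℓ ∣ N) (hA : A.LiesOverPrime ℓ)
    {g c : ℤ} (H : LSpaceHyp (redDataBar N A) g c) : ReductionInputsModL A N :=
  reductionInputsModL (Res.FresBar_le_fullC N A hℓN hA)
    (lSpaceHyp_full_of_bar (Res.FresBar_eq_fullC N A hℓN hA) (Res.FresBar_le_fullC N A hℓN hA) H)

/-- the full datum's `LSpaceHyp`, packaged with its M-RES proof, from J1's datum. -/
theorem exists_lSpaceHyp_full {ℓ : ℕ} [Fact ℓ.Prime] (hℓN : ¬ ℓ ∣ N) (hA : A.LiesOverPrime ℓ)
    {g c : ℤ} (H : LSpaceHyp (redDataBar N A) g c) :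
    LSpaceHyp (redDataFull N A (Res.FresBar_le_fullC N A hℓN hA)) g c :=
  lSpaceHyp_full_of_bar (Res.FresBar_eq_fullC N A hℓN hA) (Res.FresBar_le_fullC N A hℓN hA) H

end Fermat.Agent.GJ.S37BarToFull

end
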