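/-
GATE-J / S37 path (helper75): `SpecializationExists` from ANY additive "reduction" map.

`helper37`'s `GJ/S37Pack.lean` reduces S37 to the existence of a Hecke-stable "kernel of
reduction" `J1 ≤ J` with four properties.  Here we remove the Hecke-stability requirement:
given ANY additive map `red : J →+ M` (for instance the prelude's `reductionModL A N`, for which
Hecke-equivariance is NOT known a priori), the subgroup
  `J1 := {x | ∀ T : HeckeAlg, red (T • x) = 0}`
is automatically a Hecke submodule, and it is a reduction kernel as soon as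
* `red` is injective on `p`-power torsion                       (S18-type input),
* `red (σ • x) = red x` for `σ` in the inertia group            (inertia acts trivially),
* `red x = 0 → red (σ • x) = 0` for Frobenius lifts `σ`          (kernel is Frobenius stable),
* `red (σ² x - T_ℓ σ x + ℓ x) = 0` for all `x : J`               (Eichler–Shimura relation),
because the Hecke algebra is commutative and commutes with the Galois action.
So no compatibility of `red` with the Hecke operators `T_q` (`q ∣ N`, `q = ℓ`, `q = p`, ...)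
has to be proved.
-/
import Mathlib
import Fermat.Prelude.Def_HeckeGalois_EichlerShimura
import Fermat.Agent.GJ.S37Pack

set_option autoImplicit false

namespace Fermat.Agent.GJ.S37Asm

open ModularCurve Fermat.Agent.GJ.S37Pack

section General

variable {K L : Type*} [Field K] [Field L] [Algebra K L]
variable {J : Type} [AddCommGroup J] [Module HeckeAlg J]
  [DistribMulAction (L ≃ₐ[K] L) J] [SMulCommClass (L ≃ₐ[K] L) HeckeAlg J]
variable {M : Type*} [AddCommGroup M]

/-- The largest Hecke submodule of `J` contained in the kernel of `red`. -/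
def heckeKernel (red : J →+ M) : Submodule HeckeAlg J where
  carrier := {x | ∀ T : HeckeAlg, red (T • x) = 0}
  zero_mem' := fun T => by rw [smul_zero, map_zero]
  add_mem' := fun {x y} hx hy T => by rw [smul_add, map_add, hx T, hy T, add_zero]
  smul_mem' := fun c x hx T => by rw [smul_smul]; exact hx (T * c)

theorem mem_heckeKernel {red : J →+ M} {x : J} :
    x ∈ heckeKernel red ↔ ∀ T : HeckeAlg, red (T • x) = 0 := Iff.rfl

theorem red_eq_zero_of_mem_heckeKernel {red : J →+ M} {x : J} (hx : x ∈ heckeKernel red) :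
    red x = 0 := by
  have := hx 1
  rwa [one_smul] at this

/-- The Hecke kernel of a reduction map with the four (non-Hecke) properties is a reduction
kernel in the sense of `GJ/S37Pack.lean`. -/
theorem isReductionKernel_heckeKernel (p : ℕ) {A : ValuationSubring L} {ℓ : ℕ} {hℓ : ℓ.Prime}
    (red : J →+ M)
    (hinj : ∀ x : J, (∃ n : ℕ, p ^ n • x = 0) → red x = 0 → x = 0)
    (hin : ∀ σ ∈ A.inertiaSubgroupIn K, ∀ x : J, red (σ • x) = red x)
    (hfr : ∀ σ : L ≃ₐ[K] L, A.IsFrobeniusAt σ ℓ → ∀ x : J, red x = 0 → red (σ • x) = 0)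
    (hrel : ∀ σ : L ≃ₐ[K] L, A.IsFrobeniusAt σ ℓ → ∀ x : J,
      red (σ • σ • x - heckeGen ⟨ℓ, hℓ⟩ • (σ • x) + ℓ • x) = 0) :
    IsReductionKernel (K := K) p J A ℓ hℓ (heckeKernel red) where
  inertia σ hσ x T := by
    rw [smul_sub, ← smul_comm σ T x, map_sub, hin σ hσ, sub_self]
  frob_stable σ hσ x hx T := by
    rw [← smul_comm σ T x]
    exact hfr σ hσ _ (hx T)
  torsion_free x hx ht := hinj x ht (red_eq_zero_of_mem_heckeKernel hx)
  relation σ hσ x T := by
    have h := hrel σ hσ (T • x)
    have e : T • (σ • σ • x - heckeGen ⟨ℓ, hℓ⟩ • (σ • x) + ℓ • x)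
        = σ • σ • (T • x) - heckeGen ⟨ℓ, hℓ⟩ • (σ • (T • x)) + ℓ • (T • x) := by
      rw [smul_add, smul_sub, smul_comm T (ℓ : ℕ) x, smul_comm T (heckeGen ⟨ℓ, hℓ⟩) (σ • x),
        ← smul_comm σ T x, ← smul_comm σ T (σ • x), ← smul_comm σ T x]
    rw [e]
    exact h

end General

/-- **S37 in reduction-map form**: `SpecializationExists` over `ℚ̄/ℚ` as soon as, at every prime
`ℓ ∤ N p` and every valuation subring `A` over `ℓ`, there is an additive map out of `J` which is
injective on `p`-power torsion, invariant under inertia, whose kernel is stable under the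
Frobenius lifts, and which kills the Eichler–Shimura expressions `σ² x - T_ℓ σ x + ℓ x`.
No Hecke-equivariance of the map is required. -/
theorem specializationExists_of_reductionMaps (N p : ℕ) (J : Type) [AddCommGroup J]
    [Module HeckeAlg J]
    [DistribMulAction (AlgebraicClosure ℚ ≃ₐ[ℚ] AlgebraicClosure ℚ) J]
    [SMulCommClass (AlgebraicClosure ℚ ≃ₐ[ℚ] AlgebraicClosure ℚ) HeckeAlg J]
    (h : ∀ ℓ : ℕ, (hℓ : ℓ.Prime) → ¬ ℓ ∣ N * p →
      ∀ A : ValuationSubring (AlgebraicClosure ℚ), A.LiesOverPrime ℓ →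
        ∃ (M : Type) (_ : AddCommGroup M) (red : J →+ M),
          (∀ x : J, (∃ n : ℕ, p ^ n • x = 0) → red x = 0 → x = 0) ∧
          (∀ σ ∈ A.inertiaSubgroupIn ℚ, ∀ x : J, red (σ • x) = red x) ∧
          (∀ σ : AlgebraicClosure ℚ ≃ₐ[ℚ] AlgebraicClosure ℚ, A.IsFrobeniusAt σ ℓ →
            ∀ x : J, red x = 0 → red (σ • x) = 0) ∧
          (∀ σ : AlgebraicClosure ℚ ≃ₐ[ℚ] AlgebraicClosure ℚ, A.IsFrobeniusAt σ ℓ →
            ∀ x : J, red (σ • σ • x - heckeGen ⟨ℓ, hℓ⟩ • (σ • x) + ℓ • x) = 0)) :
    SpecializationExists (K := ℚ) (L := AlgebraicClosure ℚ) N p J := by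
  refine specializationExists_of_kernels N p J fun ℓ hℓ hℓN A hA => ?_
  obtain ⟨M, _, red, hinj, hin, hfr, hrel⟩ := h ℓ hℓ hℓN A hA
  exact ⟨heckeKernel red, isReductionKernel_heckeKernel p red hinj hin hfr hrel⟩

end Fermat.Agent.GJ.S37Asm
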