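/-
GATE-J / S37 path (helper75): dry run of the frozen S37 statement against the prelude's reduction
map `reductionModL A N`, with everything that is still missing as explicit hypotheses:

* `hS18`  : the frozen S18 statement (J1's deliverable `Fermat.Agent.S18.result`);
* `hRED`  : `ReductionInputsModL A N` holds for `ℓ ∤ N` (existence of the place reduction map);
* `hI`    : `reductionModL A N (σ • x) = reductionModL A N x` for `σ` in the inertia group of `A`;
* `hF`    : the kernel of `reductionModL A N` is stable under the Frobenius lifts at `A`;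
* `hR`    : `reductionModL A N (σ² x - T_ℓ σ x + ℓ x) = 0` for ALL `x : JZero N`.

No Hecke-equivariance of `reductionModL` is needed (see `GJ/S37/Asm.lean`).
-/
import Mathlib
import Fermat.Prelude.Def_ModularCurve_HeckeModule
import Fermat.Prelude.Def_ModularCurve_ReductionModL
import Fermat.Agent.GJ.S37.Asm

set_option autoImplicit false

namespace Fermat.Agent.GJ.S37Asm

open ModularCurve

/-- The frozen S18 statement, as a `Prop`. -/
def S18Statement : Prop :=
  ∀ (N : ℕ) [NeZero N] {ℓ : ℕ} [Fact ℓ.Prime], ¬ ℓ ∣ N →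
    ∀ (A : ValuationSubring (AlgebraicClosure ℚ)), A.LiesOverPrime ℓ →
      ModularCurve.ReductionInputsModL A N → ∀ m : ℕ, ¬ ℓ ∣ m → ∀ z : ModularCurve.JZero N,
        m • z = 0 → ModularCurve.reductionModL A N z = 0 → z = 0

theorem s37_of_reductionModL (hS18 : S18Statement) (N p : ℕ) [NeZero N]
    (_hcomm : ModularCurve.HeckeOperatorsCommuteBar N) :
    letI := ModularCurve.heckeModuleBar N
    ∀ (_ : SMulCommClass (AlgebraicClosure ℚ ≃ₐ[ℚ] AlgebraicClosure ℚ) ModularCurve.HeckeAlg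
        (ModularCurve.JZero N)),
      (∀ ℓ : ℕ, ℓ.Prime → ¬ ℓ ∣ N * p →
        ∀ A : ValuationSubring (AlgebraicClosure ℚ), A.LiesOverPrime ℓ →
          ModularCurve.ReductionInputsModL A N) →
      (∀ ℓ : ℕ, ℓ.Prime → ¬ ℓ ∣ N * p →
        ∀ A : ValuationSubring (AlgebraicClosure ℚ), A.LiesOverPrime ℓ →
          ∀ σ ∈ A.inertiaSubgroupIn ℚ, ∀ x : ModularCurve.JZero N,
            ModularCurve.reductionModL A N (σ • x) = ModularCurve.reductionModL A N x) →
      (∀ ℓ : ℕ, ℓ.Prime → ¬ ℓ ∣ N * p →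
        ∀ A : ValuationSubring (AlgebraicClosure ℚ), A.LiesOverPrime ℓ →
          ∀ σ : AlgebraicClosure ℚ ≃ₐ[ℚ] AlgebraicClosure ℚ, A.IsFrobeniusAt σ ℓ →
            ∀ x : ModularCurve.JZero N, ModularCurve.reductionModL A N x = 0 →
              ModularCurve.reductionModL A N (σ • x) = 0) →
      (∀ ℓ : ℕ, (hℓ : ℓ.Prime) → ¬ ℓ ∣ N * p →
        ∀ A : ValuationSubring (AlgebraicClosure ℚ), A.LiesOverPrime ℓ →
          ∀ σ : AlgebraicClosure ℚ ≃ₐ[ℚ] AlgebraicClosure ℚ, A.IsFrobeniusAt σ ℓ →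
            ∀ x : ModularCurve.JZero N,
              ModularCurve.reductionModL A N
                (σ • σ • x - heckeGen ⟨ℓ, hℓ⟩ • (σ • x) + ℓ • x) = 0) →
      ModularCurve.SpecializationExists (K := ℚ) (L := AlgebraicClosure ℚ) N p
        (ModularCurve.JZero N) := by
  intro _hs hRED hI hF hR
  let _ := ModularCurve.heckeModuleBar N
  refine specializationExists_of_reductionMaps N p (ModularCurve.JZero N)
    fun ℓ hℓ hℓN A hA => ?_
  refine ⟨_, inferInstance, ModularCurve.reductionModL A N, ?_, hI ℓ hℓ hℓN A hA,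
    hF ℓ hℓ hℓN A hA, hR ℓ hℓ hℓN A hA⟩
  rintro x ⟨n, hn⟩ hx
  have : Fact ℓ.Prime := ⟨hℓ⟩
  have hℓN' : ¬ ℓ ∣ N := fun h => hℓN (Dvd.dvd.mul_right h p)
  have hℓp : ¬ ℓ ∣ p ^ n := fun h => hℓN (Dvd.dvd.mul_left (hℓ.dvd_of_dvd_pow h) N)
  exact hS18 N hℓN' A hA (hRED ℓ hℓ hℓN A hA) (p ^ n) hℓp x hn hx

end Fermat.Agent.GJ.S37Asm
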