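/-
GATE-J / S37 path, leaf (L4) (helper38): S37 at the small primes `ℓ ∈ {2, 3}` through an
AUXILIARY level.

`SpecializationExists` quantifies over all primes `ℓ ∤ N p`, so `ℓ = 2, 3` are needed, while the
good-reduction input (`g~ = g`, hence the place reduction map) is available only at the auxiliary
level `N' = lcm (N, 3)` resp. `lcm (N, 2)`.  `GJ/S37/Asm.lean` accepts ANY additive map out of
`J = J₀(N)`, so we use `red' ∘ pull` with `pull : J₀(N) → J₀(N')` the pullback of divisor classes
and `red'` the reduction at level `N'`.  This file is the formal assembly: the four properties of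
`red' ∘ pull` follow from the same four for `red'` and three properties of `pull`:
* `pull` commutes with the Galois action,
* the kernel of `pull` is killed by an integer `n` prime to `p`   (`n = [F_N' : F_N]`, an `ℓ`-power),
* `pull ∘ T_ℓ = T_ℓ' ∘ pull`.
-/
import Mathlib
import Fermat.Prelude.Def_ModularCurve_HeckeModule
import Fermat.Prelude.Def_ModularCurve_ReductionModL
import Fermat.Agent.GJ.S37.Dry

set_option autoImplicit false

namespace Fermat.Agent.GJ.S37Aux

open ModularCurve Fermat.Agent.GJ.S37Asm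

section Abstract

variable {G : Type*} [Group G]
variable {J J' M : Type*} [AddCommGroup J] [AddCommGroup J'] [AddCommGroup M]
  [DistribMulAction G J] [DistribMulAction G J']

/-- If the kernel of `pull` is killed by `n` and `n` is prime to `p`, then `pull` is injective on
`p`-power torsion. -/
theorem eq_zero_of_pull_eq_zero (pull : J →+ J') {n p : ℕ} (hnp : n.Coprime p)
    (hker : ∀ x : J, pull x = 0 → n • x = 0) {x : J} (hx : ∃ k : ℕ, p ^ k • x = 0)
    (h : pull x = 0) : x = 0 := by
  obtain ⟨k, hk⟩ := hx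
  have hn := hker x h
  have hcop : IsCoprime (n : ℤ) ((p ^ k : ℕ) : ℤ) :=
    Nat.isCoprime_iff_coprime.mpr (Nat.Coprime.pow_right k hnp)
  obtain ⟨a, b, hab⟩ := hcop
  have h1 : (a * (n : ℤ) + b * ((p ^ k : ℕ) : ℤ)) • x = 0 := by
    rw [add_smul, mul_smul, mul_smul, natCast_zsmul, natCast_zsmul, hn, hk, smul_zero, smul_zero,
      add_zero]
  rw [hab, one_smul] at h1
  exact h1

/-- injectivity on `p`-power torsion passes to `red' ∘ pull` -/
theorem hinj_comp (pull : J →+ J') (red' : J' →+ M) {n p : ℕ} (hnp : n.Coprime p)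
    (hker : ∀ x : J, pull x = 0 → n • x = 0)
    (hinj' : ∀ y : J', (∃ k : ℕ, p ^ k • y = 0) → red' y = 0 → y = 0) :
    ∀ x : J, (∃ k : ℕ, p ^ k • x = 0) → (red'.comp pull) x = 0 → x = 0 := by
  rintro x ⟨k, hk⟩ hx
  refine eq_zero_of_pull_eq_zero pull hnp hker ⟨k, hk⟩ (hinj' (pull x) ⟨k, ?_⟩ hx)
  rw [← map_nsmul, hk, map_zero]

/-- invariance under a set of group elements passes to `red' ∘ pull` -/
theorem hin_comp (pull : J →+ J') (red' : J' →+ M)
    (hpull : ∀ (σ : G) (x : J), pull (σ • x) = σ • pull x) {σ : G}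
    (hin' : ∀ y : J', red' (σ • y) = red' y) :
    ∀ x : J, (red'.comp pull) (σ • x) = (red'.comp pull) x := by
  intro x
  rw [AddMonoidHom.comp_apply, AddMonoidHom.comp_apply, hpull, hin']

/-- stability of the kernel passes to `red' ∘ pull` -/
theorem hfr_comp (pull : J →+ J') (red' : J' →+ M)
    (hpull : ∀ (σ : G) (x : J), pull (σ • x) = σ • pull x) {σ : G}
    (hfr' : ∀ y : J', red' y = 0 → red' (σ • y) = 0) :
    ∀ x : J, (red'.comp pull) x = 0 → (red'.comp pull) (σ • x) = 0 := by
  intro x hx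
  rw [AddMonoidHom.comp_apply, hpull]
  exact hfr' _ hx

/-- the Eichler–Shimura relation passes to `red' ∘ pull` when `pull` intertwines the operators -/
theorem hrel_comp (pull : J →+ J') (red' : J' →+ M)
    (hpull : ∀ (σ : G) (x : J), pull (σ • x) = σ • pull x)
    (T : J →+ J) (T' : J' →+ J') (hT : ∀ x : J, pull (T x) = T' (pull x)) (ℓ : ℕ) {σ : G}
    (hrel' : ∀ y : J', red' (σ • σ • y - T' (σ • y) + ℓ • y) = 0) :
    ∀ x : J, (red'.comp pull) (σ • σ • x - T (σ • x) + ℓ • x) = 0 := by
  intro x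
  rw [AddMonoidHom.comp_apply, map_add, map_sub, map_nsmul, hT, hpull, hpull]
  exact hrel' (pull x)

end Abstract

/-- **S37 through auxiliary levels.**  For every prime `ℓ ∤ N p` and every `A` over `ℓ` we are
given a level `N'` (`= N` for `ℓ ≥ 5`, `lcm (N, 3)` for `ℓ = 2`, `lcm (N, 2)` for `ℓ = 3`) with
`ℓ ∤ N'`, a Galois-equivariant additive map `pull : J₀(N) → J₀(N')` whose kernel is killed by an
integer prime to `p` and which intertwines the two Hecke operators `T_ℓ`, together with the three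
facts `hI`, `hF`, `hR` (in OPERATOR form) about the prelude's reduction map at level `N'`. -/
theorem s37_of_aux (hS18 : S18Statement) (N p : ℕ) [NeZero N]
    (hcomm : ModularCurve.HeckeOperatorsCommuteBar N) :
    letI := ModularCurve.heckeModuleBar N
    ∀ (_ : SMulCommClass (AlgebraicClosure ℚ ≃ₐ[ℚ] AlgebraicClosure ℚ) ModularCurve.HeckeAlg
        (ModularCurve.JZero N)),
      (∀ ℓ : ℕ, (hℓ : ℓ.Prime) → ¬ ℓ ∣ N * p →
        ∀ A : ValuationSubring (AlgebraicClosure ℚ), A.LiesOverPrime ℓ →
          ∃ (N' : ℕ) (_ : NeZero N') (pull : ModularCurve.JZero N →+ ModularCurve.JZero N')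
            (n : ℕ),
            ¬ ℓ ∣ N' ∧ n.Coprime p ∧
            (∀ (σ : AlgebraicClosure ℚ ≃ₐ[ℚ] AlgebraicClosure ℚ) (x : ModularCurve.JZero N),
              pull (σ • x) = σ • pull x) ∧
            (∀ x : ModularCurve.JZero N, pull x = 0 → n • x = 0) ∧
            (∀ x : ModularCurve.JZero N,
              pull (ModularCurve.heckeOperatorBar N ⟨ℓ, hℓ⟩ x)
                = ModularCurve.heckeOperatorBar N' ⟨ℓ, hℓ⟩ (pull x)) ∧
            ModularCurve.ReductionInputsModL A N' ∧
            (∀ σ ∈ A.inertiaSubgroupIn ℚ, ∀ y : ModularCurve.JZero N',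
              ModularCurve.reductionModL A N' (σ • y) = ModularCurve.reductionModL A N' y) ∧
            (∀ σ : AlgebraicClosure ℚ ≃ₐ[ℚ] AlgebraicClosure ℚ, A.IsFrobeniusAt σ ℓ →
              ∀ y : ModularCurve.JZero N', ModularCurve.reductionModL A N' y = 0 →
                ModularCurve.reductionModL A N' (σ • y) = 0) ∧
            (∀ σ : AlgebraicClosure ℚ ≃ₐ[ℚ] AlgebraicClosure ℚ, A.IsFrobeniusAt σ ℓ →
              ∀ y : ModularCurve.JZero N',
                ModularCurve.reductionModL A N'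
                  (σ • σ • y - ModularCurve.heckeOperatorBar N' ⟨ℓ, hℓ⟩ (σ • y) + ℓ • y) = 0)) →
      ModularCurve.SpecializationExists (K := ℚ) (L := AlgebraicClosure ℚ) N p
        (ModularCurve.JZero N) := by
  intro _hs H
  let _ := ModularCurve.heckeModuleBar N
  refine specializationExists_of_reductionMaps N p (ModularCurve.JZero N)
    fun ℓ hℓ hℓN A hA => ?_
  obtain ⟨N', _, pull, n, hℓN', hnp, hpull, hker, hT, hRED, hI, hF, hR⟩ := H ℓ hℓ hℓN A hA
  have : Fact ℓ.Prime := ⟨hℓ⟩
  have hinj' : ∀ y : ModularCurve.JZero N', (∃ k : ℕ, p ^ k • y = 0) →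
      ModularCurve.reductionModL A N' y = 0 → y = 0 := by
    rintro y ⟨k, hk⟩ hy
    have hℓp : ¬ ℓ ∣ p ^ k := fun h => hℓN (Dvd.dvd.mul_left (hℓ.dvd_of_dvd_pow h) N)
    exact hS18 N' hℓN' A hA hRED (p ^ k) hℓp y hk hy
  refine ⟨_, inferInstance, (ModularCurve.reductionModL A N').comp pull,
    hinj_comp pull _ hnp hker hinj', ?_, ?_, ?_⟩
  · intro σ hσ
    exact hin_comp pull _ hpull (hI σ hσ)
  · intro σ hσ
    exact hfr_comp pull _ hpull (hF σ hσ)
  · intro σ hσ x
    have h := hrel_comp pull (ModularCurve.reductionModL A N') hpull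
      ((ModularCurve.heckeOperatorBar N ⟨ℓ, hℓ⟩ : Module.End ℤ (ModularCurve.JZero N))
        : ModularCurve.JZero N →+ ModularCurve.JZero N)
      ((ModularCurve.heckeOperatorBar N' ⟨ℓ, hℓ⟩ : Module.End ℤ (ModularCurve.JZero N'))
        : ModularCurve.JZero N' →+ ModularCurve.JZero N')
      (fun x => hT x) ℓ (hR σ hσ) x
    rw [ModularCurve.heckeModuleBar_heckeGen_smul hcomm]
    exact h

end Fermat.Agent.GJ.S37Aux
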