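/-
GATE-J / S37 path (helper37): the BOUNDED-HOMOMORPHISM trick.

An additive map `δ` from divisors of a function field to a free abelian group `ι →₀ ℤ` which
* kills principal divisors,
* has uniformly bounded values on single places (`‖δ (P)‖₁ ≤ B`),
vanishes on ALL divisors of degree zero as soon as every class of degree zero has a representative
of bounded `ℓ¹`-norm (Riemann's theorem: `D ∼ E - g P₀` with `E ≥ 0`, `deg E = g`).
Indeed `n ‖δ D‖₁ = ‖δ (n D)‖₁ = ‖δ (Eₙ)‖₁ ≤ M B` for all `n`.

This REPLACES the divisibility of `Pic⁰` in the passage from "`r_* ∘ T_ℓ = (Fr + Ve) ∘ r_*` on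
principal divisors" to "on all of `Div⁰`" (Eichler–Shimura congruence for ALL points, needed for
S37; the operators involved are sums of `ℓ + 1` resp. `1 + ℓ` places, so `B = 2 (ℓ + 1)`).
-/
import Mathlib
import Fermat.Prelude.Def_AlgebraicCurve_DivisorClassGroup

set_option autoImplicit false

namespace Fermat.Agent.GJ.S37Bounded

open AlgebraicCurve

section Norm

variable {ι : Type*}

/-- The `ℓ¹`-norm of a finitely supported integer valued function. -/
def norm1 (f : ι →₀ ℤ) : ℕ := ∑ i ∈ f.support, (f i).natAbs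

theorem norm1_eq_sum_of_subset (f : ι →₀ ℤ) {s : Finset ι} (hs : f.support ⊆ s) :
    norm1 f = ∑ i ∈ s, (f i).natAbs := by
  unfold norm1
  refine Finset.sum_subset hs fun i _ hi => ?_
  rw [Finsupp.notMem_support_iff.mp hi, Int.natAbs_zero]

@[simp] theorem norm1_zero : norm1 (0 : ι →₀ ℤ) = 0 := by simp [norm1]

theorem norm1_eq_zero {f : ι →₀ ℤ} : norm1 f = 0 ↔ f = 0 := by
  refine ⟨fun h => ?_, fun h => by rw [h, norm1_zero]⟩
  ext i
  by_cases hi : i ∈ f.support
  · have := (Finset.sum_eq_zero_iff.mp h) i hi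
    simpa using this
  · simpa using Finsupp.notMem_support_iff.mp hi

theorem norm1_add_le [DecidableEq ι] (f g : ι →₀ ℤ) : norm1 (f + g) ≤ norm1 f + norm1 g := by
  have h1 : (f + g).support ⊆ f.support ∪ g.support := Finsupp.support_add
  rw [norm1_eq_sum_of_subset (f + g) h1,
    norm1_eq_sum_of_subset f Finset.subset_union_left,
    norm1_eq_sum_of_subset g Finset.subset_union_right, ← Finset.sum_add_distrib]
  exact Finset.sum_le_sum fun i _ => by rw [Finsupp.add_apply]; exact Int.natAbs_add_le _ _

theorem norm1_zsmul (n : ℤ) (f : ι →₀ ℤ) : norm1 (n • f) = n.natAbs * norm1 f := by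
  have h1 : (n • f).support ⊆ f.support := Finsupp.support_smul
  rw [norm1_eq_sum_of_subset (n • f) h1, norm1, Finset.mul_sum]
  exact Finset.sum_congr rfl fun i _ => by
    rw [Finsupp.smul_apply, smul_eq_mul, Int.natAbs_mul]

theorem norm1_nsmul (n : ℕ) (f : ι →₀ ℤ) : norm1 (n • f) = n * norm1 f := by
  have := norm1_zsmul (n : ℤ) f
  rwa [natCast_zsmul, Int.natAbs_natCast] at this

theorem norm1_single (i : ι) (n : ℤ) : norm1 (Finsupp.single i n) = n.natAbs := by
  classical
  by_cases hn : n = 0
  · subst hn; simp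
  · rw [norm1, Finsupp.support_single_ne_zero i hn, Finset.sum_singleton, Finsupp.single_eq_same]

end Norm

section Bounded

variable {ι : Type*}

/-- A homomorphism into a free abelian group with bounded `ℓ¹`-norm is zero. -/
theorem eq_zero_of_bounded {G : Type*} [AddCommGroup G] (δ : G →+ (ι →₀ ℤ)) (C : ℕ)
    (h : ∀ g : G, norm1 (δ g) ≤ C) (g : G) : δ g = 0 := by
  rw [← norm1_eq_zero]
  by_contra hne
  have h1 := h ((C + 1) • g)
  rw [map_nsmul, norm1_nsmul] at h1
  have h2 : 1 ≤ norm1 (δ g) := Nat.one_le_iff_ne_zero.mpr hne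
  nlinarith

variable {K F : Type*} [Field K] [Field F] [Algebra K F]

/-- `‖δ E‖₁ ≤ ‖E‖₁ · B` if `‖δ P‖₁ ≤ B` for every place `P`. -/
theorem norm1_map_le (δ : Divisor K F →+ (ι →₀ ℤ)) (B : ℕ)
    (hB : ∀ P : Place K F, norm1 (δ (Finsupp.single P 1)) ≤ B) (E : Divisor K F) :
    norm1 (δ E) ≤ norm1 E * B := by
  classical
  induction E using Finsupp.induction with
  | zero => simp
  | single_add P n E hP hn ih =>
    have hsingle : norm1 (δ (Finsupp.single P n)) ≤ n.natAbs * B := by
      have : (Finsupp.single P n : Divisor K F) = n • Finsupp.single P 1 := by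
        rw [Finsupp.smul_single, smul_eq_mul, mul_one]
      rw [this, map_zsmul, norm1_zsmul]
      exact Nat.mul_le_mul_left _ (hB P)
    have hnorm : norm1 (Finsupp.single P n + E) = n.natAbs + norm1 E := by
      have hdisj : Disjoint (Finsupp.single P n).support E.support := by
        rw [Finsupp.support_single_ne_zero P hn, Finset.disjoint_singleton_left]
        exact hP
      unfold norm1
      rw [Finsupp.support_add_eq hdisj, Finset.sum_union hdisj,
        Finsupp.support_single_ne_zero P hn, Finset.sum_singleton, Finsupp.add_apply,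
        Finsupp.single_eq_same, Finsupp.notMem_support_iff.mp hP, add_zero]
      congr 1
      refine Finset.sum_congr rfl fun i hi => ?_
      have hiP : i ≠ P := fun h => hP (h ▸ hi)
      rw [Finsupp.add_apply, Finsupp.single_eq_of_ne hiP, zero_add]
    rw [map_add, hnorm, add_mul]
    exact (norm1_add_le _ _).trans (add_le_add hsingle ih)

/-- **Bounded-homomorphism trick.**  `δ` kills principal divisors, is bounded on places, and
degree-zero classes have representatives of bounded norm: then `δ` vanishes on `Div⁰`. -/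
theorem eq_zero_on_degZero (δ : Divisor K F →+ (ι →₀ ℤ))
    (hprin : ∀ D ∈ Divisor.principal (K := K) (F := F), δ D = 0) (B M : ℕ)
    (hB : ∀ P : Place K F, norm1 (δ (Finsupp.single P 1)) ≤ B)
    (hrep : ∀ D ∈ Divisor.degZero (K := K) (F := F), ∃ E : Divisor K F,
      norm1 E ≤ M ∧ D - E ∈ Divisor.principal (K := K) (F := F))
    {D : Divisor K F} (hD : D ∈ Divisor.degZero (K := K) (F := F)) : δ D = 0 := by
  let δ' : Divisor.degZero (K := K) (F := F) →+ (ι →₀ ℤ) :=
    δ.comp (Divisor.degZero (K := K) (F := F)).subtype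
  have hbd : ∀ g : Divisor.degZero (K := K) (F := F), norm1 (δ' g) ≤ M * B := by
    intro g
    obtain ⟨E, hE, hDE⟩ := hrep g.1 g.2
    have h1 : δ g.1 = δ E := by
      have := hprin _ hDE
      rwa [map_sub, sub_eq_zero] at this
    change norm1 (δ g.1) ≤ M * B
    rw [h1]
    exact (norm1_map_le δ B hB E).trans (Nat.mul_le_mul_right _ hE)
  exact eq_zero_of_bounded δ' (M * B) hbd ⟨D, hD⟩

end Bounded

end Fermat.Agent.GJ.S37Bounded
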