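/-
GATE-J / S37 path (helper37): the hypothesis `hrep` of the bounded-homomorphism trick
(`GJ/S37/Bounded.lean`, `eq_zero_on_degZero`) from Riemann's theorem (`RR/EffRep.lean`):
every divisor class of degree zero has a representative `E - n P` with `E ≥ 0`,
`0 ≤ n ≤ n₁`, `deg E = n · deg P`, hence of `ℓ¹`-norm `≤ n₁ (deg P + 1)`; `n₁` only depends on the
function field (`n₁ = max 0 (γ + 1)`, `γ` the Riemann constant).

Final export: `eq_zero_on_degZero_of_riemann` — a homomorphism `δ : Div(F) → ι →₀ ℤ` killing principal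
divisors and uniformly bounded on places vanishes on `Div⁰(F)` (no divisibility of `Pic⁰` needed).
-/
import Fermat.Agent.GJ.S37.Bounded
import Fermat.Agent.RR.EffRep

set_option autoImplicit false

namespace Fermat.Agent.GJ.S37BoundedRR

open AlgebraicCurve Fermat.Agent.GJ.S37Bounded Fermat.Agent.RR.EffRep Fermat.Agent.RRh45
  Fermat.Agent.RR.Bound

variable {K F : Type*} [Field K] [Field F] [Algebra K F]

theorem degree_eq_sum (D : Divisor K F) :
    Divisor.degree D = ∑ v ∈ D.support, D v * (v.deg : ℤ) := by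
  simp [Divisor.degree, Finsupp.sum]

/-- The `ℓ¹`-norm of an effective divisor is at most its degree. -/
theorem norm1_le_degree [FiniteResidues K F] {E : Divisor K F} (hE : 0 ≤ E) :
    (norm1 E : ℤ) ≤ Divisor.degree E := by
  rw [degree_eq_sum, norm1]
  push_cast
  refine Finset.sum_le_sum fun v _ => ?_
  have h0 : 0 ≤ E v := by simpa using Finsupp.le_def.mp hE v
  have h1 : (1 : ℤ) ≤ v.deg := by exact_mod_cast deg_pos v
  rw [abs_of_nonneg h0]
  nlinarith

variable [FiniteResidues K F] [HasPrincipalDivisors K F]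

/-- For `D` of degree zero the minimal twist is `≥ 0`. -/
theorem minTwist_nonneg (P : Place K F) {D : Divisor K F}
    (hD : D ∈ Divisor.degZero (K := K) (F := F)) : 0 ≤ minTwist D P := by
  have h1 := degree_nonneg_of_nonneg (effRep_nonneg D P)
  rw [degree_effRep, Divisor.mem_degZero.mp hD, zero_add] at h1
  have hdeg : (0 : ℤ) < P.deg := by exact_mod_cast deg_pos P
  exact nonneg_of_mul_nonneg_left h1 hdeg

/-- Riemann: the minimal twist of a degree zero divisor is bounded independently of `D`. -/
theorem exists_minTwist_le (P : Place K F) :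
    ∃ n₁ : ℕ, ∀ D ∈ Divisor.degZero (K := K) (F := F), minTwist D P ≤ n₁ := by
  obtain ⟨γ, hγ⟩ := riemann_bound (K := K) (F := F)
  refine ⟨(max 0 (γ + 1)).toNat, fun D hD => ?_⟩
  have hn0 : (0 : ℤ) ≤ max 0 (γ + 1) := le_max_left _ _
  rw [Int.toNat_of_nonneg hn0]
  apply minTwist_le
  intro hbot
  have h1 := hγ (tw D P (max 0 (γ + 1)))
  rw [hbot, finrank_bot, degree_tw, Divisor.mem_degZero.mp hD] at h1
  have hn1 : γ + 1 ≤ max 0 (γ + 1) := le_max_right _ _
  have hdeg : (1 : ℤ) ≤ P.deg := by exact_mod_cast deg_pos P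
  have : max 0 (γ + 1) * 1 ≤ max 0 (γ + 1) * P.deg := mul_le_mul_of_nonneg_left hdeg hn0
  push_cast at h1
  linarith

/-- **Bounded representatives.** Every divisor of degree zero is linearly equivalent to a divisor
of `ℓ¹`-norm at most `M`, with `M` depending only on the function field. -/
theorem exists_bounded_rep (P : Place K F) :
    ∃ M : ℕ, ∀ D ∈ Divisor.degZero (K := K) (F := F), ∃ E : Divisor K F,
      norm1 E ≤ M ∧ D - E ∈ Divisor.principal (K := K) (F := F) := by
  classical
  obtain ⟨n₁, hn₁⟩ := exists_minTwist_le (K := K) (F := F) P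
  refine ⟨n₁ * P.deg + n₁, fun D hD => ?_⟩
  set n₀ : ℤ := minTwist D P with hn₀
  have h0 : 0 ≤ n₀ := minTwist_nonneg P hD
  have h1 : n₀ ≤ n₁ := hn₁ D hD
  refine ⟨effRep D P - Finsupp.single P n₀, ?_, ?_⟩
  · have hE := norm1_le_degree (effRep_nonneg D P)
    rw [degree_effRep, Divisor.mem_degZero.mp hD, zero_add] at hE
    have hsub : norm1 (effRep D P - Finsupp.single P n₀) ≤
        norm1 (effRep D P) + norm1 (Finsupp.single P (-n₀) : Divisor K F) := by
      have : effRep D P - Finsupp.single P n₀ = effRep D P + Finsupp.single P (-n₀) := by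
        rw [Finsupp.single_neg, sub_eq_add_neg]
      rw [this]
      exact norm1_add_le _ _
    rw [norm1_single, Int.natAbs_neg] at hsub
    have hdeg : (0 : ℤ) ≤ P.deg := by exact_mod_cast Nat.zero_le _
    have h2 : n₀ * (P.deg : ℤ) ≤ n₁ * P.deg := mul_le_mul_of_nonneg_right h1 hdeg
    have h3 : (n₀.natAbs : ℤ) = n₀ := Int.natAbs_of_nonneg h0
    have : ((norm1 (effRep D P - Finsupp.single P n₀) : ℕ) : ℤ) ≤ ((n₁ * P.deg + n₁ : ℕ) : ℤ) := by
      have hsub' : ((norm1 (effRep D P - Finsupp.single P n₀) : ℕ) : ℤ) ≤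
          (norm1 (effRep D P) : ℤ) + (n₀.natAbs : ℤ) := by exact_mod_cast hsub
      push_cast
      linarith
    exact_mod_cast this
  · have h := effRep_sub_mem_principal D P
    have : D - (effRep D P - Finsupp.single P n₀) = -(effRep D P - tw D P (minTwist D P)) := by
      unfold tw
      rw [← hn₀]
      abel
    rw [this]
    exact neg_mem h

/-- **Bounded-homomorphism trick, final form.**  A homomorphism from divisors to a free abelian
group that kills principal divisors and is uniformly bounded on places vanishes on `Div⁰`. -/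
theorem eq_zero_on_degZero_of_riemann {ι : Type*} (δ : Divisor K F →+ (ι →₀ ℤ))
    (hprin : ∀ D ∈ Divisor.principal (K := K) (F := F), δ D = 0) (B : ℕ)
    (hB : ∀ P : Place K F, norm1 (δ (Finsupp.single P 1)) ≤ B)
    {D : Divisor K F} (hD : D ∈ Divisor.degZero (K := K) (F := F)) : δ D = 0 := by
  by_cases hne : Nonempty (Place K F)
  · obtain ⟨P⟩ := hne
    obtain ⟨M, hM⟩ := exists_bounded_rep (K := K) (F := F) P
    exact eq_zero_on_degZero δ hprin B M hB hM hD
  · have : IsEmpty (Place K F) := not_nonempty_iff.mp hne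
    have hD0 : D = 0 := Subsingleton.elim _ _
    rw [hD0, map_zero]

end Fermat.Agent.GJ.S37BoundedRR
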