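import Mathlib
import Fermat.Prelude.Def_ModularCurve_X0ModL
import Fermat.Prelude.Def_AlgebraicCurve_BaseChangeGalois
import Fermat.Agent.GJ.J3.QSeries

/-!
# GATE-J / S37-PATH, leaf (L3): the arithmetic Frobenius of the special fibre

`k` a perfect field of characteristic `ℓ`, `F̃ = modularFunctionFieldFullC k N ⊂ k((q))`.

* `coeffSemilinear k N φ : SemilinearAut k F̃` for every ring automorphism `φ` of `k`
  (coefficientwise action; a group homomorphism `RingAut k →* SemilinearAut k F̃`).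
* `frobAut k ℓ N := coeffSemilinear k N (frobeniusEquiv k ℓ)`: the arithmetic Frobenius `Φ`.
  The prelude then supplies its action on `Place k F̃`, `Divisor k F̃`, `Pic0 = JZeroC k N`
  with `ord_{Φ Q} (Φ y) = ord_Q y`, degrees preserved.
* `Φ (y(q^ℓ)) = y ^ ℓ`, i.e. `QS.frobField y = (Φ⁻¹ y) ^ ℓ`.
* `Fr := Φ` and `Ve := ℓ · Φ⁻¹` on divisors, degree-zero divisors and `JZeroC k N`:
  `Fr ∘ Ve = Ve ∘ Fr = ℓ`, `div (Φ y) = Fr (div y)`, `div (y(q^ℓ)) = Ve (div y)`.
-/

set_option autoImplicit false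

noncomputable section

namespace Fermat.Agent.GJ.S37.Frob

open HahnSeries ModularCurve AlgebraicCurve
open Fermat.Agent.GJ.J3

/-! ### generic: divisors of `g • f` for a semilinear automorphism -/

section Generic

variable {K F : Type*} [Field K] [Field F] [Algebra K F]

/-- `div (g • f) = g • div f` -/
theorem divisor_smul_eq_ord (g : SemilinearAut K F) {D : Divisor K F} {f : F}
    (hD : ∀ Q : Place K F, D Q = Q.ord f) (Q : Place K F) : (g • D) Q = Q.ord (g • f) := by
  rw [SemilinearAut.divisor_smul_apply, hD (g⁻¹ • Q)]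
  have h := SemilinearAut.ord_smul g (g⁻¹ • Q) f
  rw [smul_inv_smul] at h
  exact h.symm

theorem ord_inv_smul (g : SemilinearAut K F) (Q : Place K F) (f : F) :
    Q.ord (g⁻¹ • f) = (g • Q).ord f := by
  have h := SemilinearAut.ord_smul g Q (g⁻¹ • f)
  rw [smul_inv_smul] at h
  exact h.symm

theorem ord_pow (Q : Place K F) (f : F) (n : ℕ) : Q.ord (f ^ n) = n * Q.ord f := by
  rw [← zpow_natCast, Q.ord_zpow]

end Generic

/-! ### coefficientwise automorphisms of the level-`N` field -/

section Coeff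

variable (k : Type*) [Field k] (N : ℕ)

/-- coefficientwise ring endomorphisms preserve the level-`N` field -/
theorem coeffMap_mem_full (φ : k →+* k) {x : LaurentSeries k}
    (hx : x ∈ modularFunctionFieldFullC k N) : coeffMap φ x ∈ modularFunctionFieldFullC k N := by
  unfold modularFunctionFieldFullC at hx
  induction hx using IntermediateField.adjoin_induction with
  | mem x hx =>
    obtain ⟨d, hne, hd, rfl⟩ := hx
    rw [coeffMap_qExpand, coeffMap_jqModC]
    exact jqModCd_mem_full k N hd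
  | algebraMap c =>
    rw [coeffMap_algebraMap]
    exact (modularFunctionFieldFullC k N).algebraMap_mem _
  | add x y hx hy ihx ihy => rw [map_add]; exact add_mem ihx ihy
  | inv x hx ih => rw [map_inv₀]; exact inv_mem ih
  | mul x y hx hy ihx ihy => rw [map_mul]; exact mul_mem ihx ihy

theorem coeffMap_symm_coeffMap (φ : k ≃+* k) (x : LaurentSeries k) :
    coeffMap (φ.symm : k →+* k) (coeffMap (φ : k →+* k) x) = x := by
  rw [coeffMap_coeffMap,
    coeffMap_congr (g := RingHom.id k) (RingHom.ext fun a => φ.symm_apply_apply a) x, coeffMap_id]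

theorem coeffMap_coeffMap_symm (φ : k ≃+* k) (x : LaurentSeries k) :
    coeffMap (φ : k →+* k) (coeffMap (φ.symm : k →+* k) x) = x := by
  rw [coeffMap_coeffMap,
    coeffMap_congr (g := RingHom.id k) (RingHom.ext fun a => φ.apply_symm_apply a) x, coeffMap_id]

/-- the coefficientwise action of `φ ∈ Aut(k)` on the level-`N` field -/
def coeffAut (φ : k ≃+* k) : modularFunctionFieldFullC k N ≃+* modularFunctionFieldFullC k N where
  toFun x := ⟨coeffMap (φ : k →+* k) (x : LaurentSeries k), coeffMap_mem_full k N _ x.2⟩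
  invFun x := ⟨coeffMap (φ.symm : k →+* k) (x : LaurentSeries k), coeffMap_mem_full k N _ x.2⟩
  left_inv x := Subtype.ext (coeffMap_symm_coeffMap k φ _)
  right_inv x := Subtype.ext (coeffMap_coeffMap_symm k φ _)
  map_mul' x y := Subtype.ext (map_mul (coeffMap (φ : k →+* k)) _ _)
  map_add' x y := Subtype.ext (map_add (coeffMap (φ : k →+* k)) _ _)

@[simp]
theorem coe_coeffAut_apply (φ : k ≃+* k) (x : modularFunctionFieldFullC k N) :
    (coeffAut k N φ x : LaurentSeries k) = coeffMap (φ : k →+* k) (x : LaurentSeries k) := rfl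

@[simp]
theorem coe_coeffAut_symm_apply (φ : k ≃+* k) (x : modularFunctionFieldFullC k N) :
    ((coeffAut k N φ).symm x : LaurentSeries k)
      = coeffMap (φ.symm : k →+* k) (x : LaurentSeries k) := rfl

theorem coeffAut_algebraMap (φ : k ≃+* k) (a : k) :
    coeffAut k N φ (algebraMap k (modularFunctionFieldFullC k N) a)
      = algebraMap k (modularFunctionFieldFullC k N) (φ a) :=
  Subtype.ext (coeffMap_algebraMap (φ : k →+* k) a)

/-- the coefficientwise action as a homomorphism `Aut(k) → SemilinearAut k F̃` -/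
def coeffSemilinear : RingAut k →* SemilinearAut k (modularFunctionFieldFullC k N) where
  toFun φ := ⟨(coeffAut k N φ, φ), fun a => coeffAut_algebraMap k N φ a⟩
  map_one' := by
    refine Subtype.ext (Prod.ext (RingEquiv.ext fun x => Subtype.ext ?_) rfl)
    show coeffMap (((1 : RingAut k) : k ≃+* k) : k →+* k) (x : LaurentSeries k) = x
    exact (coeffMap_congr (g := RingHom.id k) (RingHom.ext fun _ => rfl) _).trans (coeffMap_id _)
  map_mul' φ ψ := by
    refine Subtype.ext (Prod.ext (RingEquiv.ext fun x => Subtype.ext ?_) rfl)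
    show coeffMap (((φ * ψ : RingAut k) : k ≃+* k) : k →+* k) (x : LaurentSeries k)
      = coeffMap ((φ : k ≃+* k) : k →+* k) (coeffMap ((ψ : k ≃+* k) : k →+* k) x)
    rw [coeffMap_coeffMap]
    exact coeffMap_congr (RingHom.ext fun _ => rfl) _

@[simp]
theorem toRingAut_coeffSemilinear (φ : RingAut k) :
    SemilinearAut.toRingAut (coeffSemilinear k N φ) = coeffAut k N φ := rfl

@[simp]
theorem baseAut_coeffSemilinear (φ : RingAut k) :
    SemilinearAut.baseAut (coeffSemilinear k N φ) = φ := rfl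

theorem coe_coeffSemilinear_smul (φ : RingAut k) (x : modularFunctionFieldFullC k N) :
    ((coeffSemilinear k N φ • x : modularFunctionFieldFullC k N) : LaurentSeries k)
      = coeffMap ((φ : k ≃+* k) : k →+* k) (x : LaurentSeries k) := rfl

theorem coe_coeffSemilinear_inv_smul (φ : RingAut k) (x : modularFunctionFieldFullC k N) :
    (((coeffSemilinear k N φ)⁻¹ • x : modularFunctionFieldFullC k N) : LaurentSeries k)
      = coeffMap (((φ : k ≃+* k).symm : k ≃+* k) : k →+* k) (x : LaurentSeries k) := rfl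

end Coeff

/-! ### the arithmetic Frobenius -/

section Frobenius

variable (k : Type*) [Field k] (ℓ : ℕ) [Fact ℓ.Prime] [CharP k ℓ] [PerfectRing k ℓ] (N : ℕ)

/-- the arithmetic Frobenius `Φ` of the special fibre: `x ↦ x^ℓ` on the coefficients -/
def frobAut : SemilinearAut k (modularFunctionFieldFullC k N) :=
  coeffSemilinear k N (frobeniusEquiv k ℓ)

@[simp]
theorem baseAut_frobAut : SemilinearAut.baseAut (frobAut k ℓ N) = frobeniusEquiv k ℓ := rfl

theorem coe_frobAut_smul (x : modularFunctionFieldFullC k N) :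
    ((frobAut k ℓ N • x : modularFunctionFieldFullC k N) : LaurentSeries k)
      = coeffMap (frobenius k ℓ) (x : LaurentSeries k) := rfl

theorem coe_frobAut_inv_smul (x : modularFunctionFieldFullC k N) :
    (((frobAut k ℓ N)⁻¹ • x : modularFunctionFieldFullC k N) : LaurentSeries k)
      = coeffMap (((frobeniusEquiv k ℓ).symm : k ≃+* k) : k →+* k) (x : LaurentSeries k) := rfl

theorem frobAut_smul_algebraMap (a : k) :
    frobAut k ℓ N • algebraMap k (modularFunctionFieldFullC k N) a
      = algebraMap k (modularFunctionFieldFullC k N) (a ^ ℓ) :=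
  SemilinearAut.smul_algebraMap _ a

/-- `ord_{ΦQ} (Φ y) = ord_Q y` -/
theorem ord_frobAut_smul (Q : Place k (modularFunctionFieldFullC k N))
    (y : modularFunctionFieldFullC k N) :
    (frobAut k ℓ N • Q).ord (frobAut k ℓ N • y) = Q.ord y :=
  SemilinearAut.ord_smul _ Q y

theorem deg_frobAut_smul (Q : Place k (modularFunctionFieldFullC k N)) :
    (frobAut k ℓ N • Q).deg = Q.deg :=
  SemilinearAut.deg_smul _ Q

section Verschiebung

variable [NeZero ℓ] [NeZero N]

/-- `Φ (y(q^ℓ)) = y ^ ℓ` -/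
theorem frobAut_smul_frobField (y : modularFunctionFieldFullC k N) :
    frobAut k ℓ N • QS.frobField k ℓ N y = y ^ ℓ := by
  apply Subtype.ext
  rw [coe_frobAut_smul, QS.coe_frobField, coeffMap_qExpand]
  exact (QS.pow_char_eq_qExpand ℓ (y : LaurentSeries k)).symm

/-- `y(q^ℓ) = (Φ⁻¹ y) ^ ℓ` -/
theorem frobField_eq (y : modularFunctionFieldFullC k N) :
    QS.frobField k ℓ N y = ((frobAut k ℓ N)⁻¹ • y) ^ ℓ := by
  apply Subtype.ext
  rw [QS.coe_frobField]
  show qExpand k ℓ (y : LaurentSeries k)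
    = (((frobAut k ℓ N)⁻¹ • y : modularFunctionFieldFullC k N) : LaurentSeries k) ^ ℓ
  rw [coe_frobAut_inv_smul, QS.pow_char_eq_qExpand ℓ]
  congr 1
  exact (coeffMap_coeffMap_symm k (frobeniusEquiv k ℓ) _).symm

/-- `ord_Q (y(q^ℓ)) = ℓ · ord_{ΦQ} y` -/
theorem ord_frobField (Q : Place k (modularFunctionFieldFullC k N))
    (y : modularFunctionFieldFullC k N) :
    Q.ord (QS.frobField k ℓ N y) = ℓ * (frobAut k ℓ N • Q).ord y := by
  rw [frobField_eq, ord_pow, ord_inv_smul]

end Verschiebung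

/-! ### `Fr` and `Ve` on divisors -/

/-- `Fr = Φ_*` on divisors -/
def FrDiv : Divisor k (modularFunctionFieldFullC k N) →+ Divisor k (modularFunctionFieldFullC k N) :=
  DistribSMul.toAddMonoidHom _ (frobAut k ℓ N)

/-- `Ve = ℓ · Φ⁻¹_*` on divisors -/
def VeDiv : Divisor k (modularFunctionFieldFullC k N) →+ Divisor k (modularFunctionFieldFullC k N) :=
  ℓ • DistribSMul.toAddMonoidHom _ (frobAut k ℓ N)⁻¹

theorem FrDiv_apply (D : Divisor k (modularFunctionFieldFullC k N)) :
    FrDiv k ℓ N D = frobAut k ℓ N • D := rfl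

theorem VeDiv_apply (D : Divisor k (modularFunctionFieldFullC k N)) :
    VeDiv k ℓ N D = ℓ • ((frobAut k ℓ N)⁻¹ • D) := rfl

theorem FrDiv_single (Q : Place k (modularFunctionFieldFullC k N)) (n : ℤ) :
    FrDiv k ℓ N (Finsupp.single Q n) = Finsupp.single (frobAut k ℓ N • Q) n := by
  rw [FrDiv_apply, SemilinearAut.smul_single]

theorem VeDiv_single (Q : Place k (modularFunctionFieldFullC k N)) (n : ℤ) :
    VeDiv k ℓ N (Finsupp.single Q n) = Finsupp.single ((frobAut k ℓ N)⁻¹ • Q) (ℓ * n) := by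
  rw [VeDiv_apply, SemilinearAut.smul_single, Finsupp.smul_single, nsmul_eq_mul]

theorem FrDiv_VeDiv (D : Divisor k (modularFunctionFieldFullC k N)) :
    FrDiv k ℓ N (VeDiv k ℓ N D) = ℓ • D := by
  rw [FrDiv_apply, VeDiv_apply, smul_comm, smul_inv_smul]

theorem VeDiv_FrDiv (D : Divisor k (modularFunctionFieldFullC k N)) :
    VeDiv k ℓ N (FrDiv k ℓ N D) = ℓ • D := by
  rw [FrDiv_apply, VeDiv_apply, inv_smul_smul]

theorem FrDiv_coeff (D : Divisor k (modularFunctionFieldFullC k N))
    (Q : Place k (modularFunctionFieldFullC k N)) :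
    FrDiv k ℓ N D (frobAut k ℓ N • Q) = D Q :=
  SemilinearAut.divisor_smul_apply_smul _ D Q

theorem VeDiv_coeff (D : Divisor k (modularFunctionFieldFullC k N))
    (Q : Place k (modularFunctionFieldFullC k N)) :
    VeDiv k ℓ N D Q = ℓ * D (frobAut k ℓ N • Q) := by
  rw [VeDiv_apply, Finsupp.smul_apply, SemilinearAut.divisor_smul_apply, inv_inv, nsmul_eq_mul]

theorem degree_FrDiv (D : Divisor k (modularFunctionFieldFullC k N)) :
    Divisor.degree (FrDiv k ℓ N D) = Divisor.degree D :=
  SemilinearAut.degree_smul _ D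

theorem degree_VeDiv (D : Divisor k (modularFunctionFieldFullC k N)) :
    Divisor.degree (VeDiv k ℓ N D) = ℓ * Divisor.degree D := by
  rw [VeDiv_apply, map_nsmul, SemilinearAut.degree_smul, nsmul_eq_mul]

/-- **`div (Φ y) = Fr (div y)`** -/
theorem FrDiv_eq_ord {D : Divisor k (modularFunctionFieldFullC k N)}
    {y : modularFunctionFieldFullC k N} (hD : ∀ Q, D Q = Q.ord y)
    (Q : Place k (modularFunctionFieldFullC k N)) :
    FrDiv k ℓ N D Q = Q.ord (frobAut k ℓ N • y) :=
  divisor_smul_eq_ord _ hD Q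

/-- **`div (y(q^ℓ)) = Ve (div y)`** -/
theorem VeDiv_eq_ord [NeZero ℓ] [NeZero N] {D : Divisor k (modularFunctionFieldFullC k N)}
    {y : modularFunctionFieldFullC k N} (hD : ∀ Q, D Q = Q.ord y)
    (Q : Place k (modularFunctionFieldFullC k N)) :
    VeDiv k ℓ N D Q = Q.ord (QS.frobField k ℓ N y) := by
  rw [VeDiv_coeff, hD, ord_frobField]

/-! ### `Fr` and `Ve` on `JZeroC k N = Pic⁰` -/

/-- `Fr` on `Pic⁰` of the special fibre -/
def FrPic : JZeroC k N →+ JZeroC k N :=
  DistribSMul.toAddMonoidHom _ (frobAut k ℓ N)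

/-- `Ve` on `Pic⁰` of the special fibre -/
def VePic : JZeroC k N →+ JZeroC k N :=
  ℓ • DistribSMul.toAddMonoidHom _ (frobAut k ℓ N)⁻¹

theorem FrPic_apply (x : JZeroC k N) : FrPic k ℓ N x = frobAut k ℓ N • x := rfl

theorem VePic_apply (x : JZeroC k N) : VePic k ℓ N x = ℓ • ((frobAut k ℓ N)⁻¹ • x) := rfl

theorem FrPic_mk (D : Divisor.degZero (K := k) (F := modularFunctionFieldFullC k N)) :
    FrPic k ℓ N (Pic0.mk D) = Pic0.mk (SemilinearAut.degZeroSMulHom (frobAut k ℓ N) D) := rfl

theorem VePic_mk (D : Divisor.degZero (K := k) (F := modularFunctionFieldFullC k N)) :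
    VePic k ℓ N (Pic0.mk D)
      = ℓ • Pic0.mk (SemilinearAut.degZeroSMulHom (frobAut k ℓ N)⁻¹ D) := rfl

theorem FrPic_VePic (x : JZeroC k N) : FrPic k ℓ N (VePic k ℓ N x) = ℓ • x := by
  rw [VePic_apply, FrPic_apply]
  have h := map_nsmul (DistribSMul.toAddMonoidHom (JZeroC k N) (frobAut k ℓ N)) ℓ
    ((frobAut k ℓ N)⁻¹ • x)
  refine h.trans ?_
  rw [DistribSMul.toAddMonoidHom_apply, smul_inv_smul]

theorem VePic_FrPic (x : JZeroC k N) : VePic k ℓ N (FrPic k ℓ N x) = ℓ • x := by
  rw [VePic_apply, FrPic_apply, inv_smul_smul]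

end Frobenius

end Fermat.Agent.GJ.S37.Frob
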