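import Mathlib
import Fermat.Prelude.Def_ModularCurve_HeckeModule
import Fermat.Prelude.Def_ModularCurve_ReductionModL
import Fermat.Agent.GJ.S37.BoundedRR
import Fermat.Agent.GJ.S37.FrobSpecial
import Fermat.Agent.GJ.Kum.Congruence
import Fermat.Agent.GJ.HN.Bridge
import Fermat.Agent.GJ.HN.Div
import Fermat.Agent.GJ.HInputs.Modular
import Fermat.Agent.RR.ModularBar

set_option autoImplicit false
set_option linter.style.haveILetI false

/-!
# GATE-J / S37-PATH, step (3): the Eichler–Shimura congruence for the prelude's reduction map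

For a prime `ℓ ∤ N`, a valuation subring `A` of `ℚ̄` with residue field `k` of characteristic `ℓ`
and `h : ReductionInputsModL A N`:

  `reductionModL A N (T_ℓ x) = Fr (reductionModL A N x) + Ve (reductionModL A N x)`

for ALL `x : J₀(N)(ℚ̄)`, where `Fr = Φ_*`, `Ve = ℓ Φ⁻¹_*` (`Φ` = the arithmetic Frobenius of the
special fibre, `GJ/S37/FrobSpecial.lean`).

Proof.  On the divisor of an `A`-integral function `y` with nonzero reduction,
`T_ℓ (div y) = div (heckeNorm y)` (HN), `heckeNorm y` is `A`-integral with reduction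
`ỹ(q^ℓ) · Φ ỹ` (Kronecker congruence), whose divisor is `Ve (div ỹ) + Fr (div ỹ)` (L3); the place
reduction map sends `div y` to `div ỹ`.  These divisors generate the principal divisors, and
`δ = r_* T_ℓ - (Fr + Ve) r_*` is bounded on places, so `δ = 0` on `Div⁰` by helper37's
bounded-homomorphism trick.
-/

noncomputable section

namespace Fermat.Agent.GJ.S37.HRel

open AlgebraicCurve ModularCurve Fermat.Agent.S24 Fermat.Agent.GJ.HN Fermat.Agent.GJ.S37.Frob
open Fermat.Agent.GJ.S37Bounded Fermat.Agent.GJ.S37BoundedRR Fermat.Agent.GJ.J3 Fermat.Agent.GJ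

/-! ### generalities on effective divisors -/

section General

variable {K F F' : Type*} [Field K] [Field F] [Field F'] [Algebra K F] [Algebra K F']

theorem norm1_mapDomain_le {ι κ : Type*} (r : ι → κ) (E : ι →₀ ℤ) :
    norm1 (Finsupp.mapDomain r E) ≤ norm1 E := by
  classical
  induction E using Finsupp.induction with
  | zero => simp
  | single_add i n E hi hn ih =>
    have hnorm : norm1 (Finsupp.single i n + E) = n.natAbs + norm1 E := by
      have hdisj : Disjoint (Finsupp.single i n).support E.support := by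
        rw [Finsupp.support_single i hn, Finset.disjoint_singleton_left]
        exact hi
      unfold norm1
      rw [Finsupp.support_add_eq hdisj, Finset.sum_union hdisj,
        Finsupp.support_single i hn, Finset.sum_singleton, Finsupp.add_apply,
        Finsupp.single_eq_same, Finsupp.notMem_support_iff.mp hi, add_zero]
      congr 1
      refine Finset.sum_congr rfl fun j hj => ?_
      have hji : j ≠ i := fun h => hi (h ▸ hj)
      rw [Finsupp.add_apply, Finsupp.single_eq_of_ne hji, zero_add]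
    rw [Finsupp.mapDomain_add, Finsupp.mapDomain_single, hnorm]
    refine (norm1_add_le _ _).trans (add_le_add ?_ ih)
    rw [norm1_single]

section PushPull

variable [Algebra F F'] [IsScalarTower K F F'] [Algebra.IsIntegral F F']

theorem pushforward_nonneg {D : Divisor K F'} (hD : 0 ≤ D) :
    0 ≤ Divisor.pushforward F D := by
  classical
  rw [Finsupp.le_def]
  intro v
  rw [Finsupp.zero_apply, Divisor.pushforward_apply]
  refine Finset.sum_nonneg fun w _ => ?_
  split_ifs
  · exact mul_nonneg (by simpa using Finsupp.le_def.mp hD w) (Int.natCast_nonneg _)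
  · exact le_rfl

theorem pullback_nonneg [HasPrincipalDivisors K F'] {D : Divisor K F} (hD : 0 ≤ D) :
    0 ≤ Divisor.pullback F' D := by
  rw [Finsupp.le_def]
  intro w
  rw [Finsupp.zero_apply, Divisor.pullback_apply]
  exact mul_nonneg (Int.natCast_nonneg _) (by simpa using Finsupp.le_def.mp hD _)

end PushPull

theorem correspondence_nonneg [HasPrincipalDivisors K F'] (φ ψ : F →ₐ[K] F')
    (hφ : φ.toRingHom.IsIntegral) (hψ : ψ.toRingHom.IsIntegral) {D : Divisor K F} (hD : 0 ≤ D) :
    0 ≤ Divisor.correspondence φ ψ hφ hψ D := by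
  rw [Divisor.correspondence_apply]
  have h1 : 0 ≤ Divisor.pullbackAlong φ hφ D := by
    letI := algebraAlong φ
    haveI := isScalarTower_along φ
    haveI := isIntegral_along φ hφ
    exact pullback_nonneg hD
  letI := algebraAlong ψ
  haveI := isScalarTower_along ψ
  haveI := isIntegral_along ψ hψ
  exact pushforward_nonneg h1

end General

/-! ### the congruence on integral principal divisors -/

section Along

variable (A : ValuationSubring Kbar) {k : Type*} [Field k] (π : A →+* k)
  (N ℓ : ℕ) [NeZero N] [hℓ : Fact ℓ.Prime] [CharP k ℓ] [PerfectRing k ℓ]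

omit [PerfectRing k ℓ] in
theorem frobField_ne_zero {yt : modularFunctionFieldFullC k N} (h : yt ≠ 0) :
    QS.frobField k ℓ N yt ≠ 0 :=
  fun h1 => h ((map_eq_zero (QS.frobField k ℓ N)).mp h1)

omit [NeZero N] in
theorem frobAut_smul_ne_zero {yt : modularFunctionFieldFullC k N} (h : yt ≠ 0) :
    frobAut k ℓ N • yt ≠ 0 :=
  fun h1 => h ((smul_eq_zero_iff_eq _).mp h1)

/-- reduction of the Hecke norm series: `red (heckeNorm y) = ỹ(q^ℓ) · Φ ỹ` -/
theorem coeffMap_heckeNorm_eq (y0 : LaurentSeries A)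
    (hyk : coeffMap π y0 ∈ modularFunctionFieldFullC k N) :
    coeffMap π (Kum.heckeNorm ℓ y0) =
      ((QS.frobField k ℓ N ⟨coeffMap π y0, hyk⟩ * (frobAut k ℓ N • ⟨coeffMap π y0, hyk⟩) :
          modularFunctionFieldFullC k N) : LaurentSeries k) := by
  rw [Kum.coeffMap_heckeNorm, Kum.heckeNorm, Kum.normL_of_charP]
  rfl

omit [NeZero N] hℓ [CharP k ℓ] [PerfectRing k ℓ] in
theorem eq_zero_of_coeffMap_subtype_eq_zero {y0 : LaurentSeries A}
    (h : coeffMap A.subtype y0 = 0) : y0 = 0 := by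
  ext m
  have h3 := congrArg (fun z => z.coeff m) h
  have h4 : ((y0.coeff m : A) : Kbar) = 0 := by simpa [coeffMap] using h3
  simpa using h4

/-- `r_* (T_ℓ (div y)) = Fr (r_* div y) + Ve (r_* div y)` for `A`-integral `y` with `ỹ ≠ 0` -/
theorem mapDomain_heckeDivBar_of_integral (hℓN : ¬ ℓ ∣ N)
    {r : Place Kbar (FN N) → Place k (modularFunctionFieldFullC k N)}
    (hr : IsPlaceReductionAlong A π N r)
    (hα : HeckeAlphaBarIntegral Kbar N ℓ) (hβ : HeckeBetaBarIntegral Kbar N ℓ)
    [HasPrincipalDivisors Kbar (FN (N * ℓ))]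
    (hfin : FiniteAlong Kbar (heckeAlphaBar Kbar N ℓ))
    (hNF : NormFormulaAlong Kbar (heckeAlphaBar Kbar N ℓ) hfin)
    {D : Divisor Kbar (FN N)}
    (hD : D ∈ integralPrincipalDivisors A π N) :
    Finsupp.mapDomain r (heckeDivBar hα hβ D) =
      FrDiv k ℓ N (Finsupp.mapDomain r D) + VeDiv k ℓ N (Finsupp.mapDomain r D) := by
  obtain ⟨y0, hy, hyk, hne, hDy⟩ := hD
  -- the function `y` on the generic fibre and its reduction `ỹ`
  set y : FN N := ⟨coeffMap A.subtype y0, hy⟩ with hydef
  set yt : modularFunctionFieldFullC k N := ⟨coeffMap π y0, hyk⟩ with hytdef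
  have hyt0 : yt ≠ 0 := fun h => hne (congrArg Subtype.val h)
  have hy0 : y ≠ 0 := by
    intro h
    apply hne
    rw [eq_zero_of_coeffMap_subtype_eq_zero A (congrArg Subtype.val h), map_zero]
  -- the Hecke norm `z` of `y`, its integral model `z0` and its reduction
  set z0 : LaurentSeries A := Kum.heckeNorm ℓ y0 with hz0
  have hz : coeffMap A.subtype z0 = ((heckeNormF N ℓ y : FN N) : LaurentSeries Kbar) := by
    rw [hz0, Kum.coeffMap_heckeNorm, coe_heckeNormF N ℓ hℓN y]
  have hzmem : coeffMap A.subtype z0 ∈ modularFunctionFieldBar N := by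
    rw [hz]; exact (heckeNormF N ℓ y).2
  have hzt : coeffMap π z0 =
      ((QS.frobField k ℓ N yt * (frobAut k ℓ N • yt) : modularFunctionFieldFullC k N) :
        LaurentSeries k) := coeffMap_heckeNorm_eq A π N ℓ y0 hyk
  have hprod0 : QS.frobField k ℓ N yt * (frobAut k ℓ N • yt) ≠ 0 :=
    mul_ne_zero (frobField_ne_zero N ℓ hyt0) (frobAut_smul_ne_zero N ℓ hyt0)
  have hztmem : coeffMap π z0 ∈ modularFunctionFieldFullC k N := by
    rw [hzt]; exact Subtype.property _
  have hzt0 : coeffMap π z0 ≠ 0 := by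
    rw [hzt]
    exact fun h => hprod0 (Subtype.ext h)
  -- the divisor of `z` is `T_ℓ D`
  have hE : ∀ P, heckeDivBar hα hβ D P =
      P.ord (⟨coeffMap A.subtype z0, hzmem⟩ : FN N) := by
    intro P
    rw [heckeDivBar_eq_ord_heckeNormF N ℓ hα hβ hfin hNF y hy0 D hDy P]
    congr 1
    exact Subtype.ext hz.symm
  -- apply the specification of the place reduction map to `y` and to `z`
  have hDt : ∀ Q, Finsupp.mapDomain r D Q = Q.ord yt :=
    fun Q => hr.2 y0 hy hyk hne D hDy Q
  have hEt : ∀ Q, Finsupp.mapDomain r (heckeDivBar hα hβ D) Q =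
      Q.ord (⟨coeffMap π z0, hztmem⟩ : modularFunctionFieldFullC k N) :=
    fun Q => hr.2 z0 hzmem hztmem hzt0 _ hE Q
  ext Q
  rw [hEt Q, Finsupp.add_apply, FrDiv_eq_ord k ℓ N hDt Q, VeDiv_eq_ord k ℓ N hDt Q]
  have hprod : (⟨coeffMap π z0, hztmem⟩ : modularFunctionFieldFullC k N) =
      QS.frobField k ℓ N yt * (frobAut k ℓ N • yt) := Subtype.ext hzt
  rw [hprod, Place.ord_mul _ (frobField_ne_zero N ℓ hyt0) (frobAut_smul_ne_zero N ℓ hyt0),
    add_comm]

/-- the defect `δ = r_* ∘ T_ℓ - (Fr + Ve) ∘ r_*` -/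
def defect (r : Place Kbar (FN N) → Place k (modularFunctionFieldFullC k N))
    (hα : HeckeAlphaBarIntegral Kbar N ℓ) (hβ : HeckeBetaBarIntegral Kbar N ℓ)
    [HasPrincipalDivisors Kbar (FN (N * ℓ))] :
    Divisor Kbar (FN N) →+ (Place k (modularFunctionFieldFullC k N) →₀ ℤ) :=
  (Finsupp.mapDomain.addMonoidHom r).comp (heckeDivBar hα hβ) -
    (FrDiv k ℓ N + VeDiv k ℓ N).comp (Finsupp.mapDomain.addMonoidHom r)

omit [CharP k ℓ] [PerfectRing k ℓ] in
theorem defect_apply (r : Place Kbar (FN N) → Place k (modularFunctionFieldFullC k N))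
    (hα : HeckeAlphaBarIntegral Kbar N ℓ) (hβ : HeckeBetaBarIntegral Kbar N ℓ)
    [HasPrincipalDivisors Kbar (FN (N * ℓ))] [CharP k ℓ] [PerfectRing k ℓ]
    (D : Divisor Kbar (FN N)) :
    defect N ℓ r hα hβ D = Finsupp.mapDomain r (heckeDivBar hα hβ D) -
      (FrDiv k ℓ N (Finsupp.mapDomain r D) + VeDiv k ℓ N (Finsupp.mapDomain r D)) := rfl

/-- the defect kills principal divisors -/
theorem defect_principal (hℓN : ¬ ℓ ∣ N)
    {r : Place Kbar (FN N) → Place k (modularFunctionFieldFullC k N)}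
    (hr : IsPlaceReductionAlong A π N r) (hgen : PrincipalGeneratedByIntegral A π N)
    (hα : HeckeAlphaBarIntegral Kbar N ℓ) (hβ : HeckeBetaBarIntegral Kbar N ℓ)
    [HasPrincipalDivisors Kbar (FN (N * ℓ))]
    (hfin : FiniteAlong Kbar (heckeAlphaBar Kbar N ℓ))
    (hNF : NormFormulaAlong Kbar (heckeAlphaBar Kbar N ℓ) hfin)
    {D : Divisor Kbar (FN N)}
    (hD : D ∈ Divisor.principal (K := Kbar) (F := FN N)) :
    defect N ℓ r hα hβ D = 0 := by
  have hD' := hgen hD
  clear hD
  induction hD' using AddSubgroup.closure_induction with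
  | mem E hE =>
    rw [defect_apply, mapDomain_heckeDivBar_of_integral A π N ℓ hℓN hr hα hβ hfin hNF hE, sub_self]
  | zero => exact map_zero _
  | add E E' _ _ hE hE' => rw [map_add, hE, hE', add_zero]
  | neg E _ hE => rw [map_neg, hE, neg_zero]

omit hℓ [CharP k ℓ] [PerfectRing k ℓ] in
theorem norm1_neg {ι : Type*} (f : ι →₀ ℤ) : norm1 (-f) = norm1 f := by
  have := norm1_zsmul (-1) f
  simpa using this

/-- the defect is bounded on places -/
theorem norm1_defect_single_le
    (r : Place Kbar (FN N) → Place k (modularFunctionFieldFullC k N))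
    (hα : HeckeAlphaBarIntegral Kbar N ℓ) (hβ : HeckeBetaBarIntegral Kbar N ℓ)
    [HasPrincipalDivisors Kbar (FN (N * ℓ))]
    (hFI : FundamentalIdentityAlong Kbar (heckeBetaBar Kbar N ℓ) hβ) (P : Place Kbar (FN N)) :
    norm1 (defect N ℓ r hα hβ (Finsupp.single P 1)) ≤
      finrankAlong Kbar (heckeBetaBar Kbar N ℓ) + (1 + ℓ) := by
  classical
  haveI := Fermat.Agent.RR.ModularBar.finiteResidues N
  rw [defect_apply, sub_eq_add_neg]
  refine (norm1_add_le _ _).trans (add_le_add ?_ ?_)
  · refine (norm1_mapDomain_le r _).trans ?_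
    have hpos : 0 ≤ heckeDivBar hα hβ (Finsupp.single P 1) := by
      apply correspondence_nonneg
      rw [Finsupp.le_def]
      intro Q
      rw [Finsupp.zero_apply, Finsupp.single_apply]
      split_ifs <;> norm_num
    have h1 := norm1_le_degree hpos
    have h2 : Divisor.degree (heckeDivBar hα hβ (Finsupp.single P 1)) =
        (finrankAlong Kbar (heckeBetaBar Kbar N ℓ) : ℤ) := by
      have h3 := Divisor.degree_correspondence (heckeBetaBar Kbar N ℓ) (heckeAlphaBar Kbar N ℓ)
        hβ hα hFI (Finsupp.single P 1)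
      rw [Divisor.degree_single, Fermat.Agent.RR.ModularBar.deg_eq_one N P] at h3
      have h4 : heckeDivBar hα hβ = Divisor.correspondence (heckeBetaBar Kbar N ℓ)
        (heckeAlphaBar Kbar N ℓ) hβ hα := rfl
      rw [h4, h3]
      simp
    rw [h2] at h1
    exact_mod_cast h1
  · rw [norm1_neg, Finsupp.mapDomain_single, FrDiv_single, VeDiv_single]
    refine (norm1_add_le _ _).trans (add_le_add ?_ ?_)
    · rw [norm1_single]; simp
    · rw [norm1_single]; simp

/-- **Eichler–Shimura congruence on `Div⁰`.** -/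
theorem mapDomain_heckeDivBar_of_degZero (hℓN : ¬ ℓ ∣ N)
    {r : Place Kbar (FN N) → Place k (modularFunctionFieldFullC k N)}
    (hr : IsPlaceReductionAlong A π N r) (hgen : PrincipalGeneratedByIntegral A π N)
    (hα : HeckeAlphaBarIntegral Kbar N ℓ) (hβ : HeckeBetaBarIntegral Kbar N ℓ)
    [HasPrincipalDivisors Kbar (FN (N * ℓ))]
    (hfin : FiniteAlong Kbar (heckeAlphaBar Kbar N ℓ))
    (hNF : NormFormulaAlong Kbar (heckeAlphaBar Kbar N ℓ) hfin)
    (hFI : FundamentalIdentityAlong Kbar (heckeBetaBar Kbar N ℓ) hβ)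
    {D : Divisor Kbar (FN N)} (hD : D ∈ Divisor.degZero (K := Kbar) (F := FN N)) :
    Finsupp.mapDomain r (heckeDivBar hα hβ D) =
      FrDiv k ℓ N (Finsupp.mapDomain r D) + VeDiv k ℓ N (Finsupp.mapDomain r D) := by
  haveI := Fermat.Agent.RR.ModularBar.finiteResidues N
  haveI := Fermat.Agent.RR.ModularBar.hasPrincipalDivisors N
  have h := eq_zero_on_degZero_of_riemann (defect N ℓ r hα hβ)
    (fun D hD => defect_principal A π N ℓ hℓN hr hgen hα hβ hfin hNF hD)
    (finrankAlong Kbar (heckeBetaBar Kbar N ℓ) + (1 + ℓ))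
    (fun P => norm1_defect_single_le N ℓ r hα hβ hFI P) hD
  rw [defect_apply, sub_eq_zero] at h
  exact h

/-- **Eichler–Shimura congruence on `J₀(N)(ℚ̄)`**, for any reduction datum `(A, π, k)`:
`red (T_ℓ x) = Fr (red x) + Ve (red x)`. -/
theorem reductionAlong_heckeOperatorBar (hℓN : ¬ ℓ ∣ N) (h : ReductionInputsAlong A π N)
    (x : JZero N) :
    reductionAlong A π N (heckeOperatorBar N (⟨ℓ, hℓ.out⟩ : Nat.Primes) x) =
      FrPic k ℓ N (reductionAlong A π N x) + VePic k ℓ N (reductionAlong A π N x) := by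
  obtain ⟨D, rfl⟩ := Pic0.mk_surjective x
  obtain ⟨hα, hβ, hP, hfin, hFI, hNF, hop⟩ :=
    Fermat.Agent.GJ.HInputs.exists_heckeOperatorBar_eq N (⟨ℓ, hℓ.out⟩ : Nat.Primes)
  haveI := hP
  have hmk : heckePic0Bar hα hβ hFI hfin hNF (Pic0.mk D) =
      Pic0.mk (Pic0.degZeroCorrespondence (heckeBetaBar Kbar N ℓ) (heckeAlphaBar Kbar N ℓ)
        hβ hα hFI D) := rfl
  rw [hop, hmk, reductionAlong_mk h, reductionAlong_mk h, FrPic_mk, VePic_mk]
  have key := mapDomain_heckeDivBar_of_degZero A π N ℓ hℓN h.choose_spec.1 h.choose_spec.2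
    hα hβ hfin hNF hFI D.2
  have hnsmul : ∀ E : Divisor.degZero (K := k) (F := modularFunctionFieldFullC k N),
      ℓ • Pic0.mk E = Pic0.mk (ℓ • E) := fun E => rfl
  rw [hnsmul, ← Pic0.mk_add]
  refine congrArg Pic0.mk (Subtype.ext ?_)
  exact key

/-- the same for the Hecke-module structure `heckeModuleBar N` (`hT` of `GJ/S37/Mid.lean`) -/
theorem reductionAlong_heckeGen_smul (hcomm : HeckeOperatorsCommuteBar N) (hℓN : ¬ ℓ ∣ N)
    (h : ReductionInputsAlong A π N) (x : JZero N) :
    letI := heckeModuleBar N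
    reductionAlong A π N (heckeGen (⟨ℓ, hℓ.out⟩ : Nat.Primes) • x) =
      FrPic k ℓ N (reductionAlong A π N x) + VePic k ℓ N (reductionAlong A π N x) := by
  have h1 := heckeModuleBar_heckeGen_smul hcomm (⟨ℓ, hℓ.out⟩ : Nat.Primes) x
  exact (congrArg (reductionAlong A π N) h1).trans
    (reductionAlong_heckeOperatorBar A π N ℓ hℓN h x)

/-- **`hR` of `GJ/S37/Dry.lean`** from the congruence and `red ∘ σ = Fr ∘ red` for ONE `σ`:
`red (σ² x - T_ℓ σ x + ℓ x) = 0`. -/
theorem reductionAlong_esExpr {G : Type*} [Monoid G] [DistribMulAction G (JZero N)]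
    (hcomm : HeckeOperatorsCommuteBar N) (hℓN : ¬ ℓ ∣ N) (h : ReductionInputsAlong A π N)
    (σ : G) (hσ : ∀ x : JZero N, reductionAlong A π N (σ • x) = FrPic k ℓ N (reductionAlong A π N x))
    (x : JZero N) :
    letI := heckeModuleBar N
    reductionAlong A π N (σ • σ • x - heckeGen (⟨ℓ, hℓ.out⟩ : Nat.Primes) • (σ • x) + ℓ • x) = 0 := by
  letI := heckeModuleBar N
  rw [map_add, map_sub, reductionAlong_heckeGen_smul A π N ℓ hcomm hℓN h, hσ, hσ, map_nsmul,
    VePic_FrPic]
  abel

end Along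

/-! ### the prelude's `reductionModL` -/

section ModL

set_option synthInstance.maxHeartbeats 400000

variable (A : ValuationSubring Kbar) (N ℓ : ℕ) [NeZero N] [hℓ : Fact ℓ.Prime]
  [CharP (IsLocalRing.ResidueField A) ℓ] [PerfectRing (IsLocalRing.ResidueField A) ℓ]

/-- **Eichler–Shimura congruence for `reductionModL`.** -/
theorem reductionModL_heckeOperatorBar (hℓN : ¬ ℓ ∣ N) (h : ReductionInputsModL A N)
    (x : JZero N) :
    reductionModL A N (heckeOperatorBar N (⟨ℓ, hℓ.out⟩ : Nat.Primes) x) =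
      FrPic (IsLocalRing.ResidueField A) ℓ N (reductionModL A N x) +
        VePic (IsLocalRing.ResidueField A) ℓ N (reductionModL A N x) :=
  reductionAlong_heckeOperatorBar A (IsLocalRing.residue A) N ℓ hℓN h x

/-- `hT` of `GJ/S37/Mid.lean` for `sp = reductionModL A N`, `Fr = FrPic`, `Ve = VePic` -/
theorem reductionModL_heckeGen_smul (hcomm : HeckeOperatorsCommuteBar N) (hℓN : ¬ ℓ ∣ N)
    (h : ReductionInputsModL A N) (x : JZero N) :
    letI := heckeModuleBar N
    reductionModL A N (heckeGen (⟨ℓ, hℓ.out⟩ : Nat.Primes) • x) =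
      FrPic (IsLocalRing.ResidueField A) ℓ N (reductionModL A N x) +
        VePic (IsLocalRing.ResidueField A) ℓ N (reductionModL A N x) :=
  reductionAlong_heckeGen_smul A (IsLocalRing.residue A) N ℓ hcomm hℓN h x

/-- `hR` of `GJ/S37/Dry.lean` for ONE Frobenius lift `σ` with `red ∘ σ = Fr ∘ red` -/
theorem reductionModL_esExpr (hcomm : HeckeOperatorsCommuteBar N) (hℓN : ¬ ℓ ∣ N)
    (h : ReductionInputsModL A N) (σ : AlgebraicClosure ℚ ≃ₐ[ℚ] AlgebraicClosure ℚ)
    (hσ : ∀ x : JZero N, reductionModL A N (σ • x) =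
      FrPic (IsLocalRing.ResidueField A) ℓ N (reductionModL A N x))
    (x : JZero N) :
    letI := heckeModuleBar N
    reductionModL A N (σ • σ • x - heckeGen (⟨ℓ, hℓ.out⟩ : Nat.Primes) • (σ • x) + ℓ • x) = 0 :=
  reductionAlong_esExpr A (IsLocalRing.residue A) N ℓ hcomm hℓN h σ hσ x

end ModL

end Fermat.Agent.GJ.S37.HRel
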