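/-
GATE-J / S37-PATH (helper43, on helper75's request 1771): the `huniq` versions of helper24's
`GJ/S37/UniqRed.lean`.  Separating functions produced by the `L`-space construction live in the
Gauss valuation ring `Rw` (fractions `a/b`), not in `A((q))`, so `HasSepFunctions` is not directly
available; but `hsep` is used in `UniqRed.lean` ONLY through the uniqueness of the place reduction
map.  Here every statement takes

  `huniq : ∀ r', IsPlaceReductionAlong A π N r' → r' = r`

instead.  Proofs are helper24's, verbatim up to the last step.
-/
import Fermat.Agent.GJ.S37.UniqRed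

set_option autoImplicit false

noncomputable section

open HahnSeries IntermediateField AlgebraicCurve ModularCurve IsLocalRing

namespace Fermat.Agent.GJ.S37Uniq2

open Fermat.Agent.GJ.S37Uniq

section General

variable {L : Type*} [Field L] [Algebra ℚ L] {A : ValuationSubring L}
variable {k : Type*} [Field k] {π : A →+* k} {N : ℕ}

/-- separating functions give uniqueness (helper24's `eq_of_sep`) -/
theorem uniq_of_sep [HasPrincipalDivisors L (laurentBaseChange L (modularFunctionFieldFull N))]
    {r : Place L (laurentBaseChange L (modularFunctionFieldFull N)) →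
      Place k (modularFunctionFieldFullC k N)}
    (hsep : HasSepFunctions A π N r) :
    ∀ r', IsPlaceReductionAlong A π N r' → r' = r :=
  fun _ hr' => eq_of_sep hsep hr'

/-- **(U2/U3) equivariance of the place reduction map** under an automorphism `σ` in the
decomposition group of `A` whose action on the residue side is realised by a semilinear
automorphism `b` of the special-fibre field — from UNIQUENESS of `r`. -/
theorem apply_smul_eq_of_uniq
    {r : Place L (laurentBaseChange L (modularFunctionFieldFull N)) →
      Place k (modularFunctionFieldFullC k N)}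
    (hr : IsPlaceReductionAlong A π N r)
    (huniq : ∀ r', IsPlaceReductionAlong A π N r' → r' = r)
    (σ : L ≃ₐ[ℚ] L) (hσ : σ ∈ A.decompositionSubgroup ℚ)
    (b : SemilinearAut k (modularFunctionFieldFullC k N))
    (hb : ∀ (y : LaurentSeries A) (hyk : coeffMap π y ∈ modularFunctionFieldFullC k N),
      ((b • (⟨coeffMap π y, hyk⟩ : modularFunctionFieldFullC k N) :
        modularFunctionFieldFullC k N) : LaurentSeries k) =
        coeffMap π (coeffMap (Fermat.Agent.GJ.Kum.resA A σ hσ) y))
    (P : Place L (laurentBaseChange L (modularFunctionFieldFull N))) :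
    r (arithmeticGalois (modularFunctionFieldFull N) σ • P) = b • r P := by
  set g := arithmeticGalois (L := L) (modularFunctionFieldFull N) σ with hg
  have hspec : IsPlaceReductionAlong A π N (fun P => b⁻¹ • r (g • P)) := by
    refine ⟨fun P => ?_, fun y hy hyk hne D hD Q => ?_⟩
    · rw [SemilinearAut.deg_smul, hr.1, SemilinearAut.deg_smul]
    · -- the transported series
      set y' : LaurentSeries A := coeffMap (Fermat.Agent.GJ.Kum.resA A σ hσ) y with hy'def
      have hsub : coeffMap A.subtype y' = coeffMap (σ : L →+* L) (coeffMap A.subtype y) :=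
        Fermat.Agent.GJ.Kum.coeffMap_subtype_resA A σ hσ y
      have hy' : coeffMap A.subtype y' ∈ laurentBaseChange L (modularFunctionFieldFull N) := by
        rw [hsub]
        exact coeffMap_mem_laurentBaseChange σ hy
      have hyL' : (⟨coeffMap A.subtype y', hy'⟩ :
          laurentBaseChange L (modularFunctionFieldFull N)) =
          g • (⟨coeffMap A.subtype y, hy⟩ :
            laurentBaseChange L (modularFunctionFieldFull N)) :=
        Subtype.ext hsub
      have hbk := hb y hyk
      have hyk' : coeffMap π y' ∈ modularFunctionFieldFullC k N := by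
        rw [← hbk]
        exact (b • (⟨coeffMap π y, hyk⟩ : modularFunctionFieldFullC k N)).2
      have hyk'eq : (⟨coeffMap π y', hyk'⟩ : modularFunctionFieldFullC k N) =
          b • (⟨coeffMap π y, hyk⟩ : modularFunctionFieldFullC k N) :=
        Subtype.ext hbk.symm
      have hne' : coeffMap π y' ≠ 0 := by
        intro h0
        have h1 : b • (⟨coeffMap π y, hyk⟩ : modularFunctionFieldFullC k N) = 0 := by
          rw [← hyk'eq]
          exact Subtype.ext h0
        rw [smul_eq_zero_iff_eq] at h1
        exact hne (congrArg Subtype.val h1)
      have hD' : ∀ P, (g • D) P = P.ord (⟨coeffMap A.subtype y', hy'⟩ :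
          laurentBaseChange L (modularFunctionFieldFull N)) := by
        intro P
        rw [SemilinearAut.divisor_smul_apply, hD, hyL']
        have h := SemilinearAut.ord_smul g (g⁻¹ • P)
          (⟨coeffMap A.subtype y, hy⟩ : laurentBaseChange L (modularFunctionFieldFull N))
        rw [smul_inv_smul] at h
        exact h.symm
      have h1 := hr.2 y' hy' hyk' hne' (g • D) hD' (b • Q)
      rw [hyk'eq, SemilinearAut.ord_smul] at h1
      rw [← h1]
      have hcomp : Finsupp.mapDomain (fun P => b⁻¹ • r (g • P)) D =
          b⁻¹ • Finsupp.mapDomain r (g • D) := by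
        rw [SemilinearAut.divisor_smul_def, SemilinearAut.divisor_smul_def,
          ← Finsupp.mapDomain_comp, ← Finsupp.mapDomain_comp]
        rfl
      rw [hcomp, SemilinearAut.divisor_smul_apply, inv_inv]
  have heq := huniq _ hspec
  have h2 : b⁻¹ • r (g • P) = r P := congrFun heq P
  rw [← h2, smul_inv_smul]

end General

/-! ### the frozen setting: `A ⊂ ℚ̄`, `k` the residue field -/

section Frozen

set_option synthInstance.maxHeartbeats 400000

variable {A : ValuationSubring (AlgebraicClosure ℚ)} {N : ℕ}

/-- **(U2) inertia acts trivially through the place reduction map.** -/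
theorem placeReductionModL_smul_of_inertia_of_uniq (h : ReductionInputsModL A N)
    (huniq : ∀ r', IsPlaceReductionModL A N r' → r' = placeReductionModL h)
    {σ : AlgebraicClosure ℚ ≃ₐ[ℚ] AlgebraicClosure ℚ} (hσ : σ ∈ A.inertiaSubgroupIn ℚ)
    (P : Place (AlgebraicClosure ℚ) (modularFunctionFieldBar N)) :
    placeReductionModL h (arithmeticGalois (modularFunctionFieldFull N) σ • P) =
      placeReductionModL h P := by
  have hdec := Fermat.Agent.S05.mem_decompositionSubgroup_of_mem_inertiaSubgroupIn hσ
  have key := apply_smul_eq_of_uniq (isPlaceReductionModL_placeReductionModL h) huniq σ hdec 1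
    (fun y hyk => by
      rw [one_smul]
      show coeffMap (residue A) y = _
      ext n
      exact (Fermat.Agent.GJ.Kum.residue_resA_of_inertia A hσ (y.coeff n)).symm) P
  rw [key, one_smul]

/-- **`hI` of `GJ/S37/Dry.lean`**: the reduction map is invariant under inertia. -/
theorem reductionModL_smul_of_inertia_of_uniq (h : ReductionInputsModL A N)
    (huniq : ∀ r', IsPlaceReductionModL A N r' → r' = placeReductionModL h)
    (σ : AlgebraicClosure ℚ ≃ₐ[ℚ] AlgebraicClosure ℚ) (hσ : σ ∈ A.inertiaSubgroupIn ℚ)
    (x : JZero N) :
    reductionModL A N (σ • x) = reductionModL A N x := by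
  have h1 := reductionModL_smul h σ 1
    (fun P => by rw [placeReductionModL_smul_of_inertia_of_uniq h huniq hσ P, one_smul]) x
  rw [h1, one_smul]

variable {ℓ : ℕ} [Fact ℓ.Prime] [CharP (ResidueField A) ℓ]

/-- **(U3) Frobenius lifts act through the place reduction map as the Frobenius `b` of the
special fibre.** -/
theorem placeReductionModL_smul_of_frobenius_of_uniq (h : ReductionInputsModL A N)
    (huniq : ∀ r', IsPlaceReductionModL A N r' → r' = placeReductionModL h)
    (b : SemilinearAut (ResidueField A) (modularFunctionFieldFullC (ResidueField A) N))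
    (hb : ∀ f : modularFunctionFieldFullC (ResidueField A) N,
      ((b • f : modularFunctionFieldFullC (ResidueField A) N) : LaurentSeries (ResidueField A)) =
        coeffMap (frobenius (ResidueField A) ℓ) (f : LaurentSeries (ResidueField A)))
    {σ : AlgebraicClosure ℚ ≃ₐ[ℚ] AlgebraicClosure ℚ} (hσ : A.IsFrobeniusAt σ ℓ)
    (P : Place (AlgebraicClosure ℚ) (modularFunctionFieldBar N)) :
    placeReductionModL h (arithmeticGalois (modularFunctionFieldFull N) σ • P) =
      b • placeReductionModL h P :=
  apply_smul_eq_of_uniq (isPlaceReductionModL_placeReductionModL h) huniq σ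
    hσ.mem_decompositionSubgroup b
    (fun y hyk => by
      rw [hb]
      exact (Fermat.Agent.GJ.Kum.red_coeffMap_frob ℓ
        (Fermat.Agent.GJ.Kum.residue_resA_of_frobenius A hσ) y).symm) P

/-- Frobenius lifts act on `reductionModL` as the Frobenius `b` of the special fibre. -/
theorem reductionModL_smul_of_frobenius_of_uniq (h : ReductionInputsModL A N)
    (huniq : ∀ r', IsPlaceReductionModL A N r' → r' = placeReductionModL h)
    (b : SemilinearAut (ResidueField A) (modularFunctionFieldFullC (ResidueField A) N))
    (hb : ∀ f : modularFunctionFieldFullC (ResidueField A) N,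
      ((b • f : modularFunctionFieldFullC (ResidueField A) N) : LaurentSeries (ResidueField A)) =
        coeffMap (frobenius (ResidueField A) ℓ) (f : LaurentSeries (ResidueField A)))
    {σ : AlgebraicClosure ℚ ≃ₐ[ℚ] AlgebraicClosure ℚ} (hσ : A.IsFrobeniusAt σ ℓ) (x : JZero N) :
    reductionModL A N (σ • x) = b • reductionModL A N x :=
  reductionModL_smul h σ b (placeReductionModL_smul_of_frobenius_of_uniq h huniq b hb hσ) x

/-- **`hF` of `GJ/S37/Dry.lean`**: the kernel of the reduction map is stable under Frobenius
lifts. -/
theorem reductionModL_smul_eq_zero_of_frobenius_of_uniq (h : ReductionInputsModL A N)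
    (huniq : ∀ r', IsPlaceReductionModL A N r' → r' = placeReductionModL h)
    (b : SemilinearAut (ResidueField A) (modularFunctionFieldFullC (ResidueField A) N))
    (hb : ∀ f : modularFunctionFieldFullC (ResidueField A) N,
      ((b • f : modularFunctionFieldFullC (ResidueField A) N) : LaurentSeries (ResidueField A)) =
        coeffMap (frobenius (ResidueField A) ℓ) (f : LaurentSeries (ResidueField A)))
    (σ : AlgebraicClosure ℚ ≃ₐ[ℚ] AlgebraicClosure ℚ) (hσ : A.IsFrobeniusAt σ ℓ) (x : JZero N)
    (hx : reductionModL A N x = 0) : reductionModL A N (σ • x) = 0 := by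
  rw [reductionModL_smul_of_frobenius_of_uniq h huniq b hb hσ x, hx]
  exact smul_zero (A := JZeroC (ResidueField A) N) b

end Frozen

end Fermat.Agent.GJ.S37Uniq2
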