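/-
GATE-J / S37-PATH (helper43): the small primes `ℓ ∈ {2, 3}` through an auxiliary level, in
UNIQUENESS form.

helper38's `S37Aux.s37_of_aux` (`GJ/S37/AuxAsm.lean`) wants, at the auxiliary level `N'`
(`ℓ ∤ N'`), a `ReductionInputsModL A N'` together with the three facts `hI`, `hF`, `hR` (the last
one in OPERATOR form `heckeOperatorBar N' ⟨ℓ, _⟩`, so that no `HeckeOperatorsCommuteBar N'` is
needed).  Here they are deduced from `h : ReductionInputsModL A N'` and the uniqueness of the
place reduction map (`huniq`, supplied by helper75's `UniqFrac.eq_rOf`):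

* `reductionModL_esExpr_op` : the Eichler–Shimura relation in operator form, from
  `red ∘ σ = Fr ∘ red` (`HRel.reductionModL_heckeOperatorBar` + `Ve ∘ Fr = ℓ`);
* `aux_triple_of_uniq` : `hI ∧ hF ∧ hR`, verbatim the last three conjuncts of `s37_of_aux`;
* `s37_of_aux_uniq` : frozen S37 from S18 and, for every `(ℓ, A)`, a level `N'`, the pull-back
  data and `∃ h, huniq` at `N'`.
-/
import Fermat.Agent.GJ.S37.AuxAsm
import Fermat.Agent.GJ.S37.UniqRed2
import Fermat.Agent.GJ.S37.FrobSpecial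
import Fermat.Agent.GJ.S37.HRel
import Fermat.Agent.GJ.J1.ResidueAlgClosed

set_option autoImplicit false

namespace Fermat.Agent.GJ.S37AuxUniq

open ModularCurve AlgebraicCurve IsLocalRing Fermat.Agent.GJ.S37Uniq Fermat.Agent.GJ.S37Uniq2
open Fermat.Agent.GJ.S37.Frob Fermat.Agent.GJ.S37Asm

section Op

set_option synthInstance.maxHeartbeats 400000

variable (A : ValuationSubring (AlgebraicClosure ℚ)) (N ℓ : ℕ) [NeZero N] [hℓ : Fact ℓ.Prime]
  [CharP (IsLocalRing.ResidueField A) ℓ] [PerfectRing (IsLocalRing.ResidueField A) ℓ]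

/-- **Eichler–Shimura relation, operator form**, for ONE `σ` with `red ∘ σ = Fr ∘ red`; no
commutativity of the Hecke operators at level `N` is needed. -/
theorem reductionModL_esExpr_op (hℓN : ¬ ℓ ∣ N) (h : ReductionInputsModL A N)
    (σ : AlgebraicClosure ℚ ≃ₐ[ℚ] AlgebraicClosure ℚ)
    (hσ : ∀ x : JZero N, reductionModL A N (σ • x) =
      FrPic (IsLocalRing.ResidueField A) ℓ N (reductionModL A N x))
    (x : JZero N) :
    reductionModL A N
      (σ • σ • x - heckeOperatorBar N (⟨ℓ, hℓ.out⟩ : Nat.Primes) (σ • x) + ℓ • x) = 0 := by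
  rw [map_add, map_sub,
    Fermat.Agent.GJ.S37.HRel.reductionModL_heckeOperatorBar A N ℓ hℓN h, hσ, hσ, map_nsmul,
    VePic_FrPic]
  abel

end Op

set_option synthInstance.maxHeartbeats 400000 in
/-- **`hI ∧ hF ∧ hR` at an arbitrary level `N'` with `ℓ ∤ N'`** from the reduction inputs and the
uniqueness of the place reduction map: verbatim the last three conjuncts of the hypothesis of
`S37Aux.s37_of_aux`. -/
theorem aux_triple_of_uniq {ℓ : ℕ} (hℓ : ℓ.Prime)
    {A : ValuationSubring (AlgebraicClosure ℚ)} (hA : A.LiesOverPrime ℓ)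
    {N' : ℕ} [NeZero N'] (hℓN' : ¬ ℓ ∣ N') (h : ModularCurve.ReductionInputsModL A N')
    (huniq : ∀ r', IsPlaceReductionModL A N' r' → r' = placeReductionModL h) :
    (∀ σ ∈ A.inertiaSubgroupIn ℚ, ∀ y : ModularCurve.JZero N',
      ModularCurve.reductionModL A N' (σ • y) = ModularCurve.reductionModL A N' y) ∧
    (∀ σ : AlgebraicClosure ℚ ≃ₐ[ℚ] AlgebraicClosure ℚ, A.IsFrobeniusAt σ ℓ →
      ∀ y : ModularCurve.JZero N', ModularCurve.reductionModL A N' y = 0 →
        ModularCurve.reductionModL A N' (σ • y) = 0) ∧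
    (∀ σ : AlgebraicClosure ℚ ≃ₐ[ℚ] AlgebraicClosure ℚ, A.IsFrobeniusAt σ ℓ →
      ∀ y : ModularCurve.JZero N',
        ModularCurve.reductionModL A N'
          (σ • σ • y - ModularCurve.heckeOperatorBar N' ⟨ℓ, hℓ⟩ (σ • y) + ℓ • y) = 0) := by
  have : Fact ℓ.Prime := ⟨hℓ⟩
  have : CharP (ResidueField A) ℓ := Fermat.Agent.GJ.Kum.charP_residueField A hℓ hA
  have : IsAlgClosed (ResidueField A) :=
    Fermat.Agent.GJ.ResidueAlgClosed.instIsAlgClosedResidueField A
  refine ⟨?_, ?_, ?_⟩
  · intro σ hσ y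
    exact reductionModL_smul_of_inertia_of_uniq h huniq σ hσ y
  · intro σ hσ y hy
    exact reductionModL_smul_eq_zero_of_frobenius_of_uniq h huniq
      (frobAut (ResidueField A) ℓ N')
      (fun f => coe_frobAut_smul (ResidueField A) ℓ N' f) σ hσ y hy
  · intro σ hσ y
    exact reductionModL_esExpr_op A N' ℓ hℓN' h σ
      (fun z => reductionModL_smul_of_frobenius_of_uniq h huniq
        (frobAut (ResidueField A) ℓ N')
        (fun f => coe_frobAut_smul (ResidueField A) ℓ N' f) hσ z) y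

/-- **frozen S37 through auxiliary levels, uniqueness form.**  For every prime `ℓ ∤ N p` and every
`A` over `ℓ`: a level `N'` with `ℓ ∤ N'`, a Galois-equivariant `pull : J₀(N) → J₀(N')` whose kernel
is killed by an integer prime to `p` and which intertwines the two operators `T_ℓ`, and at level
`N'` the reduction inputs together with the uniqueness of the place reduction map. -/
theorem s37_of_aux_uniq (hS18 : S18Statement) (N p : ℕ) [NeZero N]
    (hcomm : ModularCurve.HeckeOperatorsCommuteBar N) :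
    letI := ModularCurve.heckeModuleBar N
    ∀ (_ : SMulCommClass (AlgebraicClosure ℚ ≃ₐ[ℚ] AlgebraicClosure ℚ) ModularCurve.HeckeAlg
        (ModularCurve.JZero N)),
      (∀ ℓ : ℕ, (hℓ : ℓ.Prime) → ¬ ℓ ∣ N * p →
        ∀ A : ValuationSubring (AlgebraicClosure ℚ), A.LiesOverPrime ℓ →
          ∃ (N' : ℕ) (_ : NeZero N') (pull : ModularCurve.JZero N →+ ModularCurve.JZero N')
            (n : ℕ),
            ¬ ℓ ∣ N' ∧ n.Coprime p ∧
            (∀ (σ : AlgebraicClosure ℚ ≃ₐ[ℚ] AlgebraicClosure ℚ) (x : ModularCurve.JZero N),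
              pull (σ • x) = σ • pull x) ∧
            (∀ x : ModularCurve.JZero N, pull x = 0 → n • x = 0) ∧
            (∀ x : ModularCurve.JZero N,
              pull (ModularCurve.heckeOperatorBar N ⟨ℓ, hℓ⟩ x)
                = ModularCurve.heckeOperatorBar N' ⟨ℓ, hℓ⟩ (pull x)) ∧
            ∃ h : ModularCurve.ReductionInputsModL A N',
              ∀ r', IsPlaceReductionModL A N' r' → r' = placeReductionModL h) →
      ModularCurve.SpecializationExists (K := ℚ) (L := AlgebraicClosure ℚ) N p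
        (ModularCurve.JZero N) := by
  intro hs H
  refine Fermat.Agent.GJ.S37Aux.s37_of_aux hS18 N p hcomm hs fun ℓ hℓ hℓN A hA => ?_
  obtain ⟨N', hN', pull, n, hℓN', hnp, hpull, hker, hT, h, huniq⟩ := H ℓ hℓ hℓN A hA
  obtain ⟨hI, hF, hR⟩ := aux_triple_of_uniq hℓ hA hℓN' h huniq
  exact ⟨N', hN', pull, n, hℓN', hnp, hpull, hker, hT, h, hI, hF, hR⟩

/-- the special case `N' = N`, `pull = id` (all primes `ℓ ∤ N p` at the level itself), for
reference: this is `S37Uniq2.s37_of_uniq_only` with `S18Statement` instead of `S18Stmt`. -/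
theorem aux_data_self (N p : ℕ) [NeZero N] {ℓ : ℕ} (hℓ : ℓ.Prime) (hℓN : ¬ ℓ ∣ N * p)
    {A : ValuationSubring (AlgebraicClosure ℚ)}
    (H : ∃ h : ModularCurve.ReductionInputsModL A N,
      ∀ r', IsPlaceReductionModL A N r' → r' = placeReductionModL h) :
    ∃ (N' : ℕ) (_ : NeZero N') (pull : ModularCurve.JZero N →+ ModularCurve.JZero N')
      (n : ℕ),
      ¬ ℓ ∣ N' ∧ n.Coprime p ∧
      (∀ (σ : AlgebraicClosure ℚ ≃ₐ[ℚ] AlgebraicClosure ℚ) (x : ModularCurve.JZero N),
        pull (σ • x) = σ • pull x) ∧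
      (∀ x : ModularCurve.JZero N, pull x = 0 → n • x = 0) ∧
      (∀ x : ModularCurve.JZero N,
        pull (ModularCurve.heckeOperatorBar N ⟨ℓ, hℓ⟩ x)
          = ModularCurve.heckeOperatorBar N' ⟨ℓ, hℓ⟩ (pull x)) ∧
      ∃ h : ModularCurve.ReductionInputsModL A N',
        ∀ r', IsPlaceReductionModL A N' r' → r' = placeReductionModL h :=
  ⟨N, inferInstance, AddMonoidHom.id _, 1, fun h => hℓN (Dvd.dvd.mul_right h p),
    Nat.coprime_one_left p, fun _ _ => rfl, fun x hx => by simpa using hx, fun _ => rfl, H⟩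

end Fermat.Agent.GJ.S37AuxUniq
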