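/-
GATE-J / S37 path (helper37): the Eichler–Shimura relation on ALL of `Div⁰` from the relation on
PRINCIPAL divisors, via the bounded-homomorphism trick (`GJ/S37/BoundedRR.lean`).

`r : Place K F → Place k Ft` any map of places, `T` an endomorphism of `Div(F)` with
`‖T P‖₁ ≤ ℓ + 1` (Hecke correspondence of degree `ℓ + 1`), `Fr`, `Ve` endomorphisms of `Div(Ft)`
with `‖Fr Q‖₁ ≤ 1`, `‖Ve Q‖₁ ≤ ℓ`.  If `r_* (T D) = Fr (r_* D) + Ve (r_* D)` for principal `D`,
then the same holds for every `D` of degree zero.  No divisibility of `Pic⁰`, no separating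
functions, any characteristic.
-/
import Fermat.Agent.GJ.S37.BoundedRR

set_option autoImplicit false

namespace Fermat.Agent.GJ.S37BoundedES

open AlgebraicCurve Fermat.Agent.GJ.S37Bounded Fermat.Agent.GJ.S37BoundedRR Fermat.Agent.RRh45

section Norm

variable {α β : Type*}

/-- Push-forward along any map does not increase the `ℓ¹`-norm. -/
theorem norm1_mapDomain_le (f : α → β) (D : α →₀ ℤ) :
    norm1 (Finsupp.mapDomain f D) ≤ norm1 D := by
  classical
  induction D using Finsupp.induction with
  | zero => simp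
  | single_add a n D ha hn ih =>
    have hnorm : norm1 (Finsupp.single a n + D) = n.natAbs + norm1 D := by
      have hdisj : Disjoint (Finsupp.single a n).support D.support := by
        rw [Finsupp.support_single_ne_zero a hn, Finset.disjoint_singleton_left]
        exact ha
      unfold norm1
      rw [Finsupp.support_add_eq hdisj, Finset.sum_union hdisj,
        Finsupp.support_single_ne_zero a hn, Finset.sum_singleton, Finsupp.add_apply,
        Finsupp.single_eq_same, Finsupp.notMem_support_iff.mp ha, add_zero]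
      congr 1
      refine Finset.sum_congr rfl fun i hi => ?_
      have hia : i ≠ a := fun h => ha (h ▸ hi)
      rw [Finsupp.add_apply, Finsupp.single_eq_of_ne hia, zero_add]
    rw [Finsupp.mapDomain_add, Finsupp.mapDomain_single, hnorm]
    refine (norm1_add_le _ _).trans ?_
    rw [norm1_single]
    exact Nat.add_le_add_left ih _

theorem norm1_neg (f : α →₀ ℤ) : norm1 (-f) = norm1 f := by
  have := norm1_zsmul (-1 : ℤ) f
  simpa using this

theorem norm1_sub_le [DecidableEq α] (f g : α →₀ ℤ) : norm1 (f - g) ≤ norm1 f + norm1 g := by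
  rw [sub_eq_add_neg]
  exact (norm1_add_le _ _).trans (by rw [norm1_neg])

end Norm

variable {K F k Ft : Type*} [Field K] [Field F] [Algebra K F] [Field k] [Field Ft] [Algebra k Ft]
variable [FiniteResidues K F] [HasPrincipalDivisors K F]

/-- **Eichler–Shimura relation on `Div⁰` from principal divisors** (bounded-homomorphism trick). -/
theorem es_on_degZero (r : Place K F → Place k Ft) (T : Divisor K F →+ Divisor K F) (ℓ : ℕ)
    (hT : ∀ P : Place K F, norm1 (T (Finsupp.single P 1)) ≤ ℓ + 1)
    (Fr Ve : Divisor k Ft →+ Divisor k Ft)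
    (hFr : ∀ Q : Place k Ft, norm1 (Fr (Finsupp.single Q 1)) ≤ 1)
    (hVe : ∀ Q : Place k Ft, norm1 (Ve (Finsupp.single Q 1)) ≤ ℓ)
    (hprin : ∀ D ∈ Divisor.principal (K := K) (F := F),
      Finsupp.mapDomain r (T D) = Fr (Finsupp.mapDomain r D) + Ve (Finsupp.mapDomain r D))
    {D : Divisor K F} (hD : D ∈ Divisor.degZero (K := K) (F := F)) :
    Finsupp.mapDomain r (T D) = Fr (Finsupp.mapDomain r D) + Ve (Finsupp.mapDomain r D) := by
  classical
  let rr : Divisor K F →+ Divisor k Ft := Finsupp.mapDomain.addMonoidHom r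
  let δ : Divisor K F →+ (Place k Ft →₀ ℤ) := rr.comp T - (Fr + Ve).comp rr
  have hδ : ∀ E : Divisor K F, δ E =
      Finsupp.mapDomain r (T E) - (Fr (Finsupp.mapDomain r E) + Ve (Finsupp.mapDomain r E)) :=
    fun E => rfl
  have h0 : δ D = 0 := by
    refine eq_zero_on_degZero_of_riemann δ (fun E hE => ?_) (2 * (ℓ + 1)) (fun P => ?_) hD
    · rw [hδ, hprin E hE, sub_self]
    · rw [hδ, Finsupp.mapDomain_single]
      refine (norm1_sub_le _ _).trans ?_
      have h1 := (norm1_mapDomain_le r (T (Finsupp.single P 1))).trans (hT P)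
      have h2 := (norm1_add_le (Fr (Finsupp.single (r P) 1)) (Ve (Finsupp.single (r P) 1))).trans
        (add_le_add (hFr (r P)) (hVe (r P)))
      omega
  rw [hδ, sub_eq_zero] at h0
  exact h0

/-- The version with `Fr = b_*` and `Ve = ℓ · (b⁻¹)_*` for a bijection `b` of the special places. -/
theorem es_on_degZero_perm (r : Place K F → Place k Ft) (T : Divisor K F →+ Divisor K F) (ℓ : ℕ)
    (hT : ∀ P : Place K F, norm1 (T (Finsupp.single P 1)) ≤ ℓ + 1)
    (b : Equiv.Perm (Place k Ft))
    (hprin : ∀ D ∈ Divisor.principal (K := K) (F := F),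
      Finsupp.mapDomain r (T D) = Finsupp.mapDomain b (Finsupp.mapDomain r D) +
        ℓ • Finsupp.mapDomain b.symm (Finsupp.mapDomain r D))
    {D : Divisor K F} (hD : D ∈ Divisor.degZero (K := K) (F := F)) :
    Finsupp.mapDomain r (T D) = Finsupp.mapDomain b (Finsupp.mapDomain r D) +
        ℓ • Finsupp.mapDomain b.symm (Finsupp.mapDomain r D) := by
  classical
  let Fr : Divisor k Ft →+ Divisor k Ft := Finsupp.mapDomain.addMonoidHom b
  let Ve : Divisor k Ft →+ Divisor k Ft := ℓ • Finsupp.mapDomain.addMonoidHom b.symm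
  refine es_on_degZero r T ℓ hT Fr Ve (fun Q => ?_) (fun Q => ?_) hprin hD
  · show norm1 (Finsupp.mapDomain b (Finsupp.single Q 1)) ≤ 1
    rw [Finsupp.mapDomain_single, norm1_single]
    simp
  · show norm1 (ℓ • Finsupp.mapDomain b.symm (Finsupp.single Q 1)) ≤ ℓ
    rw [Finsupp.mapDomain_single, norm1_nsmul, norm1_single]
    simp

end Fermat.Agent.GJ.S37BoundedES
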