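/-
GATE-J / S37 path (helper35, deputy): small operator-level leaves for the final `hR` assembly.

* `correspondence_nonneg`            : a correspondence `ψ_* ∘ φ^*` preserves effective divisors;
* `norm1_correspondence_single_le`   : `‖(ψ_* φ^*) P‖₁ ≤ [F' : φ F] · deg P`   (the hypothesis `hT`
                                       of the bounded-homomorphism trick, with the bound
                                       `finrankAlong K φ` instead of `ℓ + 1`);
* `es_on_degZero_bound`              : `helper37`'s `es_on_degZero` with ARBITRARY bounds on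
                                       `‖T P‖₁`, `‖Fr Q‖₁`, `‖Ve Q‖₁`;
* `heckeOperatorBar_mk`              : the prelude operator `heckeOperatorBar M ℓ` on a class
                                       `Pic0.mk D` is the class of `heckeDivBar D`;
* `norm1_heckeDivBar_single_le`      : `‖T_ℓ P‖₁ ≤ finrankAlong ℚ̄ β` at every level.
-/
import Fermat.Agent.GJ.S37.BoundedES
import Fermat.Agent.GJ.HInputs.Modular
import Fermat.Agent.RR.ModularBar

set_option autoImplicit false

noncomputable section

namespace Fermat.Agent.GJ.S37HeckeOp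

open AlgebraicCurve ModularCurve Fermat.Agent.GJ.S37Bounded Fermat.Agent.GJ.S37BoundedRR
  Fermat.Agent.GJ.S37BoundedES Fermat.Agent.RRh45

/-! ### correspondences preserve effectivity and are bounded on places -/

section Corr

variable {K F F' : Type*} [Field K] [Field F] [Field F'] [Algebra K F] [Algebra K F']

theorem pullbackAlong_nonneg [HasPrincipalDivisors K F'] (φ : F →ₐ[K] F')
    (hφ : φ.toRingHom.IsIntegral) {D : Divisor K F} (hD : 0 ≤ D) :
    0 ≤ Divisor.pullbackAlong φ hφ D := by
  intro w
  rw [Divisor.pullbackAlong_apply]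
  have h0 : 0 ≤ D (w.restrictAlong φ hφ) := hD _
  exact mul_nonneg (Int.natCast_nonneg _) h0

theorem pushforwardAlong_nonneg (ψ : F →ₐ[K] F') (hψ : ψ.toRingHom.IsIntegral)
    {E : Divisor K F'} (hE : 0 ≤ E) : 0 ≤ Divisor.pushforwardAlong ψ hψ E := by
  classical
  induction E using Finsupp.induction with
  | zero => rw [map_zero]
  | single_add w n E hw hn ih =>
    have hn0 : 0 ≤ n := by
      have := hE w
      simpa [Finsupp.add_apply, Finsupp.notMem_support_iff.mp hw] using this
    have hE0 : 0 ≤ E := by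
      intro v
      by_cases hv : v = w
      · subst hv
        rw [Finsupp.notMem_support_iff.mp hw]
        exact le_rfl
      · have := hE v
        simpa [Finsupp.add_apply, Finsupp.single_eq_of_ne hv] using this
    rw [map_add, Divisor.pushforwardAlong_single]
    refine add_nonneg ?_ (ih hE0)
    intro v
    rw [Finsupp.single_apply]
    split_ifs
    · exact mul_nonneg hn0 (Int.natCast_nonneg _)
    · exact le_rfl

theorem correspondence_nonneg [HasPrincipalDivisors K F'] (φ ψ : F →ₐ[K] F')
    (hφ : φ.toRingHom.IsIntegral) (hψ : ψ.toRingHom.IsIntegral) {D : Divisor K F} (hD : 0 ≤ D) :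
    0 ≤ Divisor.correspondence φ ψ hφ hψ D := by
  rw [Divisor.correspondence_apply]
  exact pushforwardAlong_nonneg ψ hψ (pullbackAlong_nonneg φ hφ hD)

theorem single_one_nonneg {α : Type*} (a : α) : (0 : α →₀ ℤ) ≤ Finsupp.single a 1 := by
  classical
  intro b
  rw [Finsupp.single_apply]
  split_ifs <;> simp

/-- **(HT)** `‖(ψ_* φ^*) P‖₁ ≤ [F' : φ F] · deg P`. -/
theorem norm1_correspondence_single_le [FiniteResidues K F] [HasPrincipalDivisors K F']
    (φ ψ : F →ₐ[K] F') (hφ : φ.toRingHom.IsIntegral) (hψ : ψ.toRingHom.IsIntegral)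
    (hFI : FundamentalIdentityAlong K φ hφ) (P : Place K F) :
    norm1 (Divisor.correspondence φ ψ hφ hψ (Finsupp.single P 1)) ≤ finrankAlong K φ * P.deg := by
  have h1 := norm1_le_degree
    (correspondence_nonneg φ ψ hφ hψ (single_one_nonneg (α := Place K F) P))
  rw [Divisor.degree_correspondence φ ψ hφ hψ hFI, Divisor.degree_single, one_mul] at h1
  exact_mod_cast h1

/-- **(HT)** for places of degree one. -/
theorem norm1_correspondence_single_le_of_deg [FiniteResidues K F] [HasPrincipalDivisors K F']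
    (φ ψ : F →ₐ[K] F') (hφ : φ.toRingHom.IsIntegral) (hψ : ψ.toRingHom.IsIntegral)
    (hFI : FundamentalIdentityAlong K φ hφ) (hdeg : ∀ P : Place K F, P.deg = 1) (P : Place K F) :
    norm1 (Divisor.correspondence φ ψ hφ hψ (Finsupp.single P 1)) ≤ finrankAlong K φ := by
  have := norm1_correspondence_single_le φ ψ hφ hψ hFI P
  rwa [hdeg P, mul_one] at this

end Corr

/-! ### the bounded-homomorphism trick with arbitrary bounds -/

section Bound

variable {K F k Ft : Type*} [Field K] [Field F] [Algebra K F] [Field k] [Field Ft] [Algebra k Ft]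
variable [FiniteResidues K F] [HasPrincipalDivisors K F]

/-- **(ES')** `es_on_degZero` with arbitrary bounds `BT`, `BF`, `BV`. -/
theorem es_on_degZero_bound (r : Place K F → Place k Ft) (T : Divisor K F →+ Divisor K F)
    (BT BF BV : ℕ)
    (hT : ∀ P : Place K F, norm1 (T (Finsupp.single P 1)) ≤ BT)
    (Fr Ve : Divisor k Ft →+ Divisor k Ft)
    (hFr : ∀ Q : Place k Ft, norm1 (Fr (Finsupp.single Q 1)) ≤ BF)
    (hVe : ∀ Q : Place k Ft, norm1 (Ve (Finsupp.single Q 1)) ≤ BV)
    (hprin : ∀ D ∈ Divisor.principal (K := K) (F := F),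
      Finsupp.mapDomain r (T D) = Fr (Finsupp.mapDomain r D) + Ve (Finsupp.mapDomain r D))
    {D : Divisor K F} (hD : D ∈ Divisor.degZero (K := K) (F := F)) :
    Finsupp.mapDomain r (T D) = Fr (Finsupp.mapDomain r D) + Ve (Finsupp.mapDomain r D) := by
  classical
  let rr : Divisor K F →+ Divisor k Ft := Finsupp.mapDomain.addMonoidHom r
  let δ : Divisor K F →+ (Place k Ft →₀ ℤ) := rr.comp T - (Fr + Ve).comp rr
  have hδ : ∀ E : Divisor K F, δ E =
      Finsupp.mapDomain r (T E) - (Fr (Finsupp.mapDomain r E) + Ve (Finsupp.mapDomain r E)) :=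
    fun E => rfl
  have h0 : δ D = 0 := by
    refine eq_zero_on_degZero_of_riemann δ (fun E hE => ?_) (BT + (BF + BV)) (fun P => ?_) hD
    · rw [hδ, hprin E hE, sub_self]
    · rw [hδ, Finsupp.mapDomain_single]
      refine (norm1_sub_le _ _).trans ?_
      have h1 := (norm1_mapDomain_le r (T (Finsupp.single P 1))).trans (hT P)
      have h2 := (norm1_add_le (Fr (Finsupp.single (r P) 1)) (Ve (Finsupp.single (r P) 1))).trans
        (add_le_add (hFr (r P)) (hVe (r P)))
      omega
  rw [hδ, sub_eq_zero] at h0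
  exact h0

/-- **(ES')** with `Fr = b_*`, `Ve = ℓ · (b⁻¹)_*` for a bijection `b` of the special places and an
arbitrary bound on `‖T P‖₁`. -/
theorem es_on_degZero_perm_bound (r : Place K F → Place k Ft) (T : Divisor K F →+ Divisor K F)
    (ℓ BT : ℕ) (hT : ∀ P : Place K F, norm1 (T (Finsupp.single P 1)) ≤ BT)
    (b : Equiv.Perm (Place k Ft))
    (hprin : ∀ D ∈ Divisor.principal (K := K) (F := F),
      Finsupp.mapDomain r (T D) = Finsupp.mapDomain b (Finsupp.mapDomain r D) +
        ℓ • Finsupp.mapDomain b.symm (Finsupp.mapDomain r D))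
    {D : Divisor K F} (hD : D ∈ Divisor.degZero (K := K) (F := F)) :
    Finsupp.mapDomain r (T D) = Finsupp.mapDomain b (Finsupp.mapDomain r D) +
        ℓ • Finsupp.mapDomain b.symm (Finsupp.mapDomain r D) := by
  classical
  let Fr : Divisor k Ft →+ Divisor k Ft := Finsupp.mapDomain.addMonoidHom b
  let Ve : Divisor k Ft →+ Divisor k Ft := ℓ • Finsupp.mapDomain.addMonoidHom b.symm
  refine es_on_degZero_bound r T BT 1 ℓ hT Fr Ve (fun Q => ?_) (fun Q => ?_) hprin hD
  · show norm1 (Finsupp.mapDomain b (Finsupp.single Q 1)) ≤ 1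
    rw [Finsupp.mapDomain_single, norm1_single]
    simp
  · show norm1 (ℓ • Finsupp.mapDomain b.symm (Finsupp.single Q 1)) ≤ ℓ
    rw [Finsupp.mapDomain_single, norm1_nsmul, norm1_single]
    simp

end Bound

/-! ### the prelude Hecke operator on `J₀(M)(ℚ̄)` at the level of divisors -/

section Bar

variable (M : ℕ) [NeZero M]

/-- **(MK)+(HT)** for the prelude operator: `heckeOperatorBar M ℓ` is induced by the divisor
correspondence `heckeDivBar`, which is bounded on places. -/
theorem exists_heckeOperatorBar_mk (ℓ : Nat.Primes) :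
    haveI : NeZero (ℓ : ℕ) := ⟨ℓ.2.ne_zero⟩
    ∃ (hα : HeckeAlphaBarIntegral (AlgebraicClosure ℚ) M ℓ)
      (hβ : HeckeBetaBarIntegral (AlgebraicClosure ℚ) M ℓ)
      (_ : HasPrincipalDivisors (AlgebraicClosure ℚ) (modularFunctionFieldBar (M * ℓ)))
      (hFI : FundamentalIdentityAlong (AlgebraicClosure ℚ)
        (heckeBetaBar (AlgebraicClosure ℚ) M ℓ) hβ),
      (∀ D : Divisor.degZero (K := AlgebraicClosure ℚ) (F := modularFunctionFieldBar M),
        heckeOperatorBar M ℓ (Pic0.mk D) =
          Pic0.mk ⟨heckeDivBar hα hβ (D : Divisor (AlgebraicClosure ℚ) (modularFunctionFieldBar M)),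
            Divisor.correspondence_mem_degZero _ _ hβ hα hFI D.2⟩) ∧
      (∀ P : Place (AlgebraicClosure ℚ) (modularFunctionFieldBar M),
        norm1 (heckeDivBar hα hβ (Finsupp.single P 1)) ≤
          finrankAlong (AlgebraicClosure ℚ) (heckeBetaBar (AlgebraicClosure ℚ) M ℓ)) := by
  have : NeZero (ℓ : ℕ) := ⟨ℓ.2.ne_zero⟩
  obtain ⟨hα, hβ, hP, hfin, hFI, hN, hop⟩ :=
    Fermat.Agent.GJ.HInputs.exists_heckeOperatorBar_eq M ℓ
  refine ⟨hα, hβ, hP, hFI, fun D => ?_, fun P => ?_⟩
  · rw [hop]
    rfl
  · have : FiniteResidues (AlgebraicClosure ℚ) (modularFunctionFieldBar M) :=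
      Fermat.Agent.RR.ModularBar.finiteResidues M
    exact norm1_correspondence_single_le_of_deg _ _ hβ hα hFI
      (fun P => Fermat.Agent.RR.ModularBar.deg_eq_one (N := M) P) P

end Bar

end Fermat.Agent.GJ.S37HeckeOp

end
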