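/-
GATE-J / S37-PATH leaf (c) (helper18), ABSTRACT CORE: a correspondence `α_* β^*` commutes with the
pullback along a morphism of towers, on divisors of degree zero.

Data: function fields `F, F', F₁, F₁'` over `K`, `K`-algebra homomorphisms
`α β : F → F₁`, `α' β' : F' → F₁'`, `π : F → F'`, `π₁ : F₁ → F₁'` with `π₁ ∘ β = β' ∘ π` and the norm
compatibility `Nm_{α'} (π₁ g) = π (Nm_α g)` (which holds when `π₁ ∘ α = α' ∘ π` and `F₁' = F₁ ⊗_F F'`).
Then `δ := π^* ∘ (α_* β^*) - (α'_* β'^*) ∘ π^*` kills principal divisors and is uniformly bounded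
on places, hence vanishes on `Div⁰(F)` by the bounded-homomorphism trick (helper37).
No completions, no place-by-place base change.
-/
import Mathlib
import Fermat.Prelude.Def_AlgebraicCurve_Correspondence
import Fermat.Agent.GJ.S37.BoundedRR
import Fermat.Agent.GJ.S37.BoundedES

set_option autoImplicit false

noncomputable section

open AlgebraicCurve

namespace Fermat.Agent.GJ.S37HeckePullback

open Fermat.Agent.GJ.S37Bounded Fermat.Agent.GJ.S37BoundedRR Fermat.Agent.GJ.S37BoundedES Fermat.Agent.RRh45

section Basic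

variable {K F F' : Type*} [Field K] [Field F] [Field F'] [Algebra K F] [Algebra K F']

/-- the norm down to `F` along `ψ : F → F'` -/
def normAlong (ψ : F →ₐ[K] F') (g : F') : F :=
  letI := algebraAlong ψ
  Algebra.norm F g

theorem normAlong_ne_zero (ψ : F →ₐ[K] F') (hfin : FiniteAlong K ψ) {g : F'} (hg : g ≠ 0) :
    normAlong ψ g ≠ 0 := by
  letI := algebraAlong ψ
  haveI : Module.Finite F F' := hfin
  exact Algebra.norm_ne_zero_iff.mpr hg

theorem pullbackAlong_apply_of_ord [HasPrincipalDivisors K F'] (φ : F →ₐ[K] F')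
    (hφ : φ.toRingHom.IsIntegral) {f : F} {D : Divisor K F} (hD : ∀ v, D v = v.ord f)
    (w : Place K F') : Divisor.pullbackAlong φ hφ D w = w.ord (φ f) := by
  letI := algebraAlong φ
  haveI := isScalarTower_along φ
  haveI := isIntegral_along φ hφ
  exact Divisor.pullback_apply_eq_ord hD w

theorem pushforwardAlong_apply_of_ord (ψ : F →ₐ[K] F') (hψ : ψ.toRingHom.IsIntegral)
    (hfin : FiniteAlong K ψ) (hN : NormFormulaAlong K ψ hfin) {g : F'} (hg : g ≠ 0)
    {D : Divisor K F'} (hD : ∀ w, D w = w.ord g) (v : Place K F) :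
    Divisor.pushforwardAlong ψ hψ D v = v.ord (normAlong ψ g) := by
  letI := algebraAlong ψ
  haveI := isScalarTower_along ψ
  haveI := isIntegral_along ψ hψ
  haveI : Module.Finite F F' := hfin
  exact hN g hg D hD v

theorem pullbackAlong_nonneg [HasPrincipalDivisors K F'] (φ : F →ₐ[K] F')
    (hφ : φ.toRingHom.IsIntegral) {D : Divisor K F} (hD : 0 ≤ D) :
    0 ≤ Divisor.pullbackAlong φ hφ D := by
  letI := algebraAlong φ
  haveI := isScalarTower_along φ
  haveI := isIntegral_along φ hφ
  rw [Finsupp.le_def]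
  intro w
  change (0 : ℤ) ≤ Divisor.pullback F' D w
  rw [Divisor.pullback_apply]
  have h0 : 0 ≤ D (w.restrict F) := by simpa using Finsupp.le_def.mp hD (w.restrict F)
  positivity

theorem pushforwardAlong_nonneg (ψ : F →ₐ[K] F') (hψ : ψ.toRingHom.IsIntegral)
    {D : Divisor K F'} (hD : 0 ≤ D) : 0 ≤ Divisor.pushforwardAlong ψ hψ D := by
  classical
  letI := algebraAlong ψ
  haveI := isScalarTower_along ψ
  haveI := isIntegral_along ψ hψ
  rw [Finsupp.le_def]
  intro v
  change (0 : ℤ) ≤ Divisor.pushforward F D v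
  rw [Divisor.pushforward_apply]
  refine Finset.sum_nonneg fun w _ => ?_
  have h0 : 0 ≤ D w := by simpa using Finsupp.le_def.mp hD w
  split_ifs
  · positivity
  · exact le_refl _

end Basic

section Core

variable {K F F' F₁ F₁' : Type*} [Field K] [Field F] [Field F'] [Field F₁] [Field F₁']
  [Algebra K F] [Algebra K F'] [Algebra K F₁] [Algebra K F₁']
  [HasPrincipalDivisors K F'] [HasPrincipalDivisors K F₁] [HasPrincipalDivisors K F₁']
variable (α β : F →ₐ[K] F₁) (α' β' : F' →ₐ[K] F₁') (π : F →ₐ[K] F') (π₁ : F₁ →ₐ[K] F₁')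
  (hα : α.toRingHom.IsIntegral) (hβ : β.toRingHom.IsIntegral)
  (hα' : α'.toRingHom.IsIntegral) (hβ' : β'.toRingHom.IsIntegral)
  (hπ : π.toRingHom.IsIntegral)

/-- the defect of commutation, as a homomorphism of divisor groups -/
def defect : Divisor K F →+ Divisor K F' :=
  (Divisor.pullbackAlong π hπ).comp (Divisor.correspondence β α hβ hα) -
    (Divisor.correspondence β' α' hβ' hα').comp (Divisor.pullbackAlong π hπ)

theorem defect_apply (D : Divisor K F) :
    defect α β α' β' π hα hβ hα' hβ' hπ D =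
      Divisor.pullbackAlong π hπ (Divisor.correspondence β α hβ hα D) -
        Divisor.correspondence β' α' hβ' hα' (Divisor.pullbackAlong π hπ D) := rfl

include π₁ in
/-- the defect kills principal divisors -/
theorem defect_principal (hsqβ : ∀ f, π₁ (β f) = β' (π f))
    (hfinα : FiniteAlong K α) (hNα : NormFormulaAlong K α hfinα)
    (hfinα' : FiniteAlong K α') (hNα' : NormFormulaAlong K α' hfinα')
    (hnorm : ∀ g : F₁, normAlong α' (π₁ g) = π (normAlong α g))
    {D : Divisor K F} (hD : D ∈ Divisor.principal (K := K) (F := F)) :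
    defect α β α' β' π hα hβ hα' hβ' hπ D = 0 := by
  obtain ⟨f, hf, hDf⟩ := hD
  rw [defect_apply, sub_eq_zero]
  have hβf : β f ≠ 0 := by
    rw [Ne, map_eq_zero_iff β β.toRingHom.injective]
    exact hf
  have hπf : π f ≠ 0 := by
    rw [Ne, map_eq_zero_iff π π.toRingHom.injective]
    exact hf
  have hβ'πf : β' (π f) ≠ 0 := by
    rw [Ne, map_eq_zero_iff β' β'.toRingHom.injective]
    exact hπf
  ext w
  -- left side
  have h1 : ∀ u, Divisor.pullbackAlong β hβ D u = u.ord (β f) :=
    pullbackAlong_apply_of_ord β hβ hDf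
  have h2 : ∀ v, Divisor.pushforwardAlong α hα (Divisor.pullbackAlong β hβ D) v
      = v.ord (normAlong α (β f)) :=
    pushforwardAlong_apply_of_ord α hα hfinα hNα hβf h1
  have h3 := pullbackAlong_apply_of_ord π hπ h2 w
  -- right side
  have k1 : ∀ u, Divisor.pullbackAlong π hπ D u = u.ord (π f) :=
    pullbackAlong_apply_of_ord π hπ hDf
  have k2 : ∀ u, Divisor.pullbackAlong β' hβ' (Divisor.pullbackAlong π hπ D) u
      = u.ord (β' (π f)) :=
    pullbackAlong_apply_of_ord β' hβ' k1
  have k3 := pushforwardAlong_apply_of_ord α' hα' hfinα' hNα' hβ'πf k2 w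
  rw [Divisor.correspondence_apply, Divisor.correspondence_apply, h3, k3, ← hsqβ, hnorm]

variable [FiniteResidues K F']

/-- the defect is uniformly bounded on places -/
theorem norm1_defect_single_le
    (hFIβ : FundamentalIdentityAlong K β hβ) (hFIβ' : FundamentalIdentityAlong K β' hβ')
    (hFIπ : FundamentalIdentityAlong K π hπ) (c : ℕ) (hdeg : ∀ P : Place K F, P.deg ≤ c)
    (P : Place K F) :
    norm1 (defect α β α' β' π hα hβ hα' hβ' hπ (Finsupp.single P 1)) ≤
      (finrankAlong K π * finrankAlong K β + finrankAlong K β' * finrankAlong K π) * c := by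
  classical
  rw [defect_apply]
  refine (norm1_sub_le _ _).trans ?_
  have hP0 : (0 : Divisor K F) ≤ Finsupp.single P 1 := by
    rw [Finsupp.le_def]
    intro v
    rw [Finsupp.single_apply]
    split_ifs <;> simp
  have hdegP : Divisor.degree (Finsupp.single P (1 : ℤ)) = (P.deg : ℤ) := by
    rw [Divisor.degree_single, one_mul]
  -- first term
  have hA0 : 0 ≤ Divisor.pullbackAlong π hπ
      (Divisor.correspondence β α hβ hα (Finsupp.single P 1)) :=
    pullbackAlong_nonneg π hπ (pushforwardAlong_nonneg α hα (pullbackAlong_nonneg β hβ hP0))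
  have hA := norm1_le_degree hA0
  rw [Divisor.degree_pullbackAlong π hπ hFIπ, Divisor.degree_correspondence β α hβ hα hFIβ,
    hdegP] at hA
  -- second term
  have hB0 : 0 ≤ Divisor.correspondence β' α' hβ' hα'
      (Divisor.pullbackAlong π hπ (Finsupp.single P 1)) :=
    pushforwardAlong_nonneg α' hα' (pullbackAlong_nonneg β' hβ' (pullbackAlong_nonneg π hπ hP0))
  have hB := norm1_le_degree hB0
  rw [Divisor.degree_correspondence β' α' hβ' hα' hFIβ', Divisor.degree_pullbackAlong π hπ hFIπ,
    hdegP] at hB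
  have hc : (P.deg : ℤ) ≤ c := by exact_mod_cast hdeg P
  have hc0 : (0 : ℤ) ≤ P.deg := by positivity
  have : ((norm1 (Divisor.pullbackAlong π hπ
      (Divisor.correspondence β α hβ hα (Finsupp.single P 1))) : ℤ) +
      (norm1 (Divisor.correspondence β' α' hβ' hα'
        (Divisor.pullbackAlong π hπ (Finsupp.single P 1))) : ℤ)) ≤
      (((finrankAlong K π * finrankAlong K β + finrankAlong K β' * finrankAlong K π) * c : ℕ) : ℤ) := by
    push_cast
    have e1 : (finrankAlong K π : ℤ) * ((finrankAlong K β : ℤ) * (P.deg : ℤ)) ≤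
        (finrankAlong K π : ℤ) * (finrankAlong K β : ℤ) * c := by
      rw [mul_assoc]
      exact mul_le_mul_of_nonneg_left (mul_le_mul_of_nonneg_left hc (by positivity))
        (by positivity)
    have e2 : (finrankAlong K β' : ℤ) * ((finrankAlong K π : ℤ) * (P.deg : ℤ)) ≤
        (finrankAlong K β' : ℤ) * (finrankAlong K π : ℤ) * c := by
      rw [mul_assoc]
      exact mul_le_mul_of_nonneg_left (mul_le_mul_of_nonneg_left hc (by positivity))
        (by positivity)
    linarith
  exact_mod_cast this

variable [FiniteResidues K F] [HasPrincipalDivisors K F]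

include π₁ in
/-- **Commutation of a correspondence with pullback, on divisors of degree zero.** -/
theorem pullbackAlong_correspondence (hsqβ : ∀ f, π₁ (β f) = β' (π f))
    (hfinα : FiniteAlong K α) (hNα : NormFormulaAlong K α hfinα)
    (hfinα' : FiniteAlong K α') (hNα' : NormFormulaAlong K α' hfinα')
    (hnorm : ∀ g : F₁, normAlong α' (π₁ g) = π (normAlong α g))
    (hFIβ : FundamentalIdentityAlong K β hβ) (hFIβ' : FundamentalIdentityAlong K β' hβ')
    (hFIπ : FundamentalIdentityAlong K π hπ) (c : ℕ) (hdeg : ∀ P : Place K F, P.deg ≤ c)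
    {D : Divisor K F} (hD : D ∈ Divisor.degZero (K := K) (F := F)) :
    Divisor.pullbackAlong π hπ (Divisor.correspondence β α hβ hα D) =
      Divisor.correspondence β' α' hβ' hα' (Divisor.pullbackAlong π hπ D) := by
  have h0 := eq_zero_on_degZero_of_riemann (defect α β α' β' π hα hβ hα' hβ' hπ)
    (fun E hE => defect_principal α β α' β' π π₁ hα hβ hα' hβ' hπ hsqβ hfinα hNα hfinα' hNα'
      hnorm hE)
    _ (norm1_defect_single_le α β α' β' π hα hβ hα' hβ' hπ hFIβ hFIβ' hFIπ c hdeg) hD
  rw [defect_apply, sub_eq_zero] at h0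
  exact h0

end Core

end Fermat.Agent.GJ.S37HeckePullback
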