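/-
GATE-J / S37-PATH leaf (c) (helper18), MODULAR INSTANCE: for `N ∣ N'` and a prime `ℓ ∤ N'`,

  `π^* ∘ T_ℓ^{(N)} = T_ℓ^{(N')} ∘ π^*`   on `J₀(N)(ℚ̄) = Pic⁰(F_N)`,

`π^* = Pic0.pullbackHom` along the inclusion `F_N ⊆ F_{N'}` of function fields and `T_ℓ` the
prelude operator `heckeOperatorBar`.

Route: `δ := π^* ∘ (α_* β^*) - (α'_* β'^*) ∘ π^*` on divisors kills principal divisors, because
`Nm_{α'}(β'(π f)) = π (Nm_α (β f))`: BOTH norms are the level-independent Hecke norm series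
`f(q^ℓ) · ∏_b f(ζ^b q^{1/ℓ})` (HN1, `GJ/HN/Bridge.coe_heckeNormF`); and `δ` is uniformly bounded
on places.  Hence `δ = 0` on `Div⁰` by the bounded-homomorphism trick (`HeckePullbackCore`).
NO coprimality of degrees is needed.
-/
import Mathlib
import Fermat.Agent.GJ.S37.HeckePullbackCore
import Fermat.Agent.GJ.S37.HeckeOpDiv
import Fermat.Agent.GJ.HN.Bridge
import Fermat.Agent.GJ.J1.Desc
import Fermat.Agent.RR.ModularBar

set_option autoImplicit false

noncomputable section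

open AlgebraicCurve ModularCurve IntermediateField

namespace Fermat.Agent.GJ.S37HeckePullback

open Fermat.Agent.GJ.S37Bounded Fermat.Agent.GJ.S37BoundedRR Fermat.Agent.GJ.S37BoundedES
  Fermat.Agent.RRh45 Fermat.Agent.S24

/-! ### the abstract core with the norm compatibility only on the image of `β` -/

section CoreWeak

variable {K F F' F₁ F₁' : Type*} [Field K] [Field F] [Field F'] [Field F₁] [Field F₁']
  [Algebra K F] [Algebra K F'] [Algebra K F₁] [Algebra K F₁']
  [HasPrincipalDivisors K F'] [HasPrincipalDivisors K F₁] [HasPrincipalDivisors K F₁']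
variable (α β : F →ₐ[K] F₁) (α' β' : F' →ₐ[K] F₁') (π : F →ₐ[K] F')
  (hα : α.toRingHom.IsIntegral) (hβ : β.toRingHom.IsIntegral)
  (hα' : α'.toRingHom.IsIntegral) (hβ' : β'.toRingHom.IsIntegral)
  (hπ : π.toRingHom.IsIntegral)

/-- the defect kills principal divisors (norm compatibility only for `g = β f`) -/
theorem defect_principal_of_norm
    (hfinα : FiniteAlong K α) (hNα : NormFormulaAlong K α hfinα)
    (hfinα' : FiniteAlong K α') (hNα' : NormFormulaAlong K α' hfinα')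
    (hnorm : ∀ f : F, normAlong α' (β' (π f)) = π (normAlong α (β f)))
    {D : Divisor K F} (hD : D ∈ Divisor.principal (K := K) (F := F)) :
    defect α β α' β' π hα hβ hα' hβ' hπ D = 0 := by
  obtain ⟨f, hf, hDf⟩ := hD
  rw [defect_apply, sub_eq_zero]
  have hβf : β f ≠ 0 := by
    rw [Ne, map_eq_zero_iff β β.toRingHom.injective]
    exact hf
  have hπf : π f ≠ 0 := by
    rw [Ne, map_eq_zero_iff π π.toRingHom.injective]
    exact hf
  have hβ'πf : β' (π f) ≠ 0 := by
    rw [Ne, map_eq_zero_iff β' β'.toRingHom.injective]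
    exact hπf
  ext w
  have h1 : ∀ u, Divisor.pullbackAlong β hβ D u = u.ord (β f) :=
    pullbackAlong_apply_of_ord β hβ hDf
  have h2 : ∀ v, Divisor.pushforwardAlong α hα (Divisor.pullbackAlong β hβ D) v
      = v.ord (normAlong α (β f)) :=
    pushforwardAlong_apply_of_ord α hα hfinα hNα hβf h1
  have h3 := pullbackAlong_apply_of_ord π hπ h2 w
  have k1 : ∀ u, Divisor.pullbackAlong π hπ D u = u.ord (π f) :=
    pullbackAlong_apply_of_ord π hπ hDf
  have k2 : ∀ u, Divisor.pullbackAlong β' hβ' (Divisor.pullbackAlong π hπ D) u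
      = u.ord (β' (π f)) :=
    pullbackAlong_apply_of_ord β' hβ' k1
  have k3 := pushforwardAlong_apply_of_ord α' hα' hfinα' hNα' hβ'πf k2 w
  rw [Divisor.correspondence_apply, Divisor.correspondence_apply, h3, k3, hnorm]

variable [FiniteResidues K F'] [FiniteResidues K F] [HasPrincipalDivisors K F]

/-- **Commutation of a correspondence with pullback, on divisors of degree zero** (norm
compatibility only for `g = β f`). -/
theorem pullbackAlong_correspondence_of_norm
    (hfinα : FiniteAlong K α) (hNα : NormFormulaAlong K α hfinα)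
    (hfinα' : FiniteAlong K α') (hNα' : NormFormulaAlong K α' hfinα')
    (hnorm : ∀ f : F, normAlong α' (β' (π f)) = π (normAlong α (β f)))
    (hFIβ : FundamentalIdentityAlong K β hβ) (hFIβ' : FundamentalIdentityAlong K β' hβ')
    (hFIπ : FundamentalIdentityAlong K π hπ) (c : ℕ) (hdeg : ∀ P : Place K F, P.deg ≤ c)
    {D : Divisor K F} (hD : D ∈ Divisor.degZero (K := K) (F := F)) :
    Divisor.pullbackAlong π hπ (Divisor.correspondence β α hβ hα D) =
      Divisor.correspondence β' α' hβ' hα' (Divisor.pullbackAlong π hπ D) := by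
  have h0 := eq_zero_on_degZero_of_riemann (defect α β α' β' π hα hβ hα' hβ' hπ)
    (fun E hE => defect_principal_of_norm α β α' β' π hα hβ hα' hβ' hπ hfinα hNα hfinα' hNα'
      hnorm hE)
    _ (norm1_defect_single_le α β α' β' π hα hβ hα' hβ' hπ hFIβ hFIβ' hFIπ c hdeg) hD
  rw [defect_apply, sub_eq_zero] at h0
  exact h0

end CoreWeak

/-! ### the inclusion `F_N ⊆ F_{N'}` -/

section Level

variable {N N' : ℕ} [NeZero N] [NeZero N'] (h : N ∣ N')

/-- the inclusion `F_N → F_{N'}` of function fields over `ℚ̄`, `N ∣ N'` -/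
def levelIncl : FN N →ₐ[Kbar] FN N' :=
  IntermediateField.inclusion (Fermat.Agent.GJ.J1.Desc.fieldL_le (L := Kbar) h)

@[simp]
theorem coe_levelIncl (x : FN N) :
    ((levelIncl h x : FN N') : LaurentSeries Kbar) = (x : LaurentSeries Kbar) :=
  IntermediateField.coe_inclusion _ x

theorem levelIncl_jF : levelIncl h (jF N) = jF N' :=
  Subtype.ext (by rw [coe_levelIncl, coe_jF, coe_jF])

theorem finiteAlong_levelIncl : FiniteAlong Kbar (levelIncl h) := by
  haveI : FiniteDimensional Kbar⟮levelIncl h (jF N)⟯ (FN N') := by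
    rw [levelIncl_jF]
    exact (Fermat.Agent.RR.ModularBar.isGen_jF N').finite
  exact Fermat.Agent.GJ.HInputs.finiteAlong_of_gen _ (jF N)

theorem isIntegral_levelIncl : (levelIncl h).toRingHom.IsIntegral :=
  Fermat.Agent.GJ.HInputs.isIntegral_of_finiteAlong _ (finiteAlong_levelIncl h)

theorem fundamentalIdentityAlong_levelIncl :
    haveI := Fermat.Agent.RR.ModularBar.hasPrincipalDivisors N'
    FundamentalIdentityAlong Kbar (levelIncl h) (isIntegral_levelIncl h) := by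
  have hP := Fermat.Agent.RR.ModularBar.hasPrincipalDivisors N'
  have hcz : CharZero Kbar := algebraRat.charZero Kbar
  exact @Fermat.Agent.GJ.HInputs.fundamentalIdentity Kbar _ _ _ _ _ _ _
    (algebraAlong (levelIncl h)) (isScalarTower_along (levelIncl h)) (finiteAlong_levelIncl h)
    hcz _ hP (fun v => Fermat.Agent.RR.ModularBar.deg_eq_one (N := N) v)
    (fun w => Fermat.Agent.RR.ModularBar.deg_eq_one (N := N') w)

end Level

/-! ### the Hecke correspondence commutes with the pullback `F_N ⊆ F_{N'}` -/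

section Hecke

variable {N N' : ℕ} [NeZero N] [NeZero N'] (h : N ∣ N') (ℓ : ℕ) [NeZero ℓ]

/-- **norm compatibility**: both norms are the level-independent Hecke norm series (HN1). -/
theorem normAlong_heckeBetaBar_levelIncl (hℓ : ℓ.Prime) (hℓN' : ¬ ℓ ∣ N') (f : FN N) :
    normAlong (heckeAlphaBar Kbar N' ℓ) (heckeBetaBar Kbar N' ℓ (levelIncl h f))
      = levelIncl h (normAlong (heckeAlphaBar Kbar N ℓ) (heckeBetaBar Kbar N ℓ f)) := by
  have hℓN : ¬ ℓ ∣ N := fun hd => hℓN' (hd.trans h)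
  obtain ⟨x, hx, hxn, -⟩ := Fermat.Agent.GJ.HN.exists_eq_heckeNorm N ℓ hℓ hℓN f
  obtain ⟨y, hy, hyn, -⟩ := Fermat.Agent.GJ.HN.exists_eq_heckeNorm N' ℓ hℓ hℓN' (levelIncl h f)
  have e1 : normAlong (heckeAlphaBar Kbar N ℓ) (heckeBetaBar Kbar N ℓ f) = x := hxn.symm
  have e2 : normAlong (heckeAlphaBar Kbar N' ℓ) (heckeBetaBar Kbar N' ℓ (levelIncl h f)) = y :=
    hyn.symm
  rw [e1, e2]
  apply Subtype.ext
  rw [coe_levelIncl, hx, hy, coe_levelIncl]

/-- **`π^* ∘ T_ℓ = T_ℓ ∘ π^*` on divisors of degree zero**, for the divisor correspondences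
`heckeDivBar` at the levels `N ∣ N'`, `ℓ ∤ N'` prime. -/
theorem pullbackAlong_heckeDivBar (hℓ : ℓ.Prime) (hℓN' : ¬ ℓ ∣ N')
    (hα : HeckeAlphaBarIntegral Kbar N ℓ) (hβ : HeckeBetaBarIntegral Kbar N ℓ)
    (hα' : HeckeAlphaBarIntegral Kbar N' ℓ) (hβ' : HeckeBetaBarIntegral Kbar N' ℓ)
    [HasPrincipalDivisors Kbar (FN (N * ℓ))] [HasPrincipalDivisors Kbar (FN (N' * ℓ))]
    [HasPrincipalDivisors Kbar (FN N')]
    {D : Divisor Kbar (FN N)} (hD : D ∈ Divisor.degZero (K := Kbar) (F := FN N)) :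
    Divisor.pullbackAlong (levelIncl h) (isIntegral_levelIncl h) (heckeDivBar hα hβ D) =
      heckeDivBar hα' hβ' (Divisor.pullbackAlong (levelIncl h) (isIntegral_levelIncl h) D) := by
  obtain ⟨_, hβ₀, _, hfinα, hFIβ, hNα⟩ := Fermat.Agent.GJ.HInputs.heckeInputsAlong_bar N ℓ
  obtain ⟨_, hβ₀', _, hfinα', hFIβ', hNα'⟩ :=
    Fermat.Agent.GJ.HInputs.heckeInputsAlong_bar N' ℓ
  haveI := Fermat.Agent.RR.ModularBar.finiteResidues N
  haveI := Fermat.Agent.RR.ModularBar.finiteResidues N'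
  haveI := Fermat.Agent.RR.ModularBar.hasPrincipalDivisors N
  exact pullbackAlong_correspondence_of_norm (heckeAlphaBar Kbar N ℓ) (heckeBetaBar Kbar N ℓ)
    (heckeAlphaBar Kbar N' ℓ) (heckeBetaBar Kbar N' ℓ) (levelIncl h) hα hβ hα' hβ'
    (isIntegral_levelIncl h) hfinα hNα hfinα' hNα'
    (normAlong_heckeBetaBar_levelIncl h ℓ hℓ hℓN') hFIβ hFIβ'
    (fundamentalIdentityAlong_levelIncl h) 1
    (fun P => (Fermat.Agent.RR.ModularBar.deg_eq_one (N := N) P).le) hD

end Hecke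

/-! ### the statement on `J₀(N)(ℚ̄) = Pic⁰(F_N)` -/

section Pic

variable {N N' : ℕ} [NeZero N] [NeZero N'] (h : N ∣ N')

/-- the pullback `J₀(N)(ℚ̄) → J₀(N')(ℚ̄)` along `F_N ⊆ F_{N'}`: the prelude `Pic0.pullbackHom`
for the algebra structure `algebraAlong (levelIncl h)`. -/
def pullBar : JZero N →+ JZero N' :=
  letI := algebraAlong (levelIncl h)
  haveI := isScalarTower_along (levelIncl h)
  haveI := isIntegral_along (levelIncl h) (isIntegral_levelIncl h)
  haveI := Fermat.Agent.RR.ModularBar.hasPrincipalDivisors N'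
  haveI : FundamentalIdentity Kbar (FN N) (FN N') := fundamentalIdentityAlong_levelIncl h
  Pic0.pullbackHom (FN N')

theorem pullBar_mk (D : Divisor.degZero (K := Kbar) (F := FN N)) :
    haveI := Fermat.Agent.RR.ModularBar.hasPrincipalDivisors N'
    pullBar h (Pic0.mk D) =
      Pic0.mk ⟨Divisor.pullbackAlong (levelIncl h) (isIntegral_levelIncl h)
        (D : Divisor Kbar (FN N)),
        Divisor.pullbackAlong_mem_degZero _ _ (fundamentalIdentityAlong_levelIncl h) D.2⟩ :=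
  rfl

/-- **S37-PATH leaf (c)**: `π^* ∘ T_ℓ^{(N)} = T_ℓ^{(N')} ∘ π^*` on `J₀(N)(ℚ̄)`, for `N ∣ N'` and
a prime `ℓ ∤ N'`. -/
theorem pullBar_heckeOperatorBar (ℓ : ℕ) (hℓ : ℓ.Prime) (hℓN' : ¬ ℓ ∣ N') (x : JZero N) :
    pullBar h (heckeOperatorBar N ⟨ℓ, hℓ⟩ x) = heckeOperatorBar N' ⟨ℓ, hℓ⟩ (pullBar h x) := by
  haveI : NeZero ℓ := ⟨hℓ.ne_zero⟩
  haveI hPN' := Fermat.Agent.RR.ModularBar.hasPrincipalDivisors N'
  obtain ⟨D, rfl⟩ := Pic0.mk_surjective x
  obtain ⟨hα, hβ, hP, hFI, hmk, -⟩ :=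
    Fermat.Agent.GJ.S37HeckeOp.exists_heckeOperatorBar_mk N ⟨ℓ, hℓ⟩
  obtain ⟨hα', hβ', hP', hFI', hmk', -⟩ :=
    Fermat.Agent.GJ.S37HeckeOp.exists_heckeOperatorBar_mk N' ⟨ℓ, hℓ⟩
  rw [hmk, pullBar_mk, pullBar_mk, hmk']
  congr 1
  apply Subtype.ext
  exact pullbackAlong_heckeDivBar h ℓ hℓ hℓN' hα hβ hα' hβ' D.2

end Pic

end Fermat.Agent.GJ.S37HeckePullback

end
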