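/-
GATE-J / S37 path (helper75): FINAL ASSEMBLY of the frozen S37 statement, in hypothesis form.

Inputs:
* `hS18`  : the frozen S18 statement (J1);
* `LevelPackage` : at every level `M` and every prime `ℓ ∤ M` (with `3 ∣ M` if `ℓ = 2`, `2 ∣ M` if
  `ℓ = 3`) and every `A` over `ℓ`, the reduction inputs `ReductionInputsModL A M` hold and the chosen
  place reduction map is the unique one satisfying the specification (`GJ/S37/InstRED.lean`);
* `PullPackage`  : the pull-back `pullBar h : J₀(N) → J₀(N')` (`N ∣ N'`) is Galois-equivariant and its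
  kernel is killed by `[F_{N'} : F_N]`.

Output: the frozen S37 statement.  The auxiliary level is `N' = N` for `ℓ ≥ 5`, `lcm 3 N` for
`ℓ = 2`, `lcm 2 N` for `ℓ = 3`.
-/
import Mathlib
import Fermat.Agent.GJ.S37.AuxUniq
import Fermat.Agent.GJ.S37.HeckePullback
import Fermat.Agent.GJ.J1.DescDegree

set_option autoImplicit false

namespace Fermat.Agent.GJ.S37Final

open ModularCurve AlgebraicCurve IntermediateField Fermat.Agent.GJ.S37Asm
  Fermat.Agent.GJ.S37AuxUniq Fermat.Agent.GJ.S37HeckePullback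

/-- the level package: reduction inputs + uniqueness of the place reduction map. -/
def LevelPackage : Prop :=
  ∀ (M : ℕ) [NeZero M] {ℓ : ℕ}, ℓ.Prime → ¬ ℓ ∣ M → (ℓ = 2 → 3 ∣ M) → (ℓ = 3 → 2 ∣ M) →
    ∀ A : ValuationSubring (AlgebraicClosure ℚ), A.LiesOverPrime ℓ →
      ∃ h : ModularCurve.ReductionInputsModL A M,
        ∀ r', IsPlaceReductionModL A M r' → r' = placeReductionModL h

/-- the pull-back package: Galois-equivariance and kernel of `pullBar`. -/
def PullPackage : Prop :=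
  ∀ (N N' : ℕ) [NeZero N] [NeZero N'] (h : N ∣ N'),
    (∀ (σ : AlgebraicClosure ℚ ≃ₐ[ℚ] AlgebraicClosure ℚ) (x : ModularCurve.JZero N),
      pullBar h (σ • x) = σ • pullBar h x) ∧
    (∀ x : ModularCurve.JZero N, pullBar h x = 0 →
      (relfinrank (modularFunctionFieldBar N) (modularFunctionFieldBar N')) • x = 0)

theorem not_dvd_lcm {ℓ q N : ℕ} (hℓ : ℓ.Prime) (hq : ¬ ℓ ∣ q) (hN : ¬ ℓ ∣ N) :
    ¬ ℓ ∣ Nat.lcm q N := by
  intro h
  have h1 : ℓ ∣ q * N := h.trans (Nat.lcm_dvd_mul q N)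
  rcases (Nat.Prime.dvd_mul hℓ).mp h1 with h2 | h2
  · exact hq h2
  · exact hN h2

/-- **frozen S37 from S18, the level package and the pull-back package.** -/
theorem s37_final (hS18 : S18Statement) (hL : LevelPackage) (hP : PullPackage)
    (N p : ℕ) [NeZero N] (hcomm : ModularCurve.HeckeOperatorsCommuteBar N) :
    letI := ModularCurve.heckeModuleBar N
    ∀ (_ : SMulCommClass (AlgebraicClosure ℚ ≃ₐ[ℚ] AlgebraicClosure ℚ) ModularCurve.HeckeAlg
        (ModularCurve.JZero N)),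
      ModularCurve.SpecializationExists (K := ℚ) (L := AlgebraicClosure ℚ) N p
        (ModularCurve.JZero N) := by
  intro hs
  refine s37_of_aux_uniq hS18 N p hcomm hs fun ℓ hℓ hℓN A hA => ?_
  have hℓN' : ¬ ℓ ∣ N := fun h => hℓN (Dvd.dvd.mul_right h p)
  have hℓp : ¬ ℓ ∣ p := fun h => hℓN (Dvd.dvd.mul_left h N)
  by_cases h2 : ℓ = 2
  · -- auxiliary level `lcm 3 N`
    subst h2
    have : NeZero (Nat.lcm 3 N) := ⟨Nat.lcm_ne_zero (by norm_num) (NeZero.ne N)⟩
    have hdvd : N ∣ Nat.lcm 3 N := Nat.dvd_lcm_right 3 N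
    have hnd : ¬ 2 ∣ Nat.lcm 3 N := not_dvd_lcm hℓ (by norm_num) hℓN'
    obtain ⟨hpull, hker⟩ := hP N (Nat.lcm 3 N) hdvd
    exact ⟨Nat.lcm 3 N, inferInstance, pullBar hdvd,
      relfinrank (modularFunctionFieldBar N) (modularFunctionFieldBar (Nat.lcm 3 N)), hnd,
      Fermat.Agent.GJ.J1.Desc.coprime_relfinrank_lcm_three N hℓp, hpull, hker,
      fun x => pullBar_heckeOperatorBar hdvd 2 hℓ hnd x,
      hL (Nat.lcm 3 N) hℓ hnd (fun _ => Nat.dvd_lcm_left 3 N) (fun h => absurd h (by norm_num))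
        A hA⟩
  · by_cases h3 : ℓ = 3
    · -- auxiliary level `lcm 2 N`
      subst h3
      have : NeZero (Nat.lcm 2 N) := ⟨Nat.lcm_ne_zero (by norm_num) (NeZero.ne N)⟩
      have hdvd : N ∣ Nat.lcm 2 N := Nat.dvd_lcm_right 2 N
      have hnd : ¬ 3 ∣ Nat.lcm 2 N := not_dvd_lcm hℓ (by norm_num) hℓN'
      obtain ⟨hpull, hker⟩ := hP N (Nat.lcm 2 N) hdvd
      exact ⟨Nat.lcm 2 N, inferInstance, pullBar hdvd,
        relfinrank (modularFunctionFieldBar N) (modularFunctionFieldBar (Nat.lcm 2 N)), hnd,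
        Fermat.Agent.GJ.J1.Desc.coprime_relfinrank_lcm_two N hℓp, hpull, hker,
        fun x => pullBar_heckeOperatorBar hdvd 3 hℓ hnd x,
        hL (Nat.lcm 2 N) hℓ hnd (fun h => absurd h (by norm_num)) (fun _ => Nat.dvd_lcm_left 2 N)
          A hA⟩
    · exact aux_data_self N p hℓ hℓN
        (hL N hℓ hℓN' (fun h => absurd h h2) (fun h => absurd h h3) A hA)

end Fermat.Agent.GJ.S37Final
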