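/-
GATE-J / S37 path (helper75): SUPPLIERS from the L-space place reduction map.

Setting of `GJ/S37/LSpaceRed.lean`: `R : RedData K F k Ft`, `H : LSpaceHyp R g c`, `rOf H` the place
reduction map.  We produce

* `exists_exact_pole`   : for every place `P` and every `m ≥ c + 2` a function `t ∈ L(m P) ∩ Rw`
  whose reduction has a pole of EXACT order `m` at `rOf H P` (and no other pole);
* `exists_sep_function` : the separating functions needed for the uniqueness of the place
  reduction map (`GJ/S37/UniqRed.lean`, `HasSepFunctions`);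
* `exists_zero_divisor` : for every place `P` an `m > 0` such that for every finite set `S'` of
  places of the special fibre there is an effective `Z ∼ m P` none of whose points reduces into
  `S'` (`hsep` of `GJ/S37/Delta.lean`), and its variant `exists_zero_divisor_perm`.
-/
import Mathlib
import Fermat.Agent.GJ.S37.LSpaceRed

set_option autoImplicit false

noncomputable section

open AlgebraicCurve

namespace Fermat.Agent.GJ.S37Supply

open Fermat.Agent.RRh45 Fermat.Agent.GJ.S37MinDiv Fermat.Agent.GJ.J1 Fermat.Agent.GJ.S37LSpace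
  Fermat.Agent.S24

variable {K F k Ft : Type*} [Field K] [Field F] [Algebra K F] [Field k] [Field Ft] [Algebra k Ft]

/-! ### Small facts on `ord` and on `mapDomain` -/

section Small

/-- a place sees at most one value of a function. -/
theorem value_unique (Q : Place k Ft) (τ : Ft) {c₁ c₂ : k}
    (h₁ : 0 < Q.ord (τ - algebraMap k Ft c₁)) (h₂ : 0 < Q.ord (τ - algebraMap k Ft c₂)) :
    c₁ = c₂ := by
  by_contra hne
  have hf : τ - algebraMap k Ft c₁ ≠ 0 := by
    intro h; rw [h, Place.ord_zero] at h₁; exact lt_irrefl _ h₁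
  have hg : -(τ - algebraMap k Ft c₂) ≠ 0 := by
    intro h; rw [neg_eq_zero] at h; rw [h, Place.ord_zero] at h₂; exact lt_irrefl _ h₂
  have hsum : (τ - algebraMap k Ft c₁) + -(τ - algebraMap k Ft c₂) = algebraMap k Ft (c₂ - c₁) := by
    rw [map_sub]; ring
  have hc : c₂ - c₁ ≠ 0 := sub_ne_zero.mpr (Ne.symm hne)
  have hfg : (τ - algebraMap k Ft c₁) + -(τ - algebraMap k Ft c₂) ≠ 0 := by
    rw [hsum]
    exact fun h => hc ((map_eq_zero _).mp h)
  have h := PlaceB.ord_add_ge Q hf hg hfg
  rw [hsum, PlaceB.ord_algebraMap Q hc, PlaceB.ord_neg] at h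
  have := lt_min h₁ h₂
  omega

/-- subtracting a constant from a function with a pole keeps (at least) the pole. -/
theorem ord_sub_const_le (Q : Place k Ft) {τ : Ft} {n : ℤ} (hn : n < 0) (hτ : Q.ord τ = n)
    (c : k) : Q.ord (τ - algebraMap k Ft c) ≤ n := by
  rcases eq_or_ne c 0 with rfl | hc
  · rw [map_zero, sub_zero, hτ]
  · have hτ0 : τ ≠ 0 := by
      intro h; rw [h, Place.ord_zero] at hτ; omega
    have hf : τ - algebraMap k Ft c ≠ 0 := by
      intro h
      rw [sub_eq_zero] at h
      rw [h, PlaceB.ord_algebraMap Q hc] at hτ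
      omega
    have hg : algebraMap k Ft c ≠ 0 := fun h => hc ((map_eq_zero _).mp h)
    have hsum : (τ - algebraMap k Ft c) + algebraMap k Ft c = τ := by ring
    have h := PlaceB.ord_add_ge Q hf hg (by rw [hsum]; exact hτ0)
    rw [hsum, hτ, PlaceB.ord_algebraMap Q hc] at h
    rcases min_le_iff.mp h with h' | h'
    · exact h'
    · omega

/-- constants belong to `L(D)` for effective `D`. -/
theorem algebraMap_mem_riemannRochSpace {D : Divisor K F} (hD : 0 ≤ D) (a : K) :
    algebraMap K F a ∈ riemannRochSpace D := by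
  have := (riemannRochSpace D).smul_mem a (one_mem_riemannRochSpace hD)
  rwa [Algebra.smul_def, mul_one] at this

/-- an effective divisor has at least its multiplicity at `P` over the image point. -/
theorem le_mapDomain_apply (r : Place K F → Place k Ft) {Z : Divisor K F} (hZ : 0 ≤ Z)
    (P : Place K F) : Z P ≤ Finsupp.mapDomain r Z (r P) := by
  classical
  have h1 : Finsupp.single P (Z P) ≤ Z := by
    rw [Finsupp.le_def]
    intro P'
    rcases eq_or_ne P' P with rfl | hne
    · rw [Finsupp.single_eq_same]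
    · rw [Finsupp.single_eq_of_ne hne]
      exact Finsupp.le_def.mp hZ P'
  have h2 := Finsupp.mapDomain_mono (f := r) h1
  have h3 := Finsupp.le_def.mp h2 (r P)
  rwa [Finsupp.mapDomain_single, Finsupp.single_eq_same] at h3

end Small

section Main

variable {R : RedData K F k Ft} {g c : ℤ}
variable [FiniteResidues K F] [HasPrincipalDivisors K F] [Nonempty (Place K F)]
variable [FiniteResidues k Ft] [HasPrincipalDivisors k Ft] [Nonempty (Place k Ft)]
variable [Infinite k]

/-- **Exact poles**: for `m ≥ c + 2` there is `t ∈ L(m P) ∩ Rw` whose reduction lies in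
`L(m · r P)` and has a pole of exact order `m` at `r P`. -/
theorem exists_exact_pole (H : LSpaceHyp R g c) (P : Place K F) {m : ℕ} (hm : c + 2 ≤ (m : ℤ)) :
    ∃ t : R.Rw, (t : F) ∈ riemannRochSpace (Finsupp.single P (m : ℤ)) ∧
      R.red t ∈ riemannRochSpace (Finsupp.single (rOf H P) (m : ℤ)) ∧ R.red t ≠ 0 ∧
      (rOf H P).ord (R.red t) = -(m : ℤ) := by
  classical
  have hc := H.c_nonneg
  obtain ⟨m', rfl⟩ : ∃ m' : ℕ, m = m' + 1 := ⟨m - 1, by omega⟩
  have hm' : c + 1 ≤ (m' : ℤ) := by push_cast at hm; omega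
  set Q := rOf H P with hQ
  have hD : (0 : Divisor K F) ≤ Finsupp.single P ((m' + 1 : ℕ) : ℤ) :=
    Finsupp.single_nonneg.mpr (by positivity)
  have hdegD : c + 1 ≤ Divisor.degree (Finsupp.single P ((m' + 1 : ℕ) : ℤ)) := by
    rw [degree_single_nat H]; push_cast; omega
  obtain ⟨-, -, hV⟩ := redSpace_eq H hD hdegD
  rw [Finsupp.mapDomain_single] at hV
  -- dimensions on the special fibre
  have hdeg1 : Divisor.degree (Finsupp.single Q ((m' + 1 : ℕ) : ℤ)) = ((m' + 1 : ℕ) : ℤ) := by
    rw [Divisor.degree_single, H.degFt Q]; simp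
  have hdeg2 : Divisor.degree (Finsupp.single Q (m' : ℤ)) = (m' : ℤ) := by
    rw [Divisor.degree_single, H.degFt Q]; simp
  have hr1 := H.rrFt (Finsupp.single Q ((m' + 1 : ℕ) : ℤ)) (by rw [hdeg1]; push_cast; omega)
  have hr2 := H.rrFt (Finsupp.single Q (m' : ℤ)) (by rw [hdeg2]; omega)
  rw [hdeg1] at hr1
  rw [hdeg2] at hr2
  have hnle : ¬ riemannRochSpace (Finsupp.single Q ((m' + 1 : ℕ) : ℤ)) ≤
      riemannRochSpace (Finsupp.single Q (m' : ℤ)) := by
    intro hle
    have hle' : riemannRochSpace (Finsupp.single Q (m' : ℤ)) ≤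
        riemannRochSpace (Finsupp.single Q ((m' + 1 : ℕ) : ℤ)) :=
      riemannRochSpace_mono (Finsupp.single_mono (by push_cast; omega))
    have heq := le_antisymm hle hle'
    rw [heq] at hr1
    push_cast at hr1
    omega
  obtain ⟨τ, hτ1, hτ2⟩ := SetLike.not_le_iff_exists.mp hnle
  have hτ0 : τ ≠ 0 := fun h => hτ2 (h ▸ Submodule.zero_mem _)
  have hτmem : τ ∈ redSpace R (Finsupp.single P ((m' + 1 : ℕ) : ℤ)) := by rw [hV]; exact hτ1
  obtain ⟨t, ht, rfl⟩ := hτmem
  refine ⟨t, ht, hτ1, hτ0, ?_⟩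
  rw [mem_riemannRochSpace_iff] at hτ1 hτ2
  push Not at hτ2
  obtain ⟨v, -, hv⟩ := hτ2
  rcases eq_or_ne v Q with heq | hne
  · have h1 := (hτ1 v).resolve_left hτ0
    rw [heq, Finsupp.single_eq_same] at h1 hv
    push_cast at h1 ⊢
    omega
  · have h1 := (hτ1 v).resolve_left hτ0
    rw [Finsupp.single_eq_of_ne hne] at h1 hv
    omega

/-- **Separating functions** (supplier for `HasSepFunctions` of `GJ/S37/UniqRed.lean`): for every
place `P` there is `t ∈ Rw`, regular away from `P`, whose reduction has a pole at `r P` (and only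
there). -/
theorem exists_sep_function (H : LSpaceHyp R g c) (P : Place K F) :
    ∃ t : R.Rw, R.red t ≠ 0 ∧ (∀ P' : Place K F, P' ≠ P → 0 ≤ P'.ord (t : F)) ∧
      (rOf H P).ord (R.red t) < 0 ∧
      (∀ Q : Place k Ft, Q ≠ rOf H P → 0 ≤ Q.ord (R.red t)) := by
  have hc := H.c_nonneg
  set m : ℕ := (c + 2).toNat with hmdef
  have hmc : (m : ℤ) = c + 2 := Int.toNat_of_nonneg (by omega)
  obtain ⟨t, ht, hτ, hτ0, hord⟩ := exists_exact_pole H P (m := m) (by omega)
  have ht0 : (t : F) ≠ 0 := fun h => hτ0 (by rw [show t = 0 from Subtype.ext h, map_zero])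
  refine ⟨t, hτ0, ?_, by rw [hord]; omega, ?_⟩
  · intro P' hne
    have h1 := ((mem_riemannRochSpace_iff.mp ht) P').resolve_left ht0
    rwa [Finsupp.single_eq_of_ne hne, neg_zero] at h1
  · intro Q hne
    have h1 := ((mem_riemannRochSpace_iff.mp hτ) Q).resolve_left hτ0
    rwa [Finsupp.single_eq_of_ne hne, neg_zero] at h1

/-- **Generic fibres** (supplier for `hsep` of `GJ/S37/Delta.lean`): for every place `P` there is
`m > 0` such that for every finite set `S'` of places of the special fibre there is an effective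
divisor `Z ∼ m P` none of whose points reduces into `S'`. -/
theorem exists_zero_divisor (H : LSpaceHyp R g c) (P : Place K F) :
    ∃ m : ℕ, 0 < m ∧ ∀ S' : Finset (Place k Ft), ∃ Z : Divisor K F, 0 ≤ Z ∧
      Z - m • Finsupp.single P (1 : ℤ) ∈ Divisor.principal (K := K) (F := F) ∧
      ∀ P' ∈ Z.support, rOf H P' ∉ S' := by
  classical
  have hc := H.c_nonneg
  set m : ℕ := (c + 2).toNat with hmdef
  have hmc : (m : ℤ) = c + 2 := Int.toNat_of_nonneg (by omega)
  have hmpos : 0 < m := by omega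
  refine ⟨m, hmpos, fun S' => ?_⟩
  obtain ⟨t, ht, hτ, hτ0, hord⟩ := exists_exact_pole H P (m := m) (by omega)
  set Q₀ := rOf H P with hQ₀
  set τ := R.red t with hτdef
  -- a generic value
  let bad : Set k := ⋃ Q' ∈ S', {cv : k | 0 < Q'.ord (τ - algebraMap k Ft cv)}
  have hbad : bad.Finite := by
    apply Set.Finite.biUnion S'.finite_toSet
    intro Q' _
    apply Set.Subsingleton.finite
    intro c₁ h₁ c₂ h₂
    exact value_unique Q' τ h₁ h₂
  obtain ⟨cv, hcv⟩ := hbad.exists_notMem
  have hgood : ∀ Q' ∈ S', Q'.ord (τ - algebraMap k Ft cv) ≤ 0 := by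
    intro Q' hQ'
    by_contra hpos
    push Not at hpos
    exact hcv (Set.mem_biUnion (Finset.mem_coe.mpr hQ') hpos)
  obtain ⟨a, rfl⟩ := R.res_surjective cv
  -- the function `y = t - a`
  set aF : R.Rw := ⟨algebraMap K F (a : K), (R.mem_A_iff a).1 a.2⟩ with haF
  set y : R.Rw := t - aF with hy
  have hredy : R.red y = τ - algebraMap k Ft (R.res a) := by
    rw [hy, map_sub, haF, R.red_algebraMap]
  have hordy : Q₀.ord (R.red y) ≤ -(m : ℤ) := by
    rw [hredy]
    exact ord_sub_const_le Q₀ (by omega) hord _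
  have hy0 : R.red y ≠ 0 := by
    intro h
    rw [h, Place.ord_zero] at hordy
    omega
  have hyF0 : (y : F) ≠ 0 := fun h => hy0 (by rw [show y = 0 from Subtype.ext h, map_zero])
  have hM0 : (0 : Divisor K F) ≤ Finsupp.single P (m : ℤ) :=
    Finsupp.single_nonneg.mpr (by positivity)
  have hymem : (y : F) ∈ riemannRochSpace (Finsupp.single P (m : ℤ)) := by
    have : (y : F) = (t : F) - algebraMap K F (a : K) := by rw [hy, haF]; rfl
    rw [this]
    exact sub_mem ht (algebraMap_mem_riemannRochSpace hM0 _)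
  obtain ⟨Dy, hDy, -⟩ := HasPrincipalDivisors.exists_divisor (K := K) (y : F) hyF0
  have hDyge : ∀ P' : Place K F, -(Finsupp.single P (m : ℤ)) P' ≤ Dy P' := by
    intro P'
    rw [hDy P']
    exact ((mem_riemannRochSpace_iff.mp hymem) P').resolve_left hyF0
  have hprin := mapDomain_rOf_principal H hy0 hDy
  -- positive and negative parts
  set Z : Divisor K F := Dy ⊔ 0 with hZ
  set Nn : Divisor K F := (-Dy) ⊔ 0 with hNn
  have hZ0 : 0 ≤ Z := le_sup_right
  have hN0 : 0 ≤ Nn := le_sup_right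
  have hDyZN : Dy = Z - Nn := by
    ext P'
    rw [Finsupp.sub_apply, hZ, hNn, Finsupp.sup_apply, Finsupp.sup_apply, Finsupp.neg_apply]
    simp only [Finsupp.coe_zero, Pi.zero_apply]
    rcases le_total (Dy P') 0 with h | h
    · rw [sup_eq_right.mpr h, sup_eq_left.mpr (by omega : (0 : ℤ) ≤ -(Dy P'))]; omega
    · rw [sup_eq_left.mpr h, sup_eq_right.mpr (by omega : -(Dy P') ≤ (0 : ℤ))]; omega
  have hNle : Nn ≤ Finsupp.single P (m : ℤ) := by
    rw [Finsupp.le_def]
    intro P'
    rw [hNn, Finsupp.sup_apply, Finsupp.neg_apply]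
    simp only [Finsupp.coe_zero, Pi.zero_apply]
    have h1 := hDyge P'
    have h2 := Finsupp.le_def.mp hM0 P'
    simp only [Finsupp.coe_zero, Pi.zero_apply] at h2
    exact sup_le (by omega) h2
  have hNsingle : Nn = Finsupp.single P (Nn P) := by
    ext P'
    rcases eq_or_ne P' P with rfl | hne
    · rw [Finsupp.single_eq_same]
    · rw [Finsupp.single_eq_of_ne hne]
      have h1 := Finsupp.le_def.mp hNle P'
      rw [Finsupp.single_eq_of_ne hne] at h1
      have h2 := Finsupp.le_def.mp hN0 P'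
      simp only [Finsupp.coe_zero, Pi.zero_apply] at h2
      omega
  have hNP : Nn P ≤ (m : ℤ) := by
    have := Finsupp.le_def.mp hNle P
    rwa [Finsupp.single_eq_same] at this
  -- evaluation of `r_* (div y)` at a point
  have hmapZ : ∀ Q : Place k Ft, Finsupp.mapDomain (rOf H) Z Q =
      Q.ord (R.red y) + (Finsupp.single Q₀ (Nn P)) Q := by
    intro Q
    have h1 : Z = Dy + Nn := by rw [hDyZN]; abel
    rw [h1, Finsupp.mapDomain_add, Finsupp.add_apply, hprin Q]
    conv_lhs => rw [hNsingle, Finsupp.mapDomain_single]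
  -- at `Q₀`
  have hZQ₀ : 0 ≤ Finsupp.mapDomain (rOf H) Z Q₀ :=
    Finsupp.le_def.mp (Finsupp.mapDomain_nonneg hZ0) Q₀
  have hNPm : Nn P = (m : ℤ) := by
    have h1 := hmapZ Q₀
    rw [Finsupp.single_eq_same] at h1
    omega
  refine ⟨Z, hZ0, ?_, ?_⟩
  · rw [Divisor.mem_principal]
    refine ⟨(y : F), hyF0, fun P' => ?_⟩
    rw [← hDy P', hDyZN, hNsingle, hNPm]
    congr 1
    rw [Finsupp.smul_single, nsmul_eq_mul, mul_one]
  · intro P' hP' hmem
    have hZP' : 0 < Z P' := by
      have h1 := Finsupp.le_def.mp hZ0 P'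
      simp only [Finsupp.coe_zero, Pi.zero_apply] at h1
      have h2 := Finsupp.mem_support_iff.mp hP'
      omega
    have h1 := le_mapDomain_apply (rOf H) hZ0 P'
    rw [hmapZ (rOf H P')] at h1
    rcases eq_or_ne (rOf H P') Q₀ with heq | hne
    · rw [heq, Finsupp.single_eq_same, hNPm] at h1
      omega
    · rw [Finsupp.single_eq_of_ne hne, add_zero, hredy] at h1
      have := hgood _ hmem
      omega

/-- The shape used in `GJ/S37/Delta.lean` with `neg Q₀ = {b Q₀, b⁻¹ Q₀}`. -/
theorem exists_zero_divisor_perm (H : LSpaceHyp R g c) (b : Equiv.Perm (Place k Ft))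
    (P : Place K F) :
    ∃ m : ℕ, 0 < m ∧ ∀ S : Finset (Place k Ft), ∃ Z : Divisor K F, 0 ≤ Z ∧
      Z - m • Finsupp.single P (1 : ℤ) ∈ Divisor.principal (K := K) (F := F) ∧
      ∀ P' ∈ Z.support, ∀ Q ∈ S, Q ≠ b (rOf H P') ∧ Q ≠ b.symm (rOf H P') := by
  classical
  obtain ⟨m, hm, h⟩ := exists_zero_divisor H P
  refine ⟨m, hm, fun S => ?_⟩
  obtain ⟨Z, hZ0, hZp, hZ⟩ := h (S.image b ∪ S.image b.symm)
  refine ⟨Z, hZ0, hZp, fun P' hP' Q hQ => ⟨?_, ?_⟩⟩
  · intro hQb
    apply hZ P' hP'
    rw [Finset.mem_union]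
    right
    rw [Finset.mem_image]
    exact ⟨Q, hQ, by rw [hQb, Equiv.symm_apply_apply]⟩
  · intro hQb
    apply hZ P' hP'
    rw [Finset.mem_union]
    left
    rw [Finset.mem_image]
    exact ⟨Q, hQ, by rw [hQb, Equiv.apply_symm_apply]⟩

end Main

end Fermat.Agent.GJ.S37Supply
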