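/-
GATE-J / S37 path (helper75): UNIQUENESS of the place reduction map, fraction form.

The specification `IsPlaceReductionModL A N r'` of the prelude only speaks about `A`-integral
series `y ∈ A((q)) ∩ F_N`.  By additivity it extends to all elements of the Gauss valuation ring
`Rw = {a / b}` (`spec_frac`), and the separating functions of `GJ/S37/Supply.lean` (which live in
`Rw`) then show that every `r'` satisfying the specification equals the L-space place map `rOf H`
(`eq_rOf`).  Hence the prelude's chosen map `placeReductionModL h` IS `rOf H`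
(`placeReductionModL_eq_rOf`), and it is the unique map satisfying the specification
(`uniq_placeReductionModL`).
-/
import Mathlib
import Fermat.Agent.GJ.S37.Bridge
import Fermat.Agent.GJ.S37.Supply

set_option autoImplicit false
set_option synthInstance.maxHeartbeats 400000
set_option maxHeartbeats 1000000

noncomputable section

open AlgebraicCurve HahnSeries ModularCurve

namespace Fermat.Agent.GJ.S37UniqFrac

open Fermat.Agent.RRh45 Fermat.Agent.GJ.J1 Fermat.Agent.GJ.J1.Val Fermat.Agent.GJ.S37LSpace
  Fermat.Agent.S24 Fermat.Agent.GJ.S37Bridge Fermat.Agent.GJ.S37Supply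

variable {N : ℕ} [NeZero N] {A : ValuationSubring (AlgebraicClosure ℚ)}

/-- shortcut instance (the generic search through `IntermediateField` is slow here) -/
local instance instAlgebraFullAux' : Algebra (IsLocalRing.ResidueField A)
    (modularFunctionFieldFullC (IsLocalRing.ResidueField A) N) := inferInstance

theorem mapDomain_apply_nonneg' {α β : Type*} (f : α → β) (D : α →₀ ℤ) (b : β)
    (h : ∀ a, f a = b → 0 ≤ D a) : 0 ≤ Finsupp.mapDomain f D b := by
  classical
  rw [Finsupp.mapDomain, Finsupp.sum_apply]
  refine Finset.sum_nonneg fun a _ => ?_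
  show 0 ≤ (Finsupp.single (f a) (D a)) b
  rw [Finsupp.single_apply]
  split_ifs with hab
  · exact h a hab
  · exact le_rfl

/-- **the specification extends to fractions**: for `x ∈ Rw` with nonzero reduction,
`r'_* (div x) = div (red x)`. -/
theorem spec_frac [HasPrincipalDivisors (AlgebraicClosure ℚ) (modularFunctionFieldBar N)]
    {r' : Place (AlgebraicClosure ℚ) (modularFunctionFieldBar N) →
      Place (IsLocalRing.ResidueField A)
        (modularFunctionFieldFullC (IsLocalRing.ResidueField A) N)}
    (hr' : IsPlaceReductionModL A N r')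
    (hle : FresBar N A ≤ modularFunctionFieldFullC (IsLocalRing.ResidueField A) N)
    (x : (redDataFull N A hle).Rw) (hx : (redDataFull N A hle).red x ≠ 0)
    (D : Divisor (AlgebraicClosure ℚ) (modularFunctionFieldBar N))
    (hD : ∀ P, D P = P.ord (x : modularFunctionFieldBar N))
    (Q : Place (IsLocalRing.ResidueField A)
      (modularFunctionFieldFullC (IsLocalRing.ResidueField A) N)) :
    Finsupp.mapDomain r' D Q = Q.ord ((redDataFull N A hle).red x) := by
  obtain ⟨a, b, hfrac⟩ := x.2
  obtain ⟨ha, hb, hb0, hrel⟩ := hfrac
  have hfrac' : IsFrac A (modularFunctionFieldBar N)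
      (((x : modularFunctionFieldBar N)) : LaurentSeries (AlgebraicClosure ℚ)) a b :=
    ⟨ha, hb, hb0, hrel⟩
  -- reductions
  have hredx : (((redDataFull N A hle).red x :
      modularFunctionFieldFullC (IsLocalRing.ResidueField A) N) :
      LaurentSeries (IsLocalRing.ResidueField A)) * rd A b = rd A a := by
    rw [coe_red_redDataFull]
    exact redL_mul_rd (hGF := hasGaussFrac_bar N A) hfrac'
  have ha0 : rd A a ≠ 0 := by
    intro h0
    rw [h0] at hredx
    rcases mul_eq_zero.mp hredx with h | h
    · exact hx (Subtype.ext h)
    · exact hb0 h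
  have hak := coeffMap_residue_mem_full hle ha
  have hbk := coeffMap_residue_mem_full hle hb
  set at' : modularFunctionFieldFullC (IsLocalRing.ResidueField A) N := ⟨rd A a, hak⟩ with hat'
  set bt' : modularFunctionFieldFullC (IsLocalRing.ResidueField A) N := ⟨rd A b, hbk⟩ with hbt'
  have hat0 : at' ≠ 0 := fun h => ha0 (congrArg Subtype.val h)
  have hbt0 : bt' ≠ 0 := fun h => hb0 (congrArg Subtype.val h)
  have hredF : (redDataFull N A hle).red x * bt' = at' := Subtype.ext hredx
  -- the generic side
  set a' : modularFunctionFieldBar N := ⟨coeffMap A.subtype a, ha⟩ with ha'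
  set b' : modularFunctionFieldBar N := ⟨coeffMap A.subtype b, hb⟩ with hb'
  have ha'0 : a' ≠ 0 := by
    intro h
    apply ha0
    have h1 : coeffMap A.subtype a = 0 := congrArg Subtype.val h
    have h2 : a = 0 := emb_injective A (by rw [h1, map_zero])
    rw [h2, map_zero]
  have hb'0 : b' ≠ 0 := by
    intro h
    apply hb0
    have h1 : coeffMap A.subtype b = 0 := congrArg Subtype.val h
    have h2 : b = 0 := emb_injective A (by rw [h1, map_zero])
    rw [h2, map_zero]
  have hrelF : (x : modularFunctionFieldBar N) * b' = a' := Subtype.ext hrel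
  have hx0 : (x : modularFunctionFieldBar N) ≠ 0 := by
    intro h
    rw [h, zero_mul] at hrelF
    exact ha'0 hrelF.symm
  obtain ⟨Da, hDa, -⟩ := HasPrincipalDivisors.exists_divisor (K := AlgebraicClosure ℚ) a' ha'0
  obtain ⟨Db, hDb, -⟩ := HasPrincipalDivisors.exists_divisor (K := AlgebraicClosure ℚ) b' hb'0
  have hDeq : D + Db = Da := by
    ext P
    rw [Finsupp.add_apply, hD P, hDa P, hDb P, ← hrelF, P.ord_mul hx0 hb'0]
  have hsa := hr'.2 a ha hak ha0 Da hDa Q
  have hsb := hr'.2 b hb hbk hb0 Db hDb Q
  have h1 : Finsupp.mapDomain r' D Q + Finsupp.mapDomain r' Db Q = Finsupp.mapDomain r' Da Q := by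
    rw [← hDeq, Finsupp.mapDomain_add, Finsupp.add_apply]
  have h2 : Q.ord ((redDataFull N A hle).red x) + Q.ord bt' = Q.ord at' := by
    rw [← hredF, Q.ord_mul hx hbt0]
  rw [hsa, hsb] at h1
  change Finsupp.mapDomain r' D Q + Q.ord bt' = Q.ord at' at h1
  omega

section Main

variable [FiniteResidues (AlgebraicClosure ℚ) (modularFunctionFieldBar N)]
  [HasPrincipalDivisors (AlgebraicClosure ℚ) (modularFunctionFieldBar N)]
  [Nonempty (Place (AlgebraicClosure ℚ) (modularFunctionFieldBar N))]
  [FiniteResidues (IsLocalRing.ResidueField A)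
    (modularFunctionFieldFullC (IsLocalRing.ResidueField A) N)]
  [HasPrincipalDivisors (IsLocalRing.ResidueField A)
    (modularFunctionFieldFullC (IsLocalRing.ResidueField A) N)]
  [Nonempty (Place (IsLocalRing.ResidueField A)
    (modularFunctionFieldFullC (IsLocalRing.ResidueField A) N))]
  [Infinite (IsLocalRing.ResidueField A)]

/-- **uniqueness**: every map satisfying the prelude's specification is the L-space place map. -/
theorem eq_rOf
    {r' : Place (AlgebraicClosure ℚ) (modularFunctionFieldBar N) →
      Place (IsLocalRing.ResidueField A)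
        (modularFunctionFieldFullC (IsLocalRing.ResidueField A) N)}
    (hr' : IsPlaceReductionModL A N r')
    (hle : FresBar N A ≤ modularFunctionFieldFullC (IsLocalRing.ResidueField A) N)
    {g c : ℤ} (H : LSpaceHyp (redDataFull N A hle) g c) : r' = rOf H := by
  funext P
  obtain ⟨t, ht0, hreg, hpole, -⟩ := exists_sep_function H P
  have htF0 : (t : modularFunctionFieldBar N) ≠ 0 :=
    fun h => ht0 (by rw [show t = 0 from Subtype.ext h, map_zero])
  obtain ⟨D, hD, -⟩ := HasPrincipalDivisors.exists_divisor (K := AlgebraicClosure ℚ)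
    (t : modularFunctionFieldBar N) htF0
  have hspec := spec_frac hr' hle t ht0 D hD (rOf H P)
  by_contra hPne
  have hnn : 0 ≤ Finsupp.mapDomain r' D (rOf H P) := by
    refine mapDomain_apply_nonneg' r' D (rOf H P) fun P' hP' => ?_
    have hP'P : P' ≠ P := by
      rintro rfl
      exact hPne hP'
    rw [hD P']
    exact hreg P' hP'P
  rw [hspec] at hnn
  exact absurd hpole (not_lt.mpr hnn)

end Main

section Discharged

open Fermat.Agent.GJ.FibreCurve Fermat.Agent.GJ.FF.Fibre

/-- **the prelude's chosen place reduction map is the unique map satisfying the specification**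
(all Place-API instances discharged). -/
theorem uniq_placeReductionModL
    (hle : FresBar N A ≤ modularFunctionFieldFullC (IsLocalRing.ResidueField A) N)
    {g c : ℤ} (H : LSpaceHyp (redDataFull N A hle) g c) (h : ReductionInputsModL A N)
    {r' : Place (AlgebraicClosure ℚ) (modularFunctionFieldBar N) →
      Place (IsLocalRing.ResidueField A)
        (modularFunctionFieldFullC (IsLocalRing.ResidueField A) N)}
    (hr' : IsPlaceReductionModL A N r') : r' = placeReductionModL h := by
  have : IsGen (AlgebraicClosure ℚ) (jF N) := S24_helper62.isGen_jF N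
  have h1 : FiniteResidues (AlgebraicClosure ℚ) (modularFunctionFieldBar N) :=
    Fermat.Agent.GJ.FF.finiteResidues (K := AlgebraicClosure ℚ) (jF N)
  have h2 := finiteResidues_fibre (k := IsLocalRing.ResidueField A) N A (IsLocalRing.residue A)
  have h3 := hasPrincipalDivisors_fibre' (k := IsLocalRing.ResidueField A) N A
    (IsLocalRing.residue A)
  have h4 := nonempty_place_fibre' (k := IsLocalRing.ResidueField A) N A (IsLocalRing.residue A)
  have h5 := infinite_residueField (A := A)
  rw [eq_rOf hr' hle H, eq_rOf (isPlaceReductionModL_placeReductionModL h) hle H]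

end Discharged

end Fermat.Agent.GJ.S37UniqFrac
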