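/-
GATE-J / S37-PATH (helper43): ADAPTER  `LSpaceGate → S37Final.LevelPackage`.

helper75's `GJ/S37/Final.lean` proves the frozen S37 from S18, `LevelPackage` and `PullPackage`.
Here `LevelPackage` (reduction inputs + uniqueness of the place reduction map at every admissible
level) is reduced to the bare L-space hypotheses for J1's Gauss reduction datum:

  `LSpaceGate` : `∃ g c, LSpaceHyp (redDataBar M A) g c`  for `ℓ ∤ M`, `ℓ = 2 → 3 ∣ M`,
                 `ℓ = 3 → 2 ∣ M`, `A` over `ℓ`

(= helper48's `lSpaceHyp_of_chart` at the charts `j`, `t₂`, `t₃`).  The plumbing is helper35's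
`BarToFull` (transport `redDataBar → redDataFull`, bridge to `ReductionInputsModL`) and helper75's
`UniqFrac.uniq_placeReductionModL`.
-/
import Fermat.Agent.GJ.S37.Final
import Fermat.Agent.GJ.S37.BarToFull
import Fermat.Agent.GJ.S37.UniqFrac

set_option autoImplicit false

namespace Fermat.Agent.GJ.S37LevelOfLSpace

open ModularCurve AlgebraicCurve
open Fermat.Agent.GJ.J1 Fermat.Agent.GJ.J1.Val Fermat.Agent.GJ.S37LSpace

/-- **GATE (L-space)**: the hypotheses of the L-space construction of the place reduction map for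
J1's Gauss reduction datum, at every level admissible for the residue characteristic. -/
def LSpaceGate : Prop :=
  ∀ (M : ℕ) [NeZero M] {ℓ : ℕ}, ℓ.Prime → ¬ ℓ ∣ M → (ℓ = 2 → 3 ∣ M) → (ℓ = 3 → 2 ∣ M) →
    ∀ A : ValuationSubring (AlgebraicClosure ℚ), A.LiesOverPrime ℓ →
      ∃ g c : ℤ, LSpaceHyp (redDataBar M A) g c

/-- reduction inputs and uniqueness of the place reduction map at a level `M`, from the L-space
hypotheses for J1's datum `redDataBar M A`. -/
theorem exists_inputs_uniq {M : ℕ} [NeZero M] {ℓ : ℕ} (hℓ : ℓ.Prime) (hℓM : ¬ ℓ ∣ M)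
    {A : ValuationSubring (AlgebraicClosure ℚ)} (hA : A.LiesOverPrime ℓ) {g c : ℤ}
    (H : LSpaceHyp (redDataBar M A) g c) :
    ∃ h : ReductionInputsModL A M,
      ∀ r', IsPlaceReductionModL A M r' → r' = placeReductionModL h := by
  have : Fact ℓ.Prime := ⟨hℓ⟩
  have hRED : ReductionInputsModL A M :=
    Fermat.Agent.GJ.S37BarToFull.reductionInputsModL_of_bar hℓM hA H
  exact ⟨hRED, fun r' hr' =>
    Fermat.Agent.GJ.S37UniqFrac.uniq_placeReductionModL
      (Fermat.Agent.GJ.J1.Res.FresBar_le_fullC M A hℓM hA)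
      (Fermat.Agent.GJ.S37BarToFull.exists_lSpaceHyp_full hℓM hA H) hRED hr'⟩

/-- **`LevelPackage` of `GJ/S37/Final.lean` from the L-space gate.** -/
theorem levelPackage_of_lSpaceGate (hL : LSpaceGate) :
    Fermat.Agent.GJ.S37Final.LevelPackage := by
  intro M _ ℓ hℓ hℓM h2 h3 A hA
  obtain ⟨g, c, H⟩ := hL M hℓ hℓM h2 h3 A hA
  exact exists_inputs_uniq hℓ hℓM hA H

/-- frozen S37 from S18, the L-space gate and the pull-back package. -/
theorem s37_of_lSpaceGate (hS18 : Fermat.Agent.GJ.S37Asm.S18Statement) (hL : LSpaceGate)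
    (hP : Fermat.Agent.GJ.S37Final.PullPackage) (N p : ℕ) [NeZero N]
    (hcomm : ModularCurve.HeckeOperatorsCommuteBar N) :
    letI := ModularCurve.heckeModuleBar N
    ∀ (_ : SMulCommClass (AlgebraicClosure ℚ ≃ₐ[ℚ] AlgebraicClosure ℚ) ModularCurve.HeckeAlg
        (ModularCurve.JZero N)),
      ModularCurve.SpecializationExists (K := ℚ) (L := AlgebraicClosure ℚ) N p
        (ModularCurve.JZero N) :=
  Fermat.Agent.GJ.S37Final.s37_final hS18 (levelPackage_of_lSpaceGate hL) hP N p hcomm

end Fermat.Agent.GJ.S37LevelOfLSpace
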