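/-
GATE-J / S37-PATH (helper56): the L-SPACE GATE is a theorem.

`lSpaceHyp_of_primitives` : for an abstract reduction datum `R : RedData K F k Ft` with the primitive
hypotheses of J1's Layer B (unramified, Gauss chart `t`, degree preservation, tame branch data
`PlaceBranch K t (X (X - β))` with `β~ ≠ 0`, embedding `Ft ↪ k((q))` with `p ∤ ord t~`) the hypotheses
`LSpaceHyp R (gLat K t) c` of the L-space construction of the place reduction map hold.

`lSpaceGate` : `S37LevelOfLSpace.LSpaceGate`, i.e. the instance `R := Val.redDataBar M A` at every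
admissible level, charts `j` / `t₂` / `t₃` (same inputs as `K18Modular.k18s_aux`).
-/
import Fermat.Agent.GJ.J1.K18Modular
import Fermat.Agent.GJ.S37.LSpaceHypOfChart
import Fermat.Agent.GJ.S37.LevelOfLSpace

set_option autoImplicit false

noncomputable section

namespace Fermat.Agent.GJ.S37LSpaceGateBar

open ModularCurve Polynomial IntermediateField AlgebraicCurve Module
open Fermat.Agent.S24 Fermat.Agent.RRh45 Fermat.Agent.GJ.J1 Fermat.Agent.GJ.J1.Val
open Fermat.Agent.GJ.J1.Haupt Fermat.Agent.GJ.J1.DiffAdapter Fermat.Agent.GJ.J1.AbsCore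
open Fermat.Agent.GJ.S37LSpace

section Abstract

variable {K F k Ft : Type*} [Field K] [Field F] [Algebra K F] [Field k] [Field Ft] [Algebra k Ft]
variable [IsAlgClosed K] [CharZero K] [IsAlgClosed k] (p : ℕ) [Fact p.Prime] [CharP k p]
  (x₀ : F) [IsGen K x₀]

include x₀ in
/-- **`LSpaceHyp` from the primitive hypotheses of Layer B.** -/
theorem lSpaceHyp_of_primitives (R : RedData K F k Ft)
    (hunram : ∀ x : F, x ≠ 0 → ∃ c : K, c ≠ 0 ∧
      x / algebraMap K F c ∈ R.Rw ∧ (x / algebraMap K F c)⁻¹ ∈ R.Rw)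
    {t : F} (ht : t ∈ R.Rw) (htr : Transcendental k (R.red ⟨t, ht⟩))
    (hdeg : finrank K⟮t⟯ F ≤ finrank k⟮R.red ⟨t, ht⟩⟯ Ft)
    (β : R.A) (hβ : R.res β ≠ 0)
    (hbr : PlaceBranch K t (X * (X - Polynomial.C (β : K))))
    (ι : Ft →ₐ[k] LaurentSeries k) (hord : ¬ (p : ℤ) ∣ (ι (R.red ⟨t, ht⟩)).order) :
    ∃ c : ℤ, LSpaceHyp R (gLat K t : ℤ) c := by
  have hgc : R.IsGaussChart t := ⟨ht, htr⟩
  have htK : Transcendental K t := IntRed.transcendental_of_isGaussChart hgc
  have hti : t⁻¹ ∈ R.Rw := (Select.isGaussChart_inv hgc).fst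
  have hfdK : FiniteDimensional K⟮t⟯ F := (IsGen.of_transcendental x₀ htK).finite
  obtain ⟨hfdk, -⟩ := Fermat.Agent.GJ.S37.ResDeg.RedData.finrank_red_le R ht htr
  have hexp : ExpChar k p := ExpChar.prime Fact.out
  have hperf : PerfectRing k p := PerfectField.toPerfectRing p
  have hsepK : Algebra.IsSeparable K⟮t⟯ F :=
    Fermat.Agent.GJ.J1.G1.isSeparable_adjoin_of_charZero t
  have hsepk : Algebra.IsSeparable k⟮R.red ⟨t, ht⟩⟯ Ft :=
    Fermat.Agent.GJ.J1.G1.isSeparable_adjoin_of_embedding p ι (R.red ⟨t, ht⟩) hord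
  have hR : ResData R.A R.Rw R.res R.red := ResData.ofRedData R hunram
  have horth : Orth R.A R.Rw := R.orth_of_finrank_le t ht htr hdeg
  have hG : R.RedRegFin t := R.redRegFin_of_finrank_le t ht htr hdeg
  have hGi : R.RedRegFin t⁻¹ := R.redRegFin_inv_of_finrank_le t ht hti htr hdeg
  have hgle : gLat K t ≤ gLat k (R.red ⟨t, ht⟩) :=
    R.gLat_le_of_beta hR horth ht htr hG hGi β hβ hbr
  -- instances on the two fibres
  have hFR : FiniteResidues K F := Fermat.Agent.GJ.FF.finiteResidues x₀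
  have hPD : HasPrincipalDivisors K F := Fermat.Agent.GJ.FF.PrincipalOf.hasPrincipalDivisors_gen x₀
  have hNE : Nonempty (Place K F) := Fermat.Agent.GJ.FF.nonempty_place x₀
  have hgenk : IsGen k (R.red ⟨t, ht⟩) := ⟨htr, hfdk⟩
  have hFRk : FiniteResidues k Ft := Fermat.Agent.GJ.FF.finiteResidues (R.red ⟨t, ht⟩)
  have hPDk : HasPrincipalDivisors k Ft :=
    Fermat.Agent.GJ.FF.PrincipalOf.hasPrincipalDivisors_gen (R.red ⟨t, ht⟩)
  have hNEk : Nonempty (Place k Ft) := Fermat.Agent.GJ.FF.nonempty_place (R.red ⟨t, ht⟩)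
  exact Fermat.Agent.GJ.S37LSpaceInst.lSpaceHyp_of_chart R ht hti htr hdeg hgle

end Abstract

section Concrete

variable (N : ℕ) [NeZero N] (A : ValuationSubring Kbar)

local notation "𝕜" => IsLocalRing.ResidueField A

/-- `LSpaceHyp` for the concrete reduction datum, from a chart. -/
theorem lSpaceHyp_of_chart_bar {ℓ : ℕ} [Fact ℓ.Prime] (hA : A.LiesOverPrime ℓ)
    {t : FN N} (hgc : (redDataBar N A).IsGaussChart t)
    (hdeg : finrank Kbar⟮t⟯ (FN N) ≤
      finrank 𝕜⟮(redDataBar N A).red ⟨t, hgc.1⟩⟯ (FresBar N A))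
    (β : A) (hβ : (redDataBar N A).res β ≠ 0)
    (hbr : PlaceBranch Kbar t (X * (X - Polynomial.C (β : Kbar))))
    (hord : ¬ (ℓ : ℤ) ∣ ((FresBar N A).val ((redDataBar N A).red ⟨t, hgc.1⟩)).order) :
    ∃ g c : ℤ, LSpaceHyp (redDataBar N A) g c := by
  have : CharP 𝕜 ℓ := charP_residue A (Fact.out : ℓ.Prime) hA
  have : IsGen Kbar (jF N) := Fermat.Agent.S24_helper62.isGen_jF N
  obtain ⟨c, hc⟩ := lSpaceHyp_of_primitives ℓ (jF N) (redDataBar N A)
    (Val.unramified A (modularFunctionFieldBar N) (hasGaussFrac_bar N A))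
    hgc.1 hgc.2 hdeg β hβ hbr (FresBar N A).val hord
  exact ⟨_, c, hc⟩

/-- **The L-space gate of the S37 path is a theorem.** -/
theorem lSpaceGate : Fermat.Agent.GJ.S37LevelOfLSpace.LSpaceGate := by
  intro M _ ℓ hℓ hℓM h2 h3 A hA
  have : Fact ℓ.Prime := ⟨hℓ⟩
  have hcp : CharP (IsLocalRing.ResidueField A) ℓ := charP_residue A hℓ hA
  have hdegj := Fermat.Agent.GJ.J1.K18Modular.hdeg_jF M A hℓM hA
  by_cases e2 : ℓ = 2
  · have hd := h2 e2
    subst e2
    have h3' : (3 : IsLocalRing.ResidueField A) ≠ 0 := three_ne_zero_of_charP_two A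
    exact lSpaceHyp_of_chart_bar M A hA (isGaussChart_tThreeF M A hd)
      (hdeg_tThreeF M A hd h3' _ hdegj) ((-27 : ℤ) : A) (res_neg27_ne_zero hℓ (by norm_num))
      (placeBranch_tThreeF_A M A hd) (hord_tThreeF M A hd hℓ _)
  by_cases e3 : ℓ = 3
  · have hd := h3 e3
    subst e3
    have h2' : (2 : IsLocalRing.ResidueField A) ≠ 0 := two_ne_zero_of_charP_three A
    exact lSpaceHyp_of_chart_bar M A hA (isGaussChart_tTwoF M A hd)
      (hdeg_tTwoF M A hd h2' _ hdegj) ((-64 : ℤ) : A) (res_neg64_ne_zero hℓ (by norm_num))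
      (placeBranch_tTwoF_A M A hd) (hord_tTwoF M A hd hℓ _)
  · exact lSpaceHyp_of_chart_bar M A hA (isGaussChart_jF M A) hdegj ((1728 : ℤ) : A)
      (res_1728_ne_zero hℓ e2 e3) (placeBranch_jF_A M A) (hord_jF M A hℓ _)

end Concrete

end Fermat.Agent.GJ.S37LSpaceGateBar
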