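/-
GATE-J / S37 path (helper35, deputy): `ReductionInputsModL A N` from J1's PRIMITIVE chart data.

* `lSpaceHyp_of_primitive` : for an ABSTRACT reduction datum `R : RedData K F k Ft` the L-space
  hypotheses `∃ c, LSpaceHyp R (gLat K t) c` from exactly the primitive hypotheses of J1's Layer B
  (`KummerRedData.kummer_redData`): unramifiedness, a Gauss chart `t`, degree preservation
  `[F : K(t)] ≤ [Ft : k(t~)]`, tame branch data `PlaceBranch K t (X (X - β))` with `β~ ≠ 0`, an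
  embedding `Ft ↪ k((q))` with `p ∤ ord_q t~`.  (`hrank1`, `RedMemLt` are NOT needed.)
* `lSpaceHyp_bar` : the modular instance at `R := Val.redDataBar N A` for every level `N` with
  `ℓ = 2 → 3 ∣ N`, `ℓ = 3 → 2 ∣ N` (chart from helper32's `exists_chart_aux`), the ONLY hypothesis
  being M-DEG at `j`:  `[F_N : ℚ̄(j)] ≤ [FresBar : k(j~)]`.
* `reductionInputsModL_of_mdeg` : `ReductionInputsModL A N` (`ℓ ∤ N`) from M-DEG at `j`
  (through `GJ/S37/BarToFull.lean` and helper75's `Bridge`).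
* `exists_lSpaceHyp_full_of_mdeg` : the same for the bridge datum `redDataFull`, for the consumers
  stated there (`UniqFrac`, `Supply`).
-/
import Fermat.Agent.GJ.S37.BarToFull
import Fermat.Agent.GJ.S37.LSpaceHypOfChart
import Fermat.Agent.GJ.J1.KummerRedData
import Fermat.Agent.GJ.J1.Haupt.ChartPack
import Fermat.Agent.GJ.Kum.ESKummer

set_option autoImplicit false
set_option synthInstance.maxHeartbeats 400000
set_option maxHeartbeats 1000000

noncomputable section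

open AlgebraicCurve IntermediateField Module Polynomial

namespace Fermat.Agent.GJ.S37InstRED

open Fermat.Agent.S24 Fermat.Agent.RRh45 Fermat.Agent.GJ.J1 Fermat.Agent.GJ.J1.AbsCore
  Fermat.Agent.GJ.J1.DiffAdapter Fermat.Agent.GJ.S37LSpace

/-! ### the abstract statement -/

section Abstract

variable {K F k Ft : Type*} [Field K] [Field F] [Algebra K F] [Field k] [Field Ft] [Algebra k Ft]
variable [IsAlgClosed K] [CharZero K] [IsAlgClosed k] (p : ℕ) [Fact p.Prime] [CharP k p]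
  (x₀ : F) [IsGen K x₀]

include x₀ in
/-- **`LSpaceHyp` from the primitive hypotheses of J1's Layer B.** -/
theorem lSpaceHyp_of_primitive (R : RedData K F k Ft)
    (hunram : ∀ x : F, x ≠ 0 → ∃ c : K, c ≠ 0 ∧
      x / algebraMap K F c ∈ R.Rw ∧ (x / algebraMap K F c)⁻¹ ∈ R.Rw)
    {t : F} (ht : t ∈ R.Rw) (htr : Transcendental k (R.red ⟨t, ht⟩))
    (hdeg : finrank K⟮t⟯ F ≤ finrank k⟮R.red ⟨t, ht⟩⟯ Ft)
    (β : R.A) (hβ : R.res β ≠ 0)
    (hbr : PlaceBranch K t (X * (X - C (β : K))))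
    (ι : Ft →ₐ[k] LaurentSeries k) (hord : ¬ (p : ℤ) ∣ (ι (R.red ⟨t, ht⟩)).order) :
    ∃ c : ℤ, LSpaceHyp R (gLat K t : ℤ) c := by
  have hgc : R.IsGaussChart t := ⟨ht, htr⟩
  have htK : Transcendental K t := IntRed.transcendental_of_isGaussChart hgc
  have hti : t⁻¹ ∈ R.Rw := (Select.isGaussChart_inv hgc).fst
  have hfdK : FiniteDimensional K⟮t⟯ F := (IsGen.of_transcendental x₀ htK).finite
  have hsepK : Algebra.IsSeparable K⟮t⟯ F :=
    Fermat.Agent.GJ.J1.G1.isSeparable_adjoin_of_charZero t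
  obtain ⟨hfdk, -⟩ := Fermat.Agent.GJ.S37.ResDeg.RedData.finrank_red_le R ht htr
  -- separability of the special fibre
  have hexp : ExpChar k p := ExpChar.prime Fact.out
  have hperf : PerfectRing k p := PerfectField.toPerfectRing p
  have hsepk : Algebra.IsSeparable k⟮R.red ⟨t, ht⟩⟯ Ft :=
    Fermat.Agent.GJ.J1.G1.isSeparable_adjoin_of_embedding p ι (R.red ⟨t, ht⟩) hord
  -- valuation-side inputs
  have hR : ResData R.A R.Rw R.res R.red := ResData.ofRedData R hunram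
  have horth : Orth R.A R.Rw := R.orth_of_finrank_le t ht htr hdeg
  have hG : R.RedRegFin t := R.redRegFin_of_finrank_le t ht htr hdeg
  have hGi : R.RedRegFin t⁻¹ := R.redRegFin_inv_of_finrank_le t ht hti htr hdeg
  -- the genus inequality
  have hgle : gLat K t ≤ gLat k (R.red ⟨t, ht⟩) :=
    R.gLat_le_of_beta hR horth ht htr hG hGi β hβ hbr
  -- the Place API on both fibres
  have hgenk : IsGen k (R.red ⟨t, ht⟩) := ⟨htr, hfdk⟩
  have h1 : FiniteResidues K F := Fermat.Agent.GJ.FF.finiteResidues x₀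
  have h2 : HasPrincipalDivisors K F :=
    Fermat.Agent.GJ.FF.PrincipalOf.hasPrincipalDivisors_gen x₀
  have h3 : Nonempty (Place K F) := Fermat.Agent.GJ.FF.nonempty_place x₀
  have h4 : FiniteResidues k Ft := Fermat.Agent.GJ.FF.finiteResidues (R.red ⟨t, ht⟩)
  have h5 : HasPrincipalDivisors k Ft :=
    Fermat.Agent.GJ.FF.PrincipalOf.hasPrincipalDivisors_gen (R.red ⟨t, ht⟩)
  have h6 : Nonempty (Place k Ft) := Fermat.Agent.GJ.FF.nonempty_place (R.red ⟨t, ht⟩)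
  exact Fermat.Agent.GJ.S37LSpaceInst.lSpaceHyp_of_chart R ht hti htr hdeg hgle

end Abstract

/-! ### the modular instance -/

section Modular

open ModularCurve Fermat.Agent.GJ.J1.Val Fermat.Agent.GJ.J1.Haupt

variable (N : ℕ) [NeZero N] (A : ValuationSubring Kbar)

local notation "𝕜" => IsLocalRing.ResidueField A

/-- **`LSpaceHyp` for J1's reduction datum `redDataBar N A`** at every level `N` with
`ℓ = 2 → 3 ∣ N`, `ℓ = 3 → 2 ∣ N`, from M-DEG at `j`. -/
theorem lSpaceHyp_bar {ℓ : ℕ} (hℓ : ℓ.Prime) (hA : A.LiesOverPrime ℓ) (h2 : ℓ = 2 → 3 ∣ N)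
    (h3 : ℓ = 3 → 2 ∣ N)
    (hdegj : Module.finrank Kbar⟮jF N⟯ (FN N) ≤
      Module.finrank 𝕜⟮(redDataBar N A).red ⟨jF N, jF_mem_Rw N A⟩⟯ (FresBar N A)) :
    ∃ g c : ℤ, LSpaceHyp (redDataBar N A) g c := by
  have hF : Fact ℓ.Prime := ⟨hℓ⟩
  have hchar : CharP 𝕜 ℓ := Fermat.Agent.GJ.Kum.charP_residueField A hℓ hA
  have hac : IsAlgClosed 𝕜 := Fermat.Agent.GJ.ResidueAlgClosed.isAlgClosed_residueField A
  have hgen : IsGen Kbar (jF N) := Fermat.Agent.S24_helper62.isGen_jF N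
  obtain ⟨t, β, hgc, -, -, hβ, hbr, hord, hdegt⟩ := exists_chart_aux N A hℓ h2 h3
  obtain ⟨c, H⟩ := lSpaceHyp_of_primitive ℓ (jF N) (redDataBar N A)
    (fun x hx => Val.unramified A (modularFunctionFieldBar N) (hasGaussFrac_bar N A) x hx)
    hgc.1 hgc.2 (hdegt hdegj) β hβ hbr (FresBar N A).val hord
  exact ⟨_, c, H⟩

variable {N A}

/-- **`ReductionInputsModL A N` from M-DEG at `j`** (`ℓ ∤ N`; `3 ∣ N` if `ℓ = 2`, `2 ∣ N` if
`ℓ = 3`). -/
theorem reductionInputsModL_of_mdeg {ℓ : ℕ} [Fact ℓ.Prime] (hℓN : ¬ ℓ ∣ N)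
    (hA : A.LiesOverPrime ℓ) (h2 : ℓ = 2 → 3 ∣ N) (h3 : ℓ = 3 → 2 ∣ N)
    (hdegj : Module.finrank Kbar⟮jF N⟯ (FN N) ≤
      Module.finrank 𝕜⟮(redDataBar N A).red ⟨jF N, jF_mem_Rw N A⟩⟯ (FresBar N A)) :
    ReductionInputsModL A N := by
  obtain ⟨g, c, H⟩ := lSpaceHyp_bar N A Fact.out hA h2 h3 hdegj
  exact Fermat.Agent.GJ.S37BarToFull.reductionInputsModL_of_bar hℓN hA H

/-- the `LSpaceHyp` of the bridge datum `redDataFull` from M-DEG at `j`. -/
theorem exists_lSpaceHyp_full_of_mdeg {ℓ : ℕ} [Fact ℓ.Prime] (hℓN : ¬ ℓ ∣ N)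
    (hA : A.LiesOverPrime ℓ) (h2 : ℓ = 2 → 3 ∣ N) (h3 : ℓ = 3 → 2 ∣ N)
    (hdegj : Module.finrank Kbar⟮jF N⟯ (FN N) ≤
      Module.finrank 𝕜⟮(redDataBar N A).red ⟨jF N, jF_mem_Rw N A⟩⟯ (FresBar N A)) :
    ∃ g c : ℤ, LSpaceHyp
      (Fermat.Agent.GJ.S37Bridge.redDataFull N A (Res.FresBar_le_fullC N A hℓN hA)) g c := by
  obtain ⟨g, c, H⟩ := lSpaceHyp_bar N A Fact.out hA h2 h3 hdegj
  exact ⟨g, c, Fermat.Agent.GJ.S37BarToFull.exists_lSpaceHyp_full hℓN hA H⟩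

end Modular

end Fermat.Agent.GJ.S37InstRED

end
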