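/-
GATE-J / S37 path (helper35, deputy): the L-space gate is a THEOREM.

`S37LevelOfLSpace.LSpaceGate` (`∃ g c, LSpaceHyp (redDataBar M A) g c` at every level `M` with
`ℓ ∤ M`, `ℓ = 2 → 3 ∣ M`, `ℓ = 3 → 2 ∣ M`, `A` over `ℓ`) from `InstRED.lSpaceHyp_bar` and M-DEG at
`j` (`GaussDeg.finrank_jF_le`); hence `S37Final.LevelPackage`.
-/
import Fermat.Agent.GJ.S37.InstRED
import Fermat.Agent.GJ.S37.LevelOfLSpace
import Fermat.Agent.GJ.J1.Gauss.DegAtJ

set_option autoImplicit false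

namespace Fermat.Agent.GJ.S37LSpaceGate

open Fermat.Agent.GJ.S37LevelOfLSpace

/-- **the L-space gate holds.** -/
theorem lSpaceGate : LSpaceGate := by
  intro M _ ℓ hℓ hℓM h2 h3 A hA
  have : Fact ℓ.Prime := ⟨hℓ⟩
  exact Fermat.Agent.GJ.S37InstRED.lSpaceHyp_bar M A hℓ hA h2 h3
    (Fermat.Agent.GJ.GaussDeg.finrank_jF_le M A hℓM hA)

/-- **the level package of `GJ/S37/Final.lean` holds.** -/
theorem levelPackage : Fermat.Agent.GJ.S37Final.LevelPackage :=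
  levelPackage_of_lSpaceGate lSpaceGate

end Fermat.Agent.GJ.S37LSpaceGate
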