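/-
GATE-J / S37 path (helper75): the LEVEL PACKAGE `S37Final.LevelPackage`.

* `lSpaceHyp_of_primitive` : "Layer B for S37" — for an abstract reduction datum `R` with a Gauss
  chart `t`, the PRIMITIVE hypotheses of J1's `KummerRedData.kummer_redData_final` (unramified,
  degree preservation, tame branch data `PlaceBranch K t (X (X - β))` with `β~ ≠ 0`, an embedding
  `Ft ↪ k((q))` with `p ∤ ord_q t~`) give `∃ g c, LSpaceHyp R g c`
  (through helper48's `lSpaceHyp_of_chart`).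
* `lSpaceHyp_bar_aux` : "Layer C for S37" — the same case split as `K18Modular.k18s_aux`
  (chart `j` for `ℓ ≥ 5`, `t₃` for `ℓ = 2`, `t₂` for `ℓ = 3`) at `R := redDataBar N A`.
* `levelPackage : S37Final.LevelPackage` — reduction inputs + uniqueness of the place reduction
  map at every admissible level.
-/
import Fermat.Agent.GJ.J1.K18Modular
import Fermat.Agent.GJ.S37.LSpaceHypOfChart
import Fermat.Agent.GJ.S37.BarToFull
import Fermat.Agent.GJ.S37.UniqFrac
import Fermat.Agent.GJ.S37.Final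

set_option autoImplicit false

noncomputable section

open AlgebraicCurve IntermediateField Module

namespace Fermat.Agent.GJ.S37Level

open Fermat.Agent.S24 Fermat.Agent.RRh45 Fermat.Agent.GJ.J1 Fermat.Agent.GJ.J1.AbsCore
  Fermat.Agent.GJ.J1.G1 Fermat.Agent.GJ.S37LSpace

section Abstract

variable {K F k Ft : Type*} [Field K] [Field F] [Algebra K F] [Field k] [Field Ft] [Algebra k Ft]

open Polynomial

variable [IsAlgClosed K] [CharZero K] [IsAlgClosed k] (p : ℕ) [Fact p.Prime] [CharP k p]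
  (x₀ : F) [IsGen K x₀]

include x₀ in
/-- **Layer B for S37**: `LSpaceHyp` for a reduction datum from the primitive hypotheses of J1's
Kummer theorem. -/
theorem lSpaceHyp_of_primitive (R : RedData K F k Ft)
    (hunram : ∀ x : F, x ≠ 0 → ∃ c : K, c ≠ 0 ∧
      x / algebraMap K F c ∈ R.Rw ∧ (x / algebraMap K F c)⁻¹ ∈ R.Rw)
    {t : F} (ht : t ∈ R.Rw) (htr : Transcendental k (R.red ⟨t, ht⟩))
    (hdeg : finrank K⟮t⟯ F ≤ finrank k⟮R.red ⟨t, ht⟩⟯ Ft)
    (β : R.A) (hβ : R.res β ≠ 0)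
    (hbr : Fermat.Agent.GJ.J1.DiffAdapter.PlaceBranch K t (X * (X - C (β : K))))
    (ι : Ft →ₐ[k] LaurentSeries k) (hord : ¬ (p : ℤ) ∣ (ι (R.red ⟨t, ht⟩)).order) :
    ∃ g c : ℤ, LSpaceHyp R g c := by
  have hgc : R.IsGaussChart t := ⟨ht, htr⟩
  have htK : Transcendental K t := IntRed.transcendental_of_isGaussChart hgc
  have hti : t⁻¹ ∈ R.Rw := (Select.isGaussChart_inv hgc).fst
  have hfdK : FiniteDimensional K⟮t⟯ F := (IsGen.of_transcendental x₀ htK).finite
  have hsepK : Algebra.IsSeparable K⟮t⟯ F := isSeparable_adjoin_of_charZero t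
  obtain ⟨hfdk, -⟩ := Fermat.Agent.GJ.S37.ResDeg.RedData.finrank_red_le R ht htr
  -- separability of the special fibre
  have hexp : ExpChar k p := ExpChar.prime Fact.out
  have hperf : PerfectRing k p := PerfectField.toPerfectRing p
  have hsepk : Algebra.IsSeparable k⟮R.red ⟨t, ht⟩⟯ Ft :=
    isSeparable_adjoin_of_embedding p ι (R.red ⟨t, ht⟩) hord
  -- valuation-side inputs
  have hR : ResData R.A R.Rw R.res R.red := ResData.ofRedData R hunram
  have horth : Orth R.A R.Rw := R.orth_of_finrank_le t ht htr hdeg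
  have hG : R.RedRegFin t := R.redRegFin_of_finrank_le t ht htr hdeg
  have hGi : R.RedRegFin t⁻¹ := R.redRegFin_inv_of_finrank_le t ht hti htr hdeg
  -- the genus inequality
  have hgle : gLat K t ≤ gLat k (R.red ⟨t, ht⟩) :=
    R.gLat_le_of_beta hR horth ht htr hG hGi β hβ hbr
  -- the Place API on both fibres
  have hFR : FiniteResidues K F := Fermat.Agent.GJ.FF.finiteResidues x₀
  have hPD : HasPrincipalDivisors K F :=
    Fermat.Agent.GJ.FF.PrincipalOf.hasPrincipalDivisors_gen x₀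
  have hNE : Nonempty (Place K F) := Fermat.Agent.GJ.FF.nonempty_place x₀
  have hgenk : IsGen k (R.red ⟨t, ht⟩) := ⟨htr, hfdk⟩
  have hFRk : FiniteResidues k Ft := Fermat.Agent.GJ.FF.finiteResidues (R.red ⟨t, ht⟩)
  have hPDk : HasPrincipalDivisors k Ft :=
    Fermat.Agent.GJ.FF.PrincipalOf.hasPrincipalDivisors_gen (R.red ⟨t, ht⟩)
  have hNEk : Nonempty (Place k Ft) := Fermat.Agent.GJ.FF.nonempty_place (R.red ⟨t, ht⟩)
  obtain ⟨c, H⟩ := Fermat.Agent.GJ.S37LSpaceInst.lSpaceHyp_of_chart R ht hti htr hdeg hgle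
  exact ⟨_, c, H⟩

end Abstract

section Modular

open ModularCurve Polynomial HahnSeries
open Fermat.Agent.GJ.J1.Val Fermat.Agent.GJ.J1.Haupt Fermat.Agent.GJ.J1.DiffAdapter
  Fermat.Agent.GJ.J1.K18Modular Fermat.Agent.GJ.S18.Front

variable (N : ℕ) [NeZero N] (A : ValuationSubring Kbar)

local notation "𝕜" => IsLocalRing.ResidueField A

/-- **Layer B at the concrete reduction datum**: `LSpaceHyp` at level `N` from a chart. -/
theorem lSpaceHyp_bar_of_chart {ℓ : ℕ} [Fact ℓ.Prime] (hA : A.LiesOverPrime ℓ)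
    {t : FN N} (hgc : (redDataBar N A).IsGaussChart t)
    (hdeg : Module.finrank Kbar⟮t⟯ (FN N) ≤
      Module.finrank 𝕜⟮(redDataBar N A).red ⟨t, hgc.1⟩⟯ (FresBar N A))
    (β : A) (hβ : (redDataBar N A).res β ≠ 0)
    (hbr : PlaceBranch Kbar t (X * (X - Polynomial.C (β : Kbar))))
    (hord : ¬ (ℓ : ℤ) ∣ ((FresBar N A).val ((redDataBar N A).red ⟨t, hgc.1⟩)).order) :
    ∃ g c : ℤ, LSpaceHyp (redDataBar N A) g c := by
  have : CharP 𝕜 ℓ := charP_residue A (Fact.out : ℓ.Prime) hA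
  have : IsGen Kbar (jF N) := Fermat.Agent.S24_helper62.isGen_jF N
  exact lSpaceHyp_of_primitive ℓ (jF N) (redDataBar N A)
    (Val.unramified A (modularFunctionFieldBar N) (hasGaussFrac_bar N A))
    hgc.1 hgc.2 hdeg β hβ hbr (FresBar N A).val hord

/-- **`LSpaceHyp` at the admissible levels**: `ℓ ∤ N`, `3 ∣ N` if `ℓ = 2`, `2 ∣ N` if `ℓ = 3`. -/
theorem lSpaceHyp_bar_aux {ℓ : ℕ} [Fact ℓ.Prime] (hA : A.LiesOverPrime ℓ) (hℓN : ¬ ℓ ∣ N)
    (h2 : ℓ = 2 → 3 ∣ N) (h3 : ℓ = 3 → 2 ∣ N) :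
    ∃ g c : ℤ, LSpaceHyp (redDataBar N A) g c := by
  have hℓ : ℓ.Prime := Fact.out
  have hcp : CharP 𝕜 ℓ := charP_residue A hℓ hA
  have hdegj := hdeg_jF N A hℓN hA
  by_cases e2 : ℓ = 2
  · have hd := h2 e2
    subst e2
    have h3' : (3 : 𝕜) ≠ 0 := three_ne_zero_of_charP_two A
    exact lSpaceHyp_bar_of_chart N A hA (isGaussChart_tThreeF N A hd)
      (hdeg_tThreeF N A hd h3' _ hdegj) ((-27 : ℤ) : A) (res_neg27_ne_zero hℓ (by norm_num))
      (placeBranch_tThreeF_A N A hd) (hord_tThreeF N A hd hℓ _)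
  by_cases e3 : ℓ = 3
  · have hd := h3 e3
    subst e3
    have h2' : (2 : 𝕜) ≠ 0 := two_ne_zero_of_charP_three A
    exact lSpaceHyp_bar_of_chart N A hA (isGaussChart_tTwoF N A hd)
      (hdeg_tTwoF N A hd h2' _ hdegj) ((-64 : ℤ) : A) (res_neg64_ne_zero hℓ (by norm_num))
      (placeBranch_tTwoF_A N A hd) (hord_tTwoF N A hd hℓ _)
  · exact lSpaceHyp_bar_of_chart N A hA (isGaussChart_jF N A) hdegj ((1728 : ℤ) : A)
      (res_1728_ne_zero hℓ e2 e3) (placeBranch_jF_A N A) (hord_jF N A hℓ _)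

end Modular

/-- **the level package** of `GJ/S37/Final.lean`. -/
theorem levelPackage : Fermat.Agent.GJ.S37Final.LevelPackage := by
  intro M _ ℓ hℓ hℓM h2 h3 A hA
  have : Fact ℓ.Prime := ⟨hℓ⟩
  obtain ⟨g, c, H⟩ := lSpaceHyp_bar_aux M A hA hℓM h2 h3
  have Hfull := Fermat.Agent.GJ.S37BarToFull.exists_lSpaceHyp_full hℓM hA H
  exact ⟨Fermat.Agent.GJ.S37Bridge.reductionInputsModL _ Hfull,
    fun r' hr' => Fermat.Agent.GJ.S37UniqFrac.uniq_placeReductionModL _ Hfull _ hr'⟩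

end Fermat.Agent.GJ.S37Level
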