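import Mathlib
import Fermat.Prelude.Def_AlgebraicCurve_Repartitions

/-!
# From an additive envelope to a map of places  (S37-PATH, formal step)

Let all places of `F/K` and of `Ft/k` have degree one.  A map `E` from divisors of `F` to divisors
of `Ft` which, on effective divisors of degree `≥ c`, is effective-valued, degree preserving,
monotone and superadditive, is `Finsupp.mapDomain r` for a map of places `r`.
-/

set_option autoImplicit false
set_option linter.unusedSectionVars false

open AlgebraicCurve

namespace Fermat.Agent.GJ.S37.PlaceMap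

section Degree

variable {K F : Type*} [Field K] [Field F] [Algebra K F]

theorem degree_eq_sum' (D : Divisor K F) :
    Divisor.degree D = D.sum fun v n => n * (v.deg : ℤ) := by
  simp [Divisor.degree, Finsupp.liftAddHom_apply]

theorem degree_eq_sum (hdeg : ∀ v : Place K F, v.deg = 1) (D : Divisor K F) :
    Divisor.degree D = D.sum fun _ n => n := by
  rw [degree_eq_sum']
  apply Finsupp.sum_congr
  intro v _
  rw [hdeg v]
  simp

theorem degree_nonneg (hdeg : ∀ v : Place K F, v.deg = 1) {E : Divisor K F} (hE : 0 ≤ E) :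
    0 ≤ Divisor.degree E := by
  rw [degree_eq_sum hdeg]
  apply Finset.sum_nonneg
  intro v _
  exact hE v

theorem eq_zero_of_nonneg_of_degree_eq_zero (hdeg : ∀ v : Place K F, v.deg = 1) {E : Divisor K F}
    (hE : 0 ≤ E) (h0 : Divisor.degree E = 0) : E = 0 := by
  rw [degree_eq_sum hdeg] at h0
  ext v
  rw [Finsupp.zero_apply]
  by_contra hv
  have hmem : v ∈ E.support := Finsupp.mem_support_iff.mpr hv
  have hpos : 0 < E v := lt_of_le_of_ne (hE v) (Ne.symm hv)
  have : 0 < E.sum fun _ n => n := by
    apply Finset.sum_pos'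
    · intro w _
      exact hE w
    · exact ⟨v, hmem, hpos⟩
  omega

theorem degree_mono (hdeg : ∀ v : Place K F, v.deg = 1) {D D' : Divisor K F} (h : D ≤ D') :
    Divisor.degree D ≤ Divisor.degree D' := by
  have h1 : 0 ≤ D' - D := sub_nonneg.mpr h
  have := degree_nonneg hdeg h1
  rw [map_sub] at this
  linarith

/-- `A ≤ B` with equal degrees forces `A = B`. -/
theorem eq_of_le_of_degree_eq (hdeg : ∀ v : Place K F, v.deg = 1) {A B : Divisor K F} (h : A ≤ B)
    (hd : Divisor.degree A = Divisor.degree B) : A = B := by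
  have h1 : 0 ≤ B - A := sub_nonneg.mpr h
  have h2 : Divisor.degree (B - A) = 0 := by rw [map_sub]; linarith
  have := eq_zero_of_nonneg_of_degree_eq_zero hdeg h1 h2
  exact (sub_eq_zero.mp this).symm

theorem exists_lt_of_le_of_degree_lt {D D' : Divisor K F}
    (h : D ≤ D') (hlt : Divisor.degree D < Divisor.degree D') : ∃ P, D P < D' P := by
  by_contra hno
  simp only [not_exists, not_lt] at hno
  have : D = D' := by
    ext v
    exact le_antisymm (h v) (hno v)
  rw [this] at hlt
  exact lt_irrefl _ hlt

/-- Induction along `D ≤ D'` adding one place at a time. -/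
theorem le_induction (hdeg : ∀ v : Place K F, v.deg = 1) {D : Divisor K F}
    (p : Divisor K F → Prop) (h0 : p D)
    (hstep : ∀ (E : Divisor K F) (P : Place K F), D ≤ E → p E → p (E + Finsupp.single P 1))
    {D' : Divisor K F} (h : D ≤ D') : p D' := by
  obtain ⟨n, hn⟩ : ∃ n : ℕ, (n : ℤ) = Divisor.degree D' - Divisor.degree D :=
    ⟨(Divisor.degree D' - Divisor.degree D).toNat,
      Int.toNat_of_nonneg (sub_nonneg.mpr (degree_mono hdeg h))⟩
  induction n generalizing D' with
  | zero =>
    have := eq_of_le_of_degree_eq hdeg h (by simp at hn; linarith)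
    rw [← this]
    exact h0
  | succ n ih =>
    have hlt : Divisor.degree D < Divisor.degree D' := by push_cast at hn; linarith
    obtain ⟨P, hP⟩ := exists_lt_of_le_of_degree_lt h hlt
    set E : Divisor K F := D' - Finsupp.single P 1 with hE
    have hDE : D ≤ E := by
      intro v
      classical
      simp only [hE, Finsupp.coe_sub, Pi.sub_apply, Finsupp.single_apply]
      split_ifs with hv
      · subst hv; omega
      · simpa using h v
    have hdegE : (n : ℤ) = Divisor.degree E - Divisor.degree D := by
      rw [hE, map_sub, Divisor.degree_single, hdeg P]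
      push_cast at hn ⊢
      linarith
    have := hstep E P hDE (ih hDE hdegE)
    rwa [hE, sub_add_cancel] at this

/-- An effective divisor of degree one is a single place. -/
theorem exists_eq_single (hdeg : ∀ v : Place K F, v.deg = 1) {A : Divisor K F} (hA : 0 ≤ A)
    (h1 : Divisor.degree A = 1) : ∃ Q : Place K F, A = Finsupp.single Q 1 := by
  have hne : A ≠ 0 := by
    rintro rfl
    simp at h1
  obtain ⟨Q, hQ⟩ : ∃ Q, A Q ≠ 0 := by
    by_contra hno
    simp only [not_exists, not_not] at hno
    exact hne (Finsupp.ext hno)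
  have hQpos : 1 ≤ A Q := by
    have := hA Q
    simp only [Finsupp.coe_zero, Pi.zero_apply] at this
    omega
  refine ⟨Q, ?_⟩
  have hle : Finsupp.single Q 1 ≤ A := by
    intro v
    classical
    rw [Finsupp.single_apply]
    split_ifs with hv
    · subst hv; exact hQpos
    · exact hA v
  refine (eq_of_le_of_degree_eq hdeg hle ?_).symm
  rw [Divisor.degree_single, hdeg Q, h1]
  simp

end Degree

section Main

variable {K F : Type*} [Field K] [Field F] [Algebra K F]
variable {k Ft : Type*} [Field k] [Field Ft] [Algebra k Ft]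

/-- **Additive envelopes are place maps.** -/
theorem exists_placeMap (hK : ∀ P : Place K F, P.deg = 1) (hk : ∀ Q : Place k Ft, Q.deg = 1)
    (E : Divisor K F → Divisor k Ft) (c : ℤ)
    (hnn : ∀ D, 0 ≤ D → c ≤ Divisor.degree D → 0 ≤ E D)
    (hdeg : ∀ D, 0 ≤ D → c ≤ Divisor.degree D → Divisor.degree (E D) = Divisor.degree D)
    (hmono : ∀ D D', 0 ≤ D → c ≤ Divisor.degree D → D ≤ D' → E D ≤ E D')
    (hsuper : ∀ D D', 0 ≤ D → 0 ≤ D' → c ≤ Divisor.degree D → c ≤ Divisor.degree D' →
      E D + E D' ≤ E (D + D')) :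
    ∃ r : Place K F → Place k Ft,
      ∀ D, 0 ≤ D → c ≤ Divisor.degree D → E D = Finsupp.mapDomain r D := by
  classical
  -- additivity on large effective divisors
  have hadd : ∀ D D', 0 ≤ D → 0 ≤ D' → c ≤ Divisor.degree D → c ≤ Divisor.degree D' →
      E (D + D') = E D + E D' := by
    intro D D' h0 h0' hc hc'
    have hDD' : 0 ≤ D + D' := add_nonneg h0 h0'
    have hcDD' : c ≤ Divisor.degree (D + D') := by
      rw [map_add]
      have := degree_nonneg hK h0'
      linarith
    refine (eq_of_le_of_degree_eq hk (hsuper D D' h0 h0' hc hc') ?_).symm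
    rw [map_add, hdeg D h0 hc, hdeg D' h0' hc', hdeg _ hDD' hcDD', map_add]
  by_cases hne : Nonempty (Place K F)
  swap
  · -- no places: only the zero divisor
    rw [not_nonempty_iff] at hne
    refine ⟨fun P => (hne.false P).elim, fun D h0 hc => ?_⟩
    have hD : D = 0 := Finsupp.ext fun P => (hne.false P).elim
    subst hD
    have h1 := hnn 0 h0 hc
    have h2 := hdeg 0 h0 hc
    rw [map_zero] at h2
    rw [eq_zero_of_nonneg_of_degree_eq_zero hk h1 h2, Finsupp.mapDomain_zero]
  obtain ⟨P₀⟩ := hne
  -- a fixed large effective divisor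
  set M₀ : Divisor K F := Finsupp.single P₀ (max c 0) with hM₀
  have hM₀nn : 0 ≤ M₀ := by
    intro v
    rw [hM₀, Finsupp.single_apply]
    split_ifs
    · exact le_max_right _ _
    · exact le_rfl
  have hM₀c : c ≤ Divisor.degree M₀ := by
    rw [hM₀, Divisor.degree_single, hK P₀]
    simp
  have hsingle_nn : ∀ P : Place K F, (0 : Divisor K F) ≤ Finsupp.single P 1 := by
    intro P v
    rw [Finsupp.single_apply]
    split_ifs <;> simp
  have hdeg_single : ∀ P : Place K F, Divisor.degree (Finsupp.single P (1 : ℤ)) = 1 := by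
    intro P
    rw [Divisor.degree_single, hK P]
    simp
  -- the place map
  have hex : ∀ P : Place K F, ∃ Q : Place k Ft,
      E (M₀ + Finsupp.single P 1) = E M₀ + Finsupp.single Q 1 := by
    intro P
    have h1 : M₀ ≤ M₀ + Finsupp.single P 1 := le_add_of_nonneg_right (hsingle_nn P)
    have h2 := hmono M₀ _ hM₀nn hM₀c h1
    have h3 : 0 ≤ M₀ + Finsupp.single P 1 := add_nonneg hM₀nn (hsingle_nn P)
    have h4 : c ≤ Divisor.degree (M₀ + Finsupp.single P 1) := by
      rw [map_add, hdeg_single]; linarith
    have hA : 0 ≤ E (M₀ + Finsupp.single P 1) - E M₀ := sub_nonneg.mpr h2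
    have hA1 : Divisor.degree (E (M₀ + Finsupp.single P 1) - E M₀) = 1 := by
      rw [map_sub, hdeg _ h3 h4, hdeg _ hM₀nn hM₀c, map_add, hdeg_single]
      ring
    obtain ⟨Q, hQ⟩ := exists_eq_single hk hA hA1
    exact ⟨Q, by rw [← hQ]; abel⟩
  choose r hr using hex
  -- one-place step for every large effective divisor
  have hstep : ∀ D, 0 ≤ D → c ≤ Divisor.degree D → ∀ P : Place K F,
      E (D + Finsupp.single P 1) = E D + Finsupp.single (r P) 1 := by
    intro D h0 hc P
    have h3 : 0 ≤ D + Finsupp.single P 1 := add_nonneg h0 (hsingle_nn P)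
    have h4 : c ≤ Divisor.degree (D + Finsupp.single P 1) := by
      rw [map_add, hdeg_single]; linarith
    have h3' : 0 ≤ M₀ + Finsupp.single P 1 := add_nonneg hM₀nn (hsingle_nn P)
    have h4' : c ≤ Divisor.degree (M₀ + Finsupp.single P 1) := by
      rw [map_add, hdeg_single]; linarith
    have e1 := hadd (D + Finsupp.single P 1) M₀ h3 hM₀nn h4 hM₀c
    have e2 := hadd D (M₀ + Finsupp.single P 1) h0 h3' hc h4'
    have e3 : D + Finsupp.single P 1 + M₀ = D + (M₀ + Finsupp.single P 1) := by abel
    rw [e3, e2, hr P] at e1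
    -- `E D + (E M₀ + single) = E (D + P) + E M₀`
    have : E (D + Finsupp.single P 1) = E D + (E M₀ + Finsupp.single (r P) 1) - E M₀ := by
      rw [e1]; abel
    rw [this]; abel
  refine ⟨r, fun D h0 hc => ?_⟩
  -- `Δ(D') = Δ(D)` for `D' ≥ D`
  have hΔ : ∀ D' : Divisor K F, D ≤ D' →
      E D' - Finsupp.mapDomain r D' = E D - Finsupp.mapDomain r D := by
    intro D' hDD'
    refine le_induction hK (D := D)
      (fun D' => E D' - Finsupp.mapDomain r D' = E D - Finsupp.mapDomain r D) rfl ?_ hDD'
    intro E' P hDE' ih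
    have h0' : 0 ≤ E' := h0.trans hDE'
    have hc' : c ≤ Divisor.degree E' := hc.trans (degree_mono hK hDE')
    rw [hstep E' h0' hc' P, Finsupp.mapDomain_add, Finsupp.mapDomain_single, ← ih]
    abel
  have h1 := hΔ (D + D) (le_add_of_nonneg_right h0)
  rw [hadd D D h0 h0 hc hc, Finsupp.mapDomain_add] at h1
  have h2 : E D - Finsupp.mapDomain r D = 0 := by
    have h3 : (E D - Finsupp.mapDomain r D) + (E D - Finsupp.mapDomain r D)
        = E D + E D - (Finsupp.mapDomain r D + Finsupp.mapDomain r D) := by abel
    rw [h1] at h3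
    exact add_left_cancel (a := E D - Finsupp.mapDomain r D) (by rw [h3, add_zero])
  exact sub_eq_zero.mp h2

/-- Uniqueness of the place map. -/
theorem placeMap_unique (hK : ∀ P : Place K F, P.deg = 1)
    (E : Divisor K F → Divisor k Ft) (c : ℤ) {r r' : Place K F → Place k Ft}
    (hr : ∀ D, 0 ≤ D → c ≤ Divisor.degree D → E D = Finsupp.mapDomain r D)
    (hr' : ∀ D, 0 ≤ D → c ≤ Divisor.degree D → E D = Finsupp.mapDomain r' D) : r = r' := by
  classical
  funext P
  set M₀ : Divisor K F := Finsupp.single P (max c 0 + 1) with hM₀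
  have hM₀nn : 0 ≤ M₀ := by
    intro v
    rw [hM₀, Finsupp.single_apply]
    split_ifs
    · have := le_max_right c 0
      simp only [Finsupp.coe_zero, Pi.zero_apply]
      omega
    · exact le_rfl
  have hM₀c : c ≤ Divisor.degree M₀ := by
    rw [hM₀, Divisor.degree_single, hK P]
    have := le_max_left c 0
    simp only [Nat.cast_one, mul_one]
    omega
  have h1 := hr M₀ hM₀nn hM₀c
  have h2 := hr' M₀ hM₀nn hM₀c
  rw [h1, hM₀, Finsupp.mapDomain_single, Finsupp.mapDomain_single] at h2
  have hne : (max c 0 + 1 : ℤ) ≠ 0 := by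
    have := le_max_right c 0
    omega
  exact Finsupp.single_left_injective hne h2

end Main

end Fermat.Agent.GJ.S37.PlaceMap
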