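import Mathlib
import Fermat.Prelude.Def_AlgebraicCurve_DivisorPushPull
import Fermat.Prelude.Def_AlgebraicCurve_BaseChangeGalois

/-!
# Pull-back of divisors commutes with intertwined semilinear automorphisms
(S37-PATH, aux-level descent, input (b))

`F ⊂ F'` an integral extension of function fields over `K` (prelude API), `g`, `g'` semilinear
automorphisms of `F`, `F'` with `g' (ι x) = ι (g x)`.  Then
`(g' • w).restrict F = g • (w.restrict F)`, `e(g' • w) = e(w)`,
`pullback F' (g • D) = g' • pullback F' D`, and the same on `Pic0`.
-/

set_option autoImplicit false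
set_option linter.unusedSectionVars false

noncomputable section

open AlgebraicCurve

namespace Fermat.Agent.GJ.S37PullbackEquiv

open scoped Pointwise

variable {K F F' : Type*} [Field K] [Field F] [Field F']
  [Algebra K F] [Algebra K F'] [Algebra F F'] [IsScalarTower K F F']
  [Algebra.IsIntegral F F']

variable (g : SemilinearAut K F) (g' : SemilinearAut K F')

/-- `g'` extends `g`. -/
def Intertwines : Prop := ∀ x : F, g' • algebraMap F F' x = algebraMap F F' (g • x)

variable {g g'}

theorem Intertwines.inv (h : Intertwines g g') : Intertwines g⁻¹ g'⁻¹ := fun x => by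
  have hx := h (g⁻¹ • x)
  rw [smul_inv_smul] at hx
  rw [← hx, inv_smul_smul]

/-- Restriction of places is equivariant. -/
theorem restrict_smul (h : Intertwines g g') (w : Place K F') :
    (g' • w).restrict F = g • (w.restrict F) := by
  apply Place.ext
  ext x
  rw [Place.mem_restrict_iff, SemilinearAut.smul_toValuationSubring,
    SemilinearAut.smul_toValuationSubring,
    ValuationSubring.mem_pointwise_smul_iff_inv_smul_mem,
    ValuationSubring.mem_pointwise_smul_iff_inv_smul_mem, h.inv x, Place.mem_restrict_iff]

/-- Ramification indices are invariant. -/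
theorem ramificationIndex_smul (h : Intertwines g g') (w : Place K F') :
    (g' • w).ramificationIndex F = w.ramificationIndex F := by
  -- a uniformizer of `w.restrict F`
  obtain ⟨π, hπ⟩ := IsDiscreteValuationRing.exists_irreducible (w.restrict F).toValuationSubring
  have hord : (w.restrict F).ord (π : F) = 1 := (w.restrict F).ord_coe_irreducible hπ
  have h1 := w.ord_restrict (F := F) (π : F)
  rw [hord, mul_one] at h1
  have h2 := (g' • w).ord_restrict (F := F) (g • (π : F))
  rw [restrict_smul h, SemilinearAut.ord_smul, hord, mul_one, ← h, SemilinearAut.ord_smul, h1]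
    at h2
  exact_mod_cast h2.symm

variable [HasPrincipalDivisors K F']

/-- **Pull-back is equivariant.** -/
theorem pullback_smul (h : Intertwines g g') (D : Divisor K F) :
    Divisor.pullback F' (g • D) = g' • Divisor.pullback F' D := by
  ext w
  -- write `w = g' • w₀`
  obtain ⟨w₀, rfl⟩ : ∃ w₀ : Place K F', g' • w₀ = w := ⟨g'⁻¹ • w, smul_inv_smul _ _⟩
  rw [SemilinearAut.divisor_smul_apply_smul, Divisor.pullback_apply, Divisor.pullback_apply,
    restrict_smul h, ramificationIndex_smul h, SemilinearAut.divisor_smul_apply_smul]

/-- Equivariance of the pull-back on `Pic0`. -/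
theorem pullbackHom_smul [FundamentalIdentity K F F'] (h : Intertwines g g') (x : Pic0 K F) :
    Pic0.pullbackHom F' (g • x) = g' • Pic0.pullbackHom F' x := by
  obtain ⟨D, rfl⟩ := Pic0.mk_surjective x
  rw [SemilinearAut.pic0_smul_mk, Pic0.pullbackHom_mk, Pic0.pullbackHom_mk,
    SemilinearAut.pic0_smul_mk]
  congr 1
  apply Subtype.ext
  rw [Pic0.coe_pullbackDegZeroHom, SemilinearAut.coe_degZeroSMulHom,
    SemilinearAut.coe_degZeroSMulHom, Pic0.coe_pullbackDegZeroHom, pullback_smul h]

end Fermat.Agent.GJ.S37PullbackEquiv
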