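import Mathlib
import Fermat.Prelude.Def_AlgebraicCurve_DivisorPushPull

/-!
# `π_* π^* = [F' : F]` on divisors and on `Pic0`  (S37-PATH, aux-level descent, input (a))

For an integral extension `F ⊂ F'` of function fields over `K` (prelude API) satisfying the
fundamental identity `∑_{w | v} e(w|v) deg w = [F' : F] deg v`, and with all places of `F` of
positive degree:  `pushforward F (pullback F' D) = [F' : F] • D`, hence the same on `Pic0`.
-/

set_option autoImplicit false
set_option linter.unusedSectionVars false

noncomputable section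

open AlgebraicCurve

namespace Fermat.Agent.GJ.S37PushPull

variable {K F F' : Type*} [Field K] [Field F] [Field F']
  [Algebra K F] [Algebra K F'] [Algebra F F'] [IsScalarTower K F F']
  [Algebra.IsIntegral F F'] [HasPrincipalDivisors K F']

/-- `∑_{w | v} e(w|v) f(w|v) = [F' : F]` from the fundamental identity, when `deg v > 0`. -/
theorem sum_ramificationIndex_mul_inertiaDeg [FundamentalIdentity K F F'] (v : Place K F)
    (hv : 0 < v.deg) :
    ∑ w ∈ v.fiber F', (w.ramificationIndex F : ℤ) * (w.inertiaDeg F : ℤ)
      = (Module.finrank F F' : ℤ) := by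
  have key := FundamentalIdentity.sum_ramificationIndex_mul_deg (K := K) (F := F) (F' := F') v
  have h1 : ∑ w ∈ v.fiber F', (w.ramificationIndex F : ℤ) * (w.deg : ℤ)
      = (v.deg : ℤ) * ∑ w ∈ v.fiber F', (w.ramificationIndex F : ℤ) * (w.inertiaDeg F : ℤ) := by
    rw [Finset.mul_sum]
    refine Finset.sum_congr rfl fun w hw => ?_
    have htower : ((w.restrict F).deg : ℤ) * (w.inertiaDeg F : ℤ) = (w.deg : ℤ) := by
      exact_mod_cast congrArg (Nat.cast (R := ℤ)) (w.deg_restrict_mul_inertiaDeg (F := F))
    rw [Place.mem_fiber.mp hw] at htower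
    rw [← htower]; ring
  rw [h1] at key
  have hv' : (v.deg : ℤ) ≠ 0 := by exact_mod_cast hv.ne'
  have : (v.deg : ℤ) * ∑ w ∈ v.fiber F', (w.ramificationIndex F : ℤ) * (w.inertiaDeg F : ℤ)
      = (v.deg : ℤ) * (Module.finrank F F' : ℤ) := by rw [key]; ring
  exact mul_left_cancel₀ hv' this

theorem pushforward_pullback_single [FundamentalIdentity K F F'] (v : Place K F) (hv : 0 < v.deg)
    (n : ℤ) :
    Divisor.pushforward F (Divisor.pullback F' (Finsupp.single v n))
      = Finsupp.single v (n * (Module.finrank F F' : ℤ)) := by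
  rw [Divisor.pullback_single, map_sum]
  have h1 : ∀ w ∈ v.fiber F',
      Divisor.pushforward F (Finsupp.single w (n * (w.ramificationIndex F : ℤ)))
        = Finsupp.single v (n * ((w.ramificationIndex F : ℤ) * (w.inertiaDeg F : ℤ))) := by
    intro w hw
    rw [Divisor.pushforward_single, Place.mem_fiber.mp hw, mul_assoc]
  rw [Finset.sum_congr rfl h1, ← Finsupp.single_finsetSum, ← Finset.mul_sum,
    sum_ramificationIndex_mul_inertiaDeg v hv]

/-- `π_* π^* D = [F' : F] • D`. -/
theorem pushforward_pullback [FundamentalIdentity K F F'] (hdeg : ∀ v : Place K F, 0 < v.deg)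
    (D : Divisor K F) :
    Divisor.pushforward F (Divisor.pullback F' D) = (Module.finrank F F') • D := by
  induction D using Finsupp.induction with
  | zero => simp
  | single_add v n D _ _ ih =>
    rw [map_add, map_add, ih, pushforward_pullback_single v (hdeg v), smul_add]
    congr 1
    rw [Finsupp.smul_single, nsmul_eq_mul, mul_comm]

/-- `π_* π^* = [F' : F]` on `Pic0`. -/
theorem pushforwardHom_pullbackHom [FundamentalIdentity K F F'] [Module.Finite F F']
    (H : Divisor.PushforwardNormFormula K F F') (hdeg : ∀ v : Place K F, 0 < v.deg)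
    (x : Pic0 K F) :
    Pic0.pushforwardHom K F F' H (Pic0.pullbackHom F' x) = (Module.finrank F F') • x := by
  obtain ⟨D, rfl⟩ := Pic0.mk_surjective x
  rw [Pic0.pullbackHom_mk, Pic0.pushforwardHom_mk]
  have : Pic0.pushforwardDegZeroHom F (Pic0.pullbackDegZeroHom F' D) = (Module.finrank F F') • D := by
    apply Subtype.ext
    rw [Pic0.coe_pushforwardDegZeroHom, Pic0.coe_pullbackDegZeroHom,
      pushforward_pullback hdeg]
    simp
  rw [this]
  rfl

end Fermat.Agent.GJ.S37PushPull
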