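/-
GATE-J / S37 path, leaf (L4) (helper38): the pullback of divisor classes along a `K`-algebra
homomorphism `φ : F →ₐ[K] F'` of function fields (prelude `Along` language, no `Algebra F F'`
instance), as a thin wrapper over helper34's `PullbackEquiv` / `PushPull`:

* `pullbackPic0Along φ hφ hFI : Pic0 K F →+ Pic0 K F'`, with `pullbackPic0Along_mk`;
* `pullbackPic0Along_smul` : it commutes with a pair of intertwined semilinear automorphisms;
* `finrankAlong_nsmul_eq_zero` : its kernel is killed by the degree of `φ`.
-/
import Mathlib
import Fermat.Prelude.Def_AlgebraicCurve_Correspondence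
import Fermat.Prelude.Def_AlgebraicCurve_BaseChangeGalois
import Fermat.Agent.GJ.S37.PullbackEquiv
import Fermat.Agent.GJ.S37.PushPull

set_option autoImplicit false

noncomputable section

namespace Fermat.Agent.GJ.S37Aux

open AlgebraicCurve

section Along

variable {K F F' : Type*} [Field K] [Field F] [Field F'] [Algebra K F] [Algebra K F']
  [HasPrincipalDivisors K F'] (φ : F →ₐ[K] F') (hφ : φ.toRingHom.IsIntegral)
  (hFI : FundamentalIdentityAlong K φ hφ)

/-- pullback of divisor classes along `φ` -/
def pullbackPic0Along : Pic0 K F →+ Pic0 K F' :=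
  letI := algebraAlong φ
  haveI := isScalarTower_along φ
  haveI := isIntegral_along φ hφ
  haveI : FundamentalIdentity K F F' := hFI
  Pic0.pullbackHom F'

theorem pullbackPic0Along_mk (D : Divisor.degZero (K := K) (F := F)) :
    pullbackPic0Along φ hφ hFI (Pic0.mk D)
      = Pic0.mk ⟨Divisor.pullbackAlong φ hφ (D : Divisor K F),
          Divisor.pullbackAlong_mem_degZero φ hφ hFI D.2⟩ := rfl

/-- Galois equivariance of the pullback along `φ` -/
theorem pullbackPic0Along_smul {g : SemilinearAut K F} {g' : SemilinearAut K F'}
    (h : SemilinearAut.IntertwinesAlong φ.toRingHom g g') (x : Pic0 K F) :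
    pullbackPic0Along φ hφ hFI (g • x) = g' • pullbackPic0Along φ hφ hFI x := by
  let _ := algebraAlong φ
  have := isScalarTower_along φ
  have := isIntegral_along φ hφ
  have : FundamentalIdentity K F F' := hFI
  exact S37PullbackEquiv.pullbackHom_smul (F' := F') (fun x => h x) x

/-- `pushforward ∘ pullback` along `φ` is multiplication by the degree of `φ` -/
theorem pushforward_pullbackPic0Along (hfin : FiniteAlong K φ) (hN : NormFormulaAlong K φ hfin)
    (hdeg : ∀ v : Place K F, 0 < v.deg) (x : Pic0 K F) :
    (letI := algebraAlong φ
     haveI := isScalarTower_along φ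
     haveI := isIntegral_along φ hφ
     haveI : Module.Finite F F' := hfin
     Pic0.pushforwardHom K F F' hN) (pullbackPic0Along φ hφ hFI x) = finrankAlong K φ • x := by
  let _ := algebraAlong φ
  have := isScalarTower_along φ
  have := isIntegral_along φ hφ
  have : FundamentalIdentity K F F' := hFI
  have : Module.Finite F F' := hfin
  exact S37PushPull.pushforwardHom_pullbackHom (F' := F') hN hdeg x

/-- the kernel of the pullback along `φ` is killed by the degree of `φ` -/
theorem finrankAlong_nsmul_eq_zero (hfin : FiniteAlong K φ) (hN : NormFormulaAlong K φ hfin)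
    (hdeg : ∀ v : Place K F, 0 < v.deg)
    (x : Pic0 K F) (hx : pullbackPic0Along φ hφ hFI x = 0) : finrankAlong K φ • x = 0 := by
  rw [← pushforward_pullbackPic0Along φ hφ hFI hfin hN hdeg x, hx, map_zero]

end Along

end Fermat.Agent.GJ.S37Aux
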