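/-
GATE-J / S37 path, leaf (L4) (helper38): the CONCRETE pullback `pullJ : J₀(N) → J₀(N')` for
`N ∣ N'` (inclusion of function fields `F_N ⊂ F_N'`), with
* `levelIncl L h : F_N →ₐ[L] F_N'`, integral, finite, fundamental identity, norm formula;
* `pullJ_mk`       : on classes of divisors it is `Divisor.pullbackAlong (levelIncl _ h)`;
* `pullJ_smul`     : Galois equivariance;
* `pullJ_eq_zero`  : the kernel is killed by `[F_N' : F_N]`.
Everything is first done over a general algebraically closed field `L ⊇ ℚ`, then specialised
to `ℚ̄`.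
-/
import Fermat.Agent.GJ.S37.AuxPull
import Fermat.Agent.GJ.HInputs.Modular
import Fermat.Agent.GJ.J1.DescDegree

set_option autoImplicit false
set_option linter.unusedSectionVars false
set_option synthInstance.maxHeartbeats 400000
set_option maxHeartbeats 1000000

noncomputable section

namespace Fermat.Agent.GJ.S37Aux

open AlgebraicCurve IntermediateField ModularCurve
open Fermat.Agent.S24 Fermat.Agent.GJ.HInputs Fermat.Agent.GJ.J1.Desc

section General

variable (L : Type*) [Field L] [Algebra ℚ L] {N N' : ℕ} [NeZero N] [NeZero N'] (h : N ∣ N')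

/-- the inclusion of function fields `F_N ⊂ F_N'` for `N ∣ N'` -/
def levelIncl : laurentBaseChange L (modularFunctionFieldFull N) →ₐ[L]
    laurentBaseChange L (modularFunctionFieldFull N') :=
  IntermediateField.inclusion (fieldL_le (L := L) h)

theorem coe_levelIncl (x : laurentBaseChange L (modularFunctionFieldFull N)) :
    ((levelIncl L h x : laurentBaseChange L (modularFunctionFieldFull N')) : LaurentSeries L)
      = (x : LaurentSeries L) :=
  IntermediateField.coe_inclusion (fieldL_le (L := L) h) x

theorem levelIncl_jGenL : levelIncl L h (jGenL L N) = jGenL L N' :=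
  Subtype.ext (coe_levelIncl L h _)

variable {L}
variable [IsAlgClosed L]

theorem finiteAlong_levelIncl (hN' : IsGen L (jGenL L N')) : FiniteAlong L (levelIncl L h) := by
  have hfd : FiniteDimensional L⟮levelIncl L h (jGenL L N)⟯
      (laurentBaseChange L (modularFunctionFieldFull N')) := by
    rw [levelIncl_jGenL]; exact hN'.finite
  exact finiteAlong_of_gen _ (jGenL L N)

theorem isIntegral_levelIncl (hN' : IsGen L (jGenL L N')) :
    (levelIncl L h).toRingHom.IsIntegral :=
  isIntegral_of_finiteAlong _ (finiteAlong_levelIncl h hN')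

theorem hasPrincipalDivisors_of_isGen_jGenL {M : ℕ} [NeZero M] (hM : IsGen L (jGenL L M)) :
    HasPrincipalDivisors L (laurentBaseChange L (modularFunctionFieldFull M)) := by
  have hcz : CharZero L := algebraRat.charZero L
  exact Principal.hasPrincipalDivisors_of_isGen (jGenL L M)

theorem deg_eq_one_of_isGen_jGenL {M : ℕ} [NeZero M] (hM : IsGen L (jGenL L M))
    (v : Place L (laurentBaseChange L (modularFunctionFieldFull M))) : v.deg = 1 := by
  have hcz : CharZero L := algebraRat.charZero L
  exact PlaceB.deg_eq_one v (jGenL L M)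

theorem fundamentalIdentityAlong_levelIncl (hN : IsGen L (jGenL L N))
    (hN' : IsGen L (jGenL L N')) :
    haveI := hasPrincipalDivisors_of_isGen_jGenL hN'
    FundamentalIdentityAlong L (levelIncl L h) (isIntegral_levelIncl h hN') := by
  have hcz : CharZero L := algebraRat.charZero L
  have hP := hasPrincipalDivisors_of_isGen_jGenL hN'
  exact @fundamentalIdentity L _ _ _ _ _ _ _ (algebraAlong (levelIncl L h))
    (isScalarTower_along (levelIncl L h)) (finiteAlong_levelIncl h hN') hcz _ hP
    (deg_eq_one_of_isGen_jGenL hN) (deg_eq_one_of_isGen_jGenL hN')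

theorem normFormulaAlong_levelIncl (hN : IsGen L (jGenL L N)) (hN' : IsGen L (jGenL L N')) :
    haveI := hasPrincipalDivisors_of_isGen_jGenL hN'
    NormFormulaAlong L (levelIncl L h) (finiteAlong_levelIncl h hN') := by
  have hcz : CharZero L := algebraRat.charZero L
  have hP := hasPrincipalDivisors_of_isGen_jGenL hN'
  exact @pushforwardNormFormula L _ _ _ _ _ _ _ (algebraAlong (levelIncl L h))
    (isScalarTower_along (levelIncl L h)) (finiteAlong_levelIncl h hN') hcz _ hP
    (deg_eq_one_of_isGen_jGenL hN) (deg_eq_one_of_isGen_jGenL hN')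

/-- the pullback of divisor classes for `N ∣ N'` -/
def pullL (hN : IsGen L (jGenL L N)) (hN' : IsGen L (jGenL L N')) :
    Pic0 L (laurentBaseChange L (modularFunctionFieldFull N)) →+
      Pic0 L (laurentBaseChange L (modularFunctionFieldFull N')) :=
  haveI := hasPrincipalDivisors_of_isGen_jGenL hN'
  pullbackPic0Along (levelIncl L h) (isIntegral_levelIncl h hN')
    (fundamentalIdentityAlong_levelIncl h hN hN')

theorem pullL_mk (hN : IsGen L (jGenL L N)) (hN' : IsGen L (jGenL L N'))
    (D : Divisor.degZero (K := L) (F := laurentBaseChange L (modularFunctionFieldFull N))) :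
    haveI := hasPrincipalDivisors_of_isGen_jGenL hN'
    pullL h hN hN' (Pic0.mk D)
      = Pic0.mk ⟨Divisor.pullbackAlong (levelIncl L h) (isIntegral_levelIncl h hN')
            (D : Divisor L _),
          Divisor.pullbackAlong_mem_degZero _ _ (fundamentalIdentityAlong_levelIncl h hN hN')
            D.2⟩ := rfl

theorem intertwines_levelIncl (σ : L ≃ₐ[ℚ] L) :
    SemilinearAut.IntertwinesAlong (levelIncl L h).toRingHom
      (arithmeticGalois (modularFunctionFieldFull N) σ)
      (arithmeticGalois (modularFunctionFieldFull N') σ) := fun x => by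
  apply Subtype.ext
  rw [coe_arithmeticGalois_smul]
  change ModularCurve.coeffMap _ ((levelIncl L h x : _) : LaurentSeries L)
    = ((levelIncl L h (_ • x) : _) : LaurentSeries L)
  rw [coe_levelIncl, coe_levelIncl, coe_arithmeticGalois_smul]

/-- Galois equivariance of the pullback -/
theorem pullL_smul (hN : IsGen L (jGenL L N)) (hN' : IsGen L (jGenL L N')) (σ : L ≃ₐ[ℚ] L)
    (x : Pic0 L (laurentBaseChange L (modularFunctionFieldFull N))) :
    pullL h hN hN' (σ • x) = σ • pullL h hN hN' x := by
  rw [galois_smul_pic0_def, galois_smul_pic0_def]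
  have := hasPrincipalDivisors_of_isGen_jGenL hN'
  exact pullbackPic0Along_smul _ _ _ (intertwines_levelIncl h σ) x

theorem finrankAlong_levelIncl :
    finrankAlong L (levelIncl L h)
      = relfinrank (laurentBaseChange L (modularFunctionFieldFull N))
          (laurentBaseChange L (modularFunctionFieldFull N')) :=
  finrank_inclusion_eq_relfinrank (fieldL_le (L := L) h)

/-- the kernel of the pullback is killed by the degree `[F_N' : F_N]` -/
theorem pullL_eq_zero (hN : IsGen L (jGenL L N)) (hN' : IsGen L (jGenL L N'))
    (x : Pic0 L (laurentBaseChange L (modularFunctionFieldFull N)))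
    (hx : pullL h hN hN' x = 0) :
    relfinrank (laurentBaseChange L (modularFunctionFieldFull N))
      (laurentBaseChange L (modularFunctionFieldFull N')) • x = 0 := by
  rw [← finrankAlong_levelIncl h]
  have := hasPrincipalDivisors_of_isGen_jGenL hN'
  exact finrankAlong_nsmul_eq_zero _ _ _ (finiteAlong_levelIncl h hN')
    (normFormulaAlong_levelIncl h hN hN')
    (fun v => by rw [deg_eq_one_of_isGen_jGenL hN v]; exact Nat.one_pos) x hx

end General

/-! ### the case `L = ℚ̄` -/

section Bar

variable {N N' : ℕ} [NeZero N] [NeZero N'] (h : N ∣ N')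

theorem hasPrincipalDivisors_bar (M : ℕ) [NeZero M] :
    HasPrincipalDivisors Kbar (modularFunctionFieldBar M) :=
  hasPrincipalDivisors_of_isGen_jGenL (isGen_jGenL_bar M)

theorem deg_eq_one_bar {M : ℕ} [NeZero M] (v : Place Kbar (modularFunctionFieldBar M)) :
    v.deg = 1 :=
  deg_eq_one_of_isGen_jGenL (isGen_jGenL_bar M) v

theorem finiteAlong_levelIncl_bar : FiniteAlong Kbar (levelIncl Kbar h) :=
  finiteAlong_levelIncl h (isGen_jGenL_bar N')

theorem isIntegral_levelIncl_bar : (levelIncl Kbar h).toRingHom.IsIntegral :=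
  isIntegral_levelIncl h (isGen_jGenL_bar N')

theorem fundamentalIdentityAlong_levelIncl_bar
    [HasPrincipalDivisors Kbar (modularFunctionFieldBar N')] :
    FundamentalIdentityAlong Kbar (levelIncl Kbar h) (isIntegral_levelIncl_bar h) :=
  fundamentalIdentityAlong_levelIncl h (isGen_jGenL_bar N) (isGen_jGenL_bar N')

theorem normFormulaAlong_levelIncl_bar
    [HasPrincipalDivisors Kbar (modularFunctionFieldBar N')] :
    NormFormulaAlong Kbar (levelIncl Kbar h) (finiteAlong_levelIncl_bar h) :=
  normFormulaAlong_levelIncl h (isGen_jGenL_bar N) (isGen_jGenL_bar N')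

/-- the pullback of divisor classes `J₀(N) → J₀(N')` for `N ∣ N'` -/
def pullJ : JZero N →+ JZero N' :=
  pullL h (isGen_jGenL_bar N) (isGen_jGenL_bar N')

theorem pullJ_mk [HasPrincipalDivisors Kbar (modularFunctionFieldBar N')]
    (D : Divisor.degZero (K := Kbar) (F := modularFunctionFieldBar N)) :
    pullJ h (Pic0.mk D)
      = Pic0.mk ⟨Divisor.pullbackAlong (levelIncl Kbar h) (isIntegral_levelIncl_bar h)
            (D : Divisor Kbar (modularFunctionFieldBar N)),
          Divisor.pullbackAlong_mem_degZero _ _ (fundamentalIdentityAlong_levelIncl_bar h)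
            D.2⟩ := rfl

/-- Galois equivariance of `pullJ` -/
theorem pullJ_smul (σ : Kbar ≃ₐ[ℚ] Kbar) (x : JZero N) : pullJ h (σ • x) = σ • pullJ h x :=
  pullL_smul h _ _ σ x

/-- the kernel of `pullJ` is killed by the degree `[F_N' : F_N]` -/
theorem pullJ_eq_zero (x : JZero N) (hx : pullJ h x = 0) :
    relfinrank (modularFunctionFieldBar N) (modularFunctionFieldBar N') • x = 0 :=
  pullL_eq_zero h _ _ x hx

end Bar

end Fermat.Agent.GJ.S37Aux
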