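/-
GATE-J / S37-PATH (helper43): `PullPackage` of `GJ/S37/Final.lean` IS A THEOREM.

helper18's `pullBar h` (`GJ/S37/HeckePullback.lean`) and helper38's `pullJ h`
(`GJ/S37/AuxPullModular.lean`) are the same map `J₀(N) → J₀(N')` (definitionally); helper38's
`pullJ_smul` (Galois-equivariance) and `pullJ_eq_zero` (the kernel is killed by `[F_{N'} : F_N]`)
give the two clauses of `S37Final.PullPackage`.
-/
import Fermat.Agent.GJ.S37.Final
import Fermat.Agent.GJ.S37.AuxPullModular

set_option autoImplicit false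

namespace Fermat.Agent.GJ.S37PullPackageInst

open ModularCurve AlgebraicCurve IntermediateField

theorem pullBar_eq_pullJ {N N' : ℕ} [NeZero N] [NeZero N'] (h : N ∣ N') :
    Fermat.Agent.GJ.S37HeckePullback.pullBar h = Fermat.Agent.GJ.S37Aux.pullJ h := rfl

/-- **the pull-back package of `GJ/S37/Final.lean`.** -/
theorem pullPackage : Fermat.Agent.GJ.S37Final.PullPackage := by
  intro N N' _ _ h
  refine ⟨fun σ x => ?_, fun x hx => ?_⟩
  · rw [pullBar_eq_pullJ]
    exact Fermat.Agent.GJ.S37Aux.pullJ_smul h σ x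
  · rw [pullBar_eq_pullJ] at hx
    exact Fermat.Agent.GJ.S37Aux.pullJ_eq_zero h x hx

end Fermat.Agent.GJ.S37PullPackageInst
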