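import Mathlib
import Fermat.Prelude.Def_HeckeGalois_EichlerShimura
import Fermat.Agent.GJ.S37.Asm

/-!
# S37 at `ℓ ∈ {2,3}`: reduction through an auxiliary level  (helper34)

`GJ/S37/Asm.lean` derives S37 from ANY additive map `red : J →+ M` with four properties.
If the reduction map is only available at an auxiliary level `J'` (where the genus equality is
known), compose it with the pull-back `pb : J →+ J'`.  The four properties survive provided
* `pf ∘ pb = d` for some `pf : J' →+ J` with `d` prime to `p`   (`π_* π^* = [F' : F]`),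
* `pb` commutes with the Galois action,
* `pb` commutes with the ONE Hecke operator `T_ℓ`.
-/

set_option autoImplicit false

namespace Fermat.Agent.GJ.S37Aux

open ModularCurve

variable {K L : Type*} [Field K] [Field L] [Algebra K L]
variable {J : Type*} [AddCommGroup J] [Module HeckeAlg J] [DistribMulAction (L ≃ₐ[K] L) J]
variable {J' : Type*} [AddCommGroup J'] [Module HeckeAlg J'] [DistribMulAction (L ≃ₐ[K] L) J']
variable {M : Type*} [AddCommGroup M]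

/-- `d • x = 0`, `p ^ n • x = 0`, `gcd(d, p) = 1` ⇒ `x = 0`. -/
theorem eq_zero_of_coprime_smul {G : Type*} [AddCommGroup G] {d p n : ℕ} (hd : Nat.Coprime d p)
    {x : G} (h1 : d • x = 0) (h2 : p ^ n • x = 0) : x = 0 := by
  have hcop : IsCoprime (d : ℤ) ((p ^ n : ℕ) : ℤ) :=
    Nat.isCoprime_iff_coprime.mpr (Nat.Coprime.pow_right n hd)
  obtain ⟨a, b, hab⟩ := hcop
  have h1' : (d : ℤ) • x = 0 := by rw [natCast_zsmul]; exact h1
  have h2' : ((p ^ n : ℕ) : ℤ) • x = 0 := by rw [natCast_zsmul]; exact h2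
  calc x = (1 : ℤ) • x := (one_zsmul x).symm
    _ = (a * d + b * ((p ^ n : ℕ) : ℤ)) • x := by rw [hab]
    _ = a • ((d : ℤ) • x) + b • (((p ^ n : ℕ) : ℤ) • x) := by
        rw [add_smul, mul_smul, mul_smul]
    _ = 0 := by rw [h1', h2', smul_zero, smul_zero, add_zero]

/-- **Reduction through an auxiliary level**, operator form: at the auxiliary level the Hecke
operator is an arbitrary additive endomorphism `T'` of `J'` (e.g. the prelude's
`heckeOperatorBar N' ℓ`), so that no commutativity hypothesis at level `N'` is needed to speak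
about it.  The four hypotheses of `S37Asm.isReductionKernel_heckeKernel` /
`specializationExists_of_reductionMaps` for `red' ∘ pb`, from their analogues for `red'` and
three compatibilities of the pull-back `pb`. -/
theorem reduction_of_aux' {J'' : Type*} [AddCommGroup J''] [DistribMulAction (L ≃ₐ[K] L) J'']
    (p : ℕ) {A : ValuationSubring L} {ℓ : ℕ} {hℓ : ℓ.Prime}
    (red' : J'' →+ M) (T' : J'' →+ J'') (pb : J →+ J'') (pf : J'' →+ J) (d : ℕ)
    (hd : Nat.Coprime d p)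
    (hpf : ∀ x : J, pf (pb x) = d • x)
    (hgal : ∀ (σ : L ≃ₐ[K] L) (x : J), pb (σ • x) = σ • pb x)
    (hT : ∀ x : J, pb (heckeGen ⟨ℓ, hℓ⟩ • x) = T' (pb x))
    (hinj : ∀ y : J'', (∃ n : ℕ, p ^ n • y = 0) → red' y = 0 → y = 0)
    (hin : ∀ σ ∈ A.inertiaSubgroupIn K, ∀ y : J'', red' (σ • y) = red' y)
    (hfr : ∀ σ : L ≃ₐ[K] L, A.IsFrobeniusAt σ ℓ → ∀ y : J'', red' y = 0 → red' (σ • y) = 0)
    (hrel : ∀ σ : L ≃ₐ[K] L, A.IsFrobeniusAt σ ℓ → ∀ y : J'',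
      red' (σ • σ • y - T' (σ • y) + ℓ • y) = 0) :
    (∀ x : J, (∃ n : ℕ, p ^ n • x = 0) → (red'.comp pb) x = 0 → x = 0) ∧
    (∀ σ ∈ A.inertiaSubgroupIn K, ∀ x : J, (red'.comp pb) (σ • x) = (red'.comp pb) x) ∧
    (∀ σ : L ≃ₐ[K] L, A.IsFrobeniusAt σ ℓ →
      ∀ x : J, (red'.comp pb) x = 0 → (red'.comp pb) (σ • x) = 0) ∧
    (∀ σ : L ≃ₐ[K] L, A.IsFrobeniusAt σ ℓ → ∀ x : J,
      (red'.comp pb) (σ • σ • x - heckeGen ⟨ℓ, hℓ⟩ • (σ • x) + ℓ • x) = 0) := by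
  refine ⟨?_, ?_, ?_, ?_⟩
  · rintro x ⟨n, hn⟩ hx
    have h1 : pb x = 0 := by
      refine hinj (pb x) ⟨n, ?_⟩ hx
      rw [← map_nsmul, hn, map_zero]
    have h2 : d • x = 0 := by rw [← hpf x, h1, map_zero]
    exact eq_zero_of_coprime_smul hd h2 hn
  · intro σ hσ x
    simp only [AddMonoidHom.comp_apply]
    rw [hgal, hin σ hσ]
  · intro σ hσ x hx
    simp only [AddMonoidHom.comp_apply] at hx ⊢
    rw [hgal]
    exact hfr σ hσ _ hx
  · intro σ hσ x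
    simp only [AddMonoidHom.comp_apply]
    have e : pb (σ • σ • x - heckeGen ⟨ℓ, hℓ⟩ • (σ • x) + ℓ • x)
        = σ • σ • pb x - T' (σ • pb x) + ℓ • pb x := by
      rw [map_add, map_sub, map_nsmul, hgal, hgal, hT, hgal]
    rw [e]
    exact hrel σ hσ (pb x)

/-- **Reduction through an auxiliary level**, module form (`J'` a `HeckeAlg`-module). -/
theorem reduction_of_aux (p : ℕ) {A : ValuationSubring L} {ℓ : ℕ} {hℓ : ℓ.Prime}
    (red' : J' →+ M) (pb : J →+ J') (pf : J' →+ J) (d : ℕ) (hd : Nat.Coprime d p)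
    (hpf : ∀ x : J, pf (pb x) = d • x)
    (hgal : ∀ (σ : L ≃ₐ[K] L) (x : J), pb (σ • x) = σ • pb x)
    (hT : ∀ x : J, pb (heckeGen ⟨ℓ, hℓ⟩ • x) = heckeGen ⟨ℓ, hℓ⟩ • pb x)
    (hinj : ∀ y : J', (∃ n : ℕ, p ^ n • y = 0) → red' y = 0 → y = 0)
    (hin : ∀ σ ∈ A.inertiaSubgroupIn K, ∀ y : J', red' (σ • y) = red' y)
    (hfr : ∀ σ : L ≃ₐ[K] L, A.IsFrobeniusAt σ ℓ → ∀ y : J', red' y = 0 → red' (σ • y) = 0)
    (hrel : ∀ σ : L ≃ₐ[K] L, A.IsFrobeniusAt σ ℓ → ∀ y : J',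
      red' (σ • σ • y - heckeGen ⟨ℓ, hℓ⟩ • (σ • y) + ℓ • y) = 0) :
    (∀ x : J, (∃ n : ℕ, p ^ n • x = 0) → (red'.comp pb) x = 0 → x = 0) ∧
    (∀ σ ∈ A.inertiaSubgroupIn K, ∀ x : J, (red'.comp pb) (σ • x) = (red'.comp pb) x) ∧
    (∀ σ : L ≃ₐ[K] L, A.IsFrobeniusAt σ ℓ →
      ∀ x : J, (red'.comp pb) x = 0 → (red'.comp pb) (σ • x) = 0) ∧
    (∀ σ : L ≃ₐ[K] L, A.IsFrobeniusAt σ ℓ → ∀ x : J,
      (red'.comp pb) (σ • σ • x - heckeGen ⟨ℓ, hℓ⟩ • (σ • x) + ℓ • x) = 0) :=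
  reduction_of_aux' p red'
    (DistribSMul.toAddMonoidHom J' (heckeGen ⟨ℓ, hℓ⟩ : HeckeAlg)) pb pf d hd hpf hgal hT
    hinj hin hfr hrel

end Fermat.Agent.GJ.S37Aux
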