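/-
GATE-J / S37 branch (helper35): the Hecke-core trick.

`S37Pack.IsReductionKernel` asks for a HECKE-STABLE subgroup `J1 ≤ J`.  Here we show that a NAIVE
kernel of reduction `J1n : AddSubgroup J` (no Hecke stability required: no compatibility of the
reduction with `T_q`, `q ∣ N` or `q ≠ ℓ`, is ever needed) already suffices: its Hecke core
`{x | ∀ T, T • x ∈ J1n}` is a reduction kernel as soon as `J1n`
* contains `σ x - x` for `σ` in the inertia group,
* is stable under the Frobenius lifts,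
* contains no nonzero `p`-power torsion,
* contains `σ² x - T_ℓ σ x + ℓ x` for every Frobenius lift `σ` and EVERY `x : J`.
-/
import Mathlib
import Fermat.Prelude.Def_HeckeGalois_EichlerShimura
import Fermat.Agent.GJ.S37Pack

set_option autoImplicit false

namespace Fermat.Agent.GJ.S37.Core

open ModularCurve Fermat.Agent.GJ.S37Pack

variable {K L : Type*} [Field K] [Field L] [Algebra K L]
variable (p : ℕ) (J : Type) [AddCommGroup J] [Module HeckeAlg J]
  [DistribMulAction (L ≃ₐ[K] L) J] [SMulCommClass (L ≃ₐ[K] L) HeckeAlg J]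

/-- The Hecke core of an additive subgroup: the largest Hecke-stable subgroup inside it. -/
def heckeCore (J1n : AddSubgroup J) : Submodule HeckeAlg J where
  carrier := {x | ∀ T : HeckeAlg, T • x ∈ J1n}
  add_mem' := by
    intro x y hx hy T
    rw [smul_add]
    exact J1n.add_mem (hx T) (hy T)
  zero_mem' := by
    intro T
    rw [smul_zero]
    exact J1n.zero_mem
  smul_mem' := by
    intro T' x hx T
    rw [smul_smul]
    exact hx (T * T')

variable {p J}

theorem mem_heckeCore {J1n : AddSubgroup J} {x : J} :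
    x ∈ heckeCore J J1n ↔ ∀ T : HeckeAlg, T • x ∈ J1n := Iff.rfl

theorem heckeCore_le {J1n : AddSubgroup J} {x : J} (hx : x ∈ heckeCore J J1n) : x ∈ J1n := by
  have := hx 1
  rwa [one_smul] at this

/-- **Hecke-core trick**: a naive kernel of reduction gives a reduction kernel. -/
theorem isReductionKernel_heckeCore {A : ValuationSubring L} {ℓ : ℕ} {hℓ : ℓ.Prime}
    (J1n : AddSubgroup J)
    (inertia : ∀ σ ∈ A.inertiaSubgroupIn K, ∀ x : J, σ • x - x ∈ J1n)
    (frob_stable : ∀ σ : L ≃ₐ[K] L, A.IsFrobeniusAt σ ℓ → ∀ x ∈ J1n, σ • x ∈ J1n)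
    (torsion_free : ∀ x ∈ J1n, (∃ n : ℕ, p ^ n • x = 0) → x = 0)
    (relation : ∀ σ : L ≃ₐ[K] L, A.IsFrobeniusAt σ ℓ → ∀ x : J,
      σ • σ • x - heckeGen ⟨ℓ, hℓ⟩ • (σ • x) + ℓ • x ∈ J1n) :
    IsReductionKernel (K := K) p J A ℓ hℓ (heckeCore J J1n) where
  inertia σ hσ x T := by
    have h := inertia σ hσ (T • x)
    rwa [smul_comm σ T x, ← smul_sub] at h
  frob_stable σ hσ x hx T := by
    have h := frob_stable σ hσ (T • x) (hx T)
    rwa [smul_comm σ T x] at h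
  torsion_free x hx hp := torsion_free x (heckeCore_le hx) hp
  relation σ hσ x T := by
    have h := relation σ hσ (T • x)
    have e : σ • σ • T • x - heckeGen ⟨ℓ, hℓ⟩ • σ • T • x + ℓ • T • x =
        T • (σ • σ • x - heckeGen ⟨ℓ, hℓ⟩ • σ • x + ℓ • x) := by
      rw [smul_add, smul_sub, smul_comm σ T x, smul_comm σ T (σ • x),
        smul_comm (heckeGen ⟨ℓ, hℓ⟩) T (σ • x), smul_comm ℓ T x]
    rwa [e] at h

/-- **S37 from naive kernels**: `SpecializationExists` over `ℚ̄/ℚ` as soon as every prime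
`ℓ ∤ N p` and every `A` over `ℓ` admit a naive kernel of reduction. -/
theorem specializationExists_of_naive_kernels (N p : ℕ) (J : Type) [AddCommGroup J]
    [Module HeckeAlg J]
    [DistribMulAction (AlgebraicClosure ℚ ≃ₐ[ℚ] AlgebraicClosure ℚ) J]
    [SMulCommClass (AlgebraicClosure ℚ ≃ₐ[ℚ] AlgebraicClosure ℚ) HeckeAlg J]
    (h : ∀ ℓ : ℕ, (hℓ : ℓ.Prime) → ¬ ℓ ∣ N * p →
      ∀ A : ValuationSubring (AlgebraicClosure ℚ), A.LiesOverPrime ℓ →
        ∃ J1n : AddSubgroup J,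
          (∀ σ ∈ A.inertiaSubgroupIn ℚ, ∀ x : J, σ • x - x ∈ J1n) ∧
          (∀ σ : AlgebraicClosure ℚ ≃ₐ[ℚ] AlgebraicClosure ℚ, A.IsFrobeniusAt σ ℓ →
            ∀ x ∈ J1n, σ • x ∈ J1n) ∧
          (∀ x ∈ J1n, (∃ n : ℕ, p ^ n • x = 0) → x = 0) ∧
          (∀ σ : AlgebraicClosure ℚ ≃ₐ[ℚ] AlgebraicClosure ℚ, A.IsFrobeniusAt σ ℓ → ∀ x : J,
            σ • σ • x - heckeGen ⟨ℓ, hℓ⟩ • (σ • x) + ℓ • x ∈ J1n)) :
    SpecializationExists (K := ℚ) (L := AlgebraicClosure ℚ) N p J := by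
  refine specializationExists_of_kernels N p J fun ℓ hℓ hℓN A hA => ?_
  obtain ⟨J1n, h1, h2, h3, h4⟩ := h ℓ hℓ hℓN A hA
  exact ⟨heckeCore J J1n, isReductionKernel_heckeCore J1n h1 h2 h3 h4⟩

/-- The same with the naive kernel given as the kernel of an additive "reduction" map
`red : J →+ G` into ANY abelian group (no Hecke action on `G` is needed). -/
theorem specializationExists_of_reduction_maps (N p : ℕ) (J : Type) [AddCommGroup J]
    [Module HeckeAlg J]
    [DistribMulAction (AlgebraicClosure ℚ ≃ₐ[ℚ] AlgebraicClosure ℚ) J]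
    [SMulCommClass (AlgebraicClosure ℚ ≃ₐ[ℚ] AlgebraicClosure ℚ) HeckeAlg J]
    (h : ∀ ℓ : ℕ, (hℓ : ℓ.Prime) → ¬ ℓ ∣ N * p →
      ∀ A : ValuationSubring (AlgebraicClosure ℚ), A.LiesOverPrime ℓ →
        ∃ (G : Type) (_ : AddCommGroup G) (red : J →+ G),
          (∀ σ ∈ A.inertiaSubgroupIn ℚ, ∀ x : J, red (σ • x) = red x) ∧
          (∀ σ : AlgebraicClosure ℚ ≃ₐ[ℚ] AlgebraicClosure ℚ, A.IsFrobeniusAt σ ℓ →
            ∀ x : J, red x = 0 → red (σ • x) = 0) ∧
          (∀ x : J, red x = 0 → (∃ n : ℕ, p ^ n • x = 0) → x = 0) ∧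
          (∀ σ : AlgebraicClosure ℚ ≃ₐ[ℚ] AlgebraicClosure ℚ, A.IsFrobeniusAt σ ℓ → ∀ x : J,
            red (σ • σ • x - heckeGen ⟨ℓ, hℓ⟩ • (σ • x) + ℓ • x) = 0)) :
    SpecializationExists (K := ℚ) (L := AlgebraicClosure ℚ) N p J := by
  refine specializationExists_of_naive_kernels N p J fun ℓ hℓ hℓN A hA => ?_
  obtain ⟨G, _, red, h1, h2, h3, h4⟩ := h ℓ hℓ hℓN A hA
  refine ⟨red.ker, ?_, ?_, ?_, ?_⟩
  · intro σ hσ x
    rw [AddMonoidHom.mem_ker, map_sub, h1 σ hσ x, sub_self]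
  · intro σ hσ x hx
    exact h2 σ hσ x hx
  · intro x hx hp
    exact h3 x hx hp
  · intro σ hσ x
    exact h4 σ hσ x

end Fermat.Agent.GJ.S37.Core
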