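/-
GATE-J / S37 branch (helper35): the frozen S37 statement from "reduction maps" on `JZero N`
(hypothesis form; `S37.lean` will be this file's `result_of` applied to the providers).
-/
import Fermat.Prelude.Def_ModularCurve_HeckeModule
import Fermat.Prelude.Def_HeckeGalois_EichlerShimura
import Fermat.Agent.GJ.S37.Core

set_option autoImplicit false
open ModularCurve

namespace Fermat.Agent.GJ.S37.CoreDry

/-- What the S37 providers owe, for one level `N` and one integer `p`: for every prime
`ℓ ∤ N p` and every valuation subring `A` of `ℚ̄` over `ℓ`, an additive map `red` out of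
`JZero N` (think: reduction modulo `A`) which is inertia-invariant, whose kernel is stable under
Frobenius lifts and contains no nonzero `p`-power torsion, and which kills
`σ² x - T_ℓ σ x + ℓ x` for every Frobenius lift `σ` and every `x`. -/
def ReductionMapsExist (N p : ℕ) [NeZero N] : Prop :=
  letI := ModularCurve.heckeModuleBar N
  ∀ ℓ : ℕ, (hℓ : ℓ.Prime) → ¬ ℓ ∣ N * p →
    ∀ A : ValuationSubring (AlgebraicClosure ℚ), A.LiesOverPrime ℓ →
      ∃ (G : Type) (_ : AddCommGroup G) (red : ModularCurve.JZero N →+ G),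
        (∀ σ ∈ A.inertiaSubgroupIn ℚ, ∀ x : ModularCurve.JZero N, red (σ • x) = red x) ∧
        (∀ σ : AlgebraicClosure ℚ ≃ₐ[ℚ] AlgebraicClosure ℚ, A.IsFrobeniusAt σ ℓ →
          ∀ x : ModularCurve.JZero N, red x = 0 → red (σ • x) = 0) ∧
        (∀ x : ModularCurve.JZero N, red x = 0 → (∃ n : ℕ, p ^ n • x = 0) → x = 0) ∧
        (∀ σ : AlgebraicClosure ℚ ≃ₐ[ℚ] AlgebraicClosure ℚ, A.IsFrobeniusAt σ ℓ →
          ∀ x : ModularCurve.JZero N,
            red (σ • σ • x - heckeGen ⟨ℓ, hℓ⟩ • (σ • x) + ℓ • x) = 0)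

theorem result_of (N p : ℕ) [NeZero N] (_hcomm : ModularCurve.HeckeOperatorsCommuteBar N)
    (h : ReductionMapsExist N p) :
    letI := ModularCurve.heckeModuleBar N
    ∀ (_ : SMulCommClass (AlgebraicClosure ℚ ≃ₐ[ℚ] AlgebraicClosure ℚ) ModularCurve.HeckeAlg
        (ModularCurve.JZero N)),
      ModularCurve.SpecializationExists (K := ℚ) (L := AlgebraicClosure ℚ) N p
        (ModularCurve.JZero N) := by
  intro _hs
  let _ := ModularCurve.heckeModuleBar N
  exact Core.specializationExists_of_reduction_maps N p (ModularCurve.JZero N) h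

end Fermat.Agent.GJ.S37.CoreDry
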