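import Mathlib
import Fermat.Prelude.Def_AlgebraicCurve_BaseChangeGalois

set_option autoImplicit false

/-!
# GATE-J / S37-PATH, step (3): the `Δ`-lemma

Let `Δ : Div(F) →+ Div(F~)` be additive.  Suppose

* `Δ` kills principal divisors;
* for every place `P` of `F` the negative part of `Δ(P)` is supported in a finite set `neg (r P)`
  attached to the reduction `r P` of `P` (for `Δ = r_* ∘ T_ℓ - (Fr + Ve) ∘ r_*` this is
  `{b (r P), b⁻¹ (r P)}` because `T_ℓ P ≥ 0`);
* `deg Δ(P) = 0`;
* (separating functions) for every `P` there is `m > 0` such that for every finite set `S` of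
  places of `F~` there is an effective `Z ∼ m P` whose points `P'` all satisfy
  `neg (r P') ∩ S = ∅` (`Z` = zeros of `t - c` for a degree-preserving `t ∈ L(mP)` and a generic
  constant `c`).

Then `Δ = 0`.  No divisibility of `Pic⁰` is used.
-/

noncomputable section

namespace Fermat.Agent.GJ.S37.Delta

open AlgebraicCurve

section Abstract

variable {K F k Ft : Type*} [Field K] [Field F] [Algebra K F] [Field k] [Field Ft] [Algebra k Ft]

/-- an effective divisor of degree `0` vanishes, if all places have positive degree -/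
theorem eq_zero_of_nonneg_of_degree_eq_zero (hpos : ∀ Q : Place k Ft, 0 < Q.deg)
    {D : Divisor k Ft} (hD : ∀ Q, 0 ≤ D Q) (hdeg : Divisor.degree D = 0) : D = 0 := by
  classical
  have hsum : Divisor.degree D = ∑ Q ∈ D.support, D Q * (Q.deg : ℤ) := by
    conv_lhs => rw [← Finsupp.sum_single D]
    rw [Finsupp.sum, map_sum]
    exact Finset.sum_congr rfl fun Q _ => Divisor.degree_single Q (D Q)
  rw [hsum] at hdeg
  have hterm : ∀ Q ∈ D.support, D Q * (Q.deg : ℤ) = 0 :=
    (Finset.sum_eq_zero_iff_of_nonneg fun Q _ =>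
      mul_nonneg (hD Q) (Int.natCast_nonneg _)).mp hdeg
  ext Q
  rw [Finsupp.zero_apply]
  by_contra hQ
  have hmem : Q ∈ D.support := Finsupp.mem_support_iff.mpr hQ
  rcases mul_eq_zero.mp (hterm Q hmem) with h | h
  · exact hQ h
  · exact (Nat.pos_iff_ne_zero.mp (hpos Q)) (by exact_mod_cast h)

/-- **The `Δ`-lemma.** -/
theorem delta_eq_zero (hpos : ∀ Q : Place k Ft, 0 < Q.deg)
    (Δ : Divisor K F →+ Divisor k Ft) (r : Place K F → Place k Ft)
    (neg : Place k Ft → Finset (Place k Ft))
    (hprin : ∀ D ∈ Divisor.principal (K := K) (F := F), Δ D = 0)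
    (hneg : ∀ P Q, Q ∉ neg (r P) → 0 ≤ Δ (Finsupp.single P 1) Q)
    (hdeg : ∀ P, Divisor.degree (Δ (Finsupp.single P 1)) = 0)
    (hsep : ∀ P, ∃ m : ℕ, 0 < m ∧ ∀ S : Finset (Place k Ft), ∃ Z : Divisor K F,
      (∀ P', 0 ≤ Z P') ∧ Z - m • Finsupp.single P 1 ∈ Divisor.principal (K := K) (F := F) ∧
        ∀ P' ∈ Z.support, ∀ Q ∈ S, Q ∉ neg (r P')) :
    Δ = 0 := by
  classical
  -- it suffices to treat a single place
  have hsingle : ∀ P, Δ (Finsupp.single P 1) = 0 := by
    intro P
    refine eq_zero_of_nonneg_of_degree_eq_zero hpos (fun Q => ?_) (hdeg P)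
    by_contra hQ
    push Not at hQ
    obtain ⟨m, hm, hZ⟩ := hsep P
    obtain ⟨Z, hZ0, hZprin, hZS⟩ := hZ {Q}
    have h0 := hprin _ hZprin
    rw [map_sub, map_nsmul, sub_eq_zero] at h0
    -- `Δ Z Q ≥ 0`
    have hZQ : 0 ≤ Δ Z Q := by
      have hZsum : Z = ∑ P' ∈ Z.support, (Z P').toNat • Finsupp.single P' (1 : ℤ) := by
        conv_lhs => rw [← Finsupp.sum_single Z]
        rw [Finsupp.sum]
        refine Finset.sum_congr rfl fun P' _ => ?_
        rw [Finsupp.smul_single, nsmul_eq_mul, mul_one, Int.toNat_of_nonneg (hZ0 P')]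
      rw [hZsum, map_sum, Finsupp.finsetSum_apply]
      refine Finset.sum_nonneg fun P' hP' => ?_
      rw [map_nsmul, Finsupp.smul_apply]
      exact nsmul_nonneg (hneg P' Q (hZS P' hP' Q (Finset.mem_singleton_self Q))) _
    rw [h0, Finsupp.smul_apply, nsmul_eq_mul] at hZQ
    have hmpos : (0 : ℤ) < (m : ℤ) := by exact_mod_cast hm
    nlinarith
  apply AddMonoidHom.ext
  intro D
  induction D using Finsupp.induction with
  | zero => simp
  | single_add P n D _ _ ih =>
    have : Finsupp.single P n = n • Finsupp.single P (1 : ℤ) := by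
      rw [Finsupp.smul_single, smul_eq_mul, mul_one]
    rw [map_add, ih, this, map_zsmul, hsingle, smul_zero]
    simp

end Abstract

/-! ### The Eichler–Shimura shape `r_* ∘ T = (Fr + Ve) ∘ r_*` -/

section ES

variable {K F k Ft : Type*} [Field K] [Field F] [Algebra K F] [Field k] [Field Ft] [Algebra k Ft]

/-- `Fr + Ve` on divisors, for a semilinear automorphism `b` ("Frobenius") of `F~` and an integer
`ℓ`: `D ↦ b • D + ℓ • b⁻¹ • D`. -/
def frobVer (b : SemilinearAut k Ft) (ℓ : ℕ) : Divisor k Ft →+ Divisor k Ft :=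
  DistribSMul.toAddMonoidHom (Divisor k Ft) b + ℓ • DistribSMul.toAddMonoidHom (Divisor k Ft) b⁻¹

theorem frobVer_apply (b : SemilinearAut k Ft) (ℓ : ℕ) (D : Divisor k Ft) :
    frobVer b ℓ D = b • D + ℓ • (b⁻¹ • D) := rfl

theorem frobVer_single (b : SemilinearAut k Ft) (ℓ : ℕ) (Q : Place k Ft) (n : ℤ) :
    frobVer b ℓ (Finsupp.single Q n) =
      Finsupp.single (b • Q) n + ℓ • Finsupp.single (b⁻¹ • Q) n := by
  rw [frobVer_apply, SemilinearAut.smul_single, SemilinearAut.smul_single]

theorem degree_frobVer (b : SemilinearAut k Ft) (ℓ : ℕ) (D : Divisor k Ft) :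
    Divisor.degree (frobVer b ℓ D) = (ℓ + 1 : ℤ) * Divisor.degree D := by
  rw [frobVer_apply, map_add, map_nsmul, SemilinearAut.degree_smul, SemilinearAut.degree_smul,
    nsmul_eq_mul]
  ring

/-- the push-forward of divisors along a map of places -/
abbrev pushPlaces (r : Place K F → Place k Ft) : Divisor K F →+ Divisor k Ft :=
  Finsupp.mapDomain.addMonoidHom r

theorem degree_pushPlaces {r : Place K F → Place k Ft} (hrdeg : ∀ P, (r P).deg = P.deg)
    (D : Divisor K F) : Divisor.degree (pushPlaces r D) = Divisor.degree D := by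
  induction D using Finsupp.induction with
  | zero => simp
  | single_add P n D _ _ ih =>
    rw [map_add, map_add, map_add, ih, Finsupp.mapDomain.addMonoidHom_apply,
      Finsupp.mapDomain_single, Divisor.degree_single, Divisor.degree_single, hrdeg]

theorem pushPlaces_nonneg {r : Place K F → Place k Ft} {D : Divisor K F} (hD : ∀ P, 0 ≤ D P)
    (Q : Place k Ft) : 0 ≤ pushPlaces r D Q := by
  classical
  rw [Finsupp.mapDomain.addMonoidHom_apply, Finsupp.mapDomain, Finsupp.sum,
    Finsupp.finsetSum_apply]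
  refine Finset.sum_nonneg fun P _ => ?_
  rw [Finsupp.single_apply]
  split_ifs
  · exact hD P
  · exact le_rfl

/-- **Eichler–Shimura relation on divisors from its validity on principal divisors.**
`T` is an effective correspondence of degree `ℓ + 1` on the generic fibre, `r` a degree-preserving
reduction map on places, `b` the Frobenius of the special fibre.  If `r_* T D = (Fr + Ve) r_* D`
for principal `D`, and separating principal divisors exist, then the relation holds for all `D`. -/
theorem pushPlaces_correspondence_eq (hpos : ∀ Q : Place k Ft, 0 < Q.deg) (ℓ : ℕ)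
    (r : Place K F → Place k Ft) (hrdeg : ∀ P, (r P).deg = P.deg)
    (T : Divisor K F →+ Divisor K F)
    (hTpos : ∀ P P', 0 ≤ T (Finsupp.single P 1) P')
    (hTdeg : ∀ P, Divisor.degree (T (Finsupp.single P 1)) = (ℓ + 1 : ℤ) * P.deg)
    (b : SemilinearAut k Ft)
    (hprin : ∀ D ∈ Divisor.principal (K := K) (F := F),
      pushPlaces r (T D) = frobVer b ℓ (pushPlaces r D))
    (hsep : ∀ P, ∃ m : ℕ, 0 < m ∧ ∀ S : Finset (Place k Ft), ∃ Z : Divisor K F,
      (∀ P', 0 ≤ Z P') ∧ Z - m • Finsupp.single P 1 ∈ Divisor.principal (K := K) (F := F) ∧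
        ∀ P' ∈ Z.support, r P' ∉ S)
    (D : Divisor K F) :
    pushPlaces r (T D) = frobVer b ℓ (pushPlaces r D) := by
  classical
  set Δ : Divisor K F →+ Divisor k Ft :=
    (pushPlaces r).comp T - (frobVer b ℓ).comp (pushPlaces r) with hΔ
  have hΔapp : ∀ D, Δ D = pushPlaces r (T D) - frobVer b ℓ (pushPlaces r D) := fun D => rfl
  have key : Δ = 0 := by
    refine delta_eq_zero hpos Δ r (fun Q => {b • Q, b⁻¹ • Q}) ?_ ?_ ?_ ?_
    · intro D hD
      rw [hΔapp, hprin D hD, sub_self]
    · intro P Q hQ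
      rw [Finset.mem_insert, Finset.mem_singleton, not_or] at hQ
      rw [hΔapp, Finsupp.sub_apply, Finsupp.mapDomain.addMonoidHom_apply r (Finsupp.single P 1),
        Finsupp.mapDomain_single, frobVer_single, Finsupp.add_apply, Finsupp.smul_apply,
        Finsupp.single_apply, Finsupp.single_apply, if_neg (Ne.symm hQ.1), if_neg (Ne.symm hQ.2),
        smul_zero, add_zero, sub_zero]
      exact pushPlaces_nonneg (hTpos P) Q
    · intro P
      rw [hΔapp, map_sub, degree_pushPlaces hrdeg, degree_frobVer, degree_pushPlaces hrdeg, hTdeg,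
        Divisor.degree_single, one_mul, sub_self]
    · intro P
      obtain ⟨m, hm, hZ⟩ := hsep P
      refine ⟨m, hm, fun S => ?_⟩
      obtain ⟨Z, hZ0, hZp, hZS⟩ := hZ (S.image (fun Q => b⁻¹ • Q) ∪ S.image (fun Q => b • Q))
      refine ⟨Z, hZ0, hZp, fun P' hP' Q hQ hmem => ?_⟩
      rw [Finset.mem_insert, Finset.mem_singleton] at hmem
      apply hZS P' hP'
      rw [Finset.mem_union, Finset.mem_image, Finset.mem_image]
      rcases hmem with h | h
      · exact Or.inl ⟨Q, hQ, by rw [h, inv_smul_smul]⟩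
      · exact Or.inr ⟨Q, hQ, by rw [h, smul_inv_smul]⟩
  have := DFunLike.congr_fun key D
  rw [hΔapp, AddMonoidHom.zero_apply, sub_eq_zero] at this
  exact this

end ES

end Fermat.Agent.GJ.S37.Delta
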