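/-
GATE-J / S37-PATH, step (2) of helper75's design (helper24): UNIQUENESS of the place reduction map
from *separating functions*, and its formal consequences

* `hI` : `reductionModL A N (σ • x) = reductionModL A N x` for `σ` in the inertia group of `A`;
* `hF` : the kernel of `reductionModL A N` is stable under the Frobenius lifts at `A`

in the exact shapes of `GJ/S37/Dry.lean`.  Hypothesis form:

* `HasSepFunctions A π N r` : for every place `P` of the generic fibre there is an integral series
  `y` (with nonzero reduction) whose only possible pole is `P` and whose reduction has a pole at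
  `r P`   [supplied by step (1): `t ∈ L(mP) ∩ R` with `t̃` of exact pole order `m` at `r P`];
* for `hF`: a semilinear automorphism `b` of the special-fibre field acting on `q`-expansions as
  the coefficientwise Frobenius   [supplied by leaf (L3)].

No divisibility of `Pic⁰`, no degree-one hypothesis is used for the uniqueness.
-/
import Fermat.Agent.GJ.Kum.ESKummer
import Fermat.Agent.GJ.J1.FibreFinal
import Fermat.Prelude.Def_ModularCurve_ReductionModL

set_option autoImplicit false

noncomputable section

open HahnSeries IntermediateField AlgebraicCurve ModularCurve IsLocalRing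

namespace Fermat.Agent.GJ.S37Uniq

/-! ### a positivity lemma for push-forwards of divisors -/

section MapDomain

variable {α β : Type*}

theorem mapDomain_apply_nonneg (f : α → β) (D : α →₀ ℤ) (b : β)
    (h : ∀ a, f a = b → 0 ≤ D a) : 0 ≤ Finsupp.mapDomain f D b := by
  classical
  rw [Finsupp.mapDomain, Finsupp.sum_apply]
  refine Finset.sum_nonneg fun a _ => ?_
  show 0 ≤ (Finsupp.single (f a) (D a)) b
  rw [Finsupp.single_apply]
  split_ifs with hab
  · exact h a hab
  · exact le_rfl

end MapDomain

section General

variable {L : Type*} [Field L] [Algebra ℚ L] (A : ValuationSubring L)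
variable {k : Type*} [Field k] (π : A →+* k) (N : ℕ)

/-- **separating functions** for a map `r` from places of the generic fibre to places of the
special fibre: for every place `P` an integral series `y`, with nonzero reduction, regular away
from `P`, whose reduction has a pole at `r P`. -/
def HasSepFunctions
    (r : Place L (laurentBaseChange L (modularFunctionFieldFull N)) →
      Place k (modularFunctionFieldFullC k N)) : Prop :=
  ∀ P : Place L (laurentBaseChange L (modularFunctionFieldFull N)),
    ∃ (y : LaurentSeries A)
      (hy : coeffMap A.subtype y ∈ laurentBaseChange L (modularFunctionFieldFull N))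
      (hyk : coeffMap π y ∈ modularFunctionFieldFullC k N),
      coeffMap π y ≠ 0 ∧
      (∀ P' : Place L (laurentBaseChange L (modularFunctionFieldFull N)), P' ≠ P →
        0 ≤ P'.ord
          (⟨coeffMap A.subtype y, hy⟩ : laurentBaseChange L (modularFunctionFieldFull N))) ∧
      (r P).ord (⟨coeffMap π y, hyk⟩ : modularFunctionFieldFullC k N) < 0

variable {A π N}

/-- **(U1) uniqueness of the place reduction map**: a map `r` with separating functions is the
only map satisfying the specification `IsPlaceReductionAlong`. -/
theorem eq_of_sep [HasPrincipalDivisors L (laurentBaseChange L (modularFunctionFieldFull N))]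
    {r r' : Place L (laurentBaseChange L (modularFunctionFieldFull N)) →
      Place k (modularFunctionFieldFullC k N)}
    (hsep : HasSepFunctions A π N r) (hr' : IsPlaceReductionAlong A π N r') : r' = r := by
  funext P
  obtain ⟨y, hy, hyk, hne, hreg, hpole⟩ := hsep P
  have hyL : (⟨coeffMap A.subtype y, hy⟩ :
      laurentBaseChange L (modularFunctionFieldFull N)) ≠ 0 := by
    intro h
    have h0 : coeffMap A.subtype y = 0 := congrArg Subtype.val h
    have hy0 : y = 0 :=
      Fermat.Agent.GJ.S18.Front.coeffMap_subtype_injective (by rw [h0, map_zero])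
    exact hne (by rw [hy0, map_zero])
  obtain ⟨D, hD, -⟩ := HasPrincipalDivisors.exists_divisor (K := L) _ hyL
  have hspec := hr'.2 y hy hyk hne D hD (r P)
  by_contra hPne
  have hnn : 0 ≤ Finsupp.mapDomain r' D (r P) := by
    refine mapDomain_apply_nonneg r' D (r P) fun P' hP' => ?_
    have hP'P : P' ≠ P := by
      rintro rfl
      exact hPne hP'
    rw [hD P']
    exact hreg P' hP'P
  rw [hspec] at hnn
  exact absurd hpole (not_lt.mpr hnn)

/-- **(U2/U3) equivariance of the place reduction map** under an automorphism `σ` in the
decomposition group of `A` whose action on the residue side is realised by a semilinear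
automorphism `b` of the special-fibre field. -/
theorem apply_smul_eq [HasPrincipalDivisors L (laurentBaseChange L (modularFunctionFieldFull N))]
    {r : Place L (laurentBaseChange L (modularFunctionFieldFull N)) →
      Place k (modularFunctionFieldFullC k N)}
    (hr : IsPlaceReductionAlong A π N r) (hsep : HasSepFunctions A π N r)
    (σ : L ≃ₐ[ℚ] L) (hσ : σ ∈ A.decompositionSubgroup ℚ)
    (b : SemilinearAut k (modularFunctionFieldFullC k N))
    (hb : ∀ (y : LaurentSeries A) (hyk : coeffMap π y ∈ modularFunctionFieldFullC k N),
      ((b • (⟨coeffMap π y, hyk⟩ : modularFunctionFieldFullC k N) :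
        modularFunctionFieldFullC k N) : LaurentSeries k) =
        coeffMap π (coeffMap (Fermat.Agent.GJ.Kum.resA A σ hσ) y))
    (P : Place L (laurentBaseChange L (modularFunctionFieldFull N))) :
    r (arithmeticGalois (modularFunctionFieldFull N) σ • P) = b • r P := by
  set g := arithmeticGalois (L := L) (modularFunctionFieldFull N) σ with hg
  have hspec : IsPlaceReductionAlong A π N (fun P => b⁻¹ • r (g • P)) := by
    refine ⟨fun P => ?_, fun y hy hyk hne D hD Q => ?_⟩
    · rw [SemilinearAut.deg_smul, hr.1, SemilinearAut.deg_smul]
    · -- the transported series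
      set y' : LaurentSeries A := coeffMap (Fermat.Agent.GJ.Kum.resA A σ hσ) y with hy'def
      have hsub : coeffMap A.subtype y' = coeffMap (σ : L →+* L) (coeffMap A.subtype y) :=
        Fermat.Agent.GJ.Kum.coeffMap_subtype_resA A σ hσ y
      have hy' : coeffMap A.subtype y' ∈ laurentBaseChange L (modularFunctionFieldFull N) := by
        rw [hsub]
        exact coeffMap_mem_laurentBaseChange σ hy
      have hyL' : (⟨coeffMap A.subtype y', hy'⟩ :
          laurentBaseChange L (modularFunctionFieldFull N)) =
          g • (⟨coeffMap A.subtype y, hy⟩ :
            laurentBaseChange L (modularFunctionFieldFull N)) :=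
        Subtype.ext hsub
      have hbk := hb y hyk
      have hyk' : coeffMap π y' ∈ modularFunctionFieldFullC k N := by
        rw [← hbk]
        exact (b • (⟨coeffMap π y, hyk⟩ : modularFunctionFieldFullC k N)).2
      have hyk'eq : (⟨coeffMap π y', hyk'⟩ : modularFunctionFieldFullC k N) =
          b • (⟨coeffMap π y, hyk⟩ : modularFunctionFieldFullC k N) :=
        Subtype.ext hbk.symm
      have hne' : coeffMap π y' ≠ 0 := by
        intro h0
        have h1 : b • (⟨coeffMap π y, hyk⟩ : modularFunctionFieldFullC k N) = 0 := by
          rw [← hyk'eq]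
          exact Subtype.ext h0
        rw [smul_eq_zero_iff_eq] at h1
        exact hne (congrArg Subtype.val h1)
      have hD' : ∀ P, (g • D) P = P.ord (⟨coeffMap A.subtype y', hy'⟩ :
          laurentBaseChange L (modularFunctionFieldFull N)) := by
        intro P
        rw [SemilinearAut.divisor_smul_apply, hD, hyL']
        have h := SemilinearAut.ord_smul g (g⁻¹ • P)
          (⟨coeffMap A.subtype y, hy⟩ : laurentBaseChange L (modularFunctionFieldFull N))
        rw [smul_inv_smul] at h
        exact h.symm
      have h1 := hr.2 y' hy' hyk' hne' (g • D) hD' (b • Q)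
      rw [hyk'eq, SemilinearAut.ord_smul] at h1
      rw [← h1]
      have hcomp : Finsupp.mapDomain (fun P => b⁻¹ • r (g • P)) D =
          b⁻¹ • Finsupp.mapDomain r (g • D) := by
        rw [SemilinearAut.divisor_smul_def, SemilinearAut.divisor_smul_def,
          ← Finsupp.mapDomain_comp, ← Finsupp.mapDomain_comp]
        rfl
      rw [hcomp, SemilinearAut.divisor_smul_apply, inv_inv]
  have heq := eq_of_sep hsep hspec
  have h2 : b⁻¹ • r (g • P) = r P := congrFun heq P
  rw [← h2, smul_inv_smul]

/-- equivariance of the reduction map on `Pic⁰` from the equivariance on places -/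
theorem reductionPic0Along_smul
    {r : Place L (laurentBaseChange L (modularFunctionFieldFull N)) →
      Place k (modularFunctionFieldFullC k N)}
    (hr : IsPlaceReductionAlong A π N r) (hgen : PrincipalGeneratedByIntegral A π N)
    (g : SemilinearAut L (laurentBaseChange L (modularFunctionFieldFull N)))
    (b : SemilinearAut k (modularFunctionFieldFullC k N))
    (hcomp : ∀ P, r (g • P) = b • r P)
    (x : Pic0 L (laurentBaseChange L (modularFunctionFieldFull N))) :
    reductionPic0Along r hr hgen (g • x) = b • reductionPic0Along r hr hgen x := by
  obtain ⟨D, rfl⟩ := Pic0.mk_surjective x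
  rw [SemilinearAut.pic0_smul_mk, reductionPic0Along_mk, reductionPic0Along_mk,
    SemilinearAut.pic0_smul_mk]
  congr 1
  apply Subtype.ext
  rw [coe_reductionDegZeroAlong, SemilinearAut.coe_degZeroSMulHom,
    SemilinearAut.coe_degZeroSMulHom, coe_reductionDegZeroAlong,
    SemilinearAut.divisor_smul_def, SemilinearAut.divisor_smul_def,
    ← Finsupp.mapDomain_comp, ← Finsupp.mapDomain_comp]
  congr 1
  funext P
  exact hcomp P

end General

/-! ### the frozen setting: `A ⊂ ℚ̄`, `k` the residue field -/

section Frozen

set_option synthInstance.maxHeartbeats 400000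

variable {A : ValuationSubring (AlgebraicClosure ℚ)} {N : ℕ} [NeZero N]

omit [NeZero N] in
/-- `reductionModL` is equivariant as soon as the chosen place reduction map is. -/
theorem reductionModL_smul (h : ReductionInputsModL A N)
    (σ : AlgebraicClosure ℚ ≃ₐ[ℚ] AlgebraicClosure ℚ)
    (b : SemilinearAut (ResidueField A) (modularFunctionFieldFullC (ResidueField A) N))
    (hcomp : ∀ P, placeReductionModL h (arithmeticGalois (modularFunctionFieldFull N) σ • P) =
      b • placeReductionModL h P)
    (x : JZero N) :
    reductionModL A N (σ • x) = b • reductionModL A N x := by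
  show reductionAlong A (residue A) N (arithmeticGalois (modularFunctionFieldFull N) σ • x) =
    b • reductionAlong A (residue A) N x
  rw [reductionAlong_eq h]
  exact reductionPic0Along_smul h.choose_spec.1 h.choose_spec.2 _ b hcomp x

/-- **(U2) inertia acts trivially through the place reduction map.** -/
theorem placeReductionModL_smul_of_inertia (h : ReductionInputsModL A N)
    (hsep : HasSepFunctions A (residue A) N (placeReductionModL h))
    {σ : AlgebraicClosure ℚ ≃ₐ[ℚ] AlgebraicClosure ℚ} (hσ : σ ∈ A.inertiaSubgroupIn ℚ)
    (P : Place (AlgebraicClosure ℚ) (modularFunctionFieldBar N)) :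
    placeReductionModL h (arithmeticGalois (modularFunctionFieldFull N) σ • P) =
      placeReductionModL h P := by
  haveI := Fermat.Agent.GJ.FibreCurve.instHasPrincipalDivisorsBar (N := N)
  have hdec := Fermat.Agent.S05.mem_decompositionSubgroup_of_mem_inertiaSubgroupIn hσ
  have key := apply_smul_eq (isPlaceReductionModL_placeReductionModL h) hsep σ hdec 1
    (fun y hyk => by
      rw [one_smul]
      show coeffMap (residue A) y = _
      ext n
      exact (Fermat.Agent.GJ.Kum.residue_resA_of_inertia A hσ (y.coeff n)).symm) P
  rw [key, one_smul]

/-- **`hI` of `GJ/S37/Dry.lean`**: the reduction map is invariant under inertia. -/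
theorem reductionModL_smul_of_inertia (h : ReductionInputsModL A N)
    (hsep : HasSepFunctions A (residue A) N (placeReductionModL h))
    (σ : AlgebraicClosure ℚ ≃ₐ[ℚ] AlgebraicClosure ℚ) (hσ : σ ∈ A.inertiaSubgroupIn ℚ)
    (x : JZero N) :
    reductionModL A N (σ • x) = reductionModL A N x := by
  have h1 := reductionModL_smul h σ 1
    (fun P => by rw [placeReductionModL_smul_of_inertia h hsep hσ P, one_smul]) x
  rw [h1, one_smul]

variable {ℓ : ℕ} [Fact ℓ.Prime] [CharP (ResidueField A) ℓ]

/-- **(U3) Frobenius lifts act through the place reduction map as the Frobenius `b` of the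
special fibre.** -/
theorem placeReductionModL_smul_of_frobenius (h : ReductionInputsModL A N)
    (hsep : HasSepFunctions A (residue A) N (placeReductionModL h))
    (b : SemilinearAut (ResidueField A) (modularFunctionFieldFullC (ResidueField A) N))
    (hb : ∀ f : modularFunctionFieldFullC (ResidueField A) N,
      ((b • f : modularFunctionFieldFullC (ResidueField A) N) : LaurentSeries (ResidueField A)) =
        coeffMap (frobenius (ResidueField A) ℓ) (f : LaurentSeries (ResidueField A)))
    {σ : AlgebraicClosure ℚ ≃ₐ[ℚ] AlgebraicClosure ℚ} (hσ : A.IsFrobeniusAt σ ℓ)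
    (P : Place (AlgebraicClosure ℚ) (modularFunctionFieldBar N)) :
    placeReductionModL h (arithmeticGalois (modularFunctionFieldFull N) σ • P) =
      b • placeReductionModL h P := by
  haveI := Fermat.Agent.GJ.FibreCurve.instHasPrincipalDivisorsBar (N := N)
  exact apply_smul_eq (isPlaceReductionModL_placeReductionModL h) hsep σ
    hσ.mem_decompositionSubgroup b
    (fun y hyk => by
      rw [hb]
      exact (Fermat.Agent.GJ.Kum.red_coeffMap_frob ℓ
        (Fermat.Agent.GJ.Kum.residue_resA_of_frobenius A hσ) y).symm) P

/-- Frobenius lifts act on `reductionModL` as the Frobenius `b` of the special fibre. -/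
theorem reductionModL_smul_of_frobenius (h : ReductionInputsModL A N)
    (hsep : HasSepFunctions A (residue A) N (placeReductionModL h))
    (b : SemilinearAut (ResidueField A) (modularFunctionFieldFullC (ResidueField A) N))
    (hb : ∀ f : modularFunctionFieldFullC (ResidueField A) N,
      ((b • f : modularFunctionFieldFullC (ResidueField A) N) : LaurentSeries (ResidueField A)) =
        coeffMap (frobenius (ResidueField A) ℓ) (f : LaurentSeries (ResidueField A)))
    {σ : AlgebraicClosure ℚ ≃ₐ[ℚ] AlgebraicClosure ℚ} (hσ : A.IsFrobeniusAt σ ℓ) (x : JZero N) :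
    reductionModL A N (σ • x) = b • reductionModL A N x :=
  reductionModL_smul h σ b (placeReductionModL_smul_of_frobenius h hsep b hb hσ) x

/-- **`hF` of `GJ/S37/Dry.lean`**: the kernel of the reduction map is stable under Frobenius
lifts. -/
theorem reductionModL_smul_eq_zero_of_frobenius (h : ReductionInputsModL A N)
    (hsep : HasSepFunctions A (residue A) N (placeReductionModL h))
    (b : SemilinearAut (ResidueField A) (modularFunctionFieldFullC (ResidueField A) N))
    (hb : ∀ f : modularFunctionFieldFullC (ResidueField A) N,
      ((b • f : modularFunctionFieldFullC (ResidueField A) N) : LaurentSeries (ResidueField A)) =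
        coeffMap (frobenius (ResidueField A) ℓ) (f : LaurentSeries (ResidueField A)))
    (σ : AlgebraicClosure ℚ ≃ₐ[ℚ] AlgebraicClosure ℚ) (hσ : A.IsFrobeniusAt σ ℓ) (x : JZero N)
    (hx : reductionModL A N x = 0) : reductionModL A N (σ • x) = 0 := by
  rw [reductionModL_smul_of_frobenius h hsep b hb hσ x, hx]
  exact smul_zero (A := JZeroC (ResidueField A) N) b

end Frozen

end Fermat.Agent.GJ.S37Uniq
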