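/-
GATE-J / S37-PATH (helper24): second dry run of the frozen S37 statement.  The hypotheses `hI`
(inertia invariance) and `hF` (Frobenius stability of the kernel) of `GJ/S37/Dry.lean` are
discharged by `GJ/S37/UniqRed.lean`; what remains is

* `hS18`  : the frozen S18 statement;
* `hRED`  : `ReductionInputsModL A N` holds for `ℓ ∤ N p`;
* `hSEP`  : the chosen place reduction map has separating functions (step (1) of the design);
* `hFROB` : the coefficientwise Frobenius is a semilinear automorphism of the special-fibre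
            field (leaf (L3));
* `hR`    : the Eichler–Shimura relation on all of `J₀(N)` (step (3)).
-/
import Fermat.Prelude.Def_ModularCurve_HeckeModule
import Fermat.Prelude.Def_ModularCurve_ReductionModL
import Fermat.Agent.GJ.S37.Asm
import Fermat.Agent.GJ.S37.UniqRed

set_option autoImplicit false

namespace Fermat.Agent.GJ.S37Uniq

open ModularCurve AlgebraicCurve IsLocalRing HahnSeries Fermat.Agent.GJ.S37Asm

/-- The frozen S18 statement, as a `Prop` (self-contained copy: the file `GJ/S37/Dry.lean` this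
was first stated in has been replaced on main by a different file of the same name). -/
def S18Stmt : Prop :=
  ∀ (N : ℕ) [NeZero N] {ℓ : ℕ} [Fact ℓ.Prime], ¬ ℓ ∣ N →
    ∀ (A : ValuationSubring (AlgebraicClosure ℚ)), A.LiesOverPrime ℓ →
      ModularCurve.ReductionInputsModL A N → ∀ m : ℕ, ¬ ℓ ∣ m → ∀ z : ModularCurve.JZero N,
        m • z = 0 → ModularCurve.reductionModL A N z = 0 → z = 0

/-- frozen S37 from S18 + (RED, hI, hF, hR) for the prelude's `reductionModL` (helper75's dry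
run, restated here so that this file does not depend on `GJ/S37/Dry.lean`). -/
theorem s37_of_reductionModL_inputs (hS18 : S18Stmt) (N p : ℕ) [NeZero N]
    (_hcomm : ModularCurve.HeckeOperatorsCommuteBar N) :
    letI := ModularCurve.heckeModuleBar N
    ∀ (_ : SMulCommClass (AlgebraicClosure ℚ ≃ₐ[ℚ] AlgebraicClosure ℚ) ModularCurve.HeckeAlg
        (ModularCurve.JZero N)),
      (∀ ℓ : ℕ, ℓ.Prime → ¬ ℓ ∣ N * p →
        ∀ A : ValuationSubring (AlgebraicClosure ℚ), A.LiesOverPrime ℓ →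
          ModularCurve.ReductionInputsModL A N) →
      (∀ ℓ : ℕ, ℓ.Prime → ¬ ℓ ∣ N * p →
        ∀ A : ValuationSubring (AlgebraicClosure ℚ), A.LiesOverPrime ℓ →
          ∀ σ ∈ A.inertiaSubgroupIn ℚ, ∀ x : ModularCurve.JZero N,
            ModularCurve.reductionModL A N (σ • x) = ModularCurve.reductionModL A N x) →
      (∀ ℓ : ℕ, ℓ.Prime → ¬ ℓ ∣ N * p →
        ∀ A : ValuationSubring (AlgebraicClosure ℚ), A.LiesOverPrime ℓ →
          ∀ σ : AlgebraicClosure ℚ ≃ₐ[ℚ] AlgebraicClosure ℚ, A.IsFrobeniusAt σ ℓ →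
            ∀ x : ModularCurve.JZero N, ModularCurve.reductionModL A N x = 0 →
              ModularCurve.reductionModL A N (σ • x) = 0) →
      (∀ ℓ : ℕ, (hℓ : ℓ.Prime) → ¬ ℓ ∣ N * p →
        ∀ A : ValuationSubring (AlgebraicClosure ℚ), A.LiesOverPrime ℓ →
          ∀ σ : AlgebraicClosure ℚ ≃ₐ[ℚ] AlgebraicClosure ℚ, A.IsFrobeniusAt σ ℓ →
            ∀ x : ModularCurve.JZero N,
              ModularCurve.reductionModL A N
                (σ • σ • x - heckeGen ⟨ℓ, hℓ⟩ • (σ • x) + ℓ • x) = 0) →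
      ModularCurve.SpecializationExists (K := ℚ) (L := AlgebraicClosure ℚ) N p
        (ModularCurve.JZero N) := by
  intro _hs hRED hI hF hR
  let _ := ModularCurve.heckeModuleBar N
  refine specializationExists_of_reductionMaps N p (ModularCurve.JZero N)
    fun ℓ hℓ hℓN A hA => ?_
  refine ⟨_, inferInstance, ModularCurve.reductionModL A N, ?_, hI ℓ hℓ hℓN A hA,
    hF ℓ hℓ hℓN A hA, hR ℓ hℓ hℓN A hA⟩
  rintro x ⟨n, hn⟩ hx
  have : Fact ℓ.Prime := ⟨hℓ⟩
  have hℓN' : ¬ ℓ ∣ N := fun h => hℓN (Dvd.dvd.mul_right h p)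
  have hℓp : ¬ ℓ ∣ p ^ n := fun h => hℓN (Dvd.dvd.mul_left (hℓ.dvd_of_dvd_pow h) N)
  exact hS18 N hℓN' A hA (hRED ℓ hℓ hℓN A hA) (p ^ n) hℓp x hn hx

set_option synthInstance.maxHeartbeats 400000 in
theorem s37_of_sep (hS18 : S18Stmt) (N p : ℕ) [NeZero N]
    (hcomm : ModularCurve.HeckeOperatorsCommuteBar N) :
    letI := ModularCurve.heckeModuleBar N
    ∀ (_ : SMulCommClass (AlgebraicClosure ℚ ≃ₐ[ℚ] AlgebraicClosure ℚ) ModularCurve.HeckeAlg
        (ModularCurve.JZero N)),
      (∀ ℓ : ℕ, ℓ.Prime → ¬ ℓ ∣ N * p →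
        ∀ A : ValuationSubring (AlgebraicClosure ℚ), A.LiesOverPrime ℓ →
          ∃ h : ModularCurve.ReductionInputsModL A N,
            HasSepFunctions A (residue A) N (placeReductionModL h)) →
      (∀ ℓ : ℕ, (hℓ : ℓ.Prime) → ¬ ℓ ∣ N * p →
        ∀ A : ValuationSubring (AlgebraicClosure ℚ), A.LiesOverPrime ℓ →
          ∀ [CharP (ResidueField A) ℓ],
          haveI : Fact ℓ.Prime := ⟨hℓ⟩
          ∃ b : SemilinearAut (ResidueField A) (modularFunctionFieldFullC (ResidueField A) N),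
            ∀ f : modularFunctionFieldFullC (ResidueField A) N,
              ((b • f : modularFunctionFieldFullC (ResidueField A) N) :
                LaurentSeries (ResidueField A)) =
                coeffMap (frobenius (ResidueField A) ℓ) (f : LaurentSeries (ResidueField A))) →
      (∀ ℓ : ℕ, (hℓ : ℓ.Prime) → ¬ ℓ ∣ N * p →
        ∀ A : ValuationSubring (AlgebraicClosure ℚ), A.LiesOverPrime ℓ →
          ∀ σ : AlgebraicClosure ℚ ≃ₐ[ℚ] AlgebraicClosure ℚ, A.IsFrobeniusAt σ ℓ →
            ∀ x : ModularCurve.JZero N,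
              ModularCurve.reductionModL A N
                (σ • σ • x - heckeGen ⟨ℓ, hℓ⟩ • (σ • x) + ℓ • x) = 0) →
      ModularCurve.SpecializationExists (K := ℚ) (L := AlgebraicClosure ℚ) N p
        (ModularCurve.JZero N) := by
  intro hs hSEP hFROB hR
  refine s37_of_reductionModL_inputs hS18 N p hcomm hs
    (fun ℓ hℓ hℓN A hA => (hSEP ℓ hℓ hℓN A hA).choose) ?_ ?_ hR
  · intro ℓ hℓ hℓN A hA σ hσ x
    obtain ⟨h, hsep⟩ := hSEP ℓ hℓ hℓN A hA
    exact reductionModL_smul_of_inertia h hsep σ hσ x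
  · intro ℓ hℓ hℓN A hA σ hσ x hx
    obtain ⟨h, hsep⟩ := hSEP ℓ hℓ hℓN A hA
    haveI : Fact ℓ.Prime := ⟨hℓ⟩
    haveI : CharP (ResidueField A) ℓ := Fermat.Agent.GJ.Kum.charP_residueField A hℓ hA
    obtain ⟨b, hb⟩ := hFROB ℓ hℓ hℓN A hA
    exact reductionModL_smul_eq_zero_of_frobenius h hsep b hb σ hσ x hx

end Fermat.Agent.GJ.S37Uniq
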