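/-
GATE-J / S37-PATH (helper24): third dry run of the frozen S37 statement — `hFROB` of
`GJ/S37/DryUniq.lean` is discharged by helper47's `FrobSpecial.frobAut` (the residue field of a
valuation subring of `ℚ̄` is algebraically closed, hence perfect).  What remains:

* `hS18` : the frozen S18 statement;
* `hSEP` : `ReductionInputsModL A N` holds for `ℓ ∤ N p`, and the chosen place reduction map has
           separating functions (step (1) of helper75's design);
* `hR`   : the Eichler–Shimura relation on all of `J₀(N)` (step (3)).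
-/
import Fermat.Agent.GJ.S37.DryUniq
import Fermat.Agent.GJ.S37.FrobSpecial
import Fermat.Agent.GJ.J1.ResidueAlgClosed

set_option autoImplicit false

namespace Fermat.Agent.GJ.S37Uniq

open ModularCurve AlgebraicCurve IsLocalRing HahnSeries

set_option synthInstance.maxHeartbeats 400000 in
theorem s37_of_sep_relation (hS18 : S18Stmt) (N p : ℕ) [NeZero N]
    (hcomm : ModularCurve.HeckeOperatorsCommuteBar N) :
    letI := ModularCurve.heckeModuleBar N
    ∀ (_ : SMulCommClass (AlgebraicClosure ℚ ≃ₐ[ℚ] AlgebraicClosure ℚ) ModularCurve.HeckeAlg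
        (ModularCurve.JZero N)),
      (∀ ℓ : ℕ, ℓ.Prime → ¬ ℓ ∣ N * p →
        ∀ A : ValuationSubring (AlgebraicClosure ℚ), A.LiesOverPrime ℓ →
          ∃ h : ModularCurve.ReductionInputsModL A N,
            HasSepFunctions A (residue A) N (placeReductionModL h)) →
      (∀ ℓ : ℕ, (hℓ : ℓ.Prime) → ¬ ℓ ∣ N * p →
        ∀ A : ValuationSubring (AlgebraicClosure ℚ), A.LiesOverPrime ℓ →
          ∀ σ : AlgebraicClosure ℚ ≃ₐ[ℚ] AlgebraicClosure ℚ, A.IsFrobeniusAt σ ℓ →
            ∀ x : ModularCurve.JZero N,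
              ModularCurve.reductionModL A N
                (σ • σ • x - heckeGen ⟨ℓ, hℓ⟩ • (σ • x) + ℓ • x) = 0) →
      ModularCurve.SpecializationExists (K := ℚ) (L := AlgebraicClosure ℚ) N p
        (ModularCurve.JZero N) := by
  intro hs hSEP hR
  refine s37_of_sep hS18 N p hcomm hs hSEP ?_ hR
  intro ℓ hℓ hℓN A hA _
  haveI : Fact ℓ.Prime := ⟨hℓ⟩
  haveI : IsAlgClosed (ResidueField A) :=
    Fermat.Agent.GJ.ResidueAlgClosed.instIsAlgClosedResidueField A
  exact ⟨Fermat.Agent.GJ.S37.Frob.frobAut (ResidueField A) ℓ N,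
    fun f => Fermat.Agent.GJ.S37.Frob.coe_frobAut_smul (ResidueField A) ℓ N f⟩

end Fermat.Agent.GJ.S37Uniq
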