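/-
GATE-J / S37-PATH (helper43): fourth dry run of the frozen S37 statement — the Eichler–Shimura
relation `hR` of `GJ/S37/DrySep.lean` is discharged by `GJ/S37/HRel.lean`
(`reductionModL_esExpr`), the needed `red ∘ σ = Fr ∘ red` for Frobenius lifts being helper24's
`reductionModL_smul_of_frobenius`.  What remains:

* `hS18` : the frozen S18 statement;
* `hSEP` : `ReductionInputsModL A N` holds for `ℓ ∤ N p`, and the chosen place reduction map has
           separating functions (step (1) of helper75's design).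
-/
import Fermat.Agent.GJ.S37.DrySep
import Fermat.Agent.GJ.S37.HRel

set_option autoImplicit false

namespace Fermat.Agent.GJ.S37Uniq

open ModularCurve AlgebraicCurve IsLocalRing HahnSeries

set_option synthInstance.maxHeartbeats 400000 in
theorem s37_of_sep_only (hS18 : S18Stmt) (N p : ℕ) [NeZero N]
    (hcomm : ModularCurve.HeckeOperatorsCommuteBar N) :
    letI := ModularCurve.heckeModuleBar N
    ∀ (_ : SMulCommClass (AlgebraicClosure ℚ ≃ₐ[ℚ] AlgebraicClosure ℚ) ModularCurve.HeckeAlg
        (ModularCurve.JZero N)),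
      (∀ ℓ : ℕ, ℓ.Prime → ¬ ℓ ∣ N * p →
        ∀ A : ValuationSubring (AlgebraicClosure ℚ), A.LiesOverPrime ℓ →
          ∃ h : ModularCurve.ReductionInputsModL A N,
            HasSepFunctions A (residue A) N (placeReductionModL h)) →
      ModularCurve.SpecializationExists (K := ℚ) (L := AlgebraicClosure ℚ) N p
        (ModularCurve.JZero N) := by
  intro hs hSEP
  refine s37_of_sep_relation hS18 N p hcomm hs hSEP ?_
  intro ℓ hℓ hℓN A hA σ hσ x
  obtain ⟨h, hsep⟩ := hSEP ℓ hℓ hℓN A hA
  haveI : Fact ℓ.Prime := ⟨hℓ⟩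
  haveI : CharP (ResidueField A) ℓ := Fermat.Agent.GJ.Kum.charP_residueField A hℓ hA
  haveI : IsAlgClosed (ResidueField A) :=
    Fermat.Agent.GJ.ResidueAlgClosed.instIsAlgClosedResidueField A
  have hℓN' : ¬ ℓ ∣ N := fun h => hℓN (Dvd.dvd.mul_right h p)
  exact Fermat.Agent.GJ.S37.HRel.reductionModL_esExpr A N ℓ hcomm hℓN' h σ
    (fun y => reductionModL_smul_of_frobenius h hsep
      (Fermat.Agent.GJ.S37.Frob.frobAut (ResidueField A) ℓ N)
      (fun f => Fermat.Agent.GJ.S37.Frob.coe_frobAut_smul (ResidueField A) ℓ N f) hσ y) x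

end Fermat.Agent.GJ.S37Uniq
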