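/-
GATE-J / S37-PATH (helper43): dry run of the frozen S37 statement in UNIQUENESS form.

  frozen S37  ⇐  S18  +  for every `ℓ ∤ N p` and `A` over `ℓ`:
                   `∃ h : ReductionInputsModL A N,
                      ∀ r', IsPlaceReductionModL A N r' → r' = placeReductionModL h`.

`hI`, `hF` come from `GJ/S37/UniqRed2.lean` (helper24's proofs in `huniq` form), the Frobenius of
the special fibre from `GJ/S37/FrobSpecial.lean` (helper47), the Eichler–Shimura relation `hR` from
`GJ/S37/HRel.lean`.  The uniqueness hypothesis is what helper75's `UniqFrac.eq_rOf` supplies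
(separating functions in the Gauss valuation ring).
-/
import Fermat.Agent.GJ.S37.UniqRed2
import Fermat.Agent.GJ.S37.DryUniq
import Fermat.Agent.GJ.S37.FrobSpecial
import Fermat.Agent.GJ.S37.HRel
import Fermat.Agent.GJ.J1.ResidueAlgClosed

set_option autoImplicit false

namespace Fermat.Agent.GJ.S37Uniq2

open ModularCurve AlgebraicCurve IsLocalRing HahnSeries Fermat.Agent.GJ.S37Uniq

set_option synthInstance.maxHeartbeats 400000 in
/-- **frozen S37 from S18 and existence + uniqueness of the place reduction map.** -/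
theorem s37_of_uniq_only (hS18 : S18Stmt) (N p : ℕ) [NeZero N]
    (hcomm : ModularCurve.HeckeOperatorsCommuteBar N) :
    letI := ModularCurve.heckeModuleBar N
    ∀ (_ : SMulCommClass (AlgebraicClosure ℚ ≃ₐ[ℚ] AlgebraicClosure ℚ) ModularCurve.HeckeAlg
        (ModularCurve.JZero N)),
      (∀ ℓ : ℕ, ℓ.Prime → ¬ ℓ ∣ N * p →
        ∀ A : ValuationSubring (AlgebraicClosure ℚ), A.LiesOverPrime ℓ →
          ∃ h : ModularCurve.ReductionInputsModL A N,
            ∀ r', IsPlaceReductionModL A N r' → r' = placeReductionModL h) →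
      ModularCurve.SpecializationExists (K := ℚ) (L := AlgebraicClosure ℚ) N p
        (ModularCurve.JZero N) := by
  intro hs hU
  refine s37_of_reductionModL_inputs hS18 N p hcomm hs
    (fun ℓ hℓ hℓN A hA => (hU ℓ hℓ hℓN A hA).choose) ?_ ?_ ?_
  · -- hI
    intro ℓ hℓ hℓN A hA σ hσ x
    obtain ⟨h, huniq⟩ := hU ℓ hℓ hℓN A hA
    exact reductionModL_smul_of_inertia_of_uniq h huniq σ hσ x
  · -- hF
    intro ℓ hℓ hℓN A hA σ hσ x hx
    obtain ⟨h, huniq⟩ := hU ℓ hℓ hℓN A hA
    have : Fact ℓ.Prime := ⟨hℓ⟩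
    have : CharP (ResidueField A) ℓ := Fermat.Agent.GJ.Kum.charP_residueField A hℓ hA
    have : IsAlgClosed (ResidueField A) :=
      Fermat.Agent.GJ.ResidueAlgClosed.instIsAlgClosedResidueField A
    exact reductionModL_smul_eq_zero_of_frobenius_of_uniq h huniq
      (Fermat.Agent.GJ.S37.Frob.frobAut (ResidueField A) ℓ N)
      (fun f => Fermat.Agent.GJ.S37.Frob.coe_frobAut_smul (ResidueField A) ℓ N f) σ hσ x hx
  · -- hR
    intro ℓ hℓ hℓN A hA σ hσ x
    obtain ⟨h, huniq⟩ := hU ℓ hℓ hℓN A hA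
    have : Fact ℓ.Prime := ⟨hℓ⟩
    have : CharP (ResidueField A) ℓ := Fermat.Agent.GJ.Kum.charP_residueField A hℓ hA
    have : IsAlgClosed (ResidueField A) :=
      Fermat.Agent.GJ.ResidueAlgClosed.instIsAlgClosedResidueField A
    have hℓN' : ¬ ℓ ∣ N := fun h => hℓN (Dvd.dvd.mul_right h p)
    exact Fermat.Agent.GJ.S37.HRel.reductionModL_esExpr A N ℓ hcomm hℓN' h σ
      (fun y => reductionModL_smul_of_frobenius_of_uniq h huniq
        (Fermat.Agent.GJ.S37.Frob.frobAut (ResidueField A) ℓ N)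
        (fun f => Fermat.Agent.GJ.S37.Frob.coe_frobAut_smul (ResidueField A) ℓ N f) hσ y) x

end Fermat.Agent.GJ.S37Uniq2
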