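import Fermat.Agent.RR.Riemann

/-!
# The envelope divisor of a finite-dimensional space of functions  (S37-PATH, leaf L1)

For a `K`-subspace `V ⊂ F` of a function field (prelude `Place` API), `IsEnv V E` says that `E` is
the least divisor with `V ≤ L(E)`; equivalently `E Q = - min_{v ∈ V ∖ 0} ord_Q v`.

* `IsEnv.*` : calculus of envelopes (attained minimum, monotonicity, products, translation by a
  principal divisor);
* `exists_isEnv` : a nonzero finite-dimensional `V` has an envelope (`HasPrincipalDivisors`);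
* `IsEnv.exists_ord_eq_of_finset` : over an infinite constant field there is ONE `v ∈ V` attaining
  the minimal order at all places of a given finite set;
* `envDiv V` : the chosen envelope, with the same API under `[FiniteDimensional K V] (hV : V ≠ ⊥)`.
-/

set_option autoImplicit false
set_option linter.unusedSectionVars false

open AlgebraicCurve

namespace Fermat.Agent.GJ.S37.EnvDiv

open Fermat.Agent.RRh45

variable {K F : Type*} [Field K] [Field F] [Algebra K F]

/-- `E` is the least divisor with `V ≤ L(E)`. -/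
def IsEnv (V : Submodule K F) (E : Divisor K F) : Prop :=
  ∀ D : Divisor K F, V ≤ riemannRochSpace D ↔ E ≤ D

namespace IsEnv

variable {V W U : Submodule K F} {E E' E'' : Divisor K F}

theorem le (h : IsEnv V E) : V ≤ riemannRochSpace E := (h E).mpr le_rfl

theorem unique (h : IsEnv V E) (h' : IsEnv V E') : E = E' :=
  le_antisymm ((h E').mp h'.le) ((h' E).mp h.le)

/-- `ord_Q v ≥ -E(Q)` for `v ∈ V ∖ 0`. -/
theorem neg_le_ord (h : IsEnv V E) {v : F} (hv : v ∈ V) (hv0 : v ≠ 0) (Q : Place K F) :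
    -(E Q) ≤ Q.ord v := by
  rcases (mem_riemannRochSpace_iff.mp (h.le hv)) Q with h0 | h0
  · exact absurd h0 hv0
  · exact h0

/-- The minimum is attained at every place. -/
theorem exists_ord_eq (h : IsEnv V E) (Q : Place K F) :
    ∃ v ∈ V, v ≠ 0 ∧ Q.ord v = -(E Q) := by
  classical
  by_contra hcon
  simp only [not_exists, not_and] at hcon
  have hle : V ≤ riemannRochSpace (E - Finsupp.single Q 1) := by
    intro v hv
    rw [mem_riemannRochSpace_iff]
    intro Q'
    by_cases hv0 : v = 0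
    · exact Or.inl hv0
    right
    have h1 := h.neg_le_ord hv hv0 Q'
    rw [Finsupp.sub_apply]
    by_cases hQ : Q' = Q
    · subst hQ
      have h2 := hcon v hv hv0
      rw [Finsupp.single_eq_same]
      omega
    · rw [Finsupp.single_apply, if_neg (fun h => hQ h.symm)]
      omega
  have h2 := (h _).mp hle
  have h3 := Finsupp.le_def.mp h2 Q
  rw [Finsupp.sub_apply, Finsupp.single_eq_same] at h3
  omega

/-- Monotonicity. -/
theorem mono (h : IsEnv V E) (h' : IsEnv W E') (hVW : V ≤ W) : E ≤ E' :=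
  (h E').mp (hVW.trans h'.le)

/-- `E(L(D)) ≤ D`. -/
theorem le_of_riemannRochSpace {D : Divisor K F} (h : IsEnv (riemannRochSpace D) E) : E ≤ D :=
  (h D).mp le_rfl

/-- `E(V) + E(W) ≤ E(U)` when `V · W ⊂ U`. -/
theorem add_le (h : IsEnv V E) (h' : IsEnv W E') (h'' : IsEnv U E'')
    (hmul : ∀ v ∈ V, ∀ w ∈ W, v * w ∈ U) : E + E' ≤ E'' := by
  rw [Finsupp.le_def]
  intro Q
  obtain ⟨v, hv, hv0, hvQ⟩ := h.exists_ord_eq Q
  obtain ⟨w, hw, hw0, hwQ⟩ := h'.exists_ord_eq Q
  have h1 := h''.neg_le_ord (hmul v hv w hw) (mul_ne_zero hv0 hw0) Q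
  rw [Q.ord_mul hv0 hw0, hvQ, hwQ] at h1
  rw [Finsupp.add_apply]
  omega

/-- Translation: `E(y V) = E(V) - div y`. -/
theorem mul_left (h : IsEnv V E) {y : F} (hy : y ≠ 0) {Ey : Divisor K F}
    (hEy : ∀ Q : Place K F, Ey Q = Q.ord y) :
    IsEnv (V.map (LinearMap.mulLeft K y)) (E - Ey) := by
  intro D
  rw [sub_le_iff_le_add, ← h (D + Ey)]
  constructor
  · intro hle v hv
    rw [Fermat.Agent.RR.mem_L_add_div_iff hy hEy]
    exact hle (Submodule.mem_map_of_mem (f := LinearMap.mulLeft K y) hv)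
  · rintro hle _ ⟨v, hv, rfl⟩
    have := hle hv
    rwa [Fermat.Agent.RR.mem_L_add_div_iff hy hEy] at this

/-- The proper subspace of `V` of elements NOT attaining the minimal order at `Q`. -/
theorem exists_notMem_ordGE (h : IsEnv V E) (Q : Place K F) :
    ∃ v ∈ V, v ∉ ordGE Q (-(E Q) + 1) := by
  obtain ⟨v, hv, hv0, hvQ⟩ := h.exists_ord_eq Q
  refine ⟨v, hv, fun hmem => ?_⟩
  rcases (mem_ordGE Q).mp hmem with h0 | h0
  · exact hv0 h0
  · omega

/-- **Generic element**: over an infinite constant field, one element of `V` attains the minimal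
order at all places of a finite set. -/
theorem exists_ord_eq_of_finset [Infinite K] (h : IsEnv V E) (hV : V ≠ ⊥)
    (S : Finset (Place K F)) :
    ∃ v ∈ V, v ≠ 0 ∧ ∀ Q ∈ S, Q.ord v = -(E Q) := by
  classical
  let s : Finset (Subspace K V) :=
    insert ⊥ (S.image fun Q => (ordGE Q (-(E Q) + 1)).comap V.subtype)
  have hs : (⊤ : Subspace K V) ∉ s := by
    intro hmem
    rcases Finset.mem_insert.mp hmem with h0 | h0
    · -- `⊤ = ⊥` in `V` means `V = ⊥`
      apply hV
      rw [eq_bot_iff]
      intro v hv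
      have : (⟨v, hv⟩ : V) ∈ (⊥ : Subspace K V) := by rw [← h0]; trivial
      have h1 : (⟨v, hv⟩ : V) = 0 := (Submodule.mem_bot K).mp this
      exact (Submodule.mem_bot K).mpr (congrArg Subtype.val h1)
    · obtain ⟨Q, -, hQ⟩ := Finset.mem_image.mp h0
      obtain ⟨v, hv, hvn⟩ := h.exists_notMem_ordGE Q
      apply hvn
      have : (⟨v, hv⟩ : V) ∈ (ordGE Q (-(E Q) + 1)).comap V.subtype := by rw [hQ]; trivial
      exact this
  have hne := Subspace.biUnion_ne_univ_of_top_notMem hs
  obtain ⟨x, hx⟩ : ∃ x : V, x ∉ ⋃ p ∈ s, (p : Set V) := by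
    by_contra hcon
    simp only [not_exists, not_not] at hcon
    exact hne (Set.eq_univ_of_forall hcon)
  simp only [Set.mem_iUnion, not_exists] at hx
  have hx0 : (x : F) ≠ 0 := by
    intro h0
    apply hx ⊥ (Finset.mem_insert_self _ _)
    have : x = 0 := Subtype.ext h0
    rw [this]
    exact Submodule.zero_mem _
  refine ⟨x, x.2, hx0, fun Q hQ => ?_⟩
  have h1 := h.neg_le_ord x.2 hx0 Q
  have h2 : (x : F) ∉ ordGE Q (-(E Q) + 1) := by
    intro hmem
    exact hx _ (Finset.mem_insert_of_mem (Finset.mem_image_of_mem _ hQ)) hmem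
  have h3 : ¬ (-(E Q) + 1 ≤ Q.ord (x : F)) := fun hle => h2 ((mem_ordGE Q).mpr (Or.inr hle))
  omega

end IsEnv

/-! ### Existence of the envelope -/

section Exists

variable [HasPrincipalDivisors K F]

open Classical in
/-- A chosen divisor of a function (`0` for `f = 0`). -/
noncomputable def dv (f : F) : Divisor K F :=
  if h : f = 0 then 0 else (HasPrincipalDivisors.exists_divisor (K := K) f h).choose

theorem dv_apply {f : F} (hf : f ≠ 0) (Q : Place K F) : dv (K := K) f Q = Q.ord f := by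
  unfold dv
  rw [dif_neg hf]
  exact (HasPrincipalDivisors.exists_divisor (K := K) f hf).choose_spec.1 Q

theorem degree_dv (f : F) : Divisor.degree (dv (K := K) f) = 0 := by
  unfold dv
  split_ifs with h
  · simp
  · exact (HasPrincipalDivisors.exists_divisor (K := K) f h).choose_spec.2

theorem mem_L_iff_neg_dv_le {f : F} (hf : f ≠ 0) {D : Divisor K F} :
    f ∈ riemannRochSpace D ↔ -dv (K := K) f ≤ D := by
  rw [mem_riemannRochSpace_iff, Finsupp.le_def]
  refine forall_congr' fun Q => ?_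
  rw [Finsupp.neg_apply, dv_apply hf]
  constructor
  · rintro (h | h)
    · exact absurd h hf
    · omega
  · intro h
    right
    omega

/-- A nonzero finite-dimensional space of functions has an envelope divisor. -/
theorem exists_isEnv (V : Submodule K F) [FiniteDimensional K V] (hV : V ≠ ⊥) :
    ∃ E : Divisor K F, IsEnv V E := by
  classical
  have hn : 0 < Module.finrank K V := by
    rw [Module.finrank_pos_iff_exists_ne_zero]
    obtain ⟨v, hv, hv0⟩ := Submodule.exists_mem_ne_zero_of_ne_bot hV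
    exact ⟨⟨v, hv⟩, fun h => hv0 (congrArg Subtype.val h)⟩
  let b := Module.finBasis K V
  let i0 : Fin (Module.finrank K V) := ⟨0, hn⟩
  have hb0 : ∀ i, ((b i : V) : F) ≠ 0 := fun i h =>
    b.ne_zero i (Subtype.ext h)
  have hspan : Submodule.span K (Set.range fun i => ((b i : V) : F)) = V := by
    have h1 : Submodule.map V.subtype (Submodule.span K (Set.range b)) = V := by
      rw [b.span_eq, Submodule.map_subtype_top]
    rw [Submodule.map_span, ← Set.range_comp] at h1
    exact h1
  refine ⟨Finset.univ.sup' ⟨i0, Finset.mem_univ _⟩ fun i => -dv (K := K) ((b i : V) : F), ?_⟩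
  intro D
  rw [Finset.sup'_le_iff]
  constructor
  · intro hle i _
    exact (mem_L_iff_neg_dv_le (hb0 i)).mp (hle (b i).2)
  · intro hall
    rw [← hspan, Submodule.span_le]
    rintro _ ⟨i, rfl⟩
    exact (mem_L_iff_neg_dv_le (hb0 i)).mpr (hall i (Finset.mem_univ _))

end Exists

/-! ### The chosen envelope `envDiv V` -/

open Classical in
/-- The envelope divisor of `V` (junk value `0` if there is none). -/
noncomputable def envDiv (V : Submodule K F) : Divisor K F :=
  if h : ∃ E : Divisor K F, IsEnv V E then h.choose else 0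

theorem IsEnv.envDiv_eq {V : Submodule K F} {E : Divisor K F} (h : IsEnv V E) : envDiv V = E := by
  have hex : ∃ E : Divisor K F, IsEnv V E := ⟨E, h⟩
  unfold envDiv
  rw [dif_pos hex]
  exact hex.choose_spec.unique h

section API

variable [HasPrincipalDivisors K F]
variable {V W U : Submodule K F}

theorem isEnv_envDiv (V : Submodule K F) [FiniteDimensional K V] (hV : V ≠ ⊥) :
    IsEnv V (envDiv V) := by
  obtain ⟨E, hE⟩ := exists_isEnv V hV
  rw [hE.envDiv_eq]
  exact hE

theorem le_riemannRochSpace_iff [FiniteDimensional K V] (hV : V ≠ ⊥) {D : Divisor K F} :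
    V ≤ riemannRochSpace D ↔ envDiv V ≤ D :=
  isEnv_envDiv V hV D

theorem le_riemannRochSpace_envDiv [FiniteDimensional K V] (hV : V ≠ ⊥) :
    V ≤ riemannRochSpace (envDiv V) :=
  (isEnv_envDiv V hV).le

theorem neg_envDiv_le_ord [FiniteDimensional K V] {v : F} (hv : v ∈ V) (hv0 : v ≠ 0)
    (Q : Place K F) : -(envDiv V Q) ≤ Q.ord v := by
  have hV : V ≠ ⊥ := fun h => hv0 (by rw [h] at hv; exact (Submodule.mem_bot K).mp hv)
  exact (isEnv_envDiv V hV).neg_le_ord hv hv0 Q

theorem exists_ord_eq [FiniteDimensional K V] (hV : V ≠ ⊥) (Q : Place K F) :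
    ∃ v ∈ V, v ≠ 0 ∧ Q.ord v = -(envDiv V Q) :=
  (isEnv_envDiv V hV).exists_ord_eq Q

/-- **(L1)** generic element: one `v ∈ V` attains the minimal order at all `Q ∈ S`. -/
theorem exists_ord_eq_of_finset [Infinite K] [FiniteDimensional K V] (hV : V ≠ ⊥)
    (S : Finset (Place K F)) :
    ∃ v ∈ V, v ≠ 0 ∧ ∀ Q ∈ S, Q.ord v = -(envDiv V Q) :=
  (isEnv_envDiv V hV).exists_ord_eq_of_finset hV S

theorem envDiv_mono [FiniteDimensional K V] [FiniteDimensional K W] (hV : V ≠ ⊥) (h : V ≤ W) :
    envDiv V ≤ envDiv W := by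
  have hW : W ≠ ⊥ := fun hW => hV (eq_bot_iff.mpr (hW ▸ h))
  exact (isEnv_envDiv V hV).mono (isEnv_envDiv W hW) h

theorem envDiv_riemannRochSpace_le {D : Divisor K F} [FiniteDimensional K (riemannRochSpace D)]
    (hD : riemannRochSpace D ≠ ⊥) : envDiv (riemannRochSpace D) ≤ D :=
  (isEnv_envDiv _ hD).le_of_riemannRochSpace

theorem envDiv_add_le [FiniteDimensional K V] [FiniteDimensional K W] [FiniteDimensional K U]
    (hV : V ≠ ⊥) (hW : W ≠ ⊥) (hmul : ∀ v ∈ V, ∀ w ∈ W, v * w ∈ U) :
    envDiv V + envDiv W ≤ envDiv U := by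
  have hU : U ≠ ⊥ := by
    obtain ⟨v, hv, hv0⟩ := Submodule.exists_mem_ne_zero_of_ne_bot hV
    obtain ⟨w, hw, hw0⟩ := Submodule.exists_mem_ne_zero_of_ne_bot hW
    intro hU
    have := hmul v hv w hw
    rw [hU] at this
    exact mul_ne_zero hv0 hw0 ((Submodule.mem_bot K).mp this)
  exact (isEnv_envDiv V hV).add_le (isEnv_envDiv W hW) (isEnv_envDiv U hU) hmul

theorem envDiv_mul_left [FiniteDimensional K V] (hV : V ≠ ⊥) {y : F} (hy : y ≠ 0)
    {Ey : Divisor K F} (hEy : ∀ Q : Place K F, Ey Q = Q.ord y) :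
    envDiv (V.map (LinearMap.mulLeft K y)) = envDiv V - Ey :=
  ((isEnv_envDiv V hV).mul_left hy hEy).envDiv_eq

/-- If `1 ∈ V` the envelope is effective. -/
theorem envDiv_nonneg [FiniteDimensional K V] (h1 : (1 : F) ∈ V) : 0 ≤ envDiv V := by
  rw [Finsupp.le_def]
  intro Q
  have := neg_envDiv_le_ord h1 one_ne_zero Q
  rw [Q.ord_one] at this
  simpa using this

/-- If `1 ∈ V` and `K` is infinite, a generic element of `V` has pole divisor exactly `envDiv V`. -/
theorem exists_poleDiv_eq [Infinite K] [FiniteDimensional K V] (h1 : (1 : F) ∈ V) :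
    ∃ v ∈ V, v ≠ 0 ∧ ∀ Q : Place K F, max (-(Q.ord v)) 0 = envDiv V Q := by
  have hV : V ≠ ⊥ := fun h => one_ne_zero (by rw [h] at h1; exact (Submodule.mem_bot K).mp h1)
  obtain ⟨v, hv, hv0, hvS⟩ := exists_ord_eq_of_finset hV (envDiv V).support
  refine ⟨v, hv, hv0, fun Q => ?_⟩
  have hnn := Finsupp.le_def.mp (envDiv_nonneg h1) Q
  simp only [Finsupp.coe_zero, Pi.zero_apply] at hnn
  by_cases hQ : Q ∈ (envDiv V).support
  · rw [hvS Q hQ, neg_neg]
    exact max_eq_left hnn
  · have h0 : envDiv V Q = 0 := Finsupp.notMem_support_iff.mp hQ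
    have := neg_envDiv_le_ord hv hv0 Q
    rw [h0] at this ⊢
    exact max_eq_right (by omega)

end API

end Fermat.Agent.GJ.S37.EnvDiv
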