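/-
GATE-J / S37 path (helper48): `LSpaceHyp` from EXACTLY the primitive hypothesis list of J1's
Layer B (`KummerRedData.kummer_redData_final`, helper30), so that the S37 level package is
instantiated at `R := Val.redDataBar M A` by the same terms as `K18Modular.k18s_aux`.

Inputs: `K` alg. closed of char 0, `k` alg. closed of char `p`, `x₀` a generator of `F / K`,
`R : RedData K F k Ft`, `hunram`, a Gauss chart `t` with degree preservation `hdeg`, tame branch
data `β, hβ, hbr` (branch values `0, β, ∞`), an embedding `ι : Ft → k((q))` with `p ∤ ord (ι t~)`.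

Output: `∃ c, LSpaceHyp R (gLat K t) c` — no Place-API instance is assumed (all derived from
`IsGen`), none is needed by the structure `LSpaceHyp` itself.
-/
import Mathlib
import Fermat.Agent.GJ.S37.LSpaceHypOfChart
import Fermat.Agent.GJ.J1.GenusRedData
import Fermat.Agent.GJ.J1.RiemannFibres
import Fermat.Agent.GJ.J1.ResDataOfRedData
import Fermat.Agent.GJ.J1.Select

set_option autoImplicit false
set_option linter.unusedSectionVars false

noncomputable section

open AlgebraicCurve IntermediateField Module Polynomial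

namespace Fermat.Agent.GJ.S37LSpaceInst

open Fermat.Agent.S24 Fermat.Agent.RRh45 Fermat.Agent.GJ.J1 Fermat.Agent.GJ.J1.AbsCore
  Fermat.Agent.GJ.J1.G1 Fermat.Agent.GJ.S37LSpace

variable {K F k Ft : Type*} [Field K] [Field F] [Algebra K F] [Field k] [Field Ft] [Algebra k Ft]
variable [IsAlgClosed K] [CharZero K] [IsAlgClosed k] (p : ℕ) [Fact p.Prime] [CharP k p]
  (x₀ : F) [IsGen K x₀]

include x₀ in
/-- **`LSpaceHyp` from the primitive hypotheses of Layer B.** -/
theorem lSpaceHyp_of_primitive (R : RedData K F k Ft)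
    (hunram : ∀ x : F, x ≠ 0 → ∃ c : K, c ≠ 0 ∧
      x / algebraMap K F c ∈ R.Rw ∧ (x / algebraMap K F c)⁻¹ ∈ R.Rw)
    {t : F} (ht : t ∈ R.Rw) (htr : Transcendental k (R.red ⟨t, ht⟩))
    (hdeg : finrank K⟮t⟯ F ≤ finrank k⟮R.red ⟨t, ht⟩⟯ Ft)
    (β : R.A) (hβ : R.res β ≠ 0)
    (hbr : Fermat.Agent.GJ.J1.DiffAdapter.PlaceBranch K t (X * (X - C (β : K))))
    (ι : Ft →ₐ[k] LaurentSeries k) (hord : ¬ (p : ℤ) ∣ (ι (R.red ⟨t, ht⟩)).order) :
    ∃ c : ℤ, LSpaceHyp R (gLat K t : ℤ) c := by
  have hgc : R.IsGaussChart t := ⟨ht, htr⟩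
  have htK : Transcendental K t := IntRed.transcendental_of_isGaussChart hgc
  have hti : t⁻¹ ∈ R.Rw := (Select.isGaussChart_inv hgc).fst
  have hfdK : FiniteDimensional K⟮t⟯ F := (IsGen.of_transcendental x₀ htK).finite
  obtain ⟨hfdk, -⟩ := Fermat.Agent.GJ.S37.ResDeg.RedData.finrank_red_le R ht htr
  -- separability of both fibres
  have hsepK : Algebra.IsSeparable K⟮t⟯ F := isSeparable_adjoin_of_charZero t
  have hexp : ExpChar k p := ExpChar.prime Fact.out
  have hperf : PerfectRing k p := PerfectField.toPerfectRing p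
  have hsepk : Algebra.IsSeparable k⟮R.red ⟨t, ht⟩⟯ Ft :=
    isSeparable_adjoin_of_embedding p ι (R.red ⟨t, ht⟩) hord
  -- valuation-side inputs and the genus inequality
  have hR : ResData R.A R.Rw R.res R.red := ResData.ofRedData R hunram
  have horth : Orth R.A R.Rw := R.orth_of_finrank_le t ht htr hdeg
  have hG : R.RedRegFin t := R.redRegFin_of_finrank_le t ht htr hdeg
  have hGi : R.RedRegFin t⁻¹ := R.redRegFin_inv_of_finrank_le t ht hti htr hdeg
  have hgle : gLat K t ≤ gLat k (R.red ⟨t, ht⟩) :=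
    R.gLat_le_of_beta hR horth ht htr hG hGi β hβ hbr
  -- the Place API on both fibres
  have hgenk : IsGen k (R.red ⟨t, ht⟩) := ⟨htr, hfdk⟩
  have i1 : FiniteResidues K F := Fermat.Agent.GJ.FF.finiteResidues (K := K) x₀
  have i2 : HasPrincipalDivisors K F :=
    Fermat.Agent.GJ.FF.PrincipalOf.hasPrincipalDivisors_gen (K := K) x₀
  have i3 : Nonempty (Place K F) := Fermat.Agent.GJ.FF.nonempty_place (K := K) x₀
  have i4 : FiniteResidues k Ft := Fermat.Agent.GJ.FF.finiteResidues (K := k) (R.red ⟨t, ht⟩)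
  have i5 : HasPrincipalDivisors k Ft :=
    Fermat.Agent.GJ.FF.PrincipalOf.hasPrincipalDivisors_gen (K := k) (R.red ⟨t, ht⟩)
  have i6 : Nonempty (Place k Ft) := Fermat.Agent.GJ.FF.nonempty_place (K := k) (R.red ⟨t, ht⟩)
  exact lSpaceHyp_of_chart R ht hti htr hdeg hgle

end Fermat.Agent.GJ.S37LSpaceInst

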