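/-
GATE-J / S37 path, middle layer (helper37).

From an abstract "specialisation" `sp : J →+ Jt` into ANY abelian group `Jt` carrying two additive
endomorphisms `Fr`, `Ve` with `Ve ∘ Fr = ℓ`, such that
* `sp (σ x) = Fr (sp x)` for every Frobenius lift `σ` at `A`,
* `sp (i x) = sp x` for `i` in the inertia group of `A`,
* `sp (T_ℓ x) = Fr (sp x) + Ve (sp x)`   (Eichler–Shimura congruence; ONLY the operator `T_ℓ`),
* `sp` is injective on `p`-power torsion   (S18),
we construct a kernel of reduction in the sense of `S37Pack.IsReductionKernel`.  No Hecke action on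
`Jt` is needed, and `ker sp` need not be Hecke stable: `J1` is the subgroup generated by
`i x - x` and `σ² x - T_ℓ σ x + ℓ x`, which is automatically Hecke stable because Hecke commutes
with Galois.
-/
import Fermat.Agent.GJ.S37Pack

set_option autoImplicit false

noncomputable section

namespace Fermat.Agent.GJ.S37Mid

open ModularCurve Fermat.Agent.GJ.S37Pack

section General

variable {K L : Type*} [Field K] [Field L] [Algebra K L]

/-- Conjugating a Frobenius lift at `A` by an element of the decomposition group gives a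
Frobenius lift at `A`. -/
theorem isFrobeniusAt_conj {A : ValuationSubring L} {q : ℕ} {σ τ : L ≃ₐ[K] L}
    (hσ : A.IsFrobeniusAt σ q) (hτ : τ ∈ A.decompositionSubgroup K) :
    A.IsFrobeniusAt (τ * σ * τ⁻¹) q := by
  obtain ⟨hσD, hσx⟩ := hσ
  have hmem : τ * σ * τ⁻¹ ∈ A.decompositionSubgroup K :=
    (A.decompositionSubgroup K).mul_mem ((A.decompositionSubgroup K).mul_mem hτ hσD)
      ((A.decompositionSubgroup K).inv_mem hτ)
  refine ⟨hmem, fun x => ?_⟩
  have : (⟨τ * σ * τ⁻¹, hmem⟩ : A.decompositionSubgroup K)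
      = ⟨τ, hτ⟩ * ⟨σ, hσD⟩ * (⟨τ, hτ⟩ : A.decompositionSubgroup K)⁻¹ := rfl
  rw [this, mul_smul, mul_smul, hσx, smul_pow', smul_inv_smul]

theorem normal_inertiaSubgroup (A : ValuationSubring L) : (A.inertiaSubgroup K).Normal := by
  unfold ValuationSubring.inertiaSubgroup
  exact MonoidHom.normal_ker _

/-- The inertia group (as a subgroup of the whole Galois group) is normalised by the
decomposition group. -/
theorem conj_mem_inertiaSubgroupIn {A : ValuationSubring L} {i τ : L ≃ₐ[K] L}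
    (hi : i ∈ A.inertiaSubgroupIn K) (hτ : τ ∈ A.decompositionSubgroup K) :
    τ * i * τ⁻¹ ∈ A.inertiaSubgroupIn K := by
  unfold ValuationSubring.inertiaSubgroupIn at hi ⊢
  rw [Subgroup.mem_map] at hi ⊢
  obtain ⟨i', hi', hii⟩ := hi
  have hn : (A.inertiaSubgroup K).Normal := normal_inertiaSubgroup A
  have h1 := hn.conj_mem i' hi' ⟨τ, hτ⟩
  refine ⟨_, h1, ?_⟩
  rw [map_mul, map_mul, map_inv, hii]
  rfl

variable {p : ℕ} {J : Type} [AddCommGroup J] [Module HeckeAlg J]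
  [DistribMulAction (L ≃ₐ[K] L) J] [SMulCommClass (L ≃ₐ[K] L) HeckeAlg J]

theorem hecke_smul_gal_smul (t : HeckeAlg) (σ : L ≃ₐ[K] L) (x : J) :
    t • σ • x = σ • t • x := (smul_comm σ t x).symm

/-- The Eichler–Shimura expression `σ² x - T_ℓ σ x + ℓ x`. -/
def esExpr (ℓ : ℕ) (hℓ : ℓ.Prime) (σ : L ≃ₐ[K] L) (x : J) : J :=
  σ • σ • x - heckeGen ⟨ℓ, hℓ⟩ • (σ • x) + ℓ • x

theorem smul_esExpr (ℓ : ℕ) (hℓ : ℓ.Prime) (σ : L ≃ₐ[K] L) (t : HeckeAlg) (x : J) :
    t • esExpr ℓ hℓ σ x = esExpr ℓ hℓ σ (t • x) := by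
  unfold esExpr
  rw [smul_add, smul_sub, hecke_smul_gal_smul t σ (σ • x), hecke_smul_gal_smul t σ x,
    smul_comm t (heckeGen ⟨ℓ, hℓ⟩) (σ • x), hecke_smul_gal_smul t σ x, smul_comm t ℓ x]

theorem gal_smul_esExpr (ℓ : ℕ) (hℓ : ℓ.Prime) (σ τ : L ≃ₐ[K] L) (x : J) :
    τ • esExpr ℓ hℓ σ x = esExpr ℓ hℓ (τ * σ * τ⁻¹) (τ • x) := by
  unfold esExpr
  have h1 : (τ * σ * τ⁻¹) • τ • x = τ • σ • x := by
    rw [← mul_smul, inv_mul_cancel_right, mul_smul]
  have h2 : (τ * σ * τ⁻¹) • τ • σ • x = τ • σ • σ • x := by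
    rw [← mul_smul, inv_mul_cancel_right, mul_smul]
  rw [h1, h2, smul_add, smul_sub, smul_comm τ (heckeGen ⟨ℓ, hℓ⟩) (σ • x), smul_comm τ ℓ x]

/-- The generating set of the kernel of reduction. -/
def genSet (A : ValuationSubring L) (ℓ : ℕ) (hℓ : ℓ.Prime) : Set J :=
  {z | (∃ i ∈ A.inertiaSubgroupIn K, ∃ x : J, z = i • x - x) ∨
    (∃ σ : L ≃ₐ[K] L, A.IsFrobeniusAt σ ℓ ∧ ∃ x : J, z = esExpr ℓ hℓ σ x)}

/-- The candidate kernel of reduction: the Hecke submodule spanned by `genSet`. -/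
def kernel (A : ValuationSubring L) (ℓ : ℕ) (hℓ : ℓ.Prime) : Submodule HeckeAlg J :=
  Submodule.span HeckeAlg (genSet (K := K) (J := J) A ℓ hℓ)

theorem smul_mem_genSet {A : ValuationSubring L} {ℓ : ℕ} {hℓ : ℓ.Prime} (t : HeckeAlg) {z : J}
    (hz : z ∈ genSet (K := K) A ℓ hℓ) : t • z ∈ genSet (K := K) A ℓ hℓ := by
  rcases hz with ⟨i, hi, x, rfl⟩ | ⟨σ, hσ, x, rfl⟩
  · exact Or.inl ⟨i, hi, t • x, by rw [smul_sub, hecke_smul_gal_smul t i x]⟩
  · exact Or.inr ⟨σ, hσ, t • x, smul_esExpr ℓ hℓ σ t x⟩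

/-- Any additive map killing `genSet` kills `kernel`. -/
theorem map_kernel_eq_zero {A : ValuationSubring L} {ℓ : ℕ} {hℓ : ℓ.Prime} {Jt : Type*}
    [AddCommGroup Jt] (sp : J →+ Jt) (h : ∀ z ∈ genSet (K := K) (J := J) A ℓ hℓ, sp z = 0)
    {z : J} (hz : z ∈ kernel (K := K) A ℓ hℓ) : sp z = 0 := by
  have key : ∀ t : HeckeAlg, sp (t • z) = 0 := by
    unfold kernel at hz
    induction hz using Submodule.span_induction with
    | mem z hz => exact fun t => h _ (smul_mem_genSet (K := K) t hz)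
    | zero => intro t; rw [smul_zero, map_zero]
    | add a b _ _ ha hb => intro t; rw [smul_add, map_add, ha t, hb t, add_zero]
    | smul s a _ ih => intro t; rw [smul_smul]; exact ih (t * s)
  simpa using key 1

/-- `kernel` is stable under the decomposition group. -/
theorem gal_smul_mem_kernel {A : ValuationSubring L} {ℓ : ℕ} {hℓ : ℓ.Prime} {τ : L ≃ₐ[K] L}
    (hτ : τ ∈ A.decompositionSubgroup K) {z : J} (hz : z ∈ kernel (K := K) A ℓ hℓ) :
    τ • z ∈ kernel (K := K) A ℓ hℓ := by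
  unfold kernel at hz ⊢
  induction hz using Submodule.span_induction with
  | mem z hz =>
    refine Submodule.subset_span ?_
    rcases hz with ⟨i, hi, x, rfl⟩ | ⟨σ, hσ, x, rfl⟩
    · refine Or.inl ⟨τ * i * τ⁻¹, conj_mem_inertiaSubgroupIn hi hτ, τ • x, ?_⟩
      rw [smul_sub, ← mul_smul (τ * i * τ⁻¹) τ, inv_mul_cancel_right, mul_smul]
    · exact Or.inr ⟨τ * σ * τ⁻¹, isFrobeniusAt_conj hσ hτ, τ • x, gal_smul_esExpr ℓ hℓ σ τ x⟩
  | zero => rw [smul_zero]; exact Submodule.zero_mem _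
  | add a b _ _ ha hb => rw [smul_add]; exact Submodule.add_mem _ ha hb
  | smul s a _ ih => rw [smul_comm τ s a]; exact Submodule.smul_mem _ s ih

/-- **Middle layer of S37.**  An abstract specialisation map with Frobenius / Verschiebung on the
target produces a kernel of reduction. -/
theorem isReductionKernel_of_sp {A : ValuationSubring L} {ℓ : ℕ} (hℓ : ℓ.Prime) {Jt : Type*}
    [AddCommGroup Jt] (sp : J →+ Jt) (Fr Ve : Jt →+ Jt)
    (hVF : ∀ y : Jt, Ve (Fr y) = ℓ • y)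
    (hFr : ∀ σ : L ≃ₐ[K] L, A.IsFrobeniusAt σ ℓ → ∀ x : J, sp (σ • x) = Fr (sp x))
    (hI : ∀ i ∈ A.inertiaSubgroupIn K, ∀ x : J, sp (i • x) = sp x)
    (hT : ∀ x : J, sp (heckeGen ⟨ℓ, hℓ⟩ • x) = Fr (sp x) + Ve (sp x))
    (hinj : ∀ x : J, (∃ n : ℕ, p ^ n • x = 0) → sp x = 0 → x = 0) :
    IsReductionKernel (K := K) p J A ℓ hℓ (kernel (K := K) (J := J) A ℓ hℓ) := by
  have hgen : ∀ z ∈ genSet (K := K) (J := J) A ℓ hℓ, sp z = 0 := by
    rintro z (⟨i, hi, x, rfl⟩ | ⟨σ, hσ, x, rfl⟩)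
    · rw [map_sub, hI i hi x, sub_self]
    · unfold esExpr
      rw [map_add, map_sub, hFr σ hσ, hFr σ hσ, hT, hFr σ hσ, map_nsmul, hVF]
      abel
  refine ⟨fun i hi x => ?_, fun σ hσ x hx => ?_, fun x hx htors => ?_, fun σ hσ x => ?_⟩
  · exact Submodule.subset_span (Or.inl ⟨i, hi, x, rfl⟩)
  · exact gal_smul_mem_kernel hσ.mem_decompositionSubgroup hx
  · exact hinj x htors (map_kernel_eq_zero sp hgen hx)
  · exact Submodule.subset_span (Or.inr ⟨σ, hσ, x, rfl⟩)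

end General

end Fermat.Agent.GJ.S37Mid

end
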