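/-
GATE-J / S37-PATH leaf (c) (helper18), Mathlib-only: base change of the norm.

For a square of fields `F ⊂ F'`, `F ⊂ F₁`, `F', F₁ ⊂ E` with `[F' : F]` coprime to `[F₁ : F]` and
`[E : F'] = [F₁ : F]`, a basis of `F₁ / F` stays a basis of `E / F'`; hence
`Nm_{E/F'} (g) = Nm_{F₁/F} (g)` for `g ∈ F₁`.
-/
import Mathlib

set_option autoImplicit false

namespace Fermat.Agent.GJ.S37NormBC

open Module

section Transport

variable {F F' F₁ E : Type*} [Field F] [Field F'] [Field F₁] [Field E]
  [Algebra F F₁] [Algebra F' E]

/-- the norm commutes with a morphism of extensions which transports a basis to a basis -/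
theorem norm_eq_of_basis (π : F →+* F') (π₁ : F₁ →+* E)
    (hsq : ∀ x : F, π₁ (algebraMap F F₁ x) = algebraMap F' E (π x))
    {ι : Type*} [Fintype ι] [DecidableEq ι] (b : Basis ι F F₁) (b' : Basis ι F' E)
    (hb : ∀ i, b' i = π₁ (b i)) (g : F₁) :
    Algebra.norm F' (π₁ g) = π (Algebra.norm F g) := by
  rw [Algebra.norm_eq_matrix_det b', Algebra.norm_eq_matrix_det b, RingHom.map_det]
  congr 1
  ext i j
  rw [RingHom.mapMatrix_apply, Matrix.map_apply, Algebra.leftMulMatrix_eq_repr_mul,
    Algebra.leftMulMatrix_eq_repr_mul]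
  -- expand `g * b j` in the basis `b` and transport
  have hexp : π₁ g * b' j = ∑ l, π (b.repr (g * b j) l) • b' l := by
    rw [hb j, ← map_mul]
    conv_lhs => rw [← b.sum_repr (g * b j)]
    rw [map_sum]
    refine Finset.sum_congr rfl fun l _ => ?_
    rw [Algebra.smul_def, map_mul, hsq, hb l, Algebra.smul_def]
  rw [hexp, b'.repr_sum_self]

end Transport

section Coprime

variable {F F' F₁ E : Type*} [Field F] [Field F'] [Field F₁] [Field E]
  [Algebra F F'] [Algebra F F₁] [Algebra F' E] [Algebra F₁ E] [Algebra F E]
  [IsScalarTower F F' E] [IsScalarTower F F₁ E]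

/-- coprime degrees: an `F`-independent family of `F₁` stays `F'`-independent in `E` -/
theorem linearIndependent_of_coprime (hcop : (finrank F F').Coprime (finrank F F₁))
    {ι : Type*} {b : ι → F₁} (hb : LinearIndependent F b) :
    LinearIndependent F' (fun i => algebraMap F₁ E (b i)) := by
  set A : IntermediateField F E := (IsScalarTower.toAlgHom F F' E).fieldRange with hA
  have hfr : finrank F A = finrank F F' :=
    ((AlgEquiv.ofInjectiveField (IsScalarTower.toAlgHom F F' E)).toLinearEquiv.finrank_eq).symm
  have H : A.LinearDisjoint F₁ :=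
    IntermediateField.LinearDisjoint.of_finrank_coprime (by rwa [hfr])
  have h1 : LinearIndependent A (algebraMap F₁ E ∘ b) := H.linearIndependent_right' hb
  rw [linearIndependent_iff'] at h1 ⊢
  intro s c hc i hi
  have hmem : ∀ x : F', algebraMap F' E x ∈ A := fun x => ⟨x, rfl⟩
  have h2 := h1 s (fun j => (⟨algebraMap F' E (c j), hmem (c j)⟩ : A)) (by
    rw [← hc]
    refine Finset.sum_congr rfl fun j _ => ?_
    rw [Algebra.smul_def, Algebra.smul_def]
    rfl) i hi
  have h3 : algebraMap F' E (c i) = 0 := congrArg Subtype.val h2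
  exact (map_eq_zero_iff _ (algebraMap F' E).injective).mp h3

/-- coprime degrees + equal relative degrees: a basis of `F₁ / F` gives a basis of `E / F'` -/
theorem exists_basis_of_coprime [FiniteDimensional F F₁]
    (hcop : (finrank F F').Coprime (finrank F F₁)) (hn : finrank F' E = finrank F F₁)
    {ι : Type*} [Fintype ι] (b : Basis ι F F₁) :
    ∃ b' : Basis ι F' E, ∀ i, b' i = algebraMap F₁ E (b i) := by
  have hli := linearIndependent_of_coprime (F' := F') (E := E) hcop b.linearIndependent
  have hcard : Fintype.card ι = finrank F' E := by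
    rw [hn, finrank_eq_card_basis b]
  have hne : Nonempty ι := by
    by_contra hcon
    rw [not_nonempty_iff] at hcon
    have : finrank F F₁ = 0 := by rw [finrank_eq_card_basis b]; simp
    have hpos : 0 < finrank F F₁ := finrank_pos
    omega
  have : FiniteDimensional F' E := by
    apply Module.finite_of_finrank_pos
    rw [hn]
    exact finrank_pos
  refine ⟨basisOfLinearIndependentOfCardEqFinrank hli hcard, fun i => ?_⟩
  simp [coe_basisOfLinearIndependentOfCardEqFinrank]

/-- **norm base change** for coprime degrees -/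
theorem norm_algebraMap_of_coprime [FiniteDimensional F F₁]
    (hcop : (finrank F F').Coprime (finrank F F₁)) (hn : finrank F' E = finrank F F₁) (g : F₁) :
    Algebra.norm F' (algebraMap F₁ E g) = algebraMap F F' (Algebra.norm F g) := by
  classical
  let b := Module.finBasis F F₁
  obtain ⟨b', hb'⟩ := exists_basis_of_coprime (F' := F') (E := E) hcop hn b
  refine norm_eq_of_basis (algebraMap F F') (algebraMap F₁ E) (fun x => ?_) b b' hb' g
  rw [← IsScalarTower.algebraMap_apply F F₁ E, ← IsScalarTower.algebraMap_apply F F' E]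

end Coprime

end Fermat.Agent.GJ.S37NormBC
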