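import Mathlib
import Fermat.Prelude.Def_ModularCurve_ArithmeticGalois
import Fermat.Agent.GJ.S37.PushPull
import Fermat.Agent.GJ.S37.PullbackEquiv
import Fermat.Agent.GJ.HInputs.Relative
import Fermat.Agent.GJ.J1.DescDegree
import Fermat.Agent.RR.ModularBar

/-!
# The pull-back `J₀(N) → J₀(N')` for `N ∣ N'`  (S37-PATH, aux level, (P1) + (P2))

`F_N = modularFunctionFieldBar N ⊂ F_{N'} = modularFunctionFieldBar N'` inside `ℚ̄((q))`.
* `algebraOfDvd h` : the `F_N`-algebra structure on `F_{N'}` (inclusion), with the prelude API
  facts (`isScalarTower`, `finiteDimensional`, `isIntegral`, `fundamentalIdentity`,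
  `pushforwardNormFormula`) and `coe_algebraMap`;
* `pull h : JZero N →+ JZero N'` := prelude `Pic0.pullbackHom` along it;
* `pull_smul` (P1) : `pull h (σ • x) = σ • pull h x` for `σ ∈ Gal(ℚ̄/ℚ)`;
* `pull_eq_zero` (P2) : `pull h x = 0 → [F_{N'} : F_N] • x = 0`, with
  `[F_{N'} : F_N] = relfinrank F_N F_{N'}` (computed by helper40's `relfinrank_lcm_prime`).

WARNING for users: never prove `((algebraMap F_N F_N' x : F_N') : ℚ̄((q))) = x` by `rfl` at the
concrete modular level: the kernel then compares `modularFunctionFieldBar N` with
`modularFunctionFieldBar N'` and runs out of time/memory.  Use `coe_algebraMap`.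
-/

set_option autoImplicit false
set_option linter.style.haveILetI false

noncomputable section

open AlgebraicCurve ModularCurve IntermediateField

namespace Fermat.Agent.GJ.S37PullModular

open Fermat.Agent.GJ.J1.Desc Fermat.Agent.S24

variable {N N' : ℕ} [NeZero N] [NeZero N']

attribute [local instance] Fermat.Agent.RR.ModularBar.hasPrincipalDivisors

/-- the inclusion `F_N ⊂ F_{N'}` as an algebra structure -/
@[reducible] def algebraOfDvd (h : N ∣ N') :
    Algebra (modularFunctionFieldBar N) (modularFunctionFieldBar N') :=
  (inclusion (fieldL_le (L := Kbar) h)).toRingHom.toAlgebra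

theorem isScalarTower (h : N ∣ N') :
    letI := algebraOfDvd h
    IsScalarTower Kbar (modularFunctionFieldBar N) (modularFunctionFieldBar N') :=
  letI := algebraOfDvd h
  IsScalarTower.of_algebraMap_eq fun _ => rfl

theorem finrank_eq (h : N ∣ N') :
    letI := algebraOfDvd h
    Module.finrank (modularFunctionFieldBar N) (modularFunctionFieldBar N')
      = relfinrank (modularFunctionFieldBar N) (modularFunctionFieldBar N') :=
  finrank_inclusion_eq_relfinrank (fieldL_le (L := Kbar) h)

theorem finrank_pos (h : N ∣ N') :
    letI := algebraOfDvd h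
    0 < Module.finrank (modularFunctionFieldBar N) (modularFunctionFieldBar N') := by
  letI := algebraOfDvd h
  rw [finrank_eq h]
  have h1 := dedekindPsi_mul_relfinrank (N := N) (N' := N') h
  have h2 := dedekindPsi_pos N'
  rcases Nat.eq_zero_or_pos
    (relfinrank (modularFunctionFieldBar N) (modularFunctionFieldBar N')) with h0 | h0
  · rw [h0, mul_zero] at h1
    omega
  · exact h0

theorem finiteDimensional (h : N ∣ N') :
    letI := algebraOfDvd h
    FiniteDimensional (modularFunctionFieldBar N) (modularFunctionFieldBar N') :=
  letI := algebraOfDvd h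
  Module.finite_of_finrank_pos (finrank_pos h)

theorem isIntegral (h : N ∣ N') :
    letI := algebraOfDvd h
    Algebra.IsIntegral (modularFunctionFieldBar N) (modularFunctionFieldBar N') :=
  letI := algebraOfDvd h
  haveI := finiteDimensional h
  Algebra.IsIntegral.of_finite _ _

theorem fundamentalIdentity (h : N ∣ N') :
    letI := algebraOfDvd h
    haveI := isScalarTower h
    haveI := isIntegral h
    FundamentalIdentity Kbar (modularFunctionFieldBar N) (modularFunctionFieldBar N') := by
  letI := algebraOfDvd h
  haveI := isScalarTower h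
  haveI := finiteDimensional h
  haveI := Fermat.Agent.RR.ModularBar.hasPrincipalDivisors N'
  exact Fermat.Agent.GJ.HInputs.fundamentalIdentity
    (Fermat.Agent.RR.ModularBar.deg_eq_one N) (Fermat.Agent.RR.ModularBar.deg_eq_one N')

theorem pushforwardNormFormula (h : N ∣ N') :
    letI := algebraOfDvd h
    haveI := isScalarTower h
    haveI := finiteDimensional h
    Divisor.PushforwardNormFormula Kbar (modularFunctionFieldBar N)
      (modularFunctionFieldBar N') := by
  letI := algebraOfDvd h
  haveI := isScalarTower h
  haveI := finiteDimensional h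
  haveI := Fermat.Agent.RR.ModularBar.hasPrincipalDivisors N'
  exact Fermat.Agent.GJ.HInputs.pushforwardNormFormula
    (Fermat.Agent.RR.ModularBar.deg_eq_one N) (Fermat.Agent.RR.ModularBar.deg_eq_one N')

/-- **the pull-back of divisor classes** `J₀(N) → J₀(N')` along `F_N ⊂ F_{N'}` -/
def pull (h : N ∣ N') : JZero N →+ JZero N' :=
  letI := algebraOfDvd h
  haveI := isScalarTower h
  haveI := isIntegral h
  haveI := Fermat.Agent.RR.ModularBar.hasPrincipalDivisors N'
  haveI := fundamentalIdentity h
  Pic0.pullbackHom (modularFunctionFieldBar N')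

theorem coe_algebraMap (h : N ∣ N') (x : modularFunctionFieldBar N) :
    letI := algebraOfDvd h
    ((algebraMap (modularFunctionFieldBar N) (modularFunctionFieldBar N') x :
      modularFunctionFieldBar N') : LaurentSeries Kbar) = (x : LaurentSeries Kbar) :=
  IntermediateField.coe_inclusion (fieldL_le (L := Kbar) h) x

/-- the two arithmetic Galois actions are intertwined by the inclusion -/
theorem intertwines (h : N ∣ N') (σ : Kbar ≃ₐ[ℚ] Kbar) :
    letI := algebraOfDvd h
    haveI := isScalarTower h
    haveI := isIntegral h
    Fermat.Agent.GJ.S37PullbackEquiv.Intertwines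
      (arithmeticGalois (modularFunctionFieldFull N) σ)
      (arithmeticGalois (modularFunctionFieldFull N') σ) := by
  letI := algebraOfDvd h
  intro x
  apply Subtype.ext
  rw [coe_arithmeticGalois_smul, coe_algebraMap h, coe_algebraMap h, coe_arithmeticGalois_smul]

/-- **(P1)** the pull-back commutes with the Galois action -/
theorem pull_smul (h : N ∣ N') (σ : Kbar ≃ₐ[ℚ] Kbar) (x : JZero N) :
    pull h (σ • x) = σ • pull h x := by
  letI := algebraOfDvd h
  haveI := isScalarTower h
  haveI := isIntegral h
  haveI := fundamentalIdentity h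
  rw [galois_smul_pic0_def, galois_smul_pic0_def]
  exact Fermat.Agent.GJ.S37PullbackEquiv.pullbackHom_smul (intertwines h σ) x

/-- `π_* π^* = [F_{N'} : F_N]` on `J₀(N)` -/
theorem pushforwardHom_pull (h : N ∣ N') (x : JZero N) :
    letI := algebraOfDvd h
    haveI := isScalarTower h
    haveI := finiteDimensional h
    Pic0.pushforwardHom Kbar (modularFunctionFieldBar N) (modularFunctionFieldBar N')
        (pushforwardNormFormula h) (pull h x)
      = (relfinrank (modularFunctionFieldBar N) (modularFunctionFieldBar N')) • x := by
  letI := algebraOfDvd h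
  haveI := isScalarTower h
  haveI := isIntegral h
  haveI := finiteDimensional h
  haveI := fundamentalIdentity h
  rw [← finrank_eq h]
  exact Fermat.Agent.GJ.S37PushPull.pushforwardHom_pullbackHom
    (pushforwardNormFormula h)
    (fun v => by rw [Fermat.Agent.RR.ModularBar.deg_eq_one N v]; exact one_pos) x

/-- **(P2)** the kernel of the pull-back is killed by the degree `[F_{N'} : F_N]` -/
theorem pull_eq_zero (h : N ∣ N') {x : JZero N} (hx : pull h x = 0) :
    (relfinrank (modularFunctionFieldBar N) (modularFunctionFieldBar N')) • x = 0 := by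
  rw [← pushforwardHom_pull h x, hx, map_zero]

end Fermat.Agent.GJ.S37PullModular
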