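/-
GATE-J / S37 path, (F2) (helper38): the pull-back package `S37Final.PullPackage` is a THEOREM:
helper18's `pullBar h : J₀(N) → J₀(N')` is (definitionally) `S37Aux.pullJ h`, which is
Galois-equivariant (`pullJ_smul`) and has kernel killed by `[F_{N'} : F_N]` (`pullJ_eq_zero`).
-/
import Fermat.Agent.GJ.S37.AuxPullModular
import Fermat.Agent.GJ.S37.Final

set_option autoImplicit false

namespace Fermat.Agent.GJ.S37Aux

open ModularCurve AlgebraicCurve IntermediateField Fermat.Agent.GJ.S37HeckePullback

theorem pullBar_eq_pullJ {N N' : ℕ} [NeZero N] [NeZero N'] (h : N ∣ N') :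
    pullBar h = pullJ h := rfl

/-- Galois equivariance of helper18's `pullBar` -/
theorem pullBar_smul {N N' : ℕ} [NeZero N] [NeZero N'] (h : N ∣ N')
    (σ : AlgebraicClosure ℚ ≃ₐ[ℚ] AlgebraicClosure ℚ) (x : JZero N) :
    pullBar h (σ • x) = σ • pullBar h x := by
  rw [pullBar_eq_pullJ]
  exact pullJ_smul h σ x

/-- the kernel of helper18's `pullBar` is killed by the degree `[F_N' : F_N]` -/
theorem pullBar_eq_zero {N N' : ℕ} [NeZero N] [NeZero N'] (h : N ∣ N') (x : JZero N)
    (hx : pullBar h x = 0) :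
    relfinrank (modularFunctionFieldBar N) (modularFunctionFieldBar N') • x = 0 := by
  rw [pullBar_eq_pullJ] at hx
  exact pullJ_eq_zero h x hx

/-- **the pull-back package of `GJ/S37/Final.lean`.** -/
theorem pullPackage : Fermat.Agent.GJ.S37Final.PullPackage := fun _ _ _ _ h =>
  ⟨fun σ x => pullBar_smul h σ x, fun x hx => pullBar_eq_zero h x hx⟩

end Fermat.Agent.GJ.S37Aux
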