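/-
GATE-J / S37 path, leaf (S37-X2) (helper37): NATURALITY of the L-space place reduction map.

Setting of `GJ/S37/LSpaceRed.lean` (`R : RedData K F k Ft`, `H : LSpaceHyp R g c`).  A pair of ring
automorphisms `σ` of `F`, `σt` of `Ft`, acting on places by bijections `τ`, `τt` with
`ord_{τ P} (σ x) = ord_P x`, such that `σ` preserves the valuation ring `Rw` and
`red ∘ σ = σt ∘ red`, satisfies `rOf H (τ P) = τt (rOf H P)`.

Prelude form: `g : SemilinearAut K F`, `gt : SemilinearAut k Ft`:
`rOf H (g • P) = gt • rOf H P`.  With `gt = 1` this is the inertia statement (`red (σ x) = red x`),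
with `gt` = coefficientwise Frobenius it is the Frobenius-lift statement.
-/
import Fermat.Agent.GJ.S37.LSpaceRed
import Fermat.Prelude.Def_AlgebraicCurve_BaseChangeGalois

set_option autoImplicit false

noncomputable section

open AlgebraicCurve

namespace Fermat.Agent.GJ.S37Natural

open Fermat.Agent.RRh45 Fermat.Agent.GJ.S37MinDiv Fermat.Agent.GJ.J1 Fermat.Agent.GJ.S37LSpace

variable {K F k Ft : Type*} [Field K] [Field F] [Algebra K F] [Field k] [Field Ft] [Algebra k Ft]

/-- Transport of Riemann–Roch spaces along an automorphism acting compatibly on places. -/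
theorem map_mem_riemannRochSpace_iff (σ : F ≃+* F) (τ : Place K F ≃ Place K F)
    (hτ : ∀ (P : Place K F) (x : F), (τ P).ord (σ x) = P.ord x) (D : Divisor K F) (x : F) :
    σ x ∈ riemannRochSpace (Finsupp.mapDomain τ D) ↔ x ∈ riemannRochSpace D := by
  rw [mem_riemannRochSpace_iff, mem_riemannRochSpace_iff]
  constructor
  · intro h P
    rcases h (τ P) with h0 | h1
    · left
      exact (map_eq_zero_iff σ σ.injective).mp h0
    · right
      rwa [Finsupp.mapDomain_apply τ.injective, hτ] at h1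
  · intro h Q
    obtain ⟨P, rfl⟩ := τ.surjective Q
    rcases h P with h0 | h1
    · left
      rw [h0, map_zero]
    · right
      rwa [Finsupp.mapDomain_apply τ.injective, hτ]

/-- Transport of the reduced spaces. -/
theorem map_mem_redSpace_iff (R : RedData K F k Ft) (σ : F ≃+* F) (τ : Place K F ≃ Place K F)
    (hτ : ∀ (P : Place K F) (x : F), (τ P).ord (σ x) = P.ord x) (σt : Ft ≃+* Ft)
    (hRw : ∀ x : F, σ x ∈ R.Rw ↔ x ∈ R.Rw)
    (hred : ∀ (x : R.Rw) (hx : σ (x : F) ∈ R.Rw), R.red ⟨σ (x : F), hx⟩ = σt (R.red x))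
    (D : Divisor K F) (xt : Ft) :
    σt xt ∈ redSpace R (Finsupp.mapDomain τ D) ↔ xt ∈ redSpace R D := by
  constructor
  · rintro ⟨z, hz, hzt⟩
    have hx : σ.symm (z : F) ∈ R.Rw := by
      rw [← hRw, RingEquiv.apply_symm_apply]
      exact z.2
    refine ⟨⟨σ.symm (z : F), hx⟩, ?_, ?_⟩
    · rw [← map_mem_riemannRochSpace_iff σ τ hτ D, RingEquiv.apply_symm_apply]
      exact hz
    · have hσx : σ ((⟨σ.symm (z : F), hx⟩ : R.Rw) : F) ∈ R.Rw := by
        show σ (σ.symm (z : F)) ∈ R.Rw
        rw [RingEquiv.apply_symm_apply]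
        exact z.2
      have h1 := hred ⟨σ.symm (z : F), hx⟩ hσx
      have h2 : (⟨σ ((⟨σ.symm (z : F), hx⟩ : R.Rw) : F), hσx⟩ : R.Rw) = z :=
        Subtype.ext (RingEquiv.apply_symm_apply σ (z : F))
      rw [h2, hzt] at h1
      exact (σt.injective h1).symm
  · rintro ⟨x, hx, rfl⟩
    have hσx : σ (x : F) ∈ R.Rw := (hRw _).mpr x.2
    exact ⟨⟨σ (x : F), hσx⟩, (map_mem_riemannRochSpace_iff σ τ hτ D _).mpr hx, hred x hσx⟩

section Main

variable {R : RedData K F k Ft} {g c : ℤ}
variable [FiniteResidues K F] [HasPrincipalDivisors K F] [Nonempty (Place K F)]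
variable [FiniteResidues k Ft] [HasPrincipalDivisors k Ft] [Nonempty (Place k Ft)]
variable [Infinite k]

/-- **(S37-X2), abstract form.** Naturality of the L-space place reduction map. -/
theorem rOf_natural (H : LSpaceHyp R g c) (σ : F ≃+* F) (τ : Place K F ≃ Place K F)
    (hτ : ∀ (P : Place K F) (x : F), (τ P).ord (σ x) = P.ord x)
    (σt : Ft ≃+* Ft) (τt : Place k Ft ≃ Place k Ft)
    (hτt : ∀ (Q : Place k Ft) (y : Ft), (τt Q).ord (σt y) = Q.ord y)
    (hRw : ∀ x : F, σ x ∈ R.Rw ↔ x ∈ R.Rw)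
    (hred : ∀ (x : R.Rw) (hx : σ (x : F) ∈ R.Rw), R.red ⟨σ (x : F), hx⟩ = σt (R.red x))
    (P : Place K F) : rOf H (τ P) = τt (rOf H P) := by
  classical
  have hc := H.c_nonneg
  set M : ℕ := (c + 1).toNat with hM
  have hMc : (M : ℤ) = c + 1 := Int.toNat_of_nonneg (by omega)
  have hMpos : (0 : ℤ) < (M : ℤ) := by omega
  have hnonneg : ∀ P' : Place K F, (0 : Divisor K F) ≤ Finsupp.single P' (M : ℤ) := fun P' =>
    Finsupp.single_nonneg.mpr hMpos.le
  have hdeg : ∀ P' : Place K F, c + 1 ≤ Divisor.degree (Finsupp.single P' (M : ℤ)) := fun P' => by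
    rw [degree_single_nat H]; omega
  obtain ⟨-, -, hV⟩ := redSpace_eq H (hnonneg P) (hdeg P)
  obtain ⟨hmin, -, -⟩ := redSpace_eq H (hnonneg (τ P)) (hdeg (τ P))
  rw [Finsupp.mapDomain_single] at hV hmin
  -- the reduced space at `τ P` lies in `L(M • τt (rOf P))`
  have hle : redSpace R (Finsupp.single (τ P) (M : ℤ)) ≤
      riemannRochSpace (Finsupp.single (τt (rOf H P)) (M : ℤ)) := by
    intro yt hyt
    have h1 : σt (σt.symm yt) ∈ redSpace R (Finsupp.mapDomain τ (Finsupp.single P (M : ℤ))) := by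
      rw [RingEquiv.apply_symm_apply, Finsupp.mapDomain_single]
      exact hyt
    have h2 := (map_mem_redSpace_iff R σ τ hτ σt hRw hred _ _).mp h1
    rw [hV] at h2
    have h3 := (map_mem_riemannRochSpace_iff σt τt hτt _ _).mpr h2
    rwa [RingEquiv.apply_symm_apply, Finsupp.mapDomain_single] at h3
  have h4 := Finsupp.le_def.mp (hmin.2 _ hle) (rOf H (τ P))
  rw [Finsupp.single_eq_same] at h4
  by_contra hne
  rw [Finsupp.single_eq_of_ne hne] at h4
  omega

/-- **(S37-X2), prelude form.** For semilinear automorphisms `g` of `F / K` and `gt` of `Ft / k`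
with `g` preserving `Rw` and `red (g • x) = gt • red x`: `rOf H (g • P) = gt • rOf H P`. -/
theorem rOf_smul (H : LSpaceHyp R g c) (s : SemilinearAut K F) (st : SemilinearAut k Ft)
    (hRw : ∀ x : F, s • x ∈ R.Rw ↔ x ∈ R.Rw)
    (hred : ∀ (x : R.Rw) (hx : s • (x : F) ∈ R.Rw), R.red ⟨s • (x : F), hx⟩ = st • R.red x)
    (P : Place K F) : rOf H (s • P) = st • rOf H P :=
  rOf_natural H (SemilinearAut.toRingAut s) (MulAction.toPerm s)
    (fun P x => SemilinearAut.ord_smul s P x) (SemilinearAut.toRingAut st) (MulAction.toPerm st)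
    (fun Q y => SemilinearAut.ord_smul st Q y) hRw hred P

/-- Inertia shape: if `red (s • x) = red x` then `rOf H (s • P) = rOf H P`. -/
theorem rOf_smul_of_red_eq (H : LSpaceHyp R g c) (s : SemilinearAut K F)
    (hRw : ∀ x : F, s • x ∈ R.Rw ↔ x ∈ R.Rw)
    (hred : ∀ (x : R.Rw) (hx : s • (x : F) ∈ R.Rw), R.red ⟨s • (x : F), hx⟩ = R.red x)
    (P : Place K F) : rOf H (s • P) = rOf H P := by
  have h := rOf_smul H s (1 : SemilinearAut k Ft) hRw (fun x hx => by rw [hred x hx, one_smul]) P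
  rwa [one_smul] at h

/-- Push-forward of divisors along `rOf` is equivariant. -/
theorem mapDomain_rOf_smul (H : LSpaceHyp R g c) (s : SemilinearAut K F)
    (st : SemilinearAut k Ft) (hRw : ∀ x : F, s • x ∈ R.Rw ↔ x ∈ R.Rw)
    (hred : ∀ (x : R.Rw) (hx : s • (x : F) ∈ R.Rw), R.red ⟨s • (x : F), hx⟩ = st • R.red x)
    (D : Divisor K F) :
    Finsupp.mapDomain (rOf H) (s • D) = st • Finsupp.mapDomain (rOf H) D := by
  classical
  induction D using Finsupp.induction with
  | zero => simp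
  | single_add P n D _ _ ih =>
    rw [smul_add, Finsupp.mapDomain_add, Finsupp.mapDomain_add, smul_add, ih,
      SemilinearAut.smul_single, Finsupp.mapDomain_single, Finsupp.mapDomain_single,
      SemilinearAut.smul_single, rOf_smul H s st hRw hred P]

end Main

end Fermat.Agent.GJ.S37Natural
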