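/-
GATE-J / S37-PATH (helper24): the `hSEP` hypothesis of `GJ/S37/DrySep.lean` from ANY place
reduction map `r₀` with separating functions: the prelude's chosen map `h.choose`
(`placeReductionModL h`) is then equal to `r₀` by `eq_of_sep`, so it has separating functions too.
-/
import Fermat.Agent.GJ.S37.UniqRed

set_option autoImplicit false

noncomputable section

open HahnSeries IntermediateField AlgebraicCurve ModularCurve IsLocalRing

namespace Fermat.Agent.GJ.S37Uniq

section General

variable {L : Type*} [Field L] [Algebra ℚ L] {A : ValuationSubring L}
variable {k : Type*} [Field k] {π : A →+* k} {N : ℕ}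

/-- the chosen place reduction map of `ReductionInputsAlong` is the given one -/
theorem choose_eq_of_sep [HasPrincipalDivisors L (laurentBaseChange L (modularFunctionFieldFull N))]
    {r₀ : Place L (laurentBaseChange L (modularFunctionFieldFull N)) →
      Place k (modularFunctionFieldFullC k N)}
    (hsep : HasSepFunctions A π N r₀) (h : ReductionInputsAlong A π N) : h.choose = r₀ :=
  eq_of_sep hsep h.choose_spec.1

/-- **`hSEP` from any `r₀`**: if `r₀` satisfies the specification, principal divisors are
generated by integral ones, and `r₀` has separating functions, then `ReductionInputsAlong` holds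
and its chosen map has separating functions. -/
theorem exists_inputs_hasSep
    [HasPrincipalDivisors L (laurentBaseChange L (modularFunctionFieldFull N))]
    {r₀ : Place L (laurentBaseChange L (modularFunctionFieldFull N)) →
      Place k (modularFunctionFieldFullC k N)}
    (hr₀ : IsPlaceReductionAlong A π N r₀) (hgen : PrincipalGeneratedByIntegral A π N)
    (hsep : HasSepFunctions A π N r₀) :
    ∃ h : ReductionInputsAlong A π N, HasSepFunctions A π N h.choose := by
  have h : ReductionInputsAlong A π N := ⟨r₀, hr₀, hgen⟩
  refine ⟨h, ?_⟩
  rw [choose_eq_of_sep hsep h]
  exact hsep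

end General

section Frozen

set_option synthInstance.maxHeartbeats 400000

variable {A : ValuationSubring (AlgebraicClosure ℚ)} {N : ℕ} [NeZero N]

/-- **`hSEP` of `s37_of_sep_relation`, in the frozen setting**, from any `r₀`. -/
theorem exists_inputsModL_hasSep
    {r₀ : Place (AlgebraicClosure ℚ) (modularFunctionFieldBar N) →
      Place (ResidueField A) (modularFunctionFieldFullC (ResidueField A) N)}
    (hr₀ : IsPlaceReductionModL A N r₀)
    (hgen : PrincipalGeneratedByIntegral A (residue A) N)
    (hsep : HasSepFunctions A (residue A) N r₀) :
    ∃ h : ReductionInputsModL A N,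
      HasSepFunctions A (residue A) N (placeReductionModL h) := by
  haveI := Fermat.Agent.GJ.FibreCurve.instHasPrincipalDivisorsBar (N := N)
  exact exists_inputs_hasSep hr₀ hgen hsep

/-- the prelude's chosen place reduction map is the given one -/
theorem placeReductionModL_eq_of_sepFunctions
    {r₀ : Place (AlgebraicClosure ℚ) (modularFunctionFieldBar N) →
      Place (ResidueField A) (modularFunctionFieldFullC (ResidueField A) N)}
    (hsep : HasSepFunctions A (residue A) N r₀) (h : ReductionInputsModL A N) :
    placeReductionModL h = r₀ := by
  haveI := Fermat.Agent.GJ.FibreCurve.instHasPrincipalDivisorsBar (N := N)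
  exact choose_eq_of_sep hsep h

end Frozen

end Fermat.Agent.GJ.S37Uniq
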